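import Fermat.Agent.Gal.FiniteLevel

/-!
# The rational prime under a place

A place of an algebraic closure of `ℚ` over `p` cuts out, in each finite level, a non-zero prime
containing `p`. Used by the local computations at `p` and at auxiliary primes.
-/

namespace Fermat.Agent.TW

open scoped NumberField

variable {A : ValuationSubring (AlgebraicClosure ℚ)} {p : ℕ}

/-- The prime of a place over `p` contains `p`. -/
theorem natCast_mem_placePrime (hA : A.LiesOverPrime p)
    (F : IntermediateField ℚ (AlgebraicClosure ℚ)) : (p : 𝓞 F) ∈ Gal.placePrime A F := by
  rw [Gal.mem_placePrime]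
  simpa [ValuationSubring.LiesOverPrime] using! hA

/-- The prime of a place over `p` is not zero. -/
theorem placePrime_ne_bot (hp : p.Prime) (hA : A.LiesOverPrime p)
    (F : IntermediateField ℚ (AlgebraicClosure ℚ)) :
    Gal.placePrime A F ≠ ⊥ := fun h => by
  have := natCast_mem_placePrime hA F
  rw [h, Ideal.mem_bot, Nat.cast_eq_zero] at this
  exact hp.ne_zero this

end Fermat.Agent.TW
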