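import Mathlib.GroupTheory.PGroup
import Mathlib.RingTheory.Filtration
import Mathlib.RingTheory.IntegralDomain
import Fermat.Agent.TW.PlacePrime

/-!
# Tame inertia: images of inertia at `q` in finite groups of order prime to `q` are cyclic

The image of inertia at `q` in a finite `p`-group quotient of the Galois group, `p ≠ q`, is cyclic
and a Frobenius acts on it by the `q`-th power. Used for deformations at the auxiliary and the
minimal primes.
-/

noncomputable section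

open scoped NumberField
open IntermediateField

namespace Fermat.Agent.TW

local notation "Qbar" => AlgebraicClosure ℚ
local notation "AG'" => AlgebraicClosure ℚ ≃ₐ[ℚ] AlgebraicClosure ℚ

section Filtration

variable {R : Type*} [CommRing R] (σ : R →+* R) (P : Ideal R)

theorem sub_mem_succ_of_congr_sq (hP : ∀ x, σ x - x ∈ P) (h2 : ∀ x, σ x - x ∈ P ^ 2) (k : ℕ) :
    ∀ x ∈ P ^ k, σ x - x ∈ P ^ (k + 1) := by
  induction k with
  | zero => intro x _; simpa using hP x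
  | succ k ih =>
    intro x hx
    rw [pow_succ] at hx
    refine Submodule.mul_induction_on hx (fun u hu v hv => ?_) (fun u v hu hv => ?_)
    · have hσv : σ v ∈ P := by simpa using add_mem (hP v) hv
      have : σ (u * v) - u * v = (σ u - u) * σ v + u * (σ v - v) := by rw [map_mul]; ring
      rw [this, show k + 1 + 1 = k + 2 from rfl]
      refine add_mem ?_ ?_
      · rw [show k + 2 = k + 1 + 1 from rfl, pow_succ]
        exact Ideal.mul_mem_mul (ih u hu) hσv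
      · rw [pow_add]
        exact Ideal.mul_mem_mul hu (h2 v)
    · rw [map_add, add_sub_add_comm]; exact add_mem hu hv

/-- The `q`-th iterate of an automorphism trivial modulo `P ^ m` is trivial modulo `P ^ (m + 1)`. -/
theorem iterate_congr (hP : ∀ x, σ x - x ∈ P) (h2 : ∀ x, σ x - x ∈ P ^ 2) {q : ℕ}
    (hq : (q : R) ∈ P) {m : ℕ} (hm : ∀ x, σ x - x ∈ P ^ m) (x : R) :
    σ^[q] x - x ∈ P ^ (m + 1) := by
  set d := σ x - x with hd
  have key : ∀ i : ℕ, σ^[i] x - x - (i : R) * d ∈ P ^ (m + 1) := by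
    intro i
    induction i with
    | zero => simp
    | succ i ih =>
      have h1 : σ d - d ∈ P ^ (m + 1) := sub_mem_succ_of_congr_sq σ P hP h2 m d (hm x)
      have h3 : σ (σ^[i] x - x - (i : R) * d) ∈ P ^ (m + 1) := by
        have := sub_mem_succ_of_congr_sq σ P hP h2 (m + 1) _ ih
        have h4 := add_mem (Ideal.pow_le_pow_right (Nat.le_succ _) this) ih
        simpa using h4
      have e : σ^[i + 1] x - x - ((i + 1 : ℕ) : R) * d =
          σ (σ^[i] x - x - (i : R) * d) + (i : R) * (σ d - d) := by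
        rw [Function.iterate_succ_apply', map_sub, map_sub, map_mul, map_natCast, hd]
        push_cast
        ring
      rw [e]
      exact add_mem h3 (Ideal.mul_mem_left _ _ h1)
  have h5 : (q : R) * d ∈ P ^ (m + 1) := by
    rw [pow_succ']
    exact Ideal.mul_mem_mul hq (hm x)
  simpa using add_mem (key q) h5

/-- An automorphism trivial modulo `P` fixing a uniformiser modulo `P ^ 2` is trivial modulo
`P ^ 2` when the residue field is perfect. -/
theorem congr_sq_of_uniformizer (hP : ∀ x, σ x - x ∈ P) {q : ℕ} (hq : (q : R) ∈ P)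
    (ϖ : R) (hgen : P = Ideal.span {ϖ} ⊔ P ^ 2) (hϖ : σ ϖ - ϖ ∈ P ^ 2)
    (hperf : ∀ x : R, ∃ y, x - y ^ q ∈ P) (x : R) : σ x - x ∈ P ^ 2 := by
  obtain ⟨y, hy⟩ := hperf x
  have hmap : ∀ w ∈ P, σ w ∈ P := fun w hw => by simpa using add_mem (hP w) hw
  rw [hgen] at hy
  obtain ⟨u, hu, w, hw, huw⟩ := Submodule.mem_sup.1 hy
  obtain ⟨a, rfl⟩ := Ideal.mem_span_singleton'.1 hu
  have hx : x = y ^ q + a * ϖ + w := by linear_combination -huw
  have h1 : σ (y ^ q) - y ^ q ∈ P ^ 2 := by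
    rw [map_pow, ← geom_sum₂_mul, pow_two]
    refine Ideal.mul_mem_mul ?_ (hP y)
    have h : ∀ i ∈ Finset.range q, σ y ^ i * y ^ (q - 1 - i) - y ^ (q - 1) ∈ P := fun i hi => by
      have hi' := Finset.mem_range.1 hi
      have e : y ^ (q - 1) = y ^ i * y ^ (q - 1 - i) := by
        rw [← pow_add]; congr 1; omega
      rw [e, ← sub_mul]
      exact Ideal.mul_mem_right _ _ (Ideal.mem_of_dvd _ (sub_dvd_pow_sub_pow _ _ i) (hP y))
    have h' := Ideal.sum_mem _ h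
    rw [Finset.sum_sub_distrib, Finset.sum_const, Finset.card_range, nsmul_eq_mul] at h'
    simpa using add_mem h' (Ideal.mul_mem_right (y ^ (q - 1)) _ hq)
  have hw' : σ w ∈ P ^ 2 := by
    rw [pow_two] at hw
    refine Submodule.mul_induction_on hw (fun u hu v hv => ?_) (fun u v hu hv => ?_)
    · rw [map_mul, pow_two]; exact Ideal.mul_mem_mul (hmap u hu) (hmap v hv)
    · rw [map_add]; exact add_mem hu hv
  have h2 : σ (a * ϖ) - a * ϖ ∈ P ^ 2 := by
    have e : σ (a * ϖ) - a * ϖ = σ a * (σ ϖ - ϖ) + (σ a - a) * ϖ := by rw [map_mul]; ring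
    rw [e]
    refine add_mem (Ideal.mul_mem_left _ _ hϖ) ?_
    rw [pow_two]
    refine Ideal.mul_mem_mul (hP a) ?_
    rw [hgen]
    exact Ideal.mem_sup_left (Ideal.mem_span_singleton_self ϖ)
  have e : σ x - x = (σ (y ^ q) - y ^ q) + (σ (a * ϖ) - a * ϖ) + (σ w - w) := by
    rw [hx, map_add, map_add]; ring
  rw [e]
  exact add_mem (add_mem h1 h2) (sub_mem hw' hw)

end Filtration

section Square

variable {R : Type*} [CommRing R] {P : Ideal R}

/-- A ring homomorphism preserving an ideal preserves its square. -/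
theorem map_mem_sq {f : R →+* R} (hf : ∀ x ∈ P, f x ∈ P) {y : R} (hy : y ∈ P ^ 2) :
    f y ∈ P ^ 2 :=
  Ideal.pow_right_mono (Ideal.map_le_iff_le_comap.2 hf) 2
    ((Ideal.map_pow f P 2).le (Ideal.mem_map_of_mem f hy))

/-- Modulo the square of `P` every element of `P` is a multiple of a uniformizer. -/
theorem exists_sub_mul_mem_sq {ϖ : R} (hgen : P = Ideal.span {ϖ} ⊔ P ^ 2) {x : R} (hx : x ∈ P) :
    ∃ a, x - a * ϖ ∈ P ^ 2 := by
  rw [hgen] at hx
  obtain ⟨u, hu, w, hw, huw⟩ := Submodule.mem_sup.1 hx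
  obtain ⟨a, rfl⟩ := Ideal.mem_span_singleton'.1 hu
  exact ⟨a, by rw [← huw, add_sub_cancel_left]; exact hw⟩

/-- Composing scalings of a uniformizer modulo `P ^ 2`, the outer map being trivial modulo `P`. -/
theorem sub_mul_mul_mem_sq {σ : R →+* R} (hσ : ∀ x, σ x - x ∈ P) {ϖ y a b : R} (hϖ : ϖ ∈ P)
    (hy : y - b * ϖ ∈ P ^ 2) (hσϖ : σ ϖ - a * ϖ ∈ P ^ 2) : σ y - a * b * ϖ ∈ P ^ 2 := by
  have h1 := map_mem_sq (f := σ) (fun u hu => by simpa using add_mem (hσ u) hu) hy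
  rw [map_sub, map_mul] at h1
  have h2 : (σ b - b) * σ ϖ ∈ P ^ 2 := by
    rw [pow_two]
    exact Ideal.mul_mem_mul (hσ b) (by simpa using add_mem (hσ ϖ) hϖ)
  convert add_mem (add_mem h1 h2) (Ideal.mul_mem_left _ b hσϖ) using 1
  ring

end Square

variable (N : IntermediateField ℚ Qbar) [Normal ℚ N]

/-- The action on the integers of a normal subfield. -/
def actInt (σ : AG') : 𝓞 N →+* 𝓞 N :=
  NumberField.RingOfIntegers.mapRingHom
    ((AlgEquiv.restrictNormalHom (F := ℚ) (K₁ := Qbar) N σ : N ≃ₐ[ℚ] N) : N →+* N)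

theorem coe_actInt (σ : AG') (x : 𝓞 N) :
    (((actInt N σ x : 𝓞 N) : N) : Qbar) = σ ((x : N) : Qbar) :=
  AlgEquiv.restrictNormal_commutes σ N (x : N)

theorem actInt_mul (σ τ : AG') : actInt N (σ * τ) = (actInt N σ).comp (actInt N τ) := by
  refine RingHom.ext fun x => NumberField.RingOfIntegers.coe_injective (Subtype.ext ?_)
  rw [RingHom.comp_apply]
  simp only [coe_actInt, AlgEquiv.mul_apply]

theorem actInt_pow (σ : AG') (i : ℕ) (x : 𝓞 N) : actInt N (σ ^ i) x = (actInt N σ)^[i] x := by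
  induction i with
  | zero =>
    refine NumberField.RingOfIntegers.coe_injective (Subtype.ext ?_)
    simp [coe_actInt]
  | succ i ih => rw [pow_succ', actInt_mul, RingHom.comp_apply, ih, Function.iterate_succ_apply']

/-- An inertia element of `p`-power image fixing a uniformiser modulo `P ^ 2` has trivial image:
its `q`-power iterates approach the identity, so some `q`-power of it acts trivially. -/
theorem eq_one_of_congr_uniformizer {q p : ℕ} (hq : q.Prime) (hp : p.Prime) (hpq : p ≠ q)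
    {A : ValuationSubring Qbar} {H : Type*} [Group H] (π : AG' →* H) (L : IntermediateField ℚ Qbar)
    (hπ : ∀ σ : AG', (∀ x ∈ L, σ x = x) → π σ = 1) {σ : AG'} (hσI : σ ∈ A.inertiaSubgroupIn ℚ)
    (hpσ : ∃ k : ℕ, π σ ^ p ^ k = 1) {N : IntermediateField ℚ Qbar} [FiniteDimensional ℚ N]
    [Normal ℚ N] [NumberField N] (P : Ideal (𝓞 N)) (hPtop : P ≠ ⊤)
    (hI : ∀ σ ∈ A.inertiaSubgroupIn ℚ, ∀ x : 𝓞 N, actInt N σ x - x ∈ P) (hqP : (q : 𝓞 N) ∈ P)
    {ϖ : 𝓞 N} (hgen : P = Ideal.span {ϖ} ⊔ P ^ 2) (hperf : ∀ x : 𝓞 N, ∃ y, x - y ^ q ∈ P)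
    (hϖ : actInt N σ ϖ - ϖ ∈ P ^ 2) (hLN : L ≤ N) : π σ = 1 := by
  classical
  have h2 : ∀ j : ℕ, ∀ x, actInt N (σ ^ q ^ j) x - x ∈ P ^ (j + 2) := by
    intro j
    induction j with
    | zero =>
      intro x
      rw [pow_zero, pow_one]
      exact congr_sq_of_uniformizer _ P (hI σ hσI) hqP ϖ hgen hϖ hperf x
    | succ j ih =>
      intro x
      rw [pow_succ q j, pow_mul, actInt_pow]
      exact iterate_congr _ P (hI _ (pow_mem hσI _))
        (fun y => Ideal.pow_le_pow_right (Nat.le_add_left 2 j) (ih y)) hqP ih x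
  -- some `q`-power of `σ` is trivial on `N`
  obtain ⟨g, hg⟩ := Finite.exists_infinite_fiber
    fun j : ℕ => AlgEquiv.restrictNormalHom (F := ℚ) (K₁ := Qbar) N (σ ^ q ^ j)
  rw [Set.infinite_coe_iff] at hg
  obtain ⟨j, hj⟩ := hg.nonempty
  have hfix : ∀ x : 𝓞 N, actInt N (σ ^ q ^ j) x = x := fun x => by
    rw [← sub_eq_zero, ← Submodule.mem_bot (𝓞 N),
      ← Ideal.iInf_pow_eq_bot_of_isDomain P hPtop, Submodule.mem_iInf]
    intro n
    obtain ⟨i, hi, hni⟩ := hg.exists_gt n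
    have e : actInt N (σ ^ q ^ j) = actInt N (σ ^ q ^ i) := by
      simp only [Set.mem_preimage, Set.mem_singleton_iff] at hj hi
      rw [actInt, actInt, hj, hi]
    rw [e]
    exact Ideal.pow_le_pow_right (by omega) (h2 i x)
  have hπq : π σ ^ q ^ j = 1 := by
    rw [← map_pow]
    refine hπ _ fun x hx => ?_
    have hxN : x ∈ N := hLN hx
    obtain ⟨a, b, hb, hab⟩ := IsFractionRing.div_surjective (A := 𝓞 N) (⟨x, hxN⟩ : N)
    have hx' : x = ((a : N) : Qbar) / ((b : N) : Qbar) := by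
      have := congrArg (fun z : N => (z : Qbar)) hab
      simpa using this.symm
    rw [hx', map_div₀, ← coe_actInt, ← coe_actInt, hfix, hfix]
  obtain ⟨k, hk⟩ := hpσ
  have hcop : Nat.Coprime (p ^ k) (q ^ j) := ((Nat.coprime_primes hp hq).2 hpq).pow k j
  have h5 := orderOf_dvd_of_pow_eq_one hk
  have h6 := orderOf_dvd_of_pow_eq_one hπq
  exact orderOf_eq_one_iff.1 (Nat.dvd_one.1 (hcop ▸ Nat.dvd_gcd h5 h6))

/-- A Frobenius element acts as the `q`-th power modulo the prime of its place. -/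
theorem frobenius_sub_pow_mem {q : ℕ} {A : ValuationSubring Qbar} {Φ : AG'}
    (hΦ : A.IsFrobeniusAt Φ q) (x : 𝓞 N) : actInt N Φ x - x ^ q ∈ Gal.placePrime A N := by
  rw [Gal.mem_placePrime]
  have h1 := (Gal.isFrobeniusAt_iff.1 hΦ).2 _
    (Gal.mem_of_isIntegral (A := A) (x.2.map (IsScalarTower.toAlgHom ℤ N Qbar)))
  have e : (((actInt N Φ x - x ^ q : 𝓞 N) : N) : Qbar) =
      Φ ((x : N) : Qbar) - ((x : N) : Qbar) ^ q := by
    simp [← coe_actInt]
  rw [e]
  exact h1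

open scoped Pointwise in
/-- The image of inertia at `q` in a finite `p`-group quotient is cyclic for `p ≠ q`,
and a Frobenius acts on it by the `q`-th power. -/
theorem exists_inertia_generator_frobenius {q p : ℕ} (hq : q.Prime) (hp : p.Prime) (hpq : p ≠ q)
    {A : ValuationSubring Qbar} (hA : A.LiesOverPrime q) {H : Type*} [Group H]
    (π : AG' →* H) (L : IntermediateField ℚ Qbar) [FiniteDimensional ℚ L]
    (hπ : ∀ σ : AG', (∀ x ∈ L, σ x = x) → π σ = 1)
    (hpg : ∀ σ ∈ A.inertiaSubgroupIn ℚ, ∃ k : ℕ, π σ ^ p ^ k = 1) :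
    (∀ Φ : AG', A.IsFrobeniusAt Φ q → ∀ σ ∈ A.inertiaSubgroupIn ℚ,
      π (Φ * σ * Φ⁻¹) = π σ ^ q) ∧
    ∃ t ∈ A.inertiaSubgroupIn ℚ, ∀ σ ∈ A.inertiaSubgroupIn ℚ, π σ ∈ Subgroup.zpowers (π t) := by
  classical
  let N := normalClosure ℚ L Qbar
  have : FiniteDimensional ℚ N := normalClosure.is_finiteDimensional ℚ L Qbar
  have : Normal ℚ N := normalClosure.normal ℚ L Qbar
  have : NumberField N := @NumberField.mk _ _ inferInstance ‹_›
  set P := Gal.placePrime A N with hPdef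
  have hqP : (q : 𝓞 N) ∈ P := natCast_mem_placePrime hA N
  have hP0 : P ≠ ⊥ := placePrime_ne_bot hq hA N
  have hPmax : P.IsMaximal := (Gal.placePrime_isPrime A N).isMaximal hP0
  let : Field (𝓞 N ⧸ P) := Ideal.Quotient.field P
  have : Finite (𝓞 N ⧸ P) := Ideal.finiteQuotientOfFreeOfNeBot P hP0
  have hlt : P ^ 2 < P := Ideal.pow_lt_self P hP0 hPmax.ne_top 2 le_rfl
  obtain ⟨ϖ, hϖP, hϖ2⟩ := SetLike.exists_of_lt hlt
  have hgen : P = Ideal.span {ϖ} ⊔ P ^ 2 := by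
    symm
    have h1 : P ^ (1 + 1) < Ideal.span {ϖ} ⊔ P ^ 2 := lt_of_le_of_ne le_sup_right
      (fun h => hϖ2 (by rw [show (2 : ℕ) = 1 + 1 from rfl, h]; exact
        Ideal.mem_sup_left (Ideal.mem_span_singleton_self ϖ)))
    have := Ideal.eq_prime_pow_of_succ_lt_of_le hP0 h1
      (sup_le ((Ideal.span_singleton_le_iff_mem _).2 (by rwa [pow_one]))
        (by rw [pow_one]; exact hlt.le))
    rwa [pow_one] at this
  have : CharP (𝓞 N ⧸ P) q := by
    refine (CharP.charP_iff_prime_eq_zero hq).2 ?_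
    rw [← map_natCast (Ideal.Quotient.mk P), Ideal.Quotient.eq_zero_iff_mem]
    exact hqP
  have : Fact q.Prime := ⟨hq⟩
  have hperf : ∀ x : 𝓞 N, ∃ y, x - y ^ q ∈ P := fun x => by
    obtain ⟨z, hz⟩ := Finite.injective_iff_surjective.1 (frobenius_inj (𝓞 N ⧸ P) q)
      (Ideal.Quotient.mk P x)
    obtain ⟨y, rfl⟩ := Ideal.Quotient.mk_surjective z
    refine ⟨y, Ideal.Quotient.eq.1 ?_⟩
    rw [← hz, map_pow, frobenius_def]
  -- inertia acts trivially modulo `P`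
  have hI : ∀ σ ∈ A.inertiaSubgroupIn ℚ, ∀ x : 𝓞 N, actInt N σ x - x ∈ P := fun σ hσ x => by
    rw [Gal.mem_placePrime]
    have := (Gal.mem_inertia_iff.1 hσ).2 ((x : N) : Qbar)
      (Gal.mem_of_isIntegral (x.2.map (IsScalarTower.toAlgHom ℤ N Qbar)))
    simpa [coe_actInt] using this
  -- the tame character
  have hsq : ∀ σ ∈ A.inertiaSubgroupIn ℚ, ∀ y ∈ P ^ 2, actInt N σ y ∈ P ^ 2 := fun σ hσ _ =>
    map_mem_sq fun u hu => by simpa using add_mem (hI σ hσ u) hu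
  have hex : ∀ σ : A.inertiaSubgroupIn ℚ, ∃ t : 𝓞 N, actInt N σ ϖ - t * ϖ ∈ P ^ 2 := fun σ =>
    exists_sub_mul_mem_sq hgen (by simpa using add_mem (hI σ σ.2 ϖ) hϖP)
  choose θ hθ using hex
  have hcancel : ∀ a : 𝓞 N, a * ϖ ∈ P ^ 2 → Ideal.Quotient.mk P a = 0 := fun a ha => by
    refine Ideal.Quotient.eq_zero_iff_mem.2 (by_contra fun ha' => hϖ2 ?_)
    obtain ⟨b, m, hm, hb⟩ := Ideal.IsMaximal.exists_inv hPmax ha'
    have : ϖ = b * (a * ϖ) + m * ϖ := by linear_combination (-ϖ) * hb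
    rw [this]
    exact add_mem (Ideal.mul_mem_left _ _ ha) (by rw [pow_two]; exact Ideal.mul_mem_mul hm hϖP)
  let θ' : A.inertiaSubgroupIn ℚ →* 𝓞 N ⧸ P :=
    { toFun := fun σ => Ideal.Quotient.mk P (θ σ)
      map_one' := by
        have h := hθ 1
        have h1 : actInt N ((1 : A.inertiaSubgroupIn ℚ) : AG') ϖ = ϖ := by
          have := actInt_pow N (1 : AG') 0 ϖ
          simpa using this
        rw [h1] at h
        rw [← sub_eq_zero, ← map_one (Ideal.Quotient.mk P), ← map_sub, ← neg_eq_zero, ← map_neg]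
        exact hcancel _ (by simpa [sub_mul, neg_sub] using h)
      map_mul' := fun σ τ => by
        rw [← map_mul, ← sub_eq_zero, ← map_sub]
        refine hcancel _ ?_
        have h1 := hθ (σ * τ)
        rw [Subgroup.coe_mul, actInt_mul, RingHom.comp_apply] at h1
        have h2 := sub_mul_mul_mem_sq (hI σ σ.2) hϖP (hθ τ) (hθ σ)
        convert sub_mem h2 h1 using 1
        ring }
  let Θ : A.inertiaSubgroupIn ℚ →* (𝓞 N ⧸ P)ˣ := θ'.toHomUnits
  have hker : ∀ σ : A.inertiaSubgroupIn ℚ, Θ σ = 1 → π σ = 1 := by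
    intro σ hσ
    have h1 : Ideal.Quotient.mk P (θ σ) = 1 := congrArg Units.val hσ
    rw [← map_one (Ideal.Quotient.mk P), Ideal.Quotient.eq] at h1
    have hϖ : actInt N (σ : AG') ϖ - ϖ ∈ P ^ 2 := by
      have e : actInt N (σ : AG') ϖ - ϖ = (actInt N (σ : AG') ϖ - θ σ * ϖ) + (θ σ - 1) * ϖ := by
        ring
      rw [e]
      exact add_mem (hθ σ) (by rw [pow_two]; exact Ideal.mul_mem_mul h1 hϖP)
    exact eq_one_of_congr_uniformizer hq hp hpq π L hπ σ.2 (hpg σ σ.2) P hPmax.ne_top hI hqP hgen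
      hperf hϖ (IntermediateField.le_normalClosure L)
  have hfrob : ∀ Φ : AG', A.IsFrobeniusAt Φ q → ∀ σ ∈ A.inertiaSubgroupIn ℚ,
      π (Φ * σ * Φ⁻¹) = π σ ^ q := by
    intro Φ hΦ σ hσ
    have hD := hΦ.mem_decompositionSubgroup
    have hτ : Φ * σ * Φ⁻¹ ∈ A.inertiaSubgroupIn ℚ := by
      have := Gal.conj_mem_inertia hσ Φ
      rwa [MulAction.mem_stabilizer_iff.mp hD] at this
    have hΦP : ∀ x ∈ P, actInt N Φ x ∈ P := fun x hx => by
      rw [Gal.mem_placePrime, coe_actInt, Gal.decomposition_mem_nonunits_iff hD]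
      exact Gal.mem_placePrime.mp hx
    have hΦsq : ∀ Ψ : AG', (∀ x ∈ P, actInt N Ψ x ∈ P) → ∀ y ∈ P ^ 2, actInt N Ψ y ∈ P ^ 2 :=
      fun Ψ hΨ _ => map_mem_sq hΨ
    have hΦ' : actInt N Φ ϖ ∉ P ^ 2 := fun h => hϖ2 (by
      have hinv : ∀ x ∈ P, actInt N Φ⁻¹ x ∈ P := fun x hx => by
        rw [Gal.mem_placePrime, coe_actInt, Gal.decomposition_mem_nonunits_iff (inv_mem hD)]
        exact Gal.mem_placePrime.mp hx
      have h1 := hΦsq _ hinv _ h
      rwa [← RingHom.comp_apply, ← actInt_mul, inv_mul_cancel, ← pow_zero (1 : AG'), actInt_pow,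
        Function.iterate_zero_apply] at h1)
    obtain ⟨a, haw⟩ := exists_sub_mul_mem_sq hgen (hΦP _ hϖP)
    have haP : Ideal.Quotient.mk P a ≠ 0 := fun h => hΦ' (by
      have h1 : a * ϖ ∈ P ^ 2 := by
        rw [pow_two]; exact Ideal.mul_mem_mul (Ideal.Quotient.eq_zero_iff_mem.mp h) hϖP
      simpa using add_mem haw h1)
    have hpow : actInt N Φ (θ ⟨σ, hσ⟩) - θ ⟨σ, hσ⟩ ^ q ∈ P :=
      frobenius_sub_pow_mem N hΦ (θ ⟨σ, hσ⟩)
    have key : Θ ⟨Φ * σ * Φ⁻¹, hτ⟩ = Θ ⟨σ, hσ⟩ ^ q := by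
      refine Units.ext ?_
      show Ideal.Quotient.mk P (θ ⟨Φ * σ * Φ⁻¹, hτ⟩) = Ideal.Quotient.mk P (θ ⟨σ, hσ⟩) ^ q
      have h1 := hΦsq Φ hΦP _ (hθ ⟨σ, hσ⟩)
      rw [map_sub, map_mul, ← RingHom.comp_apply, ← actInt_mul,
        show Φ * σ = Φ * σ * Φ⁻¹ * Φ by rw [inv_mul_cancel_right], actInt_mul,
        RingHom.comp_apply] at h1
      have h2 := sub_mul_mul_mem_sq (hI _ hτ) hϖP haw (hθ ⟨_, hτ⟩)
      have h4 : (actInt N Φ (θ ⟨σ, hσ⟩) - θ ⟨σ, hσ⟩ ^ q) * actInt N Φ ϖ ∈ P ^ 2 := by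
        rw [pow_two]; exact Ideal.mul_mem_mul hpow (hΦP _ hϖP)
      have h5 := add_mem (add_mem (sub_mem h1 h2) h4) (Ideal.mul_mem_left _ (θ ⟨σ, hσ⟩ ^ q) haw)
      have h6 : a * (θ ⟨Φ * σ * Φ⁻¹, hτ⟩ - θ ⟨σ, hσ⟩ ^ q) * ϖ ∈ P ^ 2 := by
        convert h5 using 1
        ring
      have h7 := hcancel _ h6
      rw [map_mul, map_sub, map_pow] at h7
      exact sub_eq_zero.mp ((mul_eq_zero.mp h7).resolve_left haP)
    have h := hker (⟨Φ * σ * Φ⁻¹, hτ⟩ * (⟨σ, hσ⟩ ^ q)⁻¹)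
      (by rw [map_mul, map_inv, map_pow, key, mul_inv_cancel])
    simp only [Subgroup.coe_mul, Subgroup.coe_inv, Subgroup.coe_pow, map_mul, map_inv, map_pow,
      mul_inv_eq_one] at h
    rw [map_mul, map_mul, map_inv, h]
  refine ⟨hfrob, ?_⟩
  obtain ⟨⟨t, t0, ht0⟩, htgen⟩ := IsCyclic.exists_generator (α := Θ.range)
  refine ⟨t0, t0.2, fun σ hσ => ?_⟩
  obtain ⟨m, hm⟩ := Subgroup.mem_zpowers_iff.1 (htgen ⟨Θ ⟨σ, hσ⟩, ⟨_, rfl⟩⟩)
  have hm' : t ^ m = Θ ⟨σ, hσ⟩ := by simpa using congrArg Subtype.val hm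
  have h7 := hker (⟨σ, hσ⟩ * (t0 ^ m)⁻¹) (by
    rw [map_mul, map_inv, map_zpow, ht0, ← hm', mul_inv_cancel])
  refine Subgroup.mem_zpowers_iff.2 ⟨m, ?_⟩
  simp only [Subgroup.coe_mul, Subgroup.coe_inv, Subgroup.coe_zpow, map_mul, map_inv,
    map_zpow, mul_inv_eq_one] at h7
  exact h7.symm

/-- The image of inertia at `q` in a finite `p`-group quotient is cyclic for `p ≠ q`. -/
theorem exists_inertia_generator {q p : ℕ} (hq : q.Prime) (hp : p.Prime) (hpq : p ≠ q)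
    {A : ValuationSubring Qbar} (hA : A.LiesOverPrime q) {H : Type*} [Group H]
    (π : AG' →* H) (L : IntermediateField ℚ Qbar) [FiniteDimensional ℚ L]
    (hπ : ∀ σ : AG', (∀ x ∈ L, σ x = x) → π σ = 1)
    (hpg : ∀ σ ∈ A.inertiaSubgroupIn ℚ, ∃ k : ℕ, π σ ^ p ^ k = 1) :
    ∃ t ∈ A.inertiaSubgroupIn ℚ, ∀ σ ∈ A.inertiaSubgroupIn ℚ, π σ ∈ Subgroup.zpowers (π t) :=
  (exists_inertia_generator_frobenius hq hp hpq hA π L hπ hpg).2

end Fermat.Agent.TW
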