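import Mathlib.LinearAlgebra.Dimension.Finite
import Mathlib.LinearAlgebra.Matrix.ToLin
import Mathlib.LinearAlgebra.Matrix.Trace
import Fermat.Prelude.Def_FLTPrelim_Ramification
import Fermat.Agent.Gal.Basic
import Fermat.Agent.PT.Krull

/-!
# The adjoint representation on trace zero matrices and its Selmer spaces

`rb` is a two-dimensional representation by matrices.  `adRep rb` is the conjugation action on
trace zero matrices and `adTwist rb` its twist by the determinant.  Global classes are handled as
level-constant cocycles modulo coboundaries.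
This is the setting of the Selmer bounds for deformation rings.
-/

noncomputable section

namespace Fermat.Agent.TW

open Fermat.Agent.PT Matrix

/-- Square matrices of size two. -/
abbrev M2 (k : Type*) := Matrix (Fin 2) (Fin 2) k

section Ad

variable (k : Type*) [CommRing k]

/-- Trace zero matrices. -/
def sl2 : Submodule k (M2 k) := LinearMap.ker (traceLinearMap (Fin 2) k k)

variable {k}

theorem mem_sl2 {X : M2 k} : X ∈ sl2 k ↔ X 0 0 + X 1 1 = 0 := by
  simp [sl2, trace_fin_two]

variable {G : Type*} [Group G] (rb : G →* M2 k)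

theorem conj_mem_sl2 (g : G) {X : M2 k} (hX : X ∈ sl2 k) : rb g * X * rb g⁻¹ ∈ sl2 k := by
  simp only [sl2, LinearMap.mem_ker, traceLinearMap_apply] at hX ⊢
  rw [trace_mul_cycle, ← map_mul, inv_mul_cancel, map_one, one_mul, hX]

/-- The adjoint representation on trace zero matrices. -/
def adRep : Representation k G (sl2 k) where
  toFun g :=
    { toFun := fun X => ⟨rb g * (X : M2 k) * rb g⁻¹, conj_mem_sl2 rb g X.2⟩
      map_add' := fun X Y => by ext1; simp [mul_add, add_mul]
      map_smul' := fun c X => by ext1; simp }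
  map_one' := by ext X : 2; simp
  map_mul' g h := by ext X : 2; simp [map_mul, mul_assoc]

theorem coe_adRep (g : G) (X : sl2 k) :
    (adRep rb g X : M2 k) = rb g * (X : M2 k) * rb g⁻¹ := rfl

/-- The adjoint representation twisted by the determinant. -/
def adTwist : Representation k G (sl2 k) where
  toFun g := det (rb g) • adRep rb g
  map_one' := by simp
  map_mul' g h := by
    ext X : 1
    simp only [map_mul, det_mul, LinearMap.smul_apply, Module.End.mul_apply, map_smul, smul_smul]
    rw [mul_comm]

theorem adTwist_apply (g : G) (X : sl2 k) : adTwist rb g X = det (rb g) • adRep rb g X := rfl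

theorem adRep_eq_one {g : G} (h : rb g = 1) : adRep rb g = 1 := by
  have h' : rb g⁻¹ = 1 := by
    have := map_mul rb g g⁻¹
    rwa [mul_inv_cancel, map_one, h, one_mul, eq_comm] at this
  ext X : 2
  simp [coe_adRep, h, h']

theorem adTwist_eq_one {g : G} (h : rb g = 1) : adTwist rb g = 1 := by
  ext X : 1
  simp [adTwist_apply, adRep_eq_one rb h, h]

end Ad

section Descend

variable {F : Type*} [Ring F] {A B N : Type*} [AddCommGroup A] [Module F A] [AddCommGroup B]
  [Module F B] [AddCommGroup N] [Module F N] (π : A →ₗ[F] B) (hs : Function.Surjective π)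
  (g : A →ₗ[F] N) (h : LinearMap.ker π ≤ LinearMap.ker g)

/-- A linear map through a surjection. -/
def descend : B →ₗ[F] N :=
  (LinearMap.ker π).liftQ g h ∘ₗ (π.quotKerEquivOfSurjective hs).symm.toLinearMap

theorem descend_apply (a : A) : descend π hs g h (π a) = g a := by
  rw [descend, LinearMap.comp_apply, LinearEquiv.coe_coe,
    show π a = π.quotKerEquivOfSurjective hs (Submodule.Quotient.mk a) from rfl,
    LinearEquiv.symm_apply_apply]
  rfl

end Descend

section Coh

variable {k : Type*} [CommRing k] {M : Type*} [AddCommGroup M] [Module k M]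

/-- The absolute Galois group. -/
abbrev AG := Fermat.Agent.Gal.AbsGal

/-- The levels of finite extensions of `ℚ`. -/
abbrev lvQ : Lv AG := krull ℚ (AlgebraicClosure ℚ)

section Generic

variable {G : Type*} [Group G] (ρ : Representation k G M)

/-- Coboundaries. -/
def B1 : Submodule k (G → M) := LinearMap.range (d0 ρ)

/-- The classes of a space of cochains. -/
abbrev classes (Z : Submodule k (G → M)) : Submodule k ((G → M) ⧸ B1 ρ) :=
  Z.map (B1 ρ).mkQ

/-- The coboundary of a vector with an open stabiliser is a cocycle. -/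
theorem d0_mem_Z1_of_smooth {L : Lv G} (h : Smooth L ρ) (m : M) : d0 ρ m ∈ Z1 L ρ := by
  obtain ⟨U, hU, hUm⟩ := h m
  exact mem_Z1.2 ⟨⟨U, hU, fun g s hs => by simp [d0_apply, map_mul, hUm s hs]⟩,
    fun g g' => by simp [d0_apply, map_mul]⟩

end Generic

/-- The restriction of a representation to a subgroup. -/
abbrev resRep {G : Type*} [Group G] (ρ : Representation k G M) (D : Subgroup G) :
    Representation k D M :=
  ρ.comp D.subtype

/-- The levels induced on a subgroup of the absolute Galois group. -/
abbrev lvD (D : Subgroup AG) : Lv D := lvQ.comap D.subtype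

variable (ρ : Representation k AG M)

/-- Cochains which agree with a coboundary on a subgroup. -/
def locB1 (D : Subgroup AG) : Submodule k (AG → M) where
  carrier := {c | ∃ m, ∀ g ∈ D, c g = ρ g m - m}
  zero_mem' := ⟨0, fun g _ => by simp⟩
  add_mem' := fun {a b} ⟨m, hm⟩ ⟨m', hm'⟩ => ⟨m + m', fun g hg => by
    simp [hm g hg, hm' g hg, map_add]; abel⟩
  smul_mem' := fun r c ⟨m, hm⟩ => ⟨r • m, fun g hg => by simp [hm g hg, smul_sub]⟩

theorem B1_le_locB1 (D : Subgroup AG) : B1 ρ ≤ locB1 ρ D := by
  rintro _ ⟨m, rfl⟩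
  exact ⟨m, fun g _ => rfl⟩

/-- Cochains with a coboundary on every inertia group outside `T`. -/
def unrOutside (T : Finset ℕ) : Submodule k (AG → M) :=
  ⨅ (q : ℕ) (_ : q.Prime) (_ : q ∉ T) (P : ValuationSubring (AlgebraicClosure ℚ))
    (_ : P.LiesOverPrime q), locB1 ρ (P.inertiaSubgroupIn ℚ)

theorem mem_unrOutside {T : Finset ℕ} {c : AG → M} :
    c ∈ unrOutside ρ T ↔ ∀ q : ℕ, q.Prime → q ∉ T →
      ∀ P : ValuationSubring (AlgebraicClosure ℚ), P.LiesOverPrime q →
        c ∈ locB1 ρ (P.inertiaSubgroupIn ℚ) := by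
  simp [unrOutside, Submodule.mem_iInf]

theorem unrOutside_mono {T T' : Finset ℕ} (h : T ⊆ T') :
    unrOutside ρ T ≤ unrOutside ρ T' := fun c hc => by
  rw [mem_unrOutside] at hc ⊢
  exact fun q hq hqT => hc q hq fun hqT' => hqT (h hqT')

/-- Global cocycles unramified outside `T`. -/
def selCocycles (T : Finset ℕ) : Submodule k (AG → M) := Z1 lvQ ρ ⊓ unrOutside ρ T

theorem B1_le_Z1 (h : Smooth lvQ ρ) : B1 ρ ≤ Z1 lvQ ρ := by
  rintro _ ⟨m, rfl⟩
  exact d0_mem_Z1_of_smooth ρ h m

end Coh

end Fermat.Agent.TW
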