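import Mathlib.Algebra.CharP.Lemmas
import Mathlib.Algebra.CharP.Two
import Mathlib.LinearAlgebra.Matrix.Charpoly.Coeff
import Mathlib.LinearAlgebra.Matrix.SchurComplement
import Mathlib.RingTheory.DualNumber
import Fermat.Agent.TW.Ad
import Fermat.Agent.TW.Tame

/-!
# Unipotent deformations at `q ≠ p` are unramified in the tangent space

If a deformation is unipotent on inertia at `q ≠ p` and the residual representation is ramified
there, its tangent cocycle is a coboundary on inertia. Used to place tangent classes of minimal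
deformations in the Selmer space.
-/

noncomputable section

namespace Fermat.Agent.TW

open Matrix Fermat.Agent.PT DualNumber

variable {k : Type*} [Field k]

theorem exists_conj_nilpotent {a b c : k} (h : a * a + b * c = 0) (hN : !![a, b; c, -a] ≠ 0) :
    ∃ P P' : M2 k, P * P' = 1 ∧ P' * P = 1 ∧ !![a, b; c, -a] * P = P * !![0, 1; 0, 0] := by
  by_cases hc : c = 0
  · have ha : a = 0 := by simpa [hc] using h
    have hb : b ≠ 0 := fun hb => hN (by ext i j; fin_cases i <;> fin_cases j <;> simp [ha, hb, hc])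
    refine ⟨!![b, 0; 0, 1], !![b⁻¹, 0; 0, 1], ?_, ?_, ?_⟩ <;>
      (ext i j; fin_cases i <;> fin_cases j <;> simp [ha, hb, hc, mul_apply, Fin.sum_univ_two])
  · refine ⟨!![a, 1; c, 0], !![0, c⁻¹; 1, -(a * c⁻¹)], ?_, ?_, ?_⟩ <;>
      (ext i j; fin_cases i <;> fin_cases j <;>
        simp [hc, mul_apply, Fin.sum_univ_two, mul_comm, mul_left_comm] <;>
        exact h)

/-- Trace zero matrices orthogonal to a nilpotent `N` are coboundaries for `1 + N`. -/
theorem exists_conj_sub_eq (h2 : (2 : k) ≠ 0) {N : M2 k} (hN : N ≠ 0) (hN2 : N * N = 0)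
    (htr : N 0 0 + N 1 1 = 0) {X : M2 k} (hX : trace X = 0) (hXN : trace (X * N) = 0) :
    ∃ Y : M2 k, trace Y = 0 ∧ (1 + N) * Y * (1 - N) - Y = X := by
  have e : N = !![N 0 0, N 0 1; N 1 0, -N 0 0] := by
    ext i j; fin_cases i <;> fin_cases j <;> simp
    linear_combination htr
  have hrel : N 0 0 * N 0 0 + N 0 1 * N 1 0 = 0 := by
    have := congrFun (congrFun hN2 0) 0
    simpa [mul_apply, Fin.sum_univ_two] using this
  obtain ⟨P, P', hPP, hP'P, hNP⟩ := exists_conj_nilpotent hrel (e ▸ hN)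
  rw [← e] at hNP
  set E : M2 k := !![0, 1; 0, 0] with hE
  have hNE : N = P * E * P' := by rw [← hNP, mul_assoc, hPP, mul_one]
  set X' : M2 k := P' * X * P with hX'
  have hX't : X' 0 0 + X' 1 1 = 0 := by
    rw [← trace_fin_two, hX', trace_mul_cycle, hPP, one_mul, hX]
  have hX'10 : X' 1 0 = 0 := by
    have h1 : trace (X' * E) = 0 := by
      calc trace (X' * E) = trace (P' * (X * (P * E))) := by rw [hX']; simp only [mul_assoc]
        _ = trace (X * (P * E) * P') := trace_mul_comm _ _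
        _ = trace (X * N) := by rw [hNE]; simp only [mul_assoc]
        _ = 0 := hXN
    simpa [trace_fin_two, hE, mul_apply, Fin.sum_univ_two] using h1
  set Y' : M2 k := !![-(X' 0 1 + X' 0 0) / 2, 0; X' 0 0, (X' 0 1 + X' 0 0) / 2] with hY'
  have key : (1 + E) * Y' * (1 - E) - Y' = X' := by
    ext i j
    fin_cases i <;> fin_cases j <;>
      simp [hE, hY', mul_apply, Fin.sum_univ_two, hX'10]
    · field_simp
      ring
    · linear_combination (-1 : k) * hX't
  refine ⟨P * Y' * P', ?_, ?_⟩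
  · rw [trace_mul_cycle, hP'P, one_mul, trace_fin_two, hY']
    simp
    ring
  · have h1 : (1 + N) = P * (1 + E) * P' := by rw [mul_add, add_mul, mul_one, hPP, hNE]
    have h3 : (1 - N) = P * (1 - E) * P' := by rw [mul_sub, sub_mul, mul_one, hPP, hNE]
    have h4 : X = P * X' * P' := by
      rw [hX', ← mul_assoc, ← mul_assoc, hPP, one_mul, mul_assoc, hPP, mul_one]
    have h5 : ∀ A B : M2 k, P * A * P' * (P * B * P') = P * (A * B) * P' := fun A B => by
      simp only [mul_assoc]
      rw [← mul_assoc P' P, hP'P, one_mul]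
    rw [h1, h3, h4, h5, h5, ← sub_mul, ← mul_sub, key]

variable {p : ℕ}

/-- The dual number matrices of a cocycle. -/
def liftHom (rb : AG →* M2 k) (c : AG → sl2 k)
    (hc : ∀ g h, c (g * h) = adRep rb g (c h) + c g) : AG →* M2 k[ε] where
  toFun g := (rb g).map TrivSqZeroExt.inl + ((c g : M2 k) * rb g).map TrivSqZeroExt.inr
  map_one' := by
    have h1 : c 1 = 0 := by simpa using hc 1 1
    ext i j <;> by_cases h : i = j <;> simp [h1, h, one_apply]
  map_mul' g h := by
    have hmat : (c (g * h) : M2 k) * rb (g * h) =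
        rb g * ((c h : M2 k) * rb h) + ((c g : M2 k) * rb g) * rb h := by
      rw [hc, map_mul, Submodule.coe_add, coe_adRep, add_mul]
      congr 1
      · simp only [mul_assoc]
        rw [← mul_assoc (rb g⁻¹), ← map_mul rb, inv_mul_cancel, map_one, one_mul]
      · simp only [mul_assoc]
    rw [hmat, map_mul]
    ext i j <;> simp [mul_apply, Fin.sum_univ_two]
    ring

theorem fst_liftHom (rb : AG →* M2 k) (c : AG → sl2 k)
    (hc : ∀ g h, c (g * h) = adRep rb g (c h) + c g) (g : AG) (i j : Fin 2) :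
    (liftHom rb c hc g i j).fst = rb g i j := by simp [liftHom]

theorem snd_liftHom (rb : AG →* M2 k) (c : AG → sl2 k)
    (hc : ∀ g h, c (g * h) = adRep rb g (c h) + c g) (g : AG) (i j : Fin 2) :
    (liftHom rb c hc g i j).snd = ((c g : M2 k) * rb g) i j := by simp [liftHom]

theorem exists_field_fixing {U : Subgroup AG} (hU : U ∈ lvQ) :
    ∃ L : IntermediateField ℚ (AlgebraicClosure ℚ), FiniteDimensional ℚ L ∧
      ∀ σ : AG, (∀ x ∈ L, σ x = x) → σ ∈ U := by
  obtain ⟨L, hL, hLU⟩ := mem_krull.1 hU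
  exact ⟨L, hL, fun σ hσ => hLU ((IntermediateField.mem_fixingSubgroup_iff _ _).2 hσ)⟩

/-- A matrix over the dual numbers which is the identity modulo `ε` has order dividing `p`. -/
theorem pow_eq_one_of_fst_eq_one [CharP k p] {x : M2 k[ε]}
    (h : (TrivSqZeroExt.fstHom k k k).toRingHom.mapMatrix x = 1) : x ^ p = 1 := by
  set y := x - 1 with hy
  have hy0 : ∀ i j, (y i j).fst = 0 := fun i j => by
    have := congrFun (congrFun h i) j
    simp only [RingHom.mapMatrix_apply, map_apply, AlgHom.toRingHom_eq_coe,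
      RingHom.coe_coe, TrivSqZeroExt.fstHom_apply] at this
    simp [hy, this, one_apply]
    split_ifs <;> simp
  have hy2 : y * y = 0 := by
    ext i j <;> simp [mul_apply, Fin.sum_univ_two, hy0]
  have e : x = y + 1 := (sub_add_cancel _ _).symm
  rw [e, (Commute.one_right y).add_pow]
  refine (Finset.sum_eq_single 0 (fun i hi hi0 => ?_) ?_).trans (by simp)
  · rcases Nat.lt_or_ge i 2 with h | h
    · obtain rfl : i = 1 := by omega
      rw [Nat.choose_one_right, one_pow, mul_one, pow_one,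
        ← map_natCast (algebraMap k (M2 k[ε])), CharP.cast_eq_zero, map_zero, mul_zero]
    · rw [← Nat.add_sub_cancel' h, pow_add, pow_two, hy2, zero_mul, zero_mul, zero_mul]
  · simp

/-- The tangent classes of unipotent deformations at `q ≠ p` are unramified. -/
theorem mem_locB1_inertia_of_unipotent {q : ℕ} (hq : q.Prime) (hp : p.Prime) (hpq : p ≠ q)
    [CharP k p] (hp2 : p ≠ 2) {P : ValuationSubring (AlgebraicClosure ℚ)} (hP : P.LiesOverPrime q)
    (rb : AG →* M2 k) {U : Subgroup AG} (hU : U ∈ lvQ) (hrb : ∀ s ∈ U, rb s = 1)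
    {c : AG → sl2 k} (hc : c ∈ Z1 lvQ (adRep rb))
    (htr : ∀ σ ∈ P.inertiaSubgroupIn ℚ, trace (rb σ) = 2)
    (hdet : ∀ σ ∈ P.inertiaSubgroupIn ℚ, det (rb σ) = 1)
    (htrc : ∀ σ ∈ P.inertiaSubgroupIn ℚ, trace ((c σ : M2 k) * rb σ) = 0)
    (hram : ∃ σ ∈ P.inertiaSubgroupIn ℚ, rb σ ≠ 1) :
    c ∈ locB1 (adRep rb) (P.inertiaSubgroupIn ℚ) := by
  obtain ⟨⟨V, hV, hVc⟩, hcm⟩ := mem_Z1.1 hc
  obtain ⟨L, hL, hLUV⟩ := exists_field_fixing (lvQ.inf_mem hU hV)
  have h2 : (2 : k) ≠ 0 := by
    intro h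
    have : ((2 : ℕ) : k) = 0 := by simpa using h
    exact hp2 ((Nat.prime_dvd_prime_iff_eq hp Nat.prime_two).1
        ((CharP.cast_eq_zero_iff k p 2).1 this))
  have hnil : ∀ σ ∈ P.inertiaSubgroupIn ℚ, (rb σ - 1) * (rb σ - 1) = 0 ∧
      (rb σ - 1) 0 0 + (rb σ - 1) 1 1 = 0 := fun σ hσ => by
    have h1 := htr σ hσ
    have h3 := hdet σ hσ
    rw [trace_fin_two] at h1
    rw [det_fin_two] at h3
    refine ⟨?_, by simp; linear_combination h1⟩
    ext i j
    fin_cases i <;> fin_cases j <;> simp [mul_apply, Fin.sum_univ_two]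
    · linear_combination (rb σ 0 0) * h1 - h3
    · linear_combination (rb σ 0 1) * h1
    · linear_combination (rb σ 1 0) * h1
    · linear_combination (rb σ 1 1) * h1 - h3
  have hrbp : ∀ σ ∈ P.inertiaSubgroupIn ℚ, rb σ ^ p = 1 := fun σ hσ => by
    have : Fact p.Prime := ⟨hp⟩
    have : CharP (M2 k) p := charP_of_injective_algebraMap (algebraMap k (M2 k)).injective p
    have e : rb σ = (rb σ - 1) + 1 := (sub_add_cancel _ _).symm
    rw [e, add_pow_char_of_commute p (Commute.one_right (rb σ - 1)), one_pow,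
      show p = 2 + (p - 2) from by have := hp.two_le; omega, pow_add, pow_two, (hnil σ hσ).1,
      zero_mul, zero_add]
  set π := (liftHom rb c hcm).toHomUnits with hπdef
  have hπ1 : ∀ g : AG, π g = 1 → rb g = 1 ∧ c g = 0 := fun g hg => by
    have hg' : liftHom rb c hcm g = 1 := congrArg Units.val hg
    have h1 : rb g = 1 := by
      ext i j
      rw [← fst_liftHom rb c hcm g i j, hg']
      by_cases h : i = j <;> simp [h, one_apply]
    refine ⟨h1, Subtype.ext ?_⟩
    ext i j
    have := snd_liftHom rb c hcm g i j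
    rw [hg', h1, mul_one] at this
    rw [← this]
    by_cases h : i = j <;> simp [h, one_apply]
  obtain ⟨t, ht, hgen⟩ := exists_inertia_generator hq hp hpq hP π L (fun σ hσ => by
      have hσU := hLUV σ hσ
      have hc1 : c σ = 0 := by
        have h := hVc 1 σ hσU.2
        rw [one_mul] at h
        rw [h, Z1_apply_one hc]
      refine Units.ext (Matrix.ext fun i j => ?_)
      rw [hπdef, MonoidHom.coe_toHomUnits, Units.val_one]
      by_cases h : i = j <;>
        ext <;> simp [fst_liftHom, snd_liftHom, hrb σ hσU.1, hc1, h, one_apply])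
    (fun σ hσ => ⟨2, by
      refine Units.ext ?_
      rw [Units.val_pow_eq_pow_val, Units.val_one, hπdef, MonoidHom.coe_toHomUnits, pow_two,
        pow_mul]
      refine pow_eq_one_of_fst_eq_one ?_
      rw [map_pow, ← hrbp σ hσ]
      congr 1
      ext i j
      exact fst_liftHom rb c hcm σ i j⟩)
  -- solve at the generator
  have hNt : rb t - 1 ≠ 0 := by
    intro h0
    obtain ⟨σ, hσ, hσ1⟩ := hram
    obtain ⟨m, hm⟩ := Subgroup.mem_zpowers_iff.1 (hgen σ hσ)
    have h1 : π (σ * (t ^ m)⁻¹) = 1 := by rw [map_mul, map_inv, map_zpow, hm, mul_inv_cancel]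
    have h2' : rb σ = rb (t ^ m) := by
      have := (hπ1 _ h1).1
      calc rb σ = rb (σ * (t ^ m)⁻¹ * t ^ m) := by simp
        _ = rb (t ^ m) := by rw [map_mul, this, one_mul]
    have h3 : rb.toHomUnits t = 1 := Units.ext (by simpa [sub_eq_zero] using h0)
    exact hσ1 (by rw [h2', ← MonoidHom.coe_toHomUnits rb, map_zpow, h3, _root_.one_zpow,
      Units.val_one])
  obtain ⟨hN2, hNtr⟩ := hnil t ht
  have hinv : rb t⁻¹ = 1 - (rb t - 1) := by
    have h1 : rb t * (1 - (rb t - 1)) = 1 := by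
      calc rb t * (1 - (rb t - 1)) = 1 - (rb t - 1) * (rb t - 1) := by noncomm_ring
        _ = 1 := by rw [hN2, sub_zero]
    calc rb t⁻¹ = rb t⁻¹ * (rb t * (1 - (rb t - 1))) := by rw [h1, mul_one]
      _ = 1 - (rb t - 1) := by rw [← mul_assoc, ← map_mul, inv_mul_cancel, map_one, one_mul]
  have hXt : trace (c t : M2 k) = 0 := by
    rw [trace_fin_two]
    exact mem_sl2.1 (c t).2
  have hXN : trace ((c t : M2 k) * (rb t - 1)) = 0 := by
    rw [mul_sub, mul_one, trace_sub, htrc t ht, hXt, sub_zero]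
  obtain ⟨Y, hYt, hY⟩ := exists_conj_sub_eq h2 hNt hN2 hNtr hXt hXN
  let Y' : sl2 k := ⟨Y, by rw [mem_sl2, ← trace_fin_two]; exact hYt⟩
  refine ⟨Y', fun σ hσ => ?_⟩
  let d : AG → sl2 k := fun g => c g - (adRep rb g Y' - Y')
  have hd : ∀ g h, d (g * h) = adRep rb g (d h) + d g := fun g h => by
    simp only [d, hcm, map_mul, Module.End.mul_apply, map_sub]
    abel
  have hdt : d t = 0 := by
    refine Subtype.ext ?_
    show (c t : M2 k) - (rb t * Y * rb t⁻¹ - Y) = 0
    rw [hinv, sub_eq_zero, ← hY]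
    simp
  have hd1 : d 1 = 0 := by simpa using hd 1 1
  have hdpow : ∀ m : ℤ, d (t ^ m) = 0 := fun m => by
    induction m using Int.induction_on with
    | zero => rw [zpow_zero, hd1]
    | succ m ih => rw [_root_.zpow_add_one, hd, hdt, map_zero, zero_add, ih]
    | pred m ih =>
      have : d (t ^ (-(m : ℤ) - 1) * t) =
          adRep rb (t ^ (-(m : ℤ) - 1)) (d t) + d (t ^ (-(m : ℤ) - 1)) :=
        hd _ _
      rw [← _root_.zpow_add_one, sub_add_cancel, ih, hdt, map_zero, zero_add] at this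
      exact this.symm
  obtain ⟨m, hm⟩ := Subgroup.mem_zpowers_iff.1 (hgen σ hσ)
  have hu := hπ1 (σ * (t ^ m)⁻¹) (by rw [map_mul, map_inv, map_zpow, hm, mul_inv_cancel])
  have hdu : d (σ * (t ^ m)⁻¹) = 0 := by
    simp only [d, hu.2, adRep_eq_one rb hu.1, Module.End.one_apply, sub_self]
  have := hd (σ * (t ^ m)⁻¹) (t ^ m)
  rw [inv_mul_cancel_right, hdpow, map_zero, zero_add, hdu] at this
  simpa [d, sub_eq_zero] using this

end Fermat.Agent.TW
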