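import Mathlib.RingTheory.AdicCompletion.Completeness
import Mathlib.RingTheory.AdicCompletion.Functoriality
import Mathlib.RingTheory.AdicCompletion.RingHom
import Mathlib.RingTheory.DiscreteValuationRing.Basic
import Mathlib.RingTheory.Filtration
import Mathlib.RingTheory.LocalRing.ResidueField.Basic
import Mathlib.RingTheory.MvPowerSeries.Equiv
import Mathlib.RingTheory.Nakayama

/-!
# Surjections from power series rings onto complete Noetherian local algebras

Elements of the maximal ideal generating it modulo the base and its square define a surjection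
from a power series ring. Used to present deformation rings.
-/

noncomputable section

namespace Fermat.Agent.TW

open IsLocalRing

theorem isHausdorff_of_ne_top {R : Type*} [CommRing R] [IsNoetherianRing R] [IsLocalRing R]
    {I : Ideal R} (h : I ≠ ⊤) : IsHausdorff I R :=
  ⟨fun x hx => by
    have : x ∈ ⨅ n : ℕ, I ^ n := Submodule.mem_iInf _ |>.2 fun n => by
      simpa [SModEq.zero, smul_eq_mul] using hx n
    rwa [Ideal.iInf_pow_eq_bot_of_isLocalRing I h, Submodule.mem_bot] at this⟩

section Eval

variable {σ : Type*} [Finite σ] {O R : Type*} [CommRing O] [CommRing R] [Algebra O R]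
  (I : Ideal R) (x : σ → R)

omit [Finite σ] in
theorem map_aeval_idealOfVars_pow_le (hx : ∀ i, x i ∈ I) (n : ℕ) :
    (MvPolynomial.idealOfVars σ O ^ n).map (MvPolynomial.aeval x : MvPolynomial σ O →ₐ[O] R) ≤
      I ^ n := by
  rw [Ideal.map_pow]
  refine Ideal.pow_right_mono ?_ n
  rw [MvPolynomial.idealOfVars, Ideal.map_span, Ideal.span_le]
  rintro _ ⟨_, ⟨i, rfl⟩, rfl⟩
  simpa using hx i

variable (hx : ∀ i, x i ∈ I)

/-- Evaluation modulo a power of the ideal. -/
def evalMod (n : ℕ) : MvPowerSeries σ O →ₐ[O] R ⧸ I ^ n :=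
  (Ideal.Quotient.liftₐ (MvPolynomial.idealOfVars σ O ^ n)
      ((Ideal.Quotient.mkₐ O (I ^ n)).comp (MvPolynomial.aeval x))
      (fun _a ha => Ideal.Quotient.eq_zero_iff_mem.2
        (map_aeval_idealOfVars_pow_le I x hx n (Ideal.mem_map_of_mem _ ha)))).comp
    ((MvPowerSeries.truncTotalAlgHom σ O n).restrictScalars O)

theorem evalMod_apply (n : ℕ) (f : MvPowerSeries σ O) :
    evalMod I x hx n f = Ideal.Quotient.mk (I ^ n) (MvPolynomial.aeval x (f.truncTotal n)) := rfl

theorem evalMod_compat {m n : ℕ} (hle : m ≤ n) :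
    (Ideal.Quotient.factorₐ O (Ideal.pow_le_pow_right hle)).comp (evalMod I x hx n) =
      evalMod I x hx m := by
  ext f
  simp only [AlgHom.comp_apply, evalMod_apply, Ideal.Quotient.factorₐ_apply_mk]
  rw [Ideal.Quotient.eq, ← map_sub]
  exact map_aeval_idealOfVars_pow_le I x hx m (Ideal.mem_map_of_mem _
    (MvPowerSeries.truncTotal_sub_truncTotal_mem_pow_idealOfVars hle le_rfl f))

variable [IsAdicComplete I R]

/-- Evaluation of a power series at elements of a complete ideal. -/
def evalAlgHom : MvPowerSeries σ O →ₐ[O] R :=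
  IsAdicComplete.liftAlgHom I (evalMod I x hx) (fun hle => evalMod_compat I x hx hle)

/-- Evaluation sends the variables to the given elements. -/
theorem evalAlgHom_X (i : σ) :
    evalAlgHom (O := O) I x hx (MvPowerSeries.X i) = x i := by
  classical
  refine (IsHausdorff.eq_iff_smodEq (I := I)).2 fun n => ?_
  rw [SModEq.sub_mem, smul_eq_mul, Ideal.mul_top, ← Ideal.Quotient.eq, evalAlgHom,
    IsAdicComplete.mk_liftAlgHom, evalMod_apply, Ideal.Quotient.eq]
  by_cases h1 : n ≤ 1
  · refine Ideal.pow_le_pow_right h1 ?_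
    rw [pow_one]
    have h0 : (MvPowerSeries.X i : MvPowerSeries σ O).truncTotal n = 0 := by
      ext d
      rw [MvPowerSeries.coeff_truncTotal_eq_ite, MvPolynomial.coeff_zero]
      split_ifs with h
      · rw [MvPowerSeries.coeff_X, if_neg]
        rintro rfl
        simp at h
        omega
      · rfl
    rw [h0, map_zero, zero_sub]
    exact neg_mem (hx i)
  · have : (MvPowerSeries.X i : MvPowerSeries σ O).truncTotal n = MvPolynomial.X i := by
      ext d
      rw [MvPowerSeries.coeff_truncTotal_eq_ite, ← MvPolynomial.coeff_coe, MvPolynomial.coe_X]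
      split_ifs with h
      · rfl
      · rw [MvPowerSeries.coeff_X, if_neg]
        rintro rfl
        simp at h
        omega
    rw [this, MvPolynomial.aeval_X, sub_self]
    exact zero_mem _

end Eval

variable {O R : Type*} [CommRing O] [IsDomain O] [IsDiscreteValuationRing O]
  [IsAdicComplete (maximalIdeal O) O] [CommRing R] [IsLocalRing R] [IsNoetherianRing R]
  [IsAdicComplete (maximalIdeal R) R] [Algebra O R] [IsLocalHom (algebraMap O R)]

/-- Elements generating the maximal ideal modulo the base and its square define a surjection from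
a power series ring. -/
theorem exists_surjective_of_le {σ : Type*} [Finite σ]
    (hres : Function.Surjective (residue R ∘ algebraMap O R)) (x : σ → R)
    (hx : ∀ i, x i ∈ maximalIdeal R)
    (hgen : maximalIdeal R ≤ Ideal.span (Set.range x) ⊔ (maximalIdeal O).map (algebraMap O R) ⊔
      maximalIdeal R ^ 2) :
    ∃ γ : MvPowerSeries σ O →ₐ[O] R, Function.Surjective γ := by
  set J := Ideal.span (Set.range x) with hJ
  have hJm : J ≤ maximalIdeal R := Ideal.span_le.2 (Set.range_subset_iff.2 hx)
  have hJtop : J ≠ ⊤ := fun h => (maximalIdeal.isMaximal R).ne_top (top_le_iff.1 (h ▸ hJm))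
  -- Nakayama
  have hgen' : maximalIdeal R ≤ J ⊔ (maximalIdeal O).map (algebraMap O R) := by
    refine Submodule.le_of_le_smul_of_le_jacobson_bot (I := maximalIdeal R)
      (IsNoetherian.noetherian _) (maximalIdeal_le_jacobson ⊥) ?_
    rwa [smul_eq_mul, ← pow_two]
  have : Nontrivial (R ⧸ J) := Ideal.Quotient.nontrivial_iff.2 hJtop
  have : IsLocalRing (R ⧸ J) := .of_surjective' _ Ideal.Quotient.mk_surjective
  have : IsNoetherianRing (R ⧸ J) :=
      isNoetherianRing_of_surjective R (R ⧸ J) (Ideal.Quotient.mk J) Ideal.Quotient.mk_surjective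
  -- `O` surjects onto `R ⧸ J`
  have hO : Function.Surjective ((Ideal.Quotient.mk J).comp (algebraMap O R)) := by
    have hle : (maximalIdeal O).map ((Ideal.Quotient.mk J).comp (algebraMap O R)) ≤
        maximalIdeal (R ⧸ J) := by
      rw [← Ideal.map_map]
      refine (Ideal.map_mono (Ideal.map_le_iff_le_comap.2 fun a ha => ?_)).trans
        (le_of_eq (map_maximalIdeal_of_surjective _ Ideal.Quotient.mk_surjective))
      exact map_nonunit (algebraMap O R) a ha
    refine surjective_of_mk_map_comp_surjective (I := maximalIdeal O)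
      ((Ideal.Quotient.mk J).comp (algebraMap O R))
      (haus := isHausdorff_of_ne_top fun h => (maximalIdeal.isMaximal (R ⧸ J)).ne_top
        (top_le_iff.1 (h ▸ hle))) fun z => ?_
    obtain ⟨z, rfl⟩ := Ideal.Quotient.mk_surjective z
    obtain ⟨y, rfl⟩ := Ideal.Quotient.mk_surjective z
    obtain ⟨a, ha⟩ := hres (residue R y)
    refine ⟨a, ?_⟩
    simp only [RingHom.comp_apply, Function.comp_apply] at ha ⊢
    rw [Ideal.Quotient.eq, ← map_sub, ← Ideal.map_map]
    obtain ⟨j, hj, u, hu, hju⟩ := Submodule.mem_sup.1 (hgen' ((Ideal.Quotient.eq).1 ha))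
    rw [← hju, map_add, Ideal.Quotient.eq_zero_iff_mem.2 hj, zero_add]
    exact Ideal.mem_map_of_mem _ hu
  -- the map
  let γ := evalAlgHom (O := O) (maximalIdeal R) x hx
  refine ⟨γ, ?_⟩
  have hmap : (Ideal.span (Set.range (MvPowerSeries.X : σ → MvPowerSeries σ O))).map
      (γ : MvPowerSeries σ O →+* R) = J := by
    rw [Ideal.map_span, ← Set.range_comp, hJ]
    congr 2
    ext i
    exact evalAlgHom_X (maximalIdeal R) x hx i
  refine surjective_of_mk_map_comp_surjective
    (I := Ideal.span (Set.range (MvPowerSeries.X : σ → MvPowerSeries σ O)))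
    (γ : MvPowerSeries σ O →+* R) (haus := hmap ▸ isHausdorff_of_ne_top hJtop) fun z => ?_
  obtain ⟨y, rfl⟩ := Ideal.Quotient.mk_surjective z
  obtain ⟨a, ha⟩ := hO (Ideal.Quotient.mk J y)
  refine ⟨algebraMap O _ a, ?_⟩
  simp only [RingHom.comp_apply, RingHom.coe_coe, AlgHom.commutes] at ha ⊢
  rw [Ideal.Quotient.eq] at ha ⊢
  rwa [hmap]

end Fermat.Agent.TW
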