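import Mathlib.LinearAlgebra.Dual.Lemmas
import Mathlib.LinearAlgebra.FiniteDimensional.Lemmas
import Fermat.Agent.TW.PowerSeries

/-!
# The tangent space of a complete Noetherian local algebra

Derivations into the residue field vanishing on the base; if they form a space of dimension at
most `d`, the algebra is a quotient of a power series ring in `d` variables. Used to bound the
generators of deformation rings by Selmer classes.
-/

noncomputable section

namespace Fermat.Agent.TW

open IsLocalRing Module

/-- In a finite dimensional space of functions, few evaluation points detect zero. -/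
theorem exists_points_injective {k X : Type*} [Field k] (T : Submodule k (X → k))
    [FiniteDimensional k T] :
    ∃ x : Fin (finrank k T) → X, ∀ f ∈ T, (∀ i, f (x i) = 0) → f = 0 := by
  let ev : X → Dual k T := fun a => (LinearMap.proj a).comp T.subtype
  have hsp : Submodule.span k (Set.range ev) = ⊤ := by
    refine eq_top_iff.2 fun φ _ => ?_
    have hco : (Submodule.span k (Set.range ev)).dualCoannihilator = ⊥ := by
      refine (Submodule.eq_bot_iff _).2 fun f hf => Subtype.ext (funext fun a => ?_)
      exact (Submodule.mem_dualCoannihilator _).1 hf (ev a) (Submodule.subset_span ⟨a, rfl⟩)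
    have := Subspace.dualCoannihilator_dualAnnihilator_eq
      (W := Submodule.span k (Set.range ev))
    rw [hco, Submodule.dualAnnihilator_bot] at this
    rw [← this]
    exact Submodule.mem_top
  obtain ⟨v, hv, hvsp, -⟩ := Submodule.exists_fun_fin_finrank_span_eq k (Set.range ev)
  choose x hx using hv
  have hfr : finrank k (Submodule.span k (Set.range ev)) = finrank k T := by
    rw [hsp, finrank_top, Subspace.dual_finrank_eq]
  refine ⟨x ∘ Fin.cast hfr.symm, fun f hf h => funext fun a => ?_⟩
  have hmem : ev a ∈ Submodule.span k (Set.range v) := by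
    rw [hvsp]
    exact Submodule.subset_span (Set.mem_range_self a)
  obtain ⟨c, hc⟩ := (Submodule.mem_span_range_iff_exists_fun k).1 hmem
  have := DFunLike.congr_fun hc ⟨f, hf⟩
  rw [LinearMap.sum_apply] at this
  refine this.symm.trans (Finset.sum_eq_zero fun i _ => ?_)
  have h' : f (x i) = 0 := by simpa using h (Fin.cast hfr i)
  rw [LinearMap.smul_apply, ← hx i]
  simp [ev, h']

variable {O R : Type*} [CommRing O] [IsLocalRing O] [CommRing R] [IsLocalRing R] [Algebra O R]
  [IsLocalHom (algebraMap O R)]

/-- The residue field of an algebra with surjective residual structure map is that of the base. -/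
def resEquiv (hres : Function.Surjective (residue R ∘ algebraMap O R)) :
    ResidueField O ≃+* ResidueField R :=
  RingEquiv.ofBijective (ResidueField.map (algebraMap O R))
    ⟨RingHom.injective _, fun y => by
      obtain ⟨a, ha⟩ := hres y
      exact ⟨residue O a, by rw [ResidueField.map_residue]; exact ha⟩⟩

/-- The residue map with values in the residue field of the base. -/
def toRes (hres : Function.Surjective (residue R ∘ algebraMap O R)) : R →+* ResidueField O :=
  ((resEquiv hres).symm : ResidueField R →+* ResidueField O).comp (residue R)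

variable (hres : Function.Surjective (residue R ∘ algebraMap O R))

theorem toRes_algebraMap (a : O) : toRes hres (algebraMap O R a) = residue O a := by
  apply (resEquiv hres).injective
  simp only [toRes, RingHom.comp_apply, RingHom.coe_coe, RingEquiv.apply_symm_apply]
  exact (ResidueField.map_residue (algebraMap O R) a).symm

theorem toRes_eq_zero_iff (x : R) : toRes hres x = 0 ↔ x ∈ maximalIdeal R := by
  simp [toRes, residue_eq_zero_iff]

theorem map_resEquiv_toRes (x : R) : resEquiv hres (toRes hres x) = residue R x := by
  simp [toRes]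

/-- Derivations into the residue field that vanish on the base. -/
def tangent : Submodule (ResidueField O) (R → ResidueField O) where
  carrier := {δ | (∀ x y, δ (x + y) = δ x + δ y) ∧ (∀ a, δ (algebraMap O R a) = 0) ∧
    ∀ x y, δ (x * y) = toRes hres x * δ y + toRes hres y * δ x}
  zero_mem' := by simp
  add_mem' := fun {f g} hf hg => ⟨fun x y => by simp [hf.1, hg.1]; ring,
    fun a => by simp [hf.2.1, hg.2.1], fun x y => by simp [hf.2.2, hg.2.2]; ring⟩
  smul_mem' := fun c f hf => ⟨fun x y => by simp [hf.1]; ring,
    fun a => by simp [hf.2.1], fun x y => by simp [hf.2.2]; ring⟩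

omit [IsLocalRing O] [IsLocalHom (algebraMap O R)] in
theorem exists_sub_algebraMap_mem (hres : Function.Surjective (residue R ∘ algebraMap O R))
    (x : R) : ∃ a, x - algebraMap O R a ∈ maximalIdeal R := by
  obtain ⟨a, ha⟩ := hres (residue R x)
  exact ⟨a, by rw [← residue_eq_zero_iff, map_sub, ← ha]; exact sub_self _⟩

/-- If an ideal containing the base maximal ideal and `m ^ 2` is killed only by the zero tangent
vector, it is the maximal ideal. -/
theorem le_of_tangent_eq_zero {I : Ideal R} (hI : I ≤ maximalIdeal R)
    (hO : (maximalIdeal O).map (algebraMap O R) ≤ I) (h2 : maximalIdeal R ^ 2 ≤ I)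
    (h : ∀ δ ∈ tangent hres, (∀ x ∈ I, δ x = 0) → δ = 0) : maximalIdeal R ≤ I := by
  intro y hy
  by_contra hyI
  let f : ResidueField O →+* R ⧸ I :=
    Ideal.Quotient.lift (maximalIdeal O) ((Ideal.Quotient.mk I).comp (algebraMap O R))
      (fun a ha => Ideal.Quotient.eq_zero_iff_mem.2 (hO (Ideal.mem_map_of_mem _ ha)))
  let : Algebra (ResidueField O) (R ⧸ I) := f.toAlgebra
  let W : Submodule (ResidueField O) (R ⧸ I) := Submodule.span (ResidueField O) {1}
  have hyW : Ideal.Quotient.mk I y ∉ W := by
    intro hc
    obtain ⟨c, hc⟩ := Submodule.mem_span_singleton.1 hc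
    obtain ⟨a, rfl⟩ := residue_surjective c
    rw [Algebra.smul_def, mul_one] at hc
    have hc' : algebraMap O R a - y ∈ I := Ideal.Quotient.eq.1 hc
    have hma : algebraMap O R a ∈ maximalIdeal R := by
      have := add_mem (hI hc') hy
      simpa using this
    have : a ∈ maximalIdeal O := fun hu => hma (hu.map (algebraMap O R))
    exact hyI (by simpa using sub_mem (hO (Ideal.mem_map_of_mem _ this)) hc')
  obtain ⟨φ, hφy, hφW⟩ := Submodule.exists_dual_map_eq_bot_of_notMem hyW inferInstance
  have hφ1 : φ 1 = 0 := by
    have : φ 1 ∈ W.map φ := ⟨1, Submodule.subset_span rfl, rfl⟩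
    simpa [hφW] using this
  let δ : R → ResidueField O := fun x => φ (Ideal.Quotient.mk I x)
  have hδa : ∀ a, δ (algebraMap O R a) = 0 := fun a => by
    have : Ideal.Quotient.mk I (algebraMap O R a) = residue O a • (1 : R ⧸ I) := by
      rw [Algebra.smul_def, mul_one]; rfl
    simp [δ, this, map_smul, hφ1]
  have hδs : ∀ (a : O) (x : R), δ (algebraMap O R a * x) = residue O a * δ x := fun a x => by
    have : Ideal.Quotient.mk I (algebraMap O R a * x) = residue O a • Ideal.Quotient.mk I x := by
      rw [map_mul, Algebra.smul_def]; rfl
    simp [δ, this, map_smul]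
  have hδadd : ∀ x z, δ (x + z) = δ x + δ z := fun x z => by simp [δ]
  have hδmem : δ ∈ tangent hres := by
    refine ⟨hδadd, hδa, fun x z => ?_⟩
    obtain ⟨a, ha⟩ := exists_sub_algebraMap_mem hres x
    obtain ⟨b, hb⟩ := exists_sub_algebraMap_mem hres z
    have hp : δ ((x - algebraMap O R a) * (z - algebraMap O R b)) = 0 := by
      have : (x - algebraMap O R a) * (z - algebraMap O R b) ∈ I :=
        h2 (by rw [pow_two]; exact Ideal.mul_mem_mul ha hb)
      simp [δ, Ideal.Quotient.eq_zero_iff_mem.2 this]
    have hxa : toRes hres x = residue O a := by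
      rw [← sub_eq_zero, ← toRes_algebraMap hres, ← map_sub, toRes_eq_zero_iff]; exact ha
    have hzb : toRes hres z = residue O b := by
      rw [← sub_eq_zero, ← toRes_algebraMap hres, ← map_sub, toRes_eq_zero_iff]; exact hb
    have e : x * z + algebraMap O R (a * b) =
        algebraMap O R a * z + algebraMap O R b * x
          + (x - algebraMap O R a) * (z - algebraMap O R b) := by
      rw [map_mul]; ring
    have := congrArg δ e
    simp only [hδadd, hδa, hδs, hp, add_zero] at this
    rw [hxa, hzb, this]
  have h0 := h δ hδmem fun x hx => by simp [δ, Ideal.Quotient.eq_zero_iff_mem.2 hx]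
  exact hφy (congrFun h0 y)

/-- A finite dimensional tangent space bounds the number of generators. -/
theorem exists_surjective_of_finrank_tangent_le {O R : Type*} [CommRing O] [IsDomain O]
    [IsDiscreteValuationRing O] [IsAdicComplete (maximalIdeal O) O] [CommRing R] [IsLocalRing R]
    [IsNoetherianRing R] [IsAdicComplete (maximalIdeal R) R] [Algebra O R]
    [IsLocalHom (algebraMap O R)]
    (hres : Function.Surjective (residue R ∘ algebraMap O R)) {r : ℕ}
    [FiniteDimensional (ResidueField O) (tangent hres)]
    (hr : finrank (ResidueField O) (tangent hres) ≤ r) :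
    ∃ γ : MvPowerSeries (Fin r) O →ₐ[O] R, Function.Surjective γ := by
  classical
  obtain ⟨y, hy⟩ := exists_points_injective (tangent hres)
  choose a ha using exists_sub_algebraMap_mem hres
  let x : Fin r → R := fun i =>
    if h : (i : ℕ) < finrank (ResidueField O) (tangent hres) then
      y ⟨i, h⟩ - algebraMap O R (a (y ⟨i, h⟩)) else 0
  have hx : ∀ i, x i ∈ maximalIdeal R := fun i => by
    simp only [x]; split_ifs
    · exact ha _
    · exact zero_mem _
  refine exists_surjective_of_le hres x hx (le_of_tangent_eq_zero hres ?_ ?_ le_sup_right ?_)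
  · refine sup_le (sup_le (Ideal.span_le.2 (Set.range_subset_iff.2 hx)) ?_)
      (Ideal.pow_le_self two_ne_zero)
    exact Ideal.map_le_iff_le_comap.2 fun c hc => map_nonunit (algebraMap O R) c hc
  · exact le_sup_right.trans le_sup_left
  intro δ hδ hδI
  refine hy δ hδ fun j => ?_
  have h1 := hδI _ (Ideal.mem_sup_left (Ideal.mem_sup_left
    (Ideal.subset_span ⟨⟨j, j.2.trans_le hr⟩, rfl⟩)))
  simp only [x, dif_pos j.2] at h1
  have h2 : δ (y j - algebraMap O R (a (y j))) + δ (algebraMap O R (a (y j))) = δ (y j) := by
    rw [← hδ.1, sub_add_cancel]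
  rwa [h1, hδ.2.1, add_zero, eq_comm] at h2

end Fermat.Agent.TW
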