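import Mathlib.RingTheory.AdicCompletion.Basic
import Mathlib.RingTheory.DualNumber
import Mathlib.RingTheory.Noetherian.Basic
import Fermat.Agent.TW.Deriv

/-!
# Tangent vectors as maps to the dual numbers

A tangent vector of a local algebra gives a local algebra map to the dual numbers over the residue
field, injectively, and surjective when the vector is non-zero. Used to turn tangent vectors of
deformation rings into deformations to the dual numbers.
-/

noncomputable section

namespace Fermat.Agent.TW

open IsLocalRing DualNumber

/-- A ring is complete for a nilpotent ideal. -/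
theorem isAdicComplete_of_pow_eq_bot {A : Type*} [CommRing A] {I : Ideal A} {n : ℕ}
    (h : I ^ n = ⊥) : IsAdicComplete I A :=
  { haus' := fun x hx => by
      have := hx n
      simpa [SModEq.zero, h] using this
    prec' := fun f hf => ⟨f n, fun m => by
      rcases le_total m n with hm | hm
      · exact hf hm
      · have := hf hm
        rw [SModEq.sub_mem, h, Submodule.bot_smul, Submodule.mem_bot, sub_eq_zero] at this
        rw [this]⟩ }

variable {k : Type*} [Field k]

theorem maximalIdeal_dualNumber_sq : maximalIdeal k[ε] ^ 2 = ⊥ := by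
  rw [maximalIdeal_eq_span_singleton_eps, Ideal.span_singleton_pow, pow_two, eps_mul_eps,
    Ideal.span_singleton_eq_bot]

instance isAdicComplete_dualNumber : IsAdicComplete (maximalIdeal k[ε]) k[ε] :=
  isAdicComplete_of_pow_eq_bot maximalIdeal_dualNumber_sq

theorem mem_maximalIdeal_dualNumber {x : k[ε]} : x ∈ maximalIdeal k[ε] ↔ x.fst = 0 := by
  rw [mem_maximalIdeal, mem_nonunits_iff, TrivSqZeroExt.isUnit_iff_isUnit_fst, isUnit_iff_ne_zero,
    not_not]

variable {O R : Type*} [CommRing O] [IsLocalRing O] [CommRing R] [IsLocalRing R] [Algebra O R]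
  [IsLocalHom (algebraMap O R)]

theorem algebraMap_dualNumber_apply (a : O) :
    algebraMap O (ResidueField O)[ε] a = TrivSqZeroExt.inl (residue O a) := rfl

instance isLocalHom_algebraMap_dualNumber :
    IsLocalHom (algebraMap O (ResidueField O)[ε]) :=
  ⟨fun a ha => by
    rw [algebraMap_dualNumber_apply, TrivSqZeroExt.isUnit_inl_iff, isUnit_iff_ne_zero, ne_eq,
      residue_eq_zero_iff] at ha
    exact not_not.1 ha⟩

theorem residue_surjective_dualNumber :
    Function.Surjective
      (residue (ResidueField O)[ε] ∘ algebraMap O (ResidueField O)[ε]) := fun y => by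
  obtain ⟨x, rfl⟩ := residue_surjective y
  obtain ⟨a, ha⟩ := residue_surjective (R := O) x.fst
  refine ⟨a, ?_⟩
  rw [Function.comp_apply, ← sub_eq_zero, ← map_sub, residue_eq_zero_iff,
    mem_maximalIdeal_dualNumber, TrivSqZeroExt.fst_sub, algebraMap_dualNumber_apply,
    TrivSqZeroExt.fst_inl, ha, sub_self]

variable {hres : Function.Surjective (residue R ∘ algebraMap O R)}

/-- The map to dual numbers defined by a tangent vector. -/
def dualHom (δ : tangent hres) : R →ₐ[O] (ResidueField O)[ε] where
  toFun x := TrivSqZeroExt.inl (toRes hres x) + TrivSqZeroExt.inr ((δ : R → ResidueField O) x)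
  map_one' := by
    have h1 : (δ : R → ResidueField O) 1 = 0 := by
      have := δ.2.2.1 1
      rwa [map_one] at this
    simp [h1]
  map_mul' x y := by
    ext
    · simp
    · simp [δ.2.2.2 x y]
      ring
  map_zero' := by
    have h0 : (δ : R → ResidueField O) 0 = 0 := by
      have := δ.2.2.1 0
      rwa [map_zero] at this
    simp [h0]
  map_add' x y := by
    ext <;> simp [δ.2.1 x y]
  commutes' a := by
    simp [δ.2.2.1 a, toRes_algebraMap, algebraMap_dualNumber_apply]

theorem fst_dualHom (δ : tangent hres) (x : R) : (dualHom δ x).fst = toRes hres x := by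
  simp [dualHom]

theorem snd_dualHom (δ : tangent hres) (x : R) :
    (dualHom δ x).snd = (δ : R → ResidueField O) x := by
  simp [dualHom]

theorem isLocalHom_dualHom (δ : tangent hres) :
    IsLocalHom (dualHom δ : R →+* (ResidueField O)[ε]) :=
  ⟨fun x hx => by
    by_contra h
    have hx' : toRes hres x = 0 := (toRes_eq_zero_iff hres x).2 h
    rw [TrivSqZeroExt.isUnit_iff_isUnit_fst, RingHom.coe_coe, fst_dualHom, hx'] at hx
    exact not_isUnit_zero hx⟩

/-- A non-zero tangent vector gives a surjection onto the dual numbers. -/
theorem dualHom_surjective {δ : tangent hres} (hδ : δ ≠ 0) :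
    Function.Surjective (dualHom δ) := by
  obtain ⟨x, hx⟩ : ∃ x, (δ : R → ResidueField O) x ≠ 0 := by
    by_contra! h
    exact hδ (Subtype.ext (funext h))
  obtain ⟨a, ha⟩ := exists_sub_algebraMap_mem hres x
  intro y
  obtain ⟨b, hb⟩ := residue_surjective (R := O) y.fst
  obtain ⟨c, hc⟩ := residue_surjective (R := O) (y.snd / (δ : R → ResidueField O) x)
  refine ⟨algebraMap O R b + algebraMap O R c * (x - algebraMap O R a), ?_⟩
  have h1 : (δ : R → ResidueField O) (x - algebraMap O R a) = (δ : R → ResidueField O) x := by
    have := δ.2.1 (x - algebraMap O R a) (algebraMap O R a)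
    rw [sub_add_cancel, δ.2.2.1 a, add_zero] at this
    exact this.symm
  have h2 : toRes hres (x - algebraMap O R a) = 0 := (toRes_eq_zero_iff hres _).2 ha
  ext
  · rw [fst_dualHom, map_add, map_mul, h2, mul_zero, add_zero, toRes_algebraMap, hb]
  · rw [snd_dualHom, δ.2.1, δ.2.2.1, δ.2.2.2, δ.2.2.1, toRes_algebraMap, h2, h1, hc]
    simp [div_mul_cancel₀ _ hx]

/-- A tangent vector is determined by its map to the dual numbers. -/
theorem dualHom_injective : Function.Injective (dualHom (hres := hres)) := fun δ δ' h => by
  refine Subtype.ext (funext fun x => ?_)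
  rw [← snd_dualHom δ x, ← snd_dualHom δ' x, h]

end Fermat.Agent.TW
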