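import Mathlib.RingTheory.Finiteness.Nakayama
import Mathlib.RingTheory.LocalRing.Module
import Mathlib.RingTheory.TensorProduct.Free
import Fermat.Prelude.Def_GaloisRep_Adic
import Fermat.Agent.Gal.RepTwo

/-!
# Matrices of base changes and bases lifting residual bases

Bridges between representations and their matrices: intertwining matrices give isomorphisms and a
basis of the reduction lifts. Used to write deformations as matrices reducing to the residual
ones.
-/

noncomputable section

namespace Fermat.Agent.TW

open Module Fermat.Agent.Gal IsLocalRing TensorProduct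

/-- A matrix intertwining two representations gives an equivariant isomorphism. -/
theorem exists_linearEquiv_of_intertwine {G A V W : Type*} [Monoid G] [CommRing A]
    [AddCommGroup V] [Module A V] [AddCommGroup W] [Module A W] (ρ : G →* Module.End A V)
    (ρ' : G →* Module.End A W) (b : Basis (Fin 2) A V) (b' : Basis (Fin 2) A W)
    (P : Matrix (Fin 2) (Fin 2) A) (hP : IsUnit P)
    (h : ∀ g, P * matrixRep b ρ g = matrixRep b' ρ' g * P) :
    ∃ e : V ≃ₗ[A] W, ∀ g x, e (ρ g x) = ρ' g (e x) := by
  obtain ⟨u, rfl⟩ := hP
  refine ⟨LinearEquiv.ofLinearMap (Matrix.toLin b b' (u : Matrix (Fin 2) (Fin 2) A))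
    (Matrix.toLin b' b ((u⁻¹ : _) : Matrix (Fin 2) (Fin 2) A)) ?_ ?_, fun g x => ?_⟩
  · rw [← Matrix.toLin_mul, Units.mul_inv, Matrix.toLin_one]
  · rw [← Matrix.toLin_mul, Units.inv_mul, Matrix.toLin_one]
  · have h1 : ρ g = Matrix.toLin b b (matrixRep b ρ g) :=
      (Matrix.toLin_toMatrix b b (ρ g)).symm
    have h2 : ρ' g = Matrix.toLin b' b' (matrixRep b' ρ' g) :=
      (Matrix.toLin_toMatrix b' b' (ρ' g)).symm
    simp only [LinearEquiv.coe_ofLinearMap]
    rw [h1, h2, ← LinearMap.comp_apply, ← Matrix.toLin_mul, h, Matrix.toLin_mul b b' b',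
      LinearMap.comp_apply]

/-- The matrices of a base change. -/
theorem matrixRep_baseChange {G A B V : Type*} [Monoid G] [CommRing A] [CommRing B] [Algebra A B]
    [AddCommGroup V] [Module A V] (ρ : G →* Module.End A V)
    (ρB : G →* Module.End B (B ⊗[A] V)) (h : ∀ g, ρB g = (ρ g).baseChange B)
    (b : Basis (Fin 2) A V) (g : G) :
    matrixRep (Algebra.TensorProduct.basis B b) ρB g =
      (matrixRep b ρ g).map (algebraMap A B) := by
  show LinearMap.toMatrix _ _ (ρB g) = _
  rw [h, LinearMap.toMatrix_baseChange]
  rfl

/-- Transport of matrices along an equivariant isomorphism. -/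
theorem matrixRep_map {G A V W : Type*} [Monoid G] [CommRing A]
    [AddCommGroup V] [Module A V] [AddCommGroup W] [Module A W] (ρ : G →* Module.End A V)
    (ρ' : G →* Module.End A W) (e : V ≃ₗ[A] W) (he : ∀ g x, e (ρ g x) = ρ' g (e x))
    (b : Basis (Fin 2) A V) (g : G) :
    matrixRep (b.map e) ρ' g = matrixRep b ρ g := by
  ext i j
  show LinearMap.toMatrix _ _ (ρ' g) i j = LinearMap.toMatrix _ _ (ρ g) i j
  simp [LinearMap.toMatrix_apply, ← he]

/-- A basis of the reduction lifts to a basis. -/
theorem exists_basis_lift {R : Type*} [CommRing R] [IsLocalRing R] {V : Type*} [AddCommGroup V]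
    [Module R V] [Module.Free R V] [Module.Finite R V] (hV : finrank R V = 2)
    (bk : Basis (Fin 2) (ResidueField R) (ResidueField R ⊗[R] V)) :
    ∃ b : Basis (Fin 2) R V, Algebra.TensorProduct.basis (ResidueField R) b = bk := by
  have hsurj : Function.Surjective (TensorProduct.mk R (ResidueField R) V 1) :=
    TensorProduct.mk_surjective R V _ residue_surjective
  choose v hv using fun i => hsurj (bk i)
  have hspan : Submodule.span R (Set.range v) = ⊤ := by
    refine IsLocalRing.map_tensorProduct_mk_eq_top.1 ?_
    rw [Submodule.map_span, ← Set.range_comp,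
      show (TensorProduct.mk R (ResidueField R) V 1 : V → _) ∘ v = bk from funext hv]
    rw [eq_top_iff]
    intro z hzt
    have hz := bk.mem_span z
    clear hzt
    induction hz using Submodule.span_induction with
    | mem y hy => exact Submodule.subset_span hy
    | zero => exact zero_mem _
    | add y w _ _ hy hw => exact add_mem hy hw
    | smul c y _ hy =>
      obtain ⟨a, rfl⟩ := residue_surjective c
      rw [← ResidueField.algebraMap_eq, algebraMap_smul]
      exact Submodule.smul_mem _ a hy
  let b0 := basisTwo hV
  let f : V →ₗ[R] V := b0.constr ℕ v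
  have hf : Function.Surjective f := by
    rw [← LinearMap.range_eq_top, Module.Basis.constr_range, hspan]
  have hfb : Function.Bijective f := OrzechProperty.bijective_of_surjective_endomorphism f hf
  refine ⟨b0.map (LinearEquiv.ofBijective f hfb), Module.Basis.eq_of_apply_eq fun i => ?_⟩
  rw [Algebra.TensorProduct.basis_apply, Module.Basis.map_apply, LinearEquiv.ofBijective_apply,
    Module.Basis.constr_basis, ← hv i]
  rfl

/-- A basis of a base change of a residual representation with mapped matrices. -/
theorem exists_basis_baseChangeAlong {k k' : Type} [Field k] [Field k'] (φ : k →+* k')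
    (ρ : ResidualGaloisRep k) (b : Basis (Fin 2) k ρ.V) :
    ∃ bc : Basis (Fin 2) k' (ρ.baseChangeAlong φ).V, ∀ g,
      matrixRep bc (ρ.baseChangeAlong φ).ρ g = (matrixRep b ρ.ρ g).map φ := by
  let : Algebra k k' := φ.toAlgebra
  exact ⟨Algebra.TensorProduct.basis k' b,
    matrixRep_baseChange ρ.ρ (ρ.baseChangeAlong φ).ρ (fun _ => rfl) b⟩

end Fermat.Agent.TW
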