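import Mathlib.RingTheory.RootsOfUnity.AlgebraicallyClosed
import Fermat.Prelude.Def_GaloisRep_DeformationRingData
import Fermat.Prelude.Def_GaloisRep_LocalConditions
import Fermat.Agent.Gal.Compare
import Fermat.Agent.TW.Ad
import Fermat.Agent.TW.Dual
import Fermat.Agent.TW.Mat

/-!
# Tangent vectors of a deformation ring as cocycles

A tangent vector applied to the matrices of a deformation with cyclotomic determinant gives a
continuous cocycle with values in the trace zero matrices of the residual representation. This is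
the map from the tangent space of a deformation ring to Galois cohomology.
-/

noncomputable section

namespace Fermat.Agent.TW

open Module Fermat.Agent.Gal IsLocalRing TensorProduct Matrix Fermat.Agent.PT DualNumber

variable {O : Type} [CommRing O] [IsLocalRing O] {R : Type} [CommRing R] [IsLocalRing R]
  [Algebra O R] [IsLocalHom (algebraMap O R)]
variable {ρbar : ResidualGaloisRep (ResidueField O)}
  (bbar : Basis (Fin 2) (ResidueField O) ρbar.V)
variable (hres : Function.Surjective (residue R ∘ algebraMap O R))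

/-- The matrices of the residual representation. -/
abbrev rbar : AG →* M2 (ResidueField O) := matrixRep bbar ρbar.ρ

/-- A basis adapted to the residual basis. -/
def Adapted (ρ : GaloisRepAdic R) (b : Basis (Fin 2) R ρ.V) : Prop :=
  ∀ σ, (matrixRep b ρ.ρ σ).map (toRes hres) = rbar bbar σ

/-- A deformation has a basis adapted to the residual basis. -/
theorem exists_adapted (ρ : GaloisRepAdic R)
    (h : ρ.residual.IsEquiv (ρbar.baseChangeAlong (ResidueField.map (algebraMap O R)))) :
    ∃ b, Adapted bbar hres ρ b := by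
  obtain ⟨e⟩ := h
  obtain ⟨bc, hbc⟩ := exists_basis_baseChangeAlong (ResidueField.map (algebraMap O R)) ρbar bbar
  obtain ⟨b, hb⟩ := exists_basis_lift ρ.finrank_eq (bc.map e.toLinearEquiv.symm)
  refine ⟨b, fun σ => ?_⟩
  have h1 := matrixRep_baseChange ρ.ρ ρ.residual.ρ (fun _ => rfl) b σ
  rw [hb] at h1
  have h2 : matrixRep (bc.map e.toLinearEquiv.symm) ρ.residual.ρ σ =
      matrixRep bc (ρbar.baseChangeAlong (ResidueField.map (algebraMap O R))).ρ σ :=
    matrixRep_map _ ρ.residual.ρ e.toLinearEquiv.symm e.symm.map_apply bc σ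
  have h5 := (h2.trans (hbc σ)).symm.trans h1
  ext i j
  have h4 := congrFun (congrFun h5 i) j
  simp only [map_apply] at h4 ⊢
  apply (resEquiv hres).injective
  rw [map_resEquiv_toRes]
  exact h4.symm

variable {hres bbar}

/-- Evaluation of a tangent vector on the matrices. -/
def tanMat (ρ : GaloisRepAdic R) (b : Basis (Fin 2) R ρ.V) (δ : R → ResidueField O) (σ : AG) :
    M2 (ResidueField O) :=
  (matrixRep b ρ.ρ σ).map δ

variable {ρ : GaloisRepAdic R} {b : Basis (Fin 2) R ρ.V} (hb : Adapted bbar hres ρ b)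

include hb in
theorem toRes_entry (g : AG) (i j : Fin 2) :
    toRes hres (matrixRep b ρ.ρ g i j) = rbar bbar g i j := congrFun (congrFun (hb g) i) j

include hb in
theorem tanMat_mul {δ : R → ResidueField O} (hδ : δ ∈ tangent hres) (g h : AG) :
    tanMat ρ b δ (g * h) = rbar bbar g * tanMat ρ b δ h + tanMat ρ b δ g * rbar bbar h := by
  ext i j
  simp only [tanMat, map_mul, map_apply, Matrix.add_apply, mul_apply, Fin.sum_univ_two, hδ.1,
    hδ.2.2, toRes_entry hb]
  ring

theorem rbar_mul_inv (g : AG) : rbar bbar g * rbar bbar g⁻¹ = 1 := by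
  rw [← map_mul, mul_inv_cancel, map_one]

theorem rbar_inv_mul (g : AG) : rbar bbar g⁻¹ * rbar bbar g = 1 := by
  rw [← map_mul, inv_mul_cancel, map_one]

include hb in
/-- The cocycle of a tangent vector killing the determinant has trace zero. -/
theorem trace_tanMat_mul_eq_zero {δ : R → ResidueField O} (hδ : δ ∈ tangent hres) {g : AG}
    (hdet : δ (det (matrixRep b ρ.ρ g)) = 0) :
    trace (tanMat ρ b δ g * rbar bbar g⁻¹) = 0 := by
  have hz : ∀ x y, δ (x - y) = δ x - δ y := fun x y => by
    have := hδ.1 (x - y) y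
    rw [sub_add_cancel] at this
    rw [this, add_sub_cancel_right]
  rw [det_fin_two, hz, hδ.2.2, hδ.2.2] at hdet
  simp only [toRes_entry hb] at hdet
  have e := rbar_mul_inv (bbar := bbar) g
  set N := rbar bbar g
  set M := rbar bbar g⁻¹
  have hdM : det N * det M = 1 := by rw [← det_mul, e, det_one]
  have hM : M = det M • adjugate N := by
    calc M = (det M • adjugate N) * (N * M) := by
          rw [Matrix.smul_mul, ← mul_assoc, adjugate_mul, Matrix.smul_mul, one_mul, smul_smul,
            mul_comm (det M), hdM, one_smul]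
      _ = det M • adjugate N := by rw [e, mul_one]
  rw [hM, Matrix.mul_smul, trace_smul, adjugate_fin_two, trace_fin_two]
  simp only [mul_apply, Fin.sum_univ_two, of_apply, cons_val', cons_val_zero, cons_val_one,
    cons_val_fin_one, tanMat, map_apply, smul_eq_mul]
  linear_combination det M * hdet

/-- Tangent vectors kill a cyclotomic determinant. -/
theorem det_eq_zero_of_isCyclotomic {δ : R → ResidueField O} (hδ : δ ∈ tangent hres) {p : ℕ}
    [Fact p.Prime] (hρ : ρ.DetIsCyclotomic p) (g : AG) :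
    δ (det (matrixRep b ρ.ρ g)) = 0 := by
  obtain ⟨ζ, hζ⟩ := _root_.HasEnoughRootsOfUnity.exists_primitiveRoot (AlgebraicClosure ℚ) (p ^ 2)
  obtain ⟨a, -, ha⟩ := hζ.eq_pow_of_pow_eq_one
    (ξ := g ζ) (by rw [← map_pow, hζ.pow_eq_one, map_one])
  have hμ : ∀ μ : AlgebraicClosure ℚ, μ ^ p ^ 2 = 1 → g μ = μ ^ a := fun μ hμ => by
    obtain ⟨i, -, rfl⟩ := hζ.eq_pow_of_pow_eq_one hμ
    rw [map_pow, ← ha, pow_right_comm]
  obtain ⟨y, hy⟩ := Ideal.mem_span_singleton'.1 (hρ.2 2 g a hμ)
  have h0 : δ (y * ((p ^ 2 : ℕ) : R)) = 0 := by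
    have hp : toRes hres ((p : R)) = 0 := (toRes_eq_zero_iff hres _).2 hρ.1
    rw [Nat.cast_pow, pow_two, ← mul_assoc, hδ.2.2, hδ.2.2, map_mul, hp]
    have : δ (p : R) = 0 := by rw [← map_natCast (algebraMap O R) p]; exact hδ.2.1 _
    simp [this]
  have hdet : det (matrixRep b ρ.ρ g) = LinearMap.det (ρ.ρ g) :=
    LinearMap.det_toMatrix b (ρ.ρ g)
  have ha0 : δ (a : R) = 0 := by rw [← map_natCast (algebraMap O R) a]; exact hδ.2.1 _
  rw [hdet, ← sub_add_cancel (LinearMap.det (ρ.ρ g)) (a : R), hδ.1, ← hy, h0, ha0, add_zero]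

variable {p : ℕ} [Fact p.Prime] (hdet : ρ.DetIsCyclotomic p)

/-- The cocycle of a tangent vector. -/
def tanCocycle : tangent hres →ₗ[ResidueField O] (AG → sl2 (ResidueField O)) where
  toFun δ g := ⟨tanMat ρ b δ g * rbar bbar g⁻¹, by
    rw [sl2, LinearMap.mem_ker, traceLinearMap_apply]
    exact trace_tanMat_mul_eq_zero hb δ.2 (det_eq_zero_of_isCyclotomic (b := b) δ.2 hdet g)⟩
  map_add' δ δ' := by
    funext g
    ext1
    simp only [Pi.add_apply, Submodule.coe_add, ← add_mul]
    rfl
  map_smul' c δ := by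
    funext g
    ext1
    simp only [Pi.smul_apply, Submodule.coe_smul, RingHom.id_apply]
    rw [← Matrix.smul_mul]
    congr 1

theorem coe_tanCocycle (δ : tangent hres) (g : AG) :
    (tanCocycle hb hdet δ g : M2 (ResidueField O)) =
      tanMat ρ b δ g * rbar bbar g⁻¹ := rfl

theorem tanCocycle_mul (δ : tangent hres) (g h : AG) :
    tanCocycle hb hdet δ (g * h) =
      adRep (rbar bbar) g (tanCocycle hb hdet δ h) + tanCocycle hb hdet δ g := by
  ext1
  simp only [Submodule.coe_add, coe_adRep, coe_tanCocycle, tanMat_mul hb δ.2, _root_.mul_inv_rev,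
    map_mul, add_mul]
  congr 1
  · simp [mul_assoc]
  · rw [mul_assoc _ (rbar bbar h), ← mul_assoc (rbar bbar h), rbar_mul_inv, one_mul]

/-- The matrices of a tangent vector factor through an open level. -/
theorem exists_level_matrixRep (δ : tangent hres) :
    ∃ U ∈ lvQ, ∀ g, ∀ s ∈ U,
      tanMat ρ b (δ : R → ResidueField O) (g * s) = tanMat ρ b (δ : R → ResidueField O) g ∧
        rbar bbar s = 1 := by
  obtain ⟨L, hL, h2⟩ := ρ.isAdicContinuous 2
  obtain ⟨L', hL', h1⟩ := ρbar.factorsThroughFiniteLevel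
  refine ⟨(L ⊔ L').fixingSubgroup,
    have := IntermediateField.finiteDimensional_sup L L'
    fixingSubgroup_mem_krull _, fun g s hs => ⟨?_, ?_⟩⟩
  · have hs' : ∀ x ∈ L, s x = x := fun x hx => (IntermediateField.mem_fixingSubgroup_iff _ _).1 hs
      x ((le_sup_left : L ≤ L ⊔ L') hx)
    have hq : ∀ x ∈ maximalIdeal R ^ 2, (δ : R → ResidueField O) x = 0 := by
      intro x hx
      rw [pow_two] at hx
      refine Submodule.mul_induction_on hx (fun u hu v hv => ?_) (fun u v hu hv => ?_)
      · rw [δ.2.2.2, (toRes_eq_zero_iff hres u).2 hu, (toRes_eq_zero_iff hres v).2 hv]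
        ring
      · rw [δ.2.1, hu, hv, add_zero]
    ext i j
    have hd : matrixRep b ρ.ρ (g * s) i j - matrixRep b ρ.ρ g i j ∈ maximalIdeal R ^ 2 := by
      have h3 : ρ.ρ (g * s) (b j) - ρ.ρ g (b j) ∈
          (maximalIdeal R ^ 2) • (⊤ : Submodule R ρ.V) := by
        rw [map_mul, Module.End.mul_apply, ← map_sub]
        exact Submodule.smul_induction_on (p := fun v => ρ.ρ g v ∈ _) (h2 s hs' (b j))
          (fun r hr v _ => by rw [map_smul]; exact Submodule.smul_mem_smul hr trivial)
          (fun u v hu hv => by rw [map_add]; exact add_mem hu hv)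
      have h4 := repr_mem_of_mem_smul_top b h3 i
      rw [map_sub, Finsupp.sub_apply] at h4
      simpa [matrixRep, LinearMap.toMatrixAlgEquiv_apply] using h4
    show (δ : R → ResidueField O) _ = (δ : R → ResidueField O) _
    rw [← sub_add_cancel (matrixRep b ρ.ρ (g * s) i j) (matrixRep b ρ.ρ g i j), δ.2.1, hq _ hd,
      zero_add]
  · show LinearMap.toMatrixAlgEquiv bbar (ρbar.ρ s) = 1
    rw [h1 s fun x hx => (IntermediateField.mem_fixingSubgroup_iff _ _).1 hs
      x ((le_sup_right : L' ≤ L ⊔ L') hx), map_one]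

theorem tanCocycle_mem_Z1 (δ : tangent hres) :
    tanCocycle hb hdet δ ∈ Z1 lvQ (adRep (rbar bbar)) := by
  refine mem_Z1.2 ⟨?_, tanCocycle_mul hb hdet δ⟩
  obtain ⟨U, hU, hU'⟩ := exists_level_matrixRep (b := b) (bbar := bbar) δ
  refine ⟨U, hU, fun g s hs => ?_⟩
  ext1
  have : rbar bbar s⁻¹ = 1 := (hU' 1 s⁻¹ (inv_mem hs)).2
  rw [coe_tanCocycle, coe_tanCocycle, (hU' g s hs).1, _root_.mul_inv_rev, map_mul, this, one_mul]

end Fermat.Agent.TW
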