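import Mathlib.LinearAlgebra.Charpoly.BaseChange
import Mathlib.LinearAlgebra.Determinant
import Mathlib.RingTheory.TensorProduct.Free
import Fermat.Prelude.Def_GaloisRep_Flat
import Fermat.Prelude.Def_GaloisRep_StrictOrdinary
import Fermat.Agent.Gal.Compare

/-!
# Local conditions are stable under surjective base change

Cyclotomic determinant, being unramified, unipotent on inertia, strictly ordinary or flat are
preserved under base change of adic Galois representations along local maps (surjective for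
flatness). Used for the universal deformation ring and its quotients.
-/

noncomputable section

namespace Fermat.Agent.TW

open IsLocalRing TensorProduct Module Fermat.Agent.Gal

variable {A B : Type} [CommRing A] [IsLocalRing A] [CommRing B] [IsLocalRing B] {φ : A →+* B}
  (hφ : IsLocalHom φ) {ρ : GaloisRepAdic A} {p q : ℕ}

theorem natCast_mem_maximal_map (hφ : IsLocalHom φ) (h : (p : A) ∈ maximalIdeal A) :
    (p : B) ∈ maximalIdeal B := by
  rw [← map_natCast φ p]
  exact map_nonunit φ _ h

/-- Cyclotomic determinant is preserved by base change. -/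
theorem detIsCyclotomic_baseChange (h : ρ.DetIsCyclotomic p) :
    (ρ.baseChangeAlong φ hφ).DetIsCyclotomic p := by
  refine ⟨natCast_mem_maximal_map hφ h.1, fun n σ a ha => ?_⟩
  let : Algebra A B := φ.toAlgebra
  change LinearMap.det ((ρ.ρ σ).baseChange B) - (a : B) ∈ _
  obtain ⟨y, hy⟩ := Ideal.mem_span_singleton'.1 (h.2 n σ a ha)
  rw [LinearMap.det_baseChange, Ideal.mem_span_singleton']
  refine ⟨algebraMap A B y, ?_⟩
  rw [← map_natCast (algebraMap A B) a, ← map_sub, ← hy, map_mul, map_natCast]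

/-- Being unramified is preserved by base change. -/
theorem isUnramifiedAt_baseChange (h : ρ.IsUnramifiedAt q) :
    (ρ.baseChangeAlong φ hφ).IsUnramifiedAt q := fun P hP σ hσ => by
  let : Algebra A B := φ.toAlgebra
  change (ρ.ρ σ).baseChange B = 1
  rw [h P hP σ hσ, LinearMap.baseChange_one]

/-- Being unipotent on inertia is preserved by base change. -/
theorem isUnipotentOnInertiaAt_baseChange (h : ρ.IsUnipotentOnInertiaAt q) :
    (ρ.baseChangeAlong φ hφ).IsUnipotentOnInertiaAt q := fun P hP σ hσ => by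
  let : Algebra A B := φ.toAlgebra
  change ((ρ.ρ σ).baseChange B).charpoly = _
  rw [LinearMap.charpoly_baseChange, h P hP σ hσ]
  simp

section Line

variable {S S' V : Type} [CommRing S] [CommRing S'] [Algebra S S'] [AddCommGroup V] [Module S V]
  (b : Basis (Fin 2) S V) {f : Module.End S V}

/-- A stable line stays stable after extending the scalars. -/
theorem baseChange_line_stable (h : ∀ v ∈ S ∙ b 0, f v ∈ S ∙ b 0) :
    ∀ v ∈ S' ∙ Algebra.TensorProduct.basis S' b 0,
      f.baseChange S' v ∈ S' ∙ Algebra.TensorProduct.basis S' b 0 := fun v hv => by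
  obtain ⟨c, rfl⟩ := Submodule.mem_span_singleton.1 hv
  obtain ⟨a, ha⟩ := Submodule.mem_span_singleton.1 (h _ (Submodule.mem_span_singleton_self _))
  refine Submodule.mem_span_singleton.2 ⟨c * algebraMap S S' a, ?_⟩
  rw [map_smul, Algebra.TensorProduct.basis_apply, LinearMap.baseChange_tmul, ← ha, tmul_smul,
    mul_smul, algebraMap_smul]

/-- A scalar action modulo a line stays one after extending the scalars. -/
theorem baseChange_sub_smul_mem {a : S} (h : ∀ v, f v - a • v ∈ S ∙ b 0) (v : S' ⊗[S] V) :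
    f.baseChange S' v - algebraMap S S' a • v ∈ S' ∙ Algebra.TensorProduct.basis S' b 0 := by
  induction v using TensorProduct.induction_on with
  | zero => simp
  | tmul c w =>
    obtain ⟨x, hx⟩ := Submodule.mem_span_singleton.1 (h w)
    refine Submodule.mem_span_singleton.2 ⟨x • c, ?_⟩
    rw [LinearMap.baseChange_tmul, algebraMap_smul, ← tmul_smul, ← tmul_sub, ← hx,
      Algebra.TensorProduct.basis_apply, smul_tmul', smul_eq_mul, mul_one, tmul_smul, smul_tmul']
  | add v w hv hw => rw [map_add, smul_add, add_sub_add_comm]; exact add_mem hv hw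

/-- A trivial action modulo a line stays trivial after extending the scalars. -/
theorem baseChange_sub_mem (h : ∀ v, f v - v ∈ S ∙ b 0) (v : S' ⊗[S] V) :
    f.baseChange S' v - v ∈ S' ∙ Algebra.TensorProduct.basis S' b 0 := by
  have h1 := baseChange_sub_smul_mem (S' := S') b (a := 1) (f := f)
    (fun w => by rw [one_smul]; exact h w) v
  rwa [map_one, one_smul] at h1

end Line

/-- Being strictly ordinary is preserved by base change. -/
theorem isStrictOrdinaryAt_baseChange (h : ρ.IsStrictOrdinaryAt p) :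
    (ρ.baseChangeAlong φ hφ).IsStrictOrdinaryAt p := by
  let : Algebra A B := φ.toAlgebra
  refine ⟨natCast_mem_maximal_map hφ h.1, fun P hP => ?_⟩
  obtain ⟨L, ⟨b, rfl⟩, hD, hI, hxz⟩ := h.2 P hP
  let bc : Basis (Fin 2) B (B ⊗[A] ρ.V) := Algebra.TensorProduct.basis B b
  let L' : Submodule B (B ⊗[A] ρ.V) := B ∙ bc 0
  have hb0 : bc 0 = (1 : B) ⊗ₜ[A] b 0 := Algebra.TensorProduct.basis_apply b 0
  refine ⟨L', ⟨bc, rfl⟩, fun σ hσ => baseChange_line_stable b (hD σ hσ),
    fun σ hσ => baseChange_sub_mem b (hI σ hσ), ?_⟩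
  · intro σ hσ
    obtain ⟨x, z, hx, hz, hxz'⟩ := hxz σ hσ
    refine ⟨algebraMap A B x, algebraMap A B z, ?_, ?_, fun n a ha => ?_⟩
    · intro (w : B ⊗[A] ρ.V) hw
      obtain ⟨c, rfl⟩ := (Submodule.mem_span_singleton (R := B) (M := B ⊗[A] ρ.V) (y := bc 0)).1 hw
      change (ρ.ρ σ).baseChange B (c • bc 0) = algebraMap A B x • (c • bc 0)
      rw [map_smul, hb0, LinearMap.baseChange_tmul, hx _ (Submodule.mem_span_singleton_self _),
        tmul_smul, algebraMap_smul, smul_comm]
    · exact baseChange_sub_smul_mem b hz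
    · obtain ⟨y, hy⟩ := Ideal.mem_span_singleton'.1 (hxz' n a ha)
      refine Ideal.mem_span_singleton'.2 ⟨algebraMap A B y, ?_⟩
      rw [← map_natCast (algebraMap A B) a, ← map_mul (algebraMap A B), ← map_sub, ← hy, map_mul,
        map_natCast]

omit [IsLocalRing A] in
theorem mem_smul_top_iff_repr {V : Type*} [AddCommGroup V] [Module A V] (b : Basis (Fin 2) A V)
    (I : Ideal A) (v : V) : v ∈ I • (⊤ : Submodule A V) ↔ ∀ i, b.repr v i ∈ I := by
  refine ⟨fun h i => repr_mem_of_mem_smul_top b h i, fun h => ?_⟩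
  rw [← b.sum_repr v]
  exact Submodule.sum_mem _ fun i _ => Submodule.smul_mem_smul (h i) Submodule.mem_top

/-- Being flat is preserved by surjective base change. -/
theorem isFlatAt_baseChange (hsurj : Function.Surjective φ) (h : ρ.IsFlatAt p) :
    (ρ.baseChangeAlong φ hφ).IsFlatAt p := by
  let : Algebra A B := φ.toAlgebra
  refine ⟨?_, fun I hI => ?_⟩
  · have := h.1
    refine Finite.of_surjective (ResidueField.map φ) fun y => ?_
    obtain ⟨y, rfl⟩ := residue_surjective y
    obtain ⟨x, rfl⟩ := hsurj y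
    exact ⟨residue A x, ResidueField.map_residue φ x⟩
  let J : Ideal A := I.comap φ
  have hJ : Finite (A ⧸ J) :=
    Finite.of_injective (Ideal.quotientMap I φ le_rfl) Ideal.quotientMap_injective
  obtain ⟨H, iC, iH, hf, hfl, hc, e, headd, heσ⟩ := h.2 J hJ
  let b : Basis (Fin 2) A ρ.V := basisTwo ρ.finrank_eq
  let bc : Basis (Fin 2) B (B ⊗[A] ρ.V) := Algebra.TensorProduct.basis B b
  let f : ρ.V →ₗ[A] (B ⊗[A] ρ.V) ⧸ (I • (⊤ : Submodule B (B ⊗[A] ρ.V))) :=
    ((Submodule.mkQ _).restrictScalars A).comp (TensorProduct.mk A B ρ.V 1)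
  have hf_surj : Function.Surjective f := fun y => by
    obtain ⟨y, rfl⟩ := Submodule.mkQ_surjective _ y
    obtain ⟨v, hv⟩ := TensorProduct.mk_surjective A ρ.V B hsurj y
    exact ⟨v, by simp [f, ← hv]⟩
  have hker : LinearMap.ker f = J • (⊤ : Submodule A ρ.V) := by
    ext v
    rw [LinearMap.mem_ker, mem_smul_top_iff_repr b]
    change (Submodule.mkQ _ ((1 : B) ⊗ₜ[A] v)) = 0 ↔ _
    rw [Submodule.mkQ_apply, Submodule.Quotient.mk_eq_zero, mem_smul_top_iff_repr bc]
    refine forall_congr' fun i => ?_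
    simp [bc, Algebra.TensorProduct.basis_repr_tmul, J, RingHom.algebraMap_toAlgebra]
  let E : (ρ.V ⧸ (J • (⊤ : Submodule A ρ.V))) ≃ₗ[A]
      (B ⊗[A] ρ.V) ⧸ (I • (⊤ : Submodule B (B ⊗[A] ρ.V))) :=
    (Submodule.quotEquivOfEq _ _ hker.symm).trans (f.quotKerEquivOfSurjective hf_surj)
  refine ⟨H, iC, iH, hf, hfl, hc, e.trans E.toEquiv, fun u v => ?_, fun σ u v huv => ?_⟩
  · exact (congrArg E (headd u v)).trans (map_add E _ _)
  · change E (e v) = (ρ.baseChangeAlong φ hφ).levelAction I σ (E (e u))
    rw [heσ σ u v huv]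
    obtain ⟨w, hw⟩ := Submodule.mkQ_surjective _ (e u)
    rw [← hw]
    rfl

end Fermat.Agent.TW
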