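import Fermat.Agent.TW.Selection

/-!
# Detection of adjoint classes by Frobenius elements

A crossed homomorphism into the adjoint with vanishing `trace (C g * g)` is principal, so every
non-trivial class is non-trivial on the decomposition group of some prime outside a given set.
Used to detect dual Selmer classes by auxiliary primes.
-/

noncomputable section

namespace Fermat.Agent.TW

open Matrix Fermat.Agent.PT

local notation "Qb" => AlgebraicClosure ℚ

variable {k : Type} [Field k] {rb : AG →* M2 k}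

/-- A non-trivial class of the adjoint is non-trivial at some Frobenius element. -/
theorem exists_frobenius_not_trivial (hbig : BigImage rb) (h2 : (2 : k) ≠ 0)
    (hfin : GaloisFactorsThroughFiniteLevel rb) (S : Finset ℕ) {c : AG → sl2 k}
    (hc : c ∈ Z1 lvQ (adRep rb)) (hc0 : c ∉ B1 (adRep rb)) :
    ∃ q : ℕ, q.Prime ∧ q ∉ S ∧ ∃ P : ValuationSubring Qb, P.LiesOverPrime q ∧
      c ∉ locB1 (adRep rb) (P.decompositionSubgroup ℚ) := by
  obtain ⟨⟨U, ⟨E, hE, hEU⟩, hUc⟩, hcoc⟩ := mem_Z1.1 hc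
  obtain ⟨g, hg⟩ : ∃ g, phiFn rb (fun g => (c g : M2 k)) g ≠ 0 := by
    by_contra! hΦ
    obtain ⟨Z, hZ, hZc⟩ := exists_principal_of_irred hbig.irr h2
      (C := fun g => (c g : M2 k))
      (fun g h => by simp only [hcoc, Submodule.coe_add, coe_adRep]) hΦ
    exact hc0 ⟨⟨Z, mem_sl2.2 (by rwa [trace_fin_two] at hZ)⟩,
      funext fun g => Subtype.ext (by simp [d0_apply, coe_adRep, hZc g])⟩
  obtain ⟨L, hL, hLrb⟩ := hfin
  have : FiniteDimensional ℚ (L ⊔ E : IntermediateField ℚ Qb) :=
    IntermediateField.finiteDimensional_sup L E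
  obtain ⟨q, hq, hqS, P, hP, φ, hφ, a, b, ha, -⟩ := Gal.exists_frobenius_generates (L ⊔ E) g S
  refine ⟨q, hq, hqS, P, hP, fun ⟨X, hX⟩ => hg ?_⟩
  have hcg : c g = c (φ ^ a) := by
    have := hUc g (g⁻¹ * φ ^ a) (hEU ((IntermediateField.mem_fixingSubgroup_iff _ _).2
      fun x hx => by
        rw [AlgEquiv.mul_apply, ← ha x ((le_sup_right : E ≤ L ⊔ E) hx)]
        exact g.symm_apply_apply x))
    rw [mul_inv_cancel_left] at this
    exact this.symm
  have hrb : rb g = rb (φ ^ a) :=
    map_eq_of_eqOn hLrb fun x hx => ha x ((le_sup_left : L ≤ L ⊔ E) hx)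
  have e := congrArg (fun Y : sl2 k => trace ((Y : M2 k) * rb (φ ^ a)))
    (hX (φ ^ a) (pow_mem (Gal.isFrobeniusAt_iff.1 hφ).1 a))
  simp only [AddSubgroupClass.coe_sub, coe_adRep, sub_mul, trace_sub] at e
  rw [mul_assoc, inv_mul_rb, mul_one, trace_mul_comm (rb (φ ^ a)), sub_self] at e
  rw [phiFn, hrb, hcg]
  exact e

end Fermat.Agent.TW
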