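import Mathlib.FieldTheory.IsAlgClosed.AlgebraicClosure
import Mathlib.GroupTheory.Index
import Mathlib.LinearAlgebra.Dual.Lemmas
import Mathlib.Tactic.LinearCombination
import Fermat.Agent.TW.Ad

/-!
# The adjoint representation of an image without index two reducibility

If a two-dimensional representation stays absolutely irreducible on every subgroup of index two,
its adjoint representation on trace zero matrices is irreducible and every normal subgroup with
abelian quotient and trivial determinant has an element with distinct eigenvalues.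
These are the group theoretic facts behind the selection of Taylor–Wiles primes.
-/

noncomputable section

namespace Fermat.Agent.TW

open Matrix Module

section Defs

variable {K : Type*} [Field K] {G : Type*} [Group G]

/-- No line is stable. -/
def Irred2 (rb : G →* M2 K) : Prop :=
  ∀ v : Fin 2 → K, v ≠ 0 → ∃ g, ∀ a : K, rb g *ᵥ v ≠ a • v

/-- The representation over the algebraic closure. -/
abbrev rbBar {k : Type*} [Field k] (rb : G →* M2 k) : G →* M2 (AlgebraicClosure k) :=
  ((algebraMap k (AlgebraicClosure k)).mapMatrix.toMonoidHom).comp rb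

/-- Absolute irreducibility on all subgroups of index at most two. -/
structure BigImage {k : Type*} [Field k] (rb : G →* M2 k) : Prop where
  irr : Irred2 (rbBar rb)
  irrTwo : ∀ H : Subgroup G, H.index = 2 → Irred2 ((rbBar rb).comp H.subtype)

end Defs

section Basic

variable {K : Type*} [Field K]

/-- The kernel of a non-zero matrix is at most a line. -/
theorem exists_smul_of_mulVec_eq_zero {X : M2 K} (hX : X ≠ 0) {v w : Fin 2 → K} (hv : v ≠ 0)
    (h : X *ᵥ v = 0) (h' : X *ᵥ w = 0) : ∃ a : K, w = a • v := by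
  have h0 := congrFun h 0
  have h1 := congrFun h 1
  have h0' := congrFun h' 0
  have h1' := congrFun h' 1
  simp [mulVec, dotProduct, Fin.sum_univ_two] at h0 h1 h0' h1'
  by_cases hd : v 0 * w 1 - v 1 * w 0 = 0
  · by_cases hv0 : v 0 = 0
    · have hv1 : v 1 ≠ 0 := fun e => hv (funext fun i => by fin_cases i <;> simp [hv0, e])
      refine ⟨w 1 / v 1, funext fun i => ?_⟩
      have : w 0 = 0 := by simpa [hv0, hv1] using hd
      fin_cases i <;> simp [hv0, hv1, this]
    · refine ⟨w 0 / v 0, funext fun i => ?_⟩
      fin_cases i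
      · simp [hv0]
      · simp only [Fin.mk_one, Pi.smul_apply, smul_eq_mul]
        field_simp
        linear_combination hd
  · refine absurd ?_ hX
    ext i j
    fin_cases i <;> fin_cases j <;> simp <;>
      refine (mul_eq_zero.1 ?_).resolve_right hd
    · linear_combination w 1 * h0 - v 1 * h0'
    · linear_combination v 0 * h0' - w 0 * h0
    · linear_combination w 1 * h1 - v 1 * h1'
    · linear_combination v 0 * h1' - w 0 * h1

theorem sq_eq_of_trace_zero {X : M2 K} (h : trace X = 0) : X * X = (-det X) • 1 := by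
  rw [trace_fin_two] at h
  have h' : X 1 1 = -X 0 0 := by linear_combination h
  ext i j
  fin_cases i <;> fin_cases j <;>
    simp [mul_apply, Fin.sum_univ_two, det_fin_two, h'] <;> ring

/-- Nilpotent matrices which are orthogonal for the trace form are proportional. -/
theorem exists_smul_of_nilpotent_orthogonal (h2 : (2 : K) ≠ 0) {N N' : M2 K} (hN : N ≠ 0)
    (ht : trace N = 0) (hd : det N = 0) (ht' : trace N' = 0) (hd' : det N' = 0)
    (h : trace (N * N') = 0) : ∃ t : K, N' = t • N := by
  rw [trace_fin_two] at ht ht'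
  simp [trace_fin_two, mul_apply, Fin.sum_univ_two] at h
  rw [det_fin_two] at hd hd'
  have e : N 1 1 = -N 0 0 := by linear_combination ht
  have e' : N' 1 1 = -N' 0 0 := by linear_combination ht'
  rw [e] at hd
  rw [e'] at hd'
  rw [e, e'] at h
  set a := N 0 0
  set b := N 0 1
  set c := N 1 0
  set a' := N' 0 0
  set b' := N' 0 1
  set c' := N' 1 0
  have hbc : b * c' = c * b' := by
    have : (b * c' - c * b') * (b * c' - c * b') = 0 := by
      linear_combination (b * c' + c * b' - 2 * a * a') * h + 4 * b' * c' * hd - 4 * a ^ 2 * hd'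
    exact sub_eq_zero.1 (mul_self_eq_zero.1 this)
  have haa : a * a' = -(b * c') := by
    have : 2 * (a * a' + b * c') = 0 := by linear_combination h + hbc
    linear_combination (mul_eq_zero.1 this).resolve_left h2
  by_cases hb : b = 0
  · have ha : a = 0 := by
      rw [hb] at hd
      exact mul_self_eq_zero.1 (by linear_combination -hd)
    have hc : c ≠ 0 := fun hc => hN (by
      ext i j; fin_cases i <;> fin_cases j <;> simp [a, b, c] at * <;> simp [*])
    have hb' : b' = 0 := by
      rw [hb, zero_mul] at hbc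
      exact (mul_eq_zero.1 hbc.symm).resolve_left hc
    have ha' : a' = 0 := by
      rw [hb'] at hd'
      exact mul_self_eq_zero.1 (by linear_combination -hd')
    refine ⟨c' / c, ?_⟩
    ext i j
    fin_cases i <;> fin_cases j <;> simp [a, b, c, a', b', c'] at * <;> simp [*]
  · obtain ⟨t, hbt⟩ : ∃ t, b' = t * b := ⟨b' / b, (div_mul_cancel₀ _ hb).symm⟩
    have hc' : c' = t * c := mul_left_cancel₀ hb (by linear_combination hbc + c * hbt)
    have ha' : a' = t * a := by
      rw [hc'] at haa hd'
      rw [hbt] at hd'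
      by_cases ha : a = 0
      · rw [ha] at hd ⊢
        rw [mul_zero]
        exact mul_self_eq_zero.1 (by linear_combination -hd' + t ^ 2 * hd)
      · exact mul_left_cancel₀ ha (by linear_combination haa + t * hd)
    refine ⟨t, ?_⟩
    ext i j
    fin_cases i <;> fin_cases j <;> simp [a, b, c, a', b', c'] at * <;> simp [*]

variable {G : Type*} [Group G] {rb : G →* M2 K}

theorem inv_mul_rb (g : G) : rb g⁻¹ * rb g = 1 := by
  rw [← map_mul, inv_mul_cancel, map_one]

theorem mul_inv_rb (g : G) : rb g * rb g⁻¹ = 1 := by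
  rw [← map_mul, mul_inv_cancel, map_one]

/-- Over an algebraically closed field no trace zero matrix spans a stable line. -/
theorem eq_zero_of_adStable [IsAlgClosed K] (h2 : (2 : K) ≠ 0) (hirr : Irred2 rb)
    (hirr2 : ∀ H : Subgroup G, H.index = 2 → Irred2 (rb.comp H.subtype)) {X : M2 K}
    (hX : trace X = 0) (h : ∀ g, ∃ a : K, rb g * X = a • (X * rb g)) : X = 0 := by
  by_contra hX0
  have ha0 : ∀ g, ∀ a : K, rb g * X = a • (X * rb g) → a ≠ 0 := fun g a e ha => hX0 <| by
    calc X = rb g⁻¹ * (rb g * X) := by rw [← mul_assoc, inv_mul_rb, one_mul]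
      _ = 0 := by rw [e, ha, zero_smul, mul_zero]
  by_cases hδ : det X = 0
  · obtain ⟨v, hv, hv'⟩ := exists_mulVec_eq_zero_iff.2 hδ
    obtain ⟨g, hg⟩ := hirr v hv
    obtain ⟨a, ha⟩ := h g
    have : X *ᵥ (rb g *ᵥ v) = 0 := by
      have e := congrArg (fun M => M *ᵥ v) ha
      simp only [← mulVec_mulVec, smul_mulVec, hv', mulVec_zero] at e
      exact (smul_eq_zero.1 e.symm).resolve_left (ha0 g a ha)
    obtain ⟨b, hb⟩ := exists_smul_of_mulVec_eq_zero hX0 hv hv' this
    exact hg b hb
  · have hsq : ∀ g, ∀ a : K, rb g * X = a • (X * rb g) → a = 1 ∨ a = -1 := by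
      intro g a e
      have e2 : rb g * (X * X) = (a * a) • (X * X * rb g) := by
        rw [← mul_assoc, e, Matrix.smul_mul, mul_assoc X, e, Matrix.mul_smul, smul_smul, mul_assoc]
      rw [sq_eq_of_trace_zero hX, Matrix.mul_smul, Matrix.smul_mul, one_mul, mul_one,
        smul_smul] at e2
      have e3 : (1 - a * a) * (-det X) = 0 := by
        by_contra hne
        have : ((1 - a * a) * (-det X)) • rb g = 0 := by
          rw [sub_mul, sub_smul, one_mul, ← e2, sub_self]
        have hg0 : rb g = 0 := (smul_eq_zero.1 this).resolve_left hne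
        have h10 := mul_inv_rb (rb := rb) g
        rw [hg0, zero_mul] at h10
        simpa using congrFun (congrFun h10 0) 0
      have := (mul_eq_zero.1 e3).resolve_right (neg_ne_zero.2 hδ)
      exact mul_self_eq_one_iff.1 (sub_eq_zero.1 this).symm
    obtain ⟨s, hs⟩ := IsAlgClosed.exists_eq_mul_self (-det X)
    have hdet : det (X - s • (1 : M2 K)) = 0 := by
      rw [trace_fin_two] at hX
      simp [det_fin_two] at hs ⊢
      linear_combination (-s) * hX - hs
    obtain ⟨v, hv, hv'⟩ := exists_mulVec_eq_zero_iff.2 hdet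
    have hne : X - s • (1 : M2 K) ≠ 0 := fun e => by
      rw [sub_eq_zero] at e
      rw [e, trace_smul, trace_one, smul_eq_mul, Fintype.card_fin, Nat.cast_ofNat] at hX
      have hs0 := (mul_eq_zero.1 hX).resolve_right h2
      rw [hs0, zero_mul, neg_eq_zero] at hs
      exact hδ hs
    let H : Subgroup G :=
      { carrier := {g | rb g * X = X * rb g}
        one_mem' := by simp
        mul_mem' := fun {a b} ha hb => by
          simp only [Set.mem_ofPred_eq, map_mul] at *
          rw [mul_assoc, hb, ← mul_assoc, ha, mul_assoc]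
        inv_mem' := fun {a} ha => by
          simp only [Set.mem_ofPred_eq] at *
          calc rb a⁻¹ * X = rb a⁻¹ * (X * rb a) * rb a⁻¹ := by
                rw [mul_assoc, mul_assoc, mul_inv_rb, mul_one]
            _ = X * rb a⁻¹ := by rw [← ha, ← mul_assoc, inv_mul_rb, one_mul] }
    have hline : ∀ g ∈ H, ∃ b : K, rb g *ᵥ v = b • v := fun g hg => by
      refine exists_smul_of_mulVec_eq_zero hne hv hv' ?_
      have e : (X - s • (1 : M2 K)) * rb g = rb g * (X - s • (1 : M2 K)) := by
        rw [sub_mul, mul_sub, Matrix.smul_mul, Matrix.mul_smul, one_mul, mul_one]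
        rw [show rb g * X = X * rb g from hg]
      rw [mulVec_mulVec, e, ← mulVec_mulVec, hv', mulVec_zero]
    by_cases hH : H = ⊤
    · obtain ⟨g, hg⟩ := hirr v hv
      obtain ⟨b, hb⟩ := hline g (hH ▸ Subgroup.mem_top g)
      exact hg b hb
    · have hidx : H.index = 2 := by
        obtain ⟨a, ha⟩ : ∃ a, a ∉ H := by
          by_contra! hc; exact hH ((Subgroup.eq_top_iff' H).2 hc)
        have hm1 : ∀ g ∉ H, rb g * X = (-1 : K) • (X * rb g) := fun g hg => by
          obtain ⟨c, hc⟩ := h g
          rcases hsq g c hc with rfl | rfl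
          · exact absurd (by rw [one_smul] at hc; exact hc) hg
          · exact hc
        refine Subgroup.index_eq_two_iff.2 ⟨a, fun b => ?_⟩
        by_cases hb : b ∈ H
        · exact Or.inr ⟨hb, fun hba => ha (by simpa using H.mul_mem (H.inv_mem hb) hba)⟩
        · refine Or.inl ⟨?_, hb⟩
          show rb (b * a) * X = X * rb (b * a)
          rw [map_mul, mul_assoc, hm1 a ha, Matrix.mul_smul, ← mul_assoc, hm1 b hb,
            Matrix.smul_mul, smul_smul, neg_one_mul, neg_neg, one_smul, mul_assoc]
      obtain ⟨g, hg⟩ := hirr2 H hidx v hv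
      obtain ⟨b, hb⟩ := hline g g.2
      exact hg b hb

end Basic

section Descend

variable {k : Type*} [Field k] {G : Type*} [Group G] {rb : G →* M2 k}

theorem two_ne_zero_algebraicClosure (h2 : (2 : k) ≠ 0) : (2 : AlgebraicClosure k) ≠ 0 :=
  fun e => h2 ((algebraMap k (AlgebraicClosure k)).injective (by rw [map_ofNat, e, map_zero]))

/-- For a big image, no non-zero trace zero matrix spans a line stable under conjugation. -/
theorem BigImage.eq_zero_of_adStable (hbig : BigImage rb) (h2 : (2 : k) ≠ 0) {X : M2 k}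
    (hX : trace X = 0) (h : ∀ g, ∃ a : k, rb g * X = a • (X * rb g)) : X = 0 := by
  have := Fermat.Agent.TW.eq_zero_of_adStable (two_ne_zero_algebraicClosure h2) hbig.irr
    hbig.irrTwo (X := (algebraMap k (AlgebraicClosure k)).mapMatrix X)
    (by rw [RingHom.mapMatrix_apply, trace_fin_two, map_apply, map_apply, ← map_add,
      ← trace_fin_two, hX, map_zero])
    (fun g => by
      obtain ⟨a, ha⟩ := h g
      refine ⟨algebraMap k _ a, ?_⟩
      show (rb g).map (algebraMap k (AlgebraicClosure k)) *
          X.map (algebraMap k (AlgebraicClosure k)) =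
        _ • (X.map (algebraMap k (AlgebraicClosure k)) *
          (rb g).map (algebraMap k (AlgebraicClosure k)))
      rw [← Matrix.map_mul, ← Matrix.map_mul, ha]
      exact Matrix.map_smul' _ a _ (fun x y => map_mul _ x y))
  ext i j
  exact (algebraMap k (AlgebraicClosure k)).injective
    (by simpa using congrFun (congrFun this i) j)

theorem BigImage.exists_not_scalar (hbig : BigImage rb) :
    ∃ g, ∀ a : k, rb g ≠ a • 1 := by
  by_contra! hc
  obtain ⟨g, hg⟩ := hbig.irr ![1, 0] (fun e => by simpa using congrFun e 0)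
  obtain ⟨a, ha⟩ := hc g
  refine hg (algebraMap k _ a) ?_
  show ((algebraMap k (AlgebraicClosure k)).mapMatrix (rb g)) *ᵥ _ = _
  rw [ha]
  ext i
  fin_cases i <;> simp [mulVec, dotProduct, Fin.sum_univ_two]

/-- A normal subgroup with abelian quotient and determinant one has an element with distinct
eigenvalues. -/
theorem BigImage.exists_distinct (hbig : BigImage rb) (h2 : (2 : k) ≠ 0) (H : Subgroup G)
    [H.Normal] (hdet : ∀ h ∈ H, det (rb h) = 1) (hcomm : ∀ a b : G, a * b * a⁻¹ * b⁻¹ ∈ H) :
    ∃ h ∈ H, trace (rb h) ^ 2 ≠ 4 := by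
  by_contra! hall
  -- the nilpotent part of an element of `H`
  set half : k := (2 : k)⁻¹ with hhalf
  have hh : 2 * half = 1 := mul_inv_cancel₀ h2
  let nil : G → M2 k := fun h => rb h - (half * trace (rb h)) • 1
  have hnil : ∀ h, trace (nil h) = 0 := fun h => by
    simp only [nil, trace_sub, trace_smul, trace_one, Fintype.card_fin, smul_eq_mul,
      Nat.cast_ofNat]
    linear_combination (-trace (rb h)) * hh
  have hnild : ∀ h ∈ H, det (nil h) = 0 := fun h hh' => by
    have e := hdet h hh'
    have e4 := hall h hh'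
    rw [det_fin_two] at e
    rw [trace_fin_two] at e4
    simp only [nil, det_fin_two, trace_fin_two, Matrix.sub_apply, Matrix.smul_apply,
      Matrix.one_apply_eq, smul_eq_mul, mul_one,
          Matrix.one_apply_ne (show (0 : Fin 2) ≠ 1 by decide),
      Matrix.one_apply_ne (show (1 : Fin 2) ≠ 0 by decide), mul_zero, sub_zero]
    linear_combination e + (-(half * half)) * e4 +
      ((rb h 0 0 + rb h 1 1) ^ 2 * half - 2 * half - 1) * hh
  by_cases hsc : ∀ h ∈ H, nil h = 0
  · obtain ⟨g₀, hg₀⟩ := hbig.exists_not_scalar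
    refine hg₀ (half * trace (rb g₀)) (sub_eq_zero.1 (hbig.eq_zero_of_adStable h2 (hnil g₀)
      fun g => ?_))
    set l := half * trace (rb (g * g₀ * g⁻¹ * g₀⁻¹)) with hl
    have hcg : rb (g * g₀ * g⁻¹ * g₀⁻¹) = l • 1 := sub_eq_zero.1 (hsc _ (hcomm g g₀))
    have e : rb g * rb g₀ = l • (rb g₀ * rb g) := by
      rw [← map_mul, show g * g₀ = g * g₀ * g⁻¹ * g₀⁻¹ * (g₀ * g) by group, map_mul, hcg,
        Matrix.smul_mul, one_mul, map_mul]
    have htr : trace (rb g₀) = l * trace (rb g₀) := by
      have e' : rb g * rb g₀ * rb g⁻¹ = l • rb g₀ := by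
        rw [e, Matrix.smul_mul, mul_assoc, mul_inv_rb, mul_one]
      have := congrArg trace e'
      rwa [trace_mul_cycle, inv_mul_rb, one_mul, trace_smul, smul_eq_mul] at this
    refine ⟨l, ?_⟩
    rw [mul_sub, sub_mul, e, Matrix.mul_smul, Matrix.smul_mul, mul_one, one_mul, smul_sub,
      smul_smul]
    congr 2
    linear_combination half * htr
  · push Not at hsc
    obtain ⟨h₀, hh₀, hN⟩ := hsc
    refine hN (hbig.eq_zero_of_adStable h2 (hnil h₀) fun g => ?_)
    have hconj : g * h₀ * g⁻¹ ∈ H := ‹H.Normal›.conj_mem h₀ hh₀ g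
    have hnc : nil (g * h₀ * g⁻¹) = rb g * nil h₀ * rb g⁻¹ := by
      simp only [nil, map_mul, trace_mul_cycle (rb g) (rb h₀), inv_mul_rb, one_mul, mul_sub,
        sub_mul, Matrix.mul_smul, Matrix.smul_mul, mul_one, mul_inv_rb]
    set N := nil h₀ with hNdef
    set N' := nil (g * h₀ * g⁻¹) with hN'def
    set l := half * trace (rb h₀) with hl
    have hu : rb h₀ = l • 1 + N := by simp [hNdef, nil, hl]
    have hu' : rb (g * h₀ * g⁻¹) = l • 1 + N' := by
      simp only [hN'def, nil, map_mul, trace_mul_cycle (rb g) (rb h₀), inv_mul_rb, one_mul, hl]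
      abel
    have hl1 : l * l = 1 := by
      have e4 := hall h₀ hh₀
      rw [hl]
      linear_combination half ^ 2 * e4 + (2 * half + 1) * hh
    have hNN : N * N = 0 := by
      rw [sq_eq_of_trace_zero (hnil h₀), hnild h₀ hh₀, neg_zero, zero_smul]
    have e1 := hall _ (H.mul_mem hh₀ hconj)
    have e2 := hall _ (H.mul_mem (H.mul_mem hh₀ hh₀) hconj)
    set T := trace (N * N') with hT
    have htrm : trace ((l • (1 : M2 k) + N) * (l • 1 + N')) = 2 * (l * l) + T := by
      simp [add_mul, mul_add, hnil, hNdef, hN'def, T]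
      ring
    have htrm2 : trace ((l • (1 : M2 k) + N) * (l • 1 + N) * (l • 1 + N')) =
        2 * (l * l * l) + 2 * l * T := by
      have : (l • (1 : M2 k) + N) * (l • 1 + N) = (l * l) • 1 + (2 * l) • N := by
        simp [add_mul, mul_add, hNN, smul_smul, two_mul, add_smul]
        abel
      rw [this]
      simp [add_mul, mul_add, hnil, hNdef, hN'def, T]
      ring
    rw [map_mul, hu, hu', htrm, hl1] at e1
    rw [map_mul, map_mul, hu, hu', htrm2, hl1] at e2
    have hT0 : T = 0 := by
      have : (2 : k) ^ 3 * T = 0 := by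
        linear_combination 4 * e1 - e2 + 4 * (1 + T) ^ 2 * hl1
      exact (mul_eq_zero.1 this).resolve_left (pow_ne_zero 3 h2)
    obtain ⟨t, ht⟩ := exists_smul_of_nilpotent_orthogonal h2 hN (hnil h₀) (hnild h₀ hh₀)
      (hnil _) (hnild _ hconj) hT0
    refine ⟨t, ?_⟩
    rw [← Matrix.smul_mul, ← ht, show nil (g * h₀ * g⁻¹) = _ from hnc, mul_assoc, inv_mul_rb,
      mul_one]

end Descend

section Stable

variable {k : Type*} [Field k] {G : Type*} [Group G] {rb : G →* M2 k}

/-- The coordinates of a trace zero matrix. -/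
def sl2Equiv (k : Type*) [Field k] : sl2 k ≃ₗ[k] (Fin 3 → k) where
  toFun X := ![(X : M2 k) 0 0, (X : M2 k) 0 1, (X : M2 k) 1 0]
  invFun x := ⟨!![x 0, x 1; x 2, -x 0], by simp [mem_sl2]⟩
  map_add' X Y := by ext i; fin_cases i <;> simp
  map_smul' c X := by ext i; fin_cases i <;> simp
  left_inv X := by
    have h := mem_sl2.1 X.2
    ext i j
    fin_cases i <;> fin_cases j <;> simp
    linear_combination -h
  right_inv x := by ext i; fin_cases i <;> simp

instance : FiniteDimensional k (sl2 k) := (sl2Equiv k).symm.finiteDimensional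

instance (L : Submodule k (sl2 k)) : Module.Free k L :=
  Module.Free.of_divisionRing (K := k) (V := L)

instance (L : Submodule k (sl2 k)) : FiniteDimensional k L :=
  FiniteDimensional.finiteDimensional_submodule (K := k) (V := sl2 k) L

theorem finrank_sl2 : finrank k (sl2 k) = 3 := by
  rw [(sl2Equiv k).finrank_eq, Module.finrank_fin_fun]

/-- The trace form on trace zero matrices. -/
def traceForm (k : Type*) [Field k] : sl2 k →ₗ[k] Dual k (sl2 k) :=
  LinearMap.mk₂ k (fun X Y => trace ((X : M2 k) * (Y : M2 k)))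
    (fun _ _ _ => by simp [add_mul]) (fun _ _ _ => by simp)
    (fun _ _ _ => by simp [mul_add]) (fun _ _ _ => by simp)

theorem traceForm_injective (h2 : (2 : k) ≠ 0) : Function.Injective (traceForm k) := by
  rw [← LinearMap.ker_eq_bot, Submodule.eq_bot_iff]
  intro X hX
  have hd := mem_sl2.1 X.2
  have e : ∀ x : Fin 3 → k, trace ((X : M2 k) * ((sl2Equiv k).symm x : M2 k)) = 0 := fun x =>
    LinearMap.congr_fun (LinearMap.mem_ker.1 hX) _
  have e0 := e ![1, 0, 0]
  have e1 := e ![0, 1, 0]
  have e2 := e ![0, 0, 1]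
  simp [sl2Equiv, trace_fin_two, mul_apply, Fin.sum_univ_two] at e0 e1 e2
  have h00 : (X : M2 k) 0 0 = 0 :=
    (mul_eq_zero.1 (show 2 * (X : M2 k) 0 0 = 0 by linear_combination e0 + hd)).resolve_left h2
  ext i j
  fin_cases i <;> fin_cases j <;> simp [e1, e2, h00]
  linear_combination hd - h00

/-- For a big image the adjoint representation on trace zero matrices is irreducible. -/
theorem BigImage.eq_bot_or_eq_top (hbig : BigImage rb) (h2 : (2 : k) ≠ 0)
    (W : Submodule k (sl2 k)) (hW : ∀ g, ∀ X ∈ W, adRep rb g X ∈ W) : W = ⊥ ∨ W = ⊤ := by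
  have hline : ∀ L : Submodule k (sl2 k), (∀ g, ∀ X ∈ L, adRep rb g X ∈ L) →
      finrank k L ≠ 1 := fun L hL h1 => by
    obtain ⟨⟨X, hXL⟩, hX0, hspan⟩ := (finrank_eq_one_iff' (K := k) (V := L)).1 h1
    refine hX0 (Subtype.ext (Subtype.ext (hbig.eq_zero_of_adStable h2
      (X := (X : M2 k)) (by simpa [trace_fin_two] using mem_sl2.1 X.2) fun g => ?_)))
    obtain ⟨a, ha⟩ := hspan ⟨_, hL g X hXL⟩
    refine ⟨a, ?_⟩
    have e : a • (X : M2 k) = rb g * (X : M2 k) * rb g⁻¹ := by
      rw [← coe_adRep]
      exact congrArg (fun Y : L => ((Y : sl2 k) : M2 k)) ha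
    rw [← Matrix.smul_mul, e, mul_assoc, inv_mul_rb, mul_one]
  have h3 := Submodule.finrank_le W
  rw [finrank_sl2] at h3
  obtain h | h | h | h : finrank k W = 0 ∨ finrank k W = 1 ∨ finrank k W = 2 ∨ finrank k W = 3 := by
    omega
  · exact Or.inl (Submodule.finrank_eq_zero.1 h)
  · exact absurd h (hline W hW)
  · exfalso
    refine hline (LinearMap.ker (W.dualRestrict.comp (traceForm k))) ?_ ?_
    · intro g X hX
      rw [LinearMap.mem_ker] at hX ⊢
      ext ⟨Y, hY⟩
      have := LinearMap.congr_fun hX ⟨_, hW g⁻¹ Y hY⟩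
      simp only [LinearMap.comp_apply, Submodule.dualRestrict_apply, traceForm,
        LinearMap.mk₂_apply, LinearMap.zero_apply, coe_adRep, inv_inv] at this ⊢
      rw [trace_mul_comm (X : M2 k)] at this
      rw [mul_assoc, mul_assoc, trace_mul_comm, mul_assoc, mul_assoc, trace_mul_comm (X : M2 k)]
      simpa [mul_assoc] using this
    · have hsurj : Function.Surjective (W.dualRestrict.comp (traceForm k)) :=
        (Subspace.dualRestrict_surjective).comp
          ((LinearMap.injective_iff_surjective_of_finrank_eq_finrank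
            (Subspace.dual_finrank_eq).symm).1 (traceForm_injective h2))
      have := LinearMap.finrank_range_add_finrank_ker (W.dualRestrict.comp (traceForm k))
      rw [LinearMap.range_eq_top.2 hsurj, finrank_top, finrank_sl2] at this
      have hd : finrank k (Dual k W) = finrank k W := Subspace.dual_finrank_eq (K := k) (V := W)
      rw [h] at hd
      omega
  · exact Or.inr (Submodule.eq_top_of_finrank_eq (h.trans finrank_sl2.symm))

end Stable

end Fermat.Agent.TW
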