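import Mathlib.FieldTheory.IsAlgClosed.Basic
import Mathlib.GroupTheory.GroupAction.Quotient
import Mathlib.GroupTheory.Index
import Mathlib.LinearAlgebra.Matrix.SpecialLinearGroup
import Mathlib.LinearAlgebra.Projectivization.Action
import Mathlib.Tactic.FinCases
import Mathlib.Tactic.LinearCombination

/-!
# Counting fixed points of a finite subgroup of `SL₂` on the projective line

If the stabiliser of the fixed point of a unipotent element has at most two torus classes modulo
the centre, the unipotent part of this stabiliser is small.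
Used for the vanishing of the first cohomology of a finite image.
-/

noncomputable section

namespace Fermat.Agent.TW

open Matrix MulAction Projectivization
open scoped LinearAlgebra.Projectivization MatrixGroups

variable {F : Type*} [Field F]

theorem sl2_smul_eq_iff (g : SL(2, F)) {v : Fin 2 → F} (hv : v ≠ 0) :
    g • Projectivization.mk F v hv = Projectivization.mk F v hv ↔
      ∃ a : F, (g : Matrix (Fin 2) (Fin 2) F) *ᵥ v = a • v := by
  rw [Projectivization.smul_mk, Projectivization.mk_eq_mk_iff']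
  exact ⟨fun ⟨a, ha⟩ => ⟨a, ha.symm⟩, fun ⟨a, ha⟩ => ⟨a, ha.symm⟩⟩

/-- An element of `SL₂` is scalar. -/
def IsScalarSL (g : SL(2, F)) : Prop :=
  (g : Matrix (Fin 2) (Fin 2) F) 0 1 = 0 ∧ (g : Matrix (Fin 2) (Fin 2) F) 1 0 = 0 ∧
    (g : Matrix (Fin 2) (Fin 2) F) 0 0 = (g : Matrix (Fin 2) (Fin 2) F) 1 1

/-- An element of `SL₂` has a repeated eigenvalue. -/
def IsDoubleSL (g : SL(2, F)) : Prop :=
  ((g : Matrix (Fin 2) (Fin 2) F) 0 0 + (g : Matrix (Fin 2) (Fin 2) F) 1 1) ^ 2 = 4

theorem det_expand (g : SL(2, F)) :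
    (g : Matrix (Fin 2) (Fin 2) F) 0 0 * (g : Matrix (Fin 2) (Fin 2) F) 1 1 -
      (g : Matrix (Fin 2) (Fin 2) F) 0 1 * (g : Matrix (Fin 2) (Fin 2) F) 1 0 = 1 := by
  have := g.2
  rwa [det_fin_two] at this

theorem isScalarSL_smul {g : SL(2, F)} (h : IsScalarSL g) (x : ℙ F (Fin 2 → F)) : g • x = x := by
  induction x using Projectivization.ind with | h v hv =>
  refine (sl2_smul_eq_iff g hv).2 ⟨(g : Matrix (Fin 2) (Fin 2) F) 0 0, ?_⟩
  obtain ⟨h1, h2, h3⟩ := h
  ext i
  fin_cases i <;> simp [mulVec, dotProduct, Fin.sum_univ_two, h1, h2, h3]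

/-- Eigenvalues are roots of the characteristic polynomial. -/
theorem eigen_eq {g : SL(2, F)} {v : Fin 2 → F} (hv : v ≠ 0) {a : F}
    (h : (g : Matrix (Fin 2) (Fin 2) F) *ᵥ v = a • v) :
    a ^ 2 - ((g : Matrix (Fin 2) (Fin 2) F) 0 0 + (g : Matrix (Fin 2) (Fin 2) F) 1 1) * a + 1
      = 0 := by
  have h0 := congrFun h 0
  have h1 := congrFun h 1
  simp [mulVec, dotProduct, Fin.sum_univ_two] at h0 h1
  have hd := det_expand g
  have hvi : v 0 ≠ 0 ∨ v 1 ≠ 0 := by
    by_contra! hc
    exact hv (funext fun i => by fin_cases i <;> simp [hc.1, hc.2])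
  rcases hvi with hv0 | hv1
  · refine (mul_eq_zero.1 ?_).resolve_left hv0
    linear_combination (-v 0) * hd + ((g : Matrix (Fin 2) (Fin 2) F) 1 1 - a) * h0
      - (g : Matrix (Fin 2) (Fin 2) F) 0 1 * h1
  · refine (mul_eq_zero.1 ?_).resolve_left hv1
    linear_combination (-v 1) * hd + ((g : Matrix (Fin 2) (Fin 2) F) 0 0 - a) * h1
      - (g : Matrix (Fin 2) (Fin 2) F) 1 0 * h0

/-- The eigenvector of an eigenvalue of a non-scalar element is unique. -/
theorem eigen_unique {g : SL(2, F)} (hg : ¬ IsScalarSL g) {v w : Fin 2 → F} (hv : v ≠ 0)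
    (hw : w ≠ 0)
    {a : F} (h : (g : Matrix (Fin 2) (Fin 2) F) *ᵥ v = a • v)
    (h' : (g : Matrix (Fin 2) (Fin 2) F) *ᵥ w = a • w) :
    Projectivization.mk F v hv = Projectivization.mk F w hw := by
  by_cases hdep : v 0 * w 1 - v 1 * w 0 = 0
  · rw [Projectivization.mk_eq_mk_iff']
    by_cases hw0 : w 0 = 0
    · have hw1 : w 1 ≠ 0 := fun h1 => hw (funext fun i => by fin_cases i <;> simp [hw0, h1])
      have hv0 : v 0 = 0 := by simpa [hw0, hw1] using hdep
      exact ⟨v 1 / w 1, funext fun i => by fin_cases i <;> simp [hw0, hv0, hw1]⟩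
    · refine ⟨v 0 / w 0, funext fun i => ?_⟩
      fin_cases i
      · simp [hw0]
      · simp only [Fin.mk_one, Pi.smul_apply, smul_eq_mul]
        field_simp
        linear_combination hdep
  · exfalso
    have h0 := congrFun h 0
    have h1 := congrFun h 1
    have h0' := congrFun h' 0
    have h1' := congrFun h' 1
    simp [mulVec, dotProduct, Fin.sum_univ_two] at h0 h1 h0' h1'
    refine hg ⟨?_, ?_, ?_⟩
    · refine (mul_eq_zero.1 ?_).resolve_right hdep
      linear_combination v 0 * h0' - w 0 * h0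
    · refine (mul_eq_zero.1 ?_).resolve_right hdep
      linear_combination w 1 * h1 - v 1 * h1'
    · have hA : (g : Matrix (Fin 2) (Fin 2) F) 0 0 = a := by
        refine sub_eq_zero.1 ((mul_eq_zero.1 ?_).resolve_right hdep)
        linear_combination w 1 * h0 - v 1 * h0'
      have hD : (g : Matrix (Fin 2) (Fin 2) F) 1 1 = a := by
        refine sub_eq_zero.1 ((mul_eq_zero.1 ?_).resolve_right hdep)
        linear_combination v 0 * h1' - w 0 * h1
      rw [hA, hD]

/-- A scalar element of `SL₂` has a repeated eigenvalue. -/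
theorem IsScalarSL.isDoubleSL {g : SL(2, F)} (h : IsScalarSL g) : IsDoubleSL g := by
  obtain ⟨h1, h2, h3⟩ := h
  have hd := det_expand g
  rw [h1, h3, zero_mul, sub_zero] at hd
  rw [IsDoubleSL, h3]
  linear_combination 4 * hd

/-- The scalar elements of `SL₂` form the centre. -/
theorem isScalarSL_iff_mem_center {g : SL(2, F)} :
    IsScalarSL g ↔ g ∈ Subgroup.center SL(2, F) := by
  rw [Matrix.SpecialLinearGroup.mem_center_iff]
  constructor
  · rintro ⟨a1, a2, a3⟩
    refine ⟨(g : Matrix (Fin 2) (Fin 2) F) 0 0, ?_, ?_⟩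
    · have hd := det_expand g
      rw [a1, ← a3, zero_mul, sub_zero] at hd
      rw [Fintype.card_fin]
      linear_combination hd
    · ext i j
      fin_cases i <;> fin_cases j <;> simp [a1, a2, a3]
  · rintro ⟨r, -, hr⟩
    simp [IsScalarSL, ← hr]

/-- Being scalar is invariant under conjugation. -/
theorem isScalarSL_conj (g c : SL(2, F)) : IsScalarSL (c * g * c⁻¹) ↔ IsScalarSL g := by
  simp only [isScalarSL_iff_mem_center]
  exact ⟨fun h => by simpa [mul_assoc] using (inferInstance :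
    (Subgroup.center SL(2, F)).Normal).conj_mem _ h c⁻¹, fun h => (inferInstance :
    (Subgroup.center SL(2, F)).Normal).conj_mem _ h c⟩

/-- Having a repeated eigenvalue is invariant under conjugation. -/
theorem isDoubleSL_conj (g c : SL(2, F)) : IsDoubleSL (c * g * c⁻¹) ↔ IsDoubleSL g := by
  simp only [IsDoubleSL, ← trace_fin_two]
  rw [Matrix.SpecialLinearGroup.coe_mul, Matrix.SpecialLinearGroup.coe_mul, trace_mul_cycle,
    ← Matrix.SpecialLinearGroup.coe_mul, inv_mul_cancel, Matrix.SpecialLinearGroup.coe_one,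
    one_mul]

/-- An element with a given eigenvector has a repeated eigenvalue when the square of the
eigenvalue is one. -/
theorem isDoubleSL_iff_sq_eq_one {g : SL(2, F)} {v : Fin 2 → F} (hv : v ≠ 0) {a : F}
    (h : (g : Matrix (Fin 2) (Fin 2) F) *ᵥ v = a • v) : IsDoubleSL g ↔ a ^ 2 = 1 := by
  have hc := eigen_eq hv h
  set T := (g : Matrix (Fin 2) (Fin 2) F) 0 0 + (g : Matrix (Fin 2) (Fin 2) F) 1 1 with hT
  have ha0 : a ≠ 0 := fun h0 => by simp [h0] at hc
  rw [IsDoubleSL, ← hT]
  constructor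
  · intro hT4
    have h : (a ^ 2 - 1) * (a ^ 2 - 1) = 0 := by
      linear_combination (a ^ 2 + 1 + T * a) * hc + a ^ 2 * hT4
    exact sub_eq_zero.1 (mul_self_eq_zero.1 h)
  · intro h1
    refine mul_left_cancel₀ (pow_ne_zero 2 ha0) ?_
    linear_combination (-(a ^ 2 + 1 + T * a)) * hc + (a ^ 2 - 1) * h1

/-- If the eigenvalues at a fixed point are fourth roots of unity, its stabiliser has at most two
classes modulo the elements with a repeated eigenvalue. -/
theorem card_stabilizer_eq_or (h2 : (2 : F) ≠ 0) (K : Subgroup SL(2, F)) [Fintype K]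
    (x₀ : ℙ F (Fin 2 → F))
    (hA : ∀ g ∈ K, ∀ (v : Fin 2 → F) (hv : v ≠ 0) (a : F), x₀ = Projectivization.mk F v hv →
      (g : Matrix (Fin 2) (Fin 2) F) *ᵥ v = a • v → a ^ 4 = 1)
    [DecidablePred fun g : K => (g : SL(2, F)) • x₀ = x₀]
    [DecidablePred fun g : K => IsDoubleSL (g : SL(2, F))] :
    let s := Finset.univ.filter fun g : K => (g : SL(2, F)) • x₀ = x₀
    ∃ e, (e = 1 ∨ e = 2) ∧ s.card = e * (s.filter fun g : K => IsDoubleSL (g : SL(2, F))).card := by
  intro s
  obtain ⟨v, hv, hx₀⟩ : ∃ (v : Fin 2 → F) (hv : v ≠ 0), x₀ = Projectivization.mk F v hv :=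
    ⟨x₀.rep, x₀.rep_nonzero, (Projectivization.mk_rep x₀).symm⟩
  have heig : ∀ g ∈ s, ∃ a : F, ((g : SL(2, F)) : Matrix (Fin 2) (Fin 2) F) *ᵥ v = a • v :=
    fun g hg => by
      have h := (Finset.mem_filter.1 hg).2
      rw [hx₀] at h
      exact (sl2_smul_eq_iff _ hv).1 h
  choose! ev hev using heig
  have hev1 : ∀ (g : K) (a : F), g ∈ s →
      ((g : SL(2, F)) : Matrix (Fin 2) (Fin 2) F) *ᵥ v = a • v → ev g = a := fun g a hg ha => by
    have h : (ev g - a) • v = 0 := by rw [sub_smul, ← hev g hg, ha, sub_self]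
    exact sub_eq_zero.1 ((smul_eq_zero.1 h).resolve_right hv)
  have hdouble : ∀ g ∈ s, (IsDoubleSL (g : SL(2, F)) ↔ ev g ^ 2 = 1) := fun g hg =>
    isDoubleSL_iff_sq_eq_one hv (hev g hg)
  set W := s.filter fun g : K => ¬ IsDoubleSL (g : SL(2, F))
  set D := s.filter fun g : K => IsDoubleSL (g : SL(2, F))
  have hsum : D.card + W.card = s.card := Finset.card_filter_add_card_filter_not _
  rcases W.eq_empty_or_nonempty with hW | ⟨w₀, hw₀⟩
  · exact ⟨1, Or.inl rfl, by rw [one_mul, ← hsum, hW, Finset.card_empty, add_zero]⟩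
  refine ⟨2, Or.inr rfl, ?_⟩
  obtain ⟨hw₀s, hw₀d⟩ := Finset.mem_filter.1 hw₀
  have hclass : ∀ g ∈ s, ¬ IsDoubleSL (g : SL(2, F)) → ev g ^ 2 = -1 := fun g hg hgd => by
    have h4 : (ev g ^ 2 - 1) * (ev g ^ 2 + 1) = 0 := by
      linear_combination hA g g.2 v hv _ hx₀ (hev g hg)
    rcases mul_eq_zero.1 h4 with h | h
    · exact absurd ((hdouble g hg).2 (sub_eq_zero.1 h)) hgd
    · exact eq_neg_of_add_eq_zero_left h
  have hmul : ∀ g ∈ s, w₀ * g ∈ s ∧ ev (w₀ * g) = ev w₀ * ev g := fun g hg => by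
    have hmem : w₀ * g ∈ s := by
      simp only [s, Finset.mem_filter, Finset.mem_univ, true_and, Subgroup.coe_mul, mul_smul]
        at hg hw₀s ⊢
      rw [hg, hw₀s]
    refine ⟨hmem, hev1 _ _ hmem ?_⟩
    rw [Subgroup.coe_mul, Matrix.SpecialLinearGroup.coe_mul, ← mulVec_mulVec, hev g hg,
      mulVec_smul, hev w₀ hw₀s, smul_smul, mul_comm]
  have hWD : W.card = D.card := by
    refine le_antisymm ?_ ?_
    · refine Finset.card_le_card_of_injOn (fun g => w₀ * g) (fun g hg => ?_)
        (fun a _ b _ h => mul_left_cancel h)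
      obtain ⟨hgs, hgd⟩ := Finset.mem_filter.1 hg
      refine Finset.mem_filter.2 ⟨(hmul g hgs).1, (hdouble _ (hmul g hgs).1).2 ?_⟩
      rw [(hmul g hgs).2, mul_pow, hclass w₀ hw₀s hw₀d, hclass g hgs hgd]
      ring
    · refine Finset.card_le_card_of_injOn (fun g => w₀ * g) (fun g hg => ?_)
        (fun a _ b _ h => mul_left_cancel h)
      obtain ⟨hgs, hgd⟩ := Finset.mem_filter.1 hg
      refine Finset.mem_filter.2 ⟨(hmul g hgs).1, fun hd => h2 ?_⟩
      have h := (hdouble _ (hmul g hgs).1).1 hd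
      rw [(hmul g hgs).2, mul_pow, hclass w₀ hw₀s hw₀d, (hdouble g hgs).1 hgd] at h
      linear_combination -h
  omega

/-- The arithmetic of the orbit count: `m` counts the non-scalar elements fixing a point and `z`
the scalar ones, on the points `Ω` outside the base orbit. -/
theorem lt_six_mul_of_orbit_count {α : Type*} [DecidableEq α] (Ω : Finset α) (orb : α → Finset α)
    (m : α → ℕ) {G z t N e : ℕ} (hz : 0 < z) (hN : 2 ≤ N) (he : e = 1 ∨ e = 2)
    (hG : N * (e * (z + t)) = G) (key : ∑ y ∈ Ω, m y + N * t + 2 * z = G + N * z)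
    (horb : ∀ x ∈ Ω, orb x ⊆ Ω ∧ ∑ y ∈ orb x, m y = (orb x).card * m x ∧
      (orb x).card * (z + m x) = G ∧ z ∣ z + m x ∧ 2 * z ≤ z + m x)
    (hmem : ∀ x y x', y ∈ orb x → y ∈ orb x' → x' ∈ orb x) : z + t < 6 * z := by
  by_contra hcon
  rw [not_lt] at hcon
  have hhalf : ∀ x ∈ Ω, 2 * ((orb x).card * z) ≤ G ∧
      (orb x).card * m x + (orb x).card * z = G := fun x hx => by
    obtain ⟨-, -, h1, -, h2⟩ := horb x hx
    refine ⟨?_, by rw [← h1]; ring⟩
    rw [← h1, mul_left_comm]
    exact Nat.mul_le_mul_left _ h2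
  rcases Ω.eq_empty_or_nonempty with hempty | ⟨x₁, hx₁⟩
  · rw [hempty, Finset.sum_empty] at key
    have h1 : 2 * z ≤ N * z := Nat.mul_le_mul_right z hN
    have h3 : N * (z + t) ≤ G := by
      rw [← hG]; exact Nat.mul_le_mul_left N (Nat.le_mul_of_pos_left _ (by omega))
    rw [mul_add] at h3
    omega
  obtain ⟨hsub₁, hsum₁, hG₁, hdvd₁, hs₁⟩ := horb x₁ hx₁
  obtain ⟨hhalf₁, ha⟩ := hhalf x₁ hx₁
  have hR1 : ∑ y ∈ Ω \ orb x₁, m y + (orb x₁).card * m x₁ = ∑ y ∈ Ω, m y := by
    rw [← hsum₁]; exact Finset.sum_sdiff hsub₁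
  have hNT : N * (6 * z) ≤ N * (z + t) := Nat.mul_le_mul_left N hcon
  rw [mul_add, mul_left_comm] at hNT
  have hGe : G = N * (z + t) * e := by rw [← hG]; ring
  rw [mul_add] at hGe
  rcases he with rfl | rfl
  · omega
  rcases (Ω \ orb x₁).eq_empty_or_nonempty with hempty | ⟨x₂, hx₂⟩
  · rw [hempty, Finset.sum_empty] at hR1
    obtain ⟨c, hc⟩ := hdvd₁
    have hzG : z * G = z * c * ((orb x₁).card * z) := by rw [← hG₁, hc]; ring
    have hc2 : 2 ≤ c := by
      by_contra hlt
      have : z + m x₁ ≤ z * 1 := hc ▸ Nat.mul_le_mul_left z (by omega)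
      omega
    rcases Nat.lt_or_ge c 3 with hc3 | hc3
    · obtain rfl : c = 2 := by omega
      have h2G : G = 2 * ((orb x₁).card * z) := by
        refine Nat.eq_of_mul_eq_mul_left hz ?_
        rw [hzG]; ring
      have hz2 : 2 * z ≤ N * z := Nat.mul_le_mul_right z hN
      omega
    · have h3G : 3 * ((orb x₁).card * z) ≤ G := by
        refine Nat.le_of_mul_le_mul_left ?_ hz
        rw [hzG, mul_assoc z c]
        exact Nat.mul_le_mul_left z (Nat.mul_le_mul_right _ hc3)
      omega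
  · obtain ⟨hx₂a, hx₂b⟩ := Finset.mem_sdiff.1 hx₂
    obtain ⟨hsub₂, hsum₂, -, -, -⟩ := horb x₂ hx₂a
    obtain ⟨hhalf₂, ha₂⟩ := hhalf x₂ hx₂a
    have hdisj : orb x₂ ⊆ Ω \ orb x₁ := fun y hy =>
      Finset.mem_sdiff.2 ⟨hsub₂ hy, fun hy1 => hx₂b (hmem x₁ y x₂ hy1 hy)⟩
    have hr2 : (orb x₂).card * m x₂ ≤ ∑ y ∈ Ω \ orb x₁, m y := by
      rw [← hsum₂]; exact Finset.sum_le_sum_of_subset hdisj
    omega

variable [IsAlgClosed F]

omit [IsAlgClosed F] in
theorem exists_eigvec (g : SL(2, F)) {a : F}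
    (ha : a ^ 2 - ((g : Matrix (Fin 2) (Fin 2) F) 0 0 + (g : Matrix (Fin 2) (Fin 2) F) 1 1) * a + 1
      = 0) :
    ∃ v : Fin 2 → F, v ≠ 0 ∧ (g : Matrix (Fin 2) (Fin 2) F) *ᵥ v = a • v := by
  have hdet : det ((g : Matrix (Fin 2) (Fin 2) F) - a • (1 : Matrix (Fin 2) (Fin 2) F)) = 0 := by
    have hd := det_expand g
    simp [det_fin_two]
    linear_combination ha + hd
  obtain ⟨v, hv, h⟩ := Matrix.exists_mulVec_eq_zero_iff.2 hdet
  refine ⟨v, hv, ?_⟩
  rwa [sub_mulVec, smul_mulVec, one_mulVec, sub_eq_zero] at h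

/-- A non-scalar element has one fixed point when it has a repeated eigenvalue and two otherwise. -/
theorem exists_fixed_finset [DecidableEq (ℙ F (Fin 2 → F))] {g : SL(2, F)} (hg : ¬ IsScalarSL g) :
    ∃ s : Finset (ℙ F (Fin 2 → F)), (∀ x, x ∈ s ↔ g • x = x) ∧
      (IsDoubleSL g → s.card = 1) ∧ (¬ IsDoubleSL g → s.card = 2) := by
  set T := (g : Matrix (Fin 2) (Fin 2) F) 0 0 + (g : Matrix (Fin 2) (Fin 2) F) 1 1 with hT
  obtain ⟨d, hd⟩ := IsAlgClosed.exists_eq_mul_self (T ^ 2 - 4)
  have htwo : ∀ a, a ^ 2 - T * a + 1 = 0 →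
      (2 * a - T = d ∨ 2 * a - T = -d) := fun a ha => by
    have h1 : (2 * a - T) * (2 * a - T) = d * d := by linear_combination 4 * ha + hd
    exact mul_self_eq_mul_self_iff.1 h1
  obtain ⟨a, ha⟩ : ∃ a, a ^ 2 - T * a + 1 = 0 := by
    obtain ⟨a, ha⟩ := IsAlgClosed.exists_root
      (Polynomial.X ^ 2 - Polynomial.C T * Polynomial.X + 1 : Polynomial F) (by
        have h :
            (Polynomial.X ^ 2 - Polynomial.C T * Polynomial.X + 1 : Polynomial F).degree = 2 := by
          compute_degree!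
        rw [h]; norm_num)
    exact ⟨a, by simpa using ha⟩
  have hb : (T - a) ^ 2 - T * (T - a) + 1 = 0 := by linear_combination ha
  obtain ⟨v, hv, hva⟩ := exists_eigvec g ha
  obtain ⟨w, hw, hwb⟩ := exists_eigvec g hb
  refine ⟨{Projectivization.mk F v hv, Projectivization.mk F w hw}, fun x =>
      ⟨fun hx => ?_, fun hx => ?_⟩,
    fun hdb => ?_, fun hdb => ?_⟩
  · rcases Finset.mem_insert.1 hx with rfl | hx
    · exact (sl2_smul_eq_iff g hv).2 ⟨a, hva⟩
    · rw [Finset.mem_singleton.1 hx]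
      exact (sl2_smul_eq_iff g hw).2 ⟨T - a, hwb⟩
  · induction x using Projectivization.ind with | h u hu =>
    obtain ⟨c, hc⟩ := (sl2_smul_eq_iff g hu).1 hx
    have hc' := eigen_eq hu hc
    have hca : (c - a) * (c - (T - a)) = 0 := by linear_combination hc' - ha
    rcases mul_eq_zero.1 hca with h | h
    · rw [sub_eq_zero.1 h] at hc
      exact Finset.mem_insert.2 (Or.inl (eigen_unique hg hu hv hc hva))
    · rw [sub_eq_zero.1 h] at hc
      exact Finset.mem_insert_of_mem (Finset.mem_singleton.2 (eigen_unique hg hu hw hc hwb))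
  · have : T - a = a := by
      have h1 : (2 * a - T) * (2 * a - T) = 0 := by
        rw [IsDoubleSL, ← hT] at hdb
        linear_combination 4 * ha + hdb
      have := mul_self_eq_zero.1 h1
      linear_combination -this
    rw [this] at hwb
    rw [eigen_unique hg hw hv hwb hva]
    simp
  · refine Finset.card_pair fun hEq => hdb ?_
    obtain ⟨c, hc⟩ := (Projectivization.mk_eq_mk_iff' F v w hv hw).1 hEq
    have h1 : a • v = (T - a) • v := by
      rw [← hva, ← hc, mulVec_smul, hwb, smul_comm]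
    have h2 : (2 * a - T) • v = 0 := by
      rw [two_mul, add_sub_assoc, add_smul, ← neg_sub T a, neg_smul, h1, add_neg_cancel]
    have h3 := (smul_eq_zero.1 h2).resolve_right hv
    rw [IsDoubleSL, ← hT]
    linear_combination (2 * a - T) * h3 - 4 * ha

omit [IsAlgClosed F] in
theorem orbit_finite (K : Subgroup SL(2, F)) [Finite K] (x : ℙ F (Fin 2 → F)) :
    (orbit K x).Finite := Set.finite_range _

omit [IsAlgClosed F] in
open scoped Classical in
/-- The elements of `K` fixing a point form its stabiliser. -/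
theorem card_fix_eq_card_stabilizer (K : Subgroup SL(2, F)) [Fintype K] (x : ℙ F (Fin 2 → F)) :
    (Finset.univ.filter fun g : K => (g : SL(2, F)) • x = x).card = Nat.card (stabilizer K x) := by
  rw [Nat.card_eq_fintype_card]
  exact (Fintype.card_of_subtype _ fun g => by
    simp only [Finset.mem_filter, Finset.mem_univ, true_and, mem_stabilizer_iff]
    rfl).symm

omit [IsAlgClosed F] in
/-- Orbit times stabiliser is the order of the group. -/
theorem ncard_orbit_mul_card_stabilizer (K : Subgroup SL(2, F)) (x : ℙ F (Fin 2 → F)) :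
    (orbit K x).ncard * Nat.card (stabilizer K x) = Nat.card K := by
  rw [← index_stabilizer, mul_comm, Subgroup.card_mul_index]

omit [IsAlgClosed F] in
/-- Points in the same orbit have stabilisers of the same order. -/
theorem card_stabilizer_of_mem_orbit (K : Subgroup SL(2, F)) {x y : ℙ F (Fin 2 → F)}
    (hy : y ∈ orbit K x) : Nat.card (stabilizer K y) = Nat.card (stabilizer K x) := by
  obtain ⟨h, rfl⟩ := hy
  exact (Nat.card_congr (stabilizerEquivStabilizer (a := x) (b := h • x) rfl).toEquiv).symm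

omit [IsAlgClosed F] in
/-- The elements of a finite subgroup with a given property, counted in two ways. -/
theorem natCard_mem_and (K : Subgroup SL(2, F)) [Fintype K] (P : SL(2, F) → Prop)
    [DecidablePred fun g : K => P g] :
    Nat.card {g : SL(2, F) // g ∈ K ∧ P g} =
      (Finset.univ.filter fun g : K => P g).card := by
  rw [← Fintype.card_subtype, ← Nat.card_eq_fintype_card]
  exact Nat.card_congr ⟨fun g => ⟨⟨g.1, g.2.1⟩, g.2.2⟩, fun g => ⟨g.1, g.1.2, g.2⟩,
    fun _ => rfl, fun _ => rfl⟩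

omit [IsAlgClosed F] in
open scoped Classical in
/-- The number of scalars of `K` divides the order of every stabiliser. -/
theorem card_scalar_dvd_card_stabilizer (K : Subgroup SL(2, F)) [Fintype K]
    (x : ℙ F (Fin 2 → F)) :
    (Finset.univ.filter fun g : K => IsScalarSL (g : SL(2, F))).card ∣
      Nat.card (stabilizer K x) := by
  let Z : Subgroup K := (Subgroup.center SL(2, F)).subgroupOf K
  have hZ : ∀ g : K, g ∈ Z ↔ IsScalarSL (g : SL(2, F)) := fun g => by
    rw [Subgroup.mem_subgroupOf, isScalarSL_iff_mem_center]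
  have hle : Z ≤ stabilizer K x := fun g hg => isScalarSL_smul ((hZ g).1 hg) x
  have h : (Finset.univ.filter fun g : K => IsScalarSL (g : SL(2, F))).card = Nat.card Z := by
    rw [Nat.card_eq_fintype_card]
    exact (Fintype.card_of_subtype _ fun g => by
      simp only [Finset.mem_filter, Finset.mem_univ, true_and, hZ]).symm
  rw [h]
  exact Subgroup.card_dvd_of_le hle

omit [IsAlgClosed F] in
open scoped Classical in
/-- Conjugate points are fixed by equally many non-scalar double elements. -/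
theorem card_double_fix_smul {K : Subgroup SL(2, F)} [Fintype K] {h : SL(2, F)} (hK : h ∈ K)
    (x : ℙ F (Fin 2 → F)) :
    (Finset.univ.filter fun g : K => (¬ IsScalarSL (g : SL(2, F)) ∧ IsDoubleSL (g : SL(2, F))) ∧
        (g : SL(2, F)) • h • x = h • x).card =
      (Finset.univ.filter fun g : K => (¬ IsScalarSL (g : SL(2, F)) ∧ IsDoubleSL (g : SL(2, F))) ∧
        (g : SL(2, F)) • x = x).card := by
  set hh : K := ⟨h, hK⟩ with hhdef
  refine Finset.card_equiv (MulAut.conj hh⁻¹).toEquiv fun g => ?_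
  simp only [Finset.mem_filter, Finset.mem_univ, true_and,
    MulEquiv.toEquiv_eq_coe, MulEquiv.coe_toEquiv, MulAut.conj_apply]
  have hfixiff : ((hh⁻¹ * g * hh⁻¹⁻¹ : K) : SL(2, F)) • x = x ↔
      (g : SL(2, F)) • h • x = h • x := by
    simp only [Subgroup.coe_mul, Subgroup.coe_inv, inv_inv, hhdef, mul_smul, inv_smul_eq_iff]
  rw [hfixiff]
  simp only [Subgroup.coe_mul, Subgroup.coe_inv, isScalarSL_conj, isDoubleSL_conj]

open scoped Classical in
/-- The non-scalar elements of `K`. -/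
def nonScalarSL (K : Subgroup SL(2, F)) [Fintype K] : Finset K :=
  Finset.univ.filter fun g => ¬ IsScalarSL (g : SL(2, F))

omit [IsAlgClosed F] in
open scoped Classical in
/-- The scalars and the non-scalar elements fixing a point make up its stabiliser. -/
theorem card_fix_eq_scalar_add (K : Subgroup SL(2, F)) [Fintype K] (x : ℙ F (Fin 2 → F)) :
    (Finset.univ.filter fun g : K => (g : SL(2, F)) • x = x).card =
      (Finset.univ.filter fun g : K => IsScalarSL (g : SL(2, F))).card +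
        ((nonScalarSL K).filter fun g : K => (g : SL(2, F)) • x = x).card := by
  rw [← Finset.card_filter_add_card_filter_not (s := Finset.univ.filter fun g : K =>
    (g : SL(2, F)) • x = x) (fun g => IsScalarSL (g : SL(2, F)))]
  congr 1
  · congr 1
    ext g
    simp only [Finset.mem_filter, Finset.mem_univ, true_and]
    exact ⟨fun h => h.2, fun h => ⟨isScalarSL_smul h x, h⟩⟩
  · congr 1
    ext g
    simp only [nonScalarSL, Finset.mem_filter, Finset.mem_univ, true_and, and_comm]

open scoped Classical in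
/-- Incidences of non-scalar elements and their fixed points: a double element has one fixed
point, every other element two. -/
theorem exists_fixedPoints_count (K : Subgroup SL(2, F)) [Fintype K] :
    ∃ Φ : Finset (ℙ F (Fin 2 → F)),
      (∀ x, x ∈ Φ ↔ ∃ g ∈ nonScalarSL K, (g : SL(2, F)) • x = x) ∧
      ∀ Ω, Φ ⊆ Ω → ∑ y ∈ Ω, ((nonScalarSL K).filter fun g : K => (g : SL(2, F)) • y = y).card +
        ((nonScalarSL K).filter fun g : K => IsDoubleSL (g : SL(2, F))).card =
          2 * (nonScalarSL K).card := by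
  have hfix : ∀ g : K, ∃ s : Finset (ℙ F (Fin 2 → F)), g ∈ nonScalarSL K →
      (∀ x, x ∈ s ↔ (g : SL(2, F)) • x = x) ∧
      (IsDoubleSL (g : SL(2, F)) → s.card = 1) ∧ (¬ IsDoubleSL (g : SL(2, F)) → s.card = 2) :=
    fun g => by
      by_cases hg : IsScalarSL (g : SL(2, F))
      · exact ⟨∅, fun h => absurd hg (Finset.mem_filter.1 h).2⟩
      · obtain ⟨s, hs⟩ := exists_fixed_finset hg
        exact ⟨s, fun _ => hs⟩
  choose fx hfx using hfix
  refine ⟨(nonScalarSL K).biUnion fx, fun x => ?_, fun Ω hΩ => ?_⟩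
  · rw [Finset.mem_biUnion]
    exact exists_congr fun g => and_congr_right fun hg => (hfx g hg).1 x
  simp only [Finset.card_filter]
  rw [Finset.sum_comm, ← Finset.sum_add_distrib, Finset.sum_const_nat (m := 2), mul_comm]
  intro g hg
  rw [show (∑ y ∈ Ω, if (g : SL(2, F)) • y = y then 1 else 0) = (fx g).card by
    rw [← Finset.card_filter]
    congr 1
    ext y
    rw [Finset.mem_filter]
    exact ⟨fun h => ((hfx g hg).1 y).2 h.2,
      fun h => ⟨hΩ (Finset.mem_biUnion.2 ⟨g, hg, h⟩), ((hfx g hg).1 y).1 h⟩⟩]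
  split_ifs with h
  · rw [(hfx g hg).2.1 h]
  · rw [(hfx g hg).2.2 h]

open scoped Classical in
/-- If the fixed points of the non-scalar double elements lie in one orbit, these elements are
counted along this orbit. -/
theorem card_double_eq_orbit_mul (K : Subgroup SL(2, F)) [Fintype K] (x₀ : ℙ F (Fin 2 → F))
    (hO : ∀ g ∈ K, ¬ IsScalarSL g → IsDoubleSL g → ∀ x, g • x = x → ∃ h ∈ K, h • x₀ = x) :
    ((nonScalarSL K).filter fun g : K => IsDoubleSL (g : SL(2, F))).card =
      (orbit_finite K x₀).toFinset.card *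
        (((nonScalarSL K).filter fun g : K => IsDoubleSL (g : SL(2, F))).filter fun g : K =>
          (g : SL(2, F)) • x₀ = x₀).card := by
  set D := (nonScalarSL K).filter fun g : K => IsDoubleSL (g : SL(2, F))
  set O := (orbit_finite K x₀).toFinset
  have h1 : ∀ g ∈ D, (O.filter fun y => (g : SL(2, F)) • y = y).card = 1 := by
    intro g hg
    obtain ⟨hgn, hgd⟩ := Finset.mem_filter.1 hg
    obtain ⟨s, hs, hs1, -⟩ := exists_fixed_finset (Finset.mem_filter.1 hgn).2
    rw [← hs1 hgd]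
    congr 1
    ext y
    rw [Finset.mem_filter, hs y]
    refine ⟨fun h => h.2, fun h => ⟨(Set.Finite.mem_toFinset _).2 ?_, h⟩⟩
    obtain ⟨k, hk, hky⟩ := hO g g.2 (Finset.mem_filter.1 hgn).2 hgd y h
    exact ⟨⟨k, hk⟩, hky⟩
  have h2 : ∀ y ∈ O, (D.filter fun g : K => (g : SL(2, F)) • y = y).card =
      (D.filter fun g : K => (g : SL(2, F)) • x₀ = x₀).card := by
    intro y hy
    obtain ⟨h, rfl⟩ := (Set.Finite.mem_toFinset _).1 hy
    simpa only [D, nonScalarSL, Finset.filter_filter, Subgroup.smul_def, and_assoc] using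
      card_double_fix_smul h.2 x₀
  calc D.card = ∑ g ∈ D, (O.filter fun y => (g : SL(2, F)) • y = y).card := by
        rw [Finset.sum_const_nat h1, mul_one]
    _ = ∑ y ∈ O, (D.filter fun g : K => (g : SL(2, F)) • y = y).card := by
        simp only [Finset.card_filter]
        exact Finset.sum_comm
    _ = _ := Finset.sum_const_nat h2

/-- If the eigenvalues at `x₀` are fourth roots of unity, `x₀` is moved and every fixed point of a
non-scalar double element is in its orbit, then fewer than six times as many double elements as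
scalars fix `x₀`. -/
theorem card_double_stabilizer_lt (h2 : (2 : F) ≠ 0) (K : Subgroup SL(2, F)) [Finite K]
    (x₀ : ℙ F (Fin 2 → F))
    (hA : ∀ g ∈ K, ∀ (v : Fin 2 → F) (hv : v ≠ 0) (a : F), x₀ = Projectivization.mk F v hv →
      (g : Matrix (Fin 2) (Fin 2) F) *ᵥ v = a • v → a ^ 4 = 1)
    (hO : ∀ g ∈ K, ¬ IsScalarSL g → IsDoubleSL g → ∀ x, g • x = x → ∃ h ∈ K, h • x₀ = x)
    (hN : ∃ g ∈ K, g • x₀ ≠ x₀) :
    Nat.card {g : SL(2, F) // g ∈ K ∧ g • x₀ = x₀ ∧ IsDoubleSL g} <
      6 * Nat.card {g : SL(2, F) // g ∈ K ∧ IsScalarSL g} := by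
  classical
  have : Fintype K := Fintype.ofFinite K
  let scal : Finset K := Finset.univ.filter fun g => IsScalarSL (g : SL(2, F))
  let ns : Finset K := nonScalarSL K
  have hsplit : scal.card + ns.card = Fintype.card K :=
    Finset.card_filter_add_card_filter_not _
  set z := scal.card with hz
  have hz1 : 0 < z := Finset.card_pos.2 ⟨1, Finset.mem_filter.2 ⟨Finset.mem_univ _, by
    simp [IsScalarSL]⟩⟩
  let stab : ℙ F (Fin 2 → F) → Finset K := fun x =>
    Finset.univ.filter fun g => (g : SL(2, F)) • x = x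
  let nst : ℙ F (Fin 2 → F) → Finset K := fun x => ns.filter fun g => (g : SL(2, F)) • x = x
  have hstab : ∀ x, (stab x).card = z + (nst x).card := card_fix_eq_scalar_add K
  -- orbit stabiliser
  let orb : ℙ F (Fin 2 → F) → Finset (ℙ F (Fin 2 → F)) := fun x => (orbit_finite K x).toFinset
  have hmemorb : ∀ x y, y ∈ orb x ↔ ∃ h ∈ K, h • x = y := fun x y => by
    simp only [orb, Set.Finite.mem_toFinset, mem_orbit_iff]
    exact ⟨fun ⟨h, hh⟩ => ⟨h, h.2, hh⟩, fun ⟨h, hK, hh⟩ => ⟨⟨h, hK⟩, hh⟩⟩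
  have hstabcard : ∀ x, (stab x).card = Nat.card (stabilizer K x) := card_fix_eq_card_stabilizer K
  have hos : ∀ x, (orb x).card * (stab x).card = Fintype.card K := fun x => by
    rw [hstabcard, ← Nat.card_eq_fintype_card, ← Set.ncard_eq_toFinset_card _ (orbit_finite K x)]
    exact ncard_orbit_mul_card_stabilizer K x
  have hstab_orb : ∀ x, ∀ y ∈ orb x, (stab y).card = (stab x).card := fun x y hy => by
    rw [hstabcard, hstabcard]
    exact card_stabilizer_of_mem_orbit K ((Set.Finite.mem_toFinset _).1 hy)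
  have hsumorb : ∀ x, ∑ y ∈ orb x, (nst y).card = (orb x).card * (nst x).card := fun x => by
    rw [Finset.sum_const_nat]
    intro y hy
    have := hstab_orb x y hy
    rw [hstab, hstab] at this
    omega
  -- fixed points of non-scalar elements, double elements
  obtain ⟨Φ, hΦ, hcount⟩ := exists_fixedPoints_count K
  let Ω : Finset (ℙ F (Fin 2 → F)) := Φ ∪ orb x₀
  let dbl : Finset K := ns.filter fun g => IsDoubleSL (g : SL(2, F))
  let dst : ℙ F (Fin 2 → F) → Finset K := fun x => dbl.filter fun g => (g : SL(2, F)) • x = x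
  have hfxsum : ∑ y ∈ Ω, (nst y).card + dbl.card = 2 * ns.card :=
    hcount Ω Finset.subset_union_left
  have hdblcard : dbl.card = (orb x₀).card * (dst x₀).card := card_double_eq_orbit_mul K x₀ hO
  set N := (orb x₀).card with hNdef
  set t := (dst x₀).card with ht
  have hN2 : 2 ≤ N := by
    obtain ⟨g, hg, hgx⟩ := hN
    exact Finset.one_lt_card.2 ⟨x₀, (hmemorb x₀ x₀).2 ⟨1, K.one_mem, one_smul _ _⟩, g • x₀,
      (hmemorb x₀ _).2 ⟨g, hg, rfl⟩, Ne.symm hgx⟩
  have hDcard : ((stab x₀).filter fun g : K => IsDoubleSL (g : SL(2, F))).card = z + t := by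
    rw [← Finset.card_filter_add_card_filter_not (s := Finset.filter _ (stab x₀))
      (fun g => IsScalarSL (g : SL(2, F)))]
    congr 1
    · congr 1
      ext g
      simp only [stab, scal, Finset.mem_filter, Finset.mem_univ, true_and]
      exact ⟨fun h => h.2, fun h => ⟨⟨isScalarSL_smul h x₀, h.isDoubleSL⟩, h⟩⟩
    · congr 1
      ext g
      simp only [stab, dst, dbl, ns, nonScalarSL, Finset.mem_filter, Finset.mem_univ, true_and]
      exact ⟨fun h => ⟨⟨h.2, h.1.2⟩, h.1.1⟩, fun h => ⟨⟨h.2, h.1.2⟩, h.1.1⟩⟩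
  -- the stabiliser of `x₀` has at most two classes modulo repeated eigenvalues
  obtain ⟨e, he, hse⟩ : ∃ e, (e = 1 ∨ e = 2) ∧ (stab x₀).card = e * (z + t) := by
    obtain ⟨e, he, hse⟩ := card_stabilizer_eq_or h2 K x₀ hA
    exact ⟨e, he, hse.trans (by rw [hDcard])⟩
  -- split off the orbit of `x₀`
  have horbsub : orb x₀ ⊆ Ω := Finset.subset_union_right
  have hR := Finset.sum_sdiff (f := fun y => (nst y).card) horbsub
  rw [hsumorb, ← hNdef] at hR
  set R := ∑ y ∈ Ω \ orb x₀, (nst y).card with hRdef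
  have hG := hos x₀
  rw [hse] at hG
  have hnst0 : (nst x₀).card + z = e * (z + t) := by have := hstab x₀; omega
  have hgoal : Nat.card {g : SL(2, F) // g ∈ K ∧ g • x₀ = x₀ ∧ IsDoubleSL g} = z + t := by
    rw [natCard_mem_and K fun g => g • x₀ = x₀ ∧ IsDoubleSL g, ← hDcard]
    simp only [stab, Finset.filter_filter]
  have hzcard : Nat.card {g : SL(2, F) // g ∈ K ∧ IsScalarSL g} = z :=
    natCard_mem_and K IsScalarSL
  rw [hgoal, hzcard]
  -- the centre divides every stabiliser
  have hdvd : ∀ x, z ∣ (stab x).card := fun x => by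
    rw [hstabcard]
    exact card_scalar_dvd_card_stabilizer K x
  have horbit : ∀ x ∈ Ω \ orb x₀, orb x ⊆ Ω \ orb x₀ ∧ 2 * z ≤ (stab x).card := fun x hx => by
    obtain ⟨hxΩ, hx0⟩ := Finset.mem_sdiff.1 hx
    obtain ⟨g, hg, hgx⟩ := (hΦ x).1 ((Finset.mem_union.1 hxΩ).resolve_right hx0)
    have hpos : 0 < (nst x).card := Finset.card_pos.2 ⟨g, Finset.mem_filter.2 ⟨hg, hgx⟩⟩
    have hsx : 2 * z ≤ (stab x).card := by
      obtain ⟨m, hm⟩ := hdvd x
      have hlt : z * 1 < z * m := by rw [← hm, hstab, mul_one]; omega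
      have hm2 : 2 ≤ m := Nat.lt_of_mul_lt_mul_left hlt
      rw [hm, mul_comm 2 z]
      exact Nat.mul_le_mul_left z hm2
    refine ⟨fun y hy => ?_, hsx⟩
    have hny : 0 < (nst y).card := by
      have := hstab_orb x y hy
      rw [hstab, hstab] at this
      omega
    obtain ⟨g', hg'⟩ := Finset.card_pos.1 hny
    obtain ⟨hg'n, hg'y⟩ := Finset.mem_filter.1 hg'
    refine Finset.mem_sdiff.2
      ⟨Finset.mem_union_left _ ((hΦ y).2 ⟨g', hg'n, hg'y⟩), fun hy0 => hx0 ?_⟩
    obtain ⟨h, hK, rfl⟩ := (hmemorb x y).1 hy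
    obtain ⟨h', hK', hh'⟩ := (hmemorb x₀ _).1 hy0
    exact (hmemorb x₀ x).2 ⟨h⁻¹ * h', K.mul_mem (K.inv_mem hK) hK', by
      rw [mul_smul, hh', inv_smul_smul]⟩
  have key : (∑ y ∈ Ω \ orb x₀, (nst y).card) + N * t + 2 * z = Fintype.card K + N * z := by
    have h1 : N * (nst x₀).card + N * z = Fintype.card K := by rw [← mul_add, hnst0]; exact hG
    have h2' := hfxsum
    rw [hdblcard, ← hR] at h2'
    omega
  exact lt_six_mul_of_orbit_count (Ω \ orb x₀) orb (fun x => (nst x).card) hz1 hN2 he hG key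
    (fun x hx => ⟨(horbit x hx).1, hsumorb x, by rw [← hstab, hos],
      by rw [← hstab]; exact hdvd x, by rw [← hstab]; exact (horbit x hx).2⟩)
    fun x y x' hy hy' => by
      obtain ⟨h, hK, rfl⟩ := (hmemorb x' y).1 hy'
      obtain ⟨h', hK', hh'⟩ := (hmemorb x _).1 hy
      exact (hmemorb x x').2 ⟨h⁻¹ * h', K.mul_mem (K.inv_mem hK) hK', by
        rw [mul_smul, hh', inv_smul_smul]⟩

end Fermat.Agent.TW
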