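import Mathlib.Algebra.CharP.Lemmas
import Mathlib.GroupTheory.Sylow
import Mathlib.LinearAlgebra.Matrix.CharP
import Mathlib.LinearAlgebra.Matrix.Charpoly.Coeff
import Fermat.Agent.TW.AdIrred
import Fermat.Agent.TW.SL2Count

/-!
# The first cohomology of a finite image on the twisted adjoint: unipotent elements

`C` is a crossed homomorphism from a finite group of matrices to the twisted adjoint, written in
matrices.  The quadratic function `g ↦ trace (C g * g)` vanishes on the elements of determinant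
one.  This is the main step in the vanishing of the first cohomology of the image.
-/

noncomputable section

namespace Fermat.Agent.TW

open Matrix
open scoped Pointwise

section MatrixLemmas

variable {K : Type*} [Field K]

theorem nilpotent_facts {N : M2 K} (h : IsNilpotent N) :
    trace N = 0 ∧ det N = 0 ∧ N * N = 0 := by
  have ht : trace N = 0 := (Matrix.isNilpotent_trace_of_isNilpotent h).eq_zero
  obtain ⟨n, hn⟩ := h
  have hd : det N = 0 := by
    have : det N ^ (n + 1) = 0 := by rw [← det_pow, pow_succ, hn, zero_mul, det_zero]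
    exact pow_eq_zero_iff (Nat.succ_ne_zero n) |>.1 this
  exact ⟨ht, hd, by rw [sq_eq_of_trace_zero ht, hd, neg_zero, zero_smul]⟩

theorem mul_mul_self_of_det_eq_zero {N : M2 K} (h : det N = 0) (Y : M2 K) :
    N * Y * N = trace (Y * N) • N := by
  rw [det_fin_two] at h
  ext i j
  fin_cases i <;> fin_cases j <;>
    simp [mul_apply, Fin.sum_univ_two, trace_fin_two]
  · linear_combination (-(Y 1 1)) * h
  · linear_combination (Y 0 1) * h
  · linear_combination (Y 1 0) * h
  · linear_combination (-(Y 0 0)) * h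

/-- A matrix commuting with a non-zero nilpotent matrix has a double eigenvalue. -/
theorem sq_trace_of_commute_nilpotent {M N : M2 K} (hN : N ≠ 0) (ht : trace N = 0)
    (hd : det N = 0) (h : M * N = N * M) : trace M ^ 2 = 4 * det M := by
  have h00 := congrFun (congrFun h 0) 0
  have h01 := congrFun (congrFun h 0) 1
  have h10 := congrFun (congrFun h 1) 0
  simp [mul_apply, Fin.sum_univ_two] at h00 h01 h10
  rw [trace_fin_two] at ht
  rw [det_fin_two] at hd
  have e : N 1 1 = -N 0 0 := by linear_combination ht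
  rw [e] at hd h01 h10
  have hD : N 0 1 ^ 2 * (trace M ^ 2 - 4 * det M) = 0 ∧
      N 1 0 ^ 2 * (trace M ^ 2 - 4 * det M) = 0 := by
    simp only [trace_fin_two, det_fin_two]
    constructor
    · linear_combination (N 0 1 * (M 0 0 - M 1 1) + 2 * N 0 0 * M 0 1) * h01 -
        4 * M 0 1 * N 0 1 * h00 - 4 * M 0 1 ^ 2 * hd
    · linear_combination -(N 1 0 * (M 0 0 - M 1 1) + 2 * N 0 0 * M 1 0) * h10 +
        4 * M 1 0 * N 1 0 * h00 - 4 * M 1 0 ^ 2 * hd
  by_contra hne
  have hne' : trace M ^ 2 - 4 * det M ≠ 0 := sub_ne_zero.2 hne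
  have hb : N 0 1 = 0 := (pow_eq_zero_iff two_ne_zero).1 ((mul_eq_zero.1 hD.1).resolve_right hne')
  have hc : N 1 0 = 0 := (pow_eq_zero_iff two_ne_zero).1 ((mul_eq_zero.1 hD.2).resolve_right hne')
  rw [hb, hc] at hd
  have ha : N 0 0 = 0 := mul_self_eq_zero.1 (by linear_combination -hd)
  exact hN (by ext i j; fin_cases i <;> fin_cases j <;> simp [ha, hb, hc, e])

theorem exists_smul_of_commute_nilpotent (h2 : (2 : K) ≠ 0) {N N' : M2 K} (hN : N ≠ 0)
    (h : IsNilpotent N) (h' : IsNilpotent N') (hc : Commute N N') : ∃ t : K, N' = t • N :=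
  exists_smul_of_nilpotent_orthogonal h2 hN (nilpotent_facts h).1 (nilpotent_facts h).2.1
    (nilpotent_facts h').1 (nilpotent_facts h').2.1
    (Matrix.isNilpotent_trace_of_isNilpotent (hc.isNilpotent_mul_left h')).eq_zero

/-- A nilpotent matrix killing `v`. -/
def killing (v : Fin 2 → K) : M2 K := vecMulVec v ![-v 1, v 0]

theorem killing_mulVec (v : Fin 2 → K) : killing v *ᵥ v = 0 := by
  ext i
  fin_cases i <;> simp [killing, mulVec, dotProduct, vecMulVec_apply, Fin.sum_univ_two] <;> ring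

theorem killing_ne_zero {v : Fin 2 → K} (hv : v ≠ 0) : killing v ≠ 0 := fun h => hv <| by
  have h01 : v 0 * v 0 = 0 := by simpa [killing, vecMulVec_apply] using congrFun (congrFun h 0) 1
  have h10 : v 1 * v 1 = 0 := by
    simpa [killing, vecMulVec_apply] using congrFun (congrFun h 1) 0
  ext i
  fin_cases i <;> simp [mul_self_eq_zero.1 h01, mul_self_eq_zero.1 h10]

/-- The action of a matrix of determinant one with eigenvector `v` on `killing v`. -/
theorem mul_killing {g : M2 K} (hg : det g = 1) {v : Fin 2 → K} {a : K} (h : g *ᵥ v = a • v) :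
    g * killing v = (a * a) • (killing v * g) := by
  have hφ : a • (![-v 1, v 0] ᵥ* g) = ![-v 1, v 0] := by
    have h0 := congrFun h 0
    have h1 := congrFun h 1
    simp [mulVec, dotProduct, Fin.sum_univ_two] at h0 h1
    rw [det_fin_two] at hg
    ext i
    fin_cases i <;> simp [vecMul, dotProduct, Fin.sum_univ_two]
    · linear_combination g 0 0 * h1 - g 1 0 * h0 - v 1 * hg
    · linear_combination g 0 1 * h1 - g 1 1 * h0 + v 0 * hg
  rw [killing, mul_vecMulVec, vecMulVec_mul, h, smul_vecMulVec]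
  conv_lhs => rw [← hφ, vecMulVec_smul, smul_smul]

theorem exists_smul_killing (h2 : (2 : K) ≠ 0) {v : Fin 2 → K} (hv : v ≠ 0) {N : M2 K}
    (hN : IsNilpotent N) (h : N *ᵥ v = 0) : ∃ t : K, N = t • killing v := by
  have hk : IsNilpotent (killing v) := ⟨2, by
    rw [pow_two]
    conv_lhs => arg 2; rw [killing]
    rw [mul_vecMulVec, killing_mulVec, zero_vecMulVec]⟩
  refine exists_smul_of_nilpotent_orthogonal h2 (killing_ne_zero hv) (nilpotent_facts hk).1
    (nilpotent_facts hk).2.1 (nilpotent_facts hN).1 (nilpotent_facts hN).2.1 ?_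
  rw [trace_mul_comm, killing, mul_vecMulVec, h, zero_vecMulVec, trace_zero]

end MatrixLemmas

variable {k : Type*} [Field k] {p : ℕ} [Fact p.Prime] [CharP k p]

theorem sq_scalar_add {l : k} {N : M2 k} (hl : l * l = 1) (hNN : N * N = 0) :
    (l • (1 : M2 k) + N) * (l • 1 + N) = 1 + (2 * l) • N := by
  simp [add_mul, mul_add, smul_smul, hl, hNN, two_mul, add_smul, add_assoc]

theorem one_add_smul_pow {N : M2 k} (hNN : N * N = 0) (i : ℕ) :
    (1 + N) ^ i = 1 + (i : k) • N := by
  induction i with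
  | zero => simp
  | succ i ih =>
    simp [pow_succ, ih, add_mul, mul_add, hNN, add_smul]
    abel

theorem two_ne_zero_of_charP (hp2 : p ≠ 2) : (2 : k) ≠ 0 := fun h => by
  have h' : ((2 : ℕ) : k) = 0 := by exact_mod_cast h
  exact hp2 ((Nat.prime_dvd_prime_iff_eq Fact.out Nat.prime_two).1
    ((CharP.cast_eq_zero_iff k p 2).1 h'))

variable {G : Type*} [Group G] {rb : G →* M2 k}

/-- The elements of determinant one. -/
def detKer (rb : G →* M2 k) : Subgroup G := (Matrix.detMonoidHom.comp rb).ker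

instance : (detKer rb).Normal := MonoidHom.normal_ker _

theorem mem_detKer {g : G} : g ∈ detKer rb ↔ det (rb g) = 1 := Iff.rfl

theorem det_mul_det_inv (g : G) : det (rb g) * det (rb g⁻¹) = 1 := by
  rw [← det_mul, mul_inv_rb, det_one]

theorem commutator_mem_detKer (a b : G) : a * b * a⁻¹ * b⁻¹ ∈ detKer rb := by
  rw [mem_detKer]
  simp only [map_mul, det_mul]
  linear_combination (det (rb b) * det (rb b⁻¹)) * det_mul_det_inv (rb := rb) a +
    det_mul_det_inv (rb := rb) b

variable {C : G → M2 k} (htr : ∀ g, trace (C g) = 0)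
  (hC : ∀ g h, C (g * h) = det (rb g) • (rb g * C h * rb g⁻¹) + C g)

/-- The quadratic function of a crossed homomorphism. -/
abbrev phiFn (rb : G →* M2 k) (C : G → M2 k) (g : G) : k := trace (C g * rb g)

include hC in
theorem crossed_one : C 1 = 0 := by
  have := hC 1 1
  simp only [mul_one, map_one, det_one, one_smul, inv_one, one_mul] at this
  exact right_eq_add.1 this

include hC in
/-- The quadratic function of a crossed homomorphism transforms by the determinant under
conjugation. -/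
theorem phiFn_conj (g : G) {h : G} (hh : h ∈ detKer rb) :
    phiFn rb C (g * h * g⁻¹) = det (rb g) * phiFn rb C h := by
  set h' := g * h * g⁻¹ with hh'
  have hd : det (rb h') = 1 :=
    (inferInstance : (detKer rb).Normal).conj_mem h hh g
  have e : C h' + rb h' * C g * rb h'⁻¹ = det (rb g) • (rb g * C h * rb g⁻¹) + C g := by
    have b := hC h' g
    rw [hd, one_smul] at b
    rw [← hC, show g * h = h' * g by simp [hh'], b, add_comm]
  have e' : C h' * rb h' + rb h' * C g * rb h'⁻¹ * rb h' =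
      det (rb g) • (rb g * C h * rb g⁻¹ * rb h') + C g * rb h' := by
    rw [← add_mul, e, add_mul, Matrix.smul_mul]
  have t := congrArg trace e'
  simp only [trace_add, trace_smul, smul_eq_mul] at t
  rw [mul_assoc (rb h' * C g), inv_mul_rb, mul_one, trace_mul_comm (rb h') (C g)] at t
  have e2 : rb g * C h * rb g⁻¹ * rb h' = rb g * (C h * rb h) * rb g⁻¹ := by
    rw [hh', map_mul, map_mul]
    simp only [mul_assoc]
    rw [← mul_assoc (rb g⁻¹) (rb g), inv_mul_rb, one_mul]
  rw [e2, trace_mul_cycle, inv_mul_rb, one_mul] at t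
  exact add_right_cancel t

include hC in
theorem phiFn_pow {h : G} (hh : h ∈ detKer rb) (m : ℕ) :
    phiFn rb C (h ^ m) = m * trace (C h * rb h ^ m) := by
  suffices ∀ n : ℕ, trace (C (h ^ m) * rb h ^ n) = m * trace (C h * rb h ^ n) by
    rw [phiFn, map_pow]; exact this m
  induction m with
  | zero => intro n; simp [crossed_one hC]
  | succ m ih =>
    intro n
    rw [pow_succ', hC, mem_detKer.1 hh, one_smul, add_mul, trace_add,
      mul_assoc (rb h * C (h ^ m)), trace_mul_cycle (rb h) (C (h ^ m)) (rb h⁻¹ * rb h ^ n)]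
    have : rb h⁻¹ * rb h ^ n * rb h = rb h ^ n := by
      rw [mul_assoc, ← pow_succ, pow_succ', ← mul_assoc, inv_mul_rb, one_mul]
    rw [this, trace_mul_comm, ih]
    push_cast
    ring

omit [Fact (Nat.Prime p)] in
include hC in
/-- Elements of order prime to the characteristic. -/
theorem phiFn_eq_zero_of_not_dvd {h : G} (hh : h ∈ detKer rb)
    (hord : ¬ p ∣ orderOf h) : phiFn rb C h = 0 := by
  have h1 := phiFn_pow hC hh (orderOf h + 1)
  rw [pow_succ, pow_orderOf_eq_one, one_mul, pow_succ, ← map_pow, pow_orderOf_eq_one, map_one,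
    one_mul] at h1
  change phiFn rb C h = _ * phiFn rb C h at h1
  have : (orderOf h : k) * phiFn rb C h = 0 := by push_cast at h1; linear_combination -h1
  exact (mul_eq_zero.1 this).resolve_left fun e => hord ((CharP.cast_eq_zero_iff k p _).1 e)

theorem isNilpotent_sub_one_of_pow {g : G} {e : ℕ} (h : g ^ p ^ e = 1) :
    IsNilpotent (rb g - 1) :=
  ⟨p ^ e, by rw [sub_pow_char_pow_of_commute p e (Commute.one_right _), one_pow, ← map_pow, h,
    map_one, sub_self]⟩

include hC in
/-- Elements with distinct eigenvalues. -/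
theorem phiFn_eq_zero_of_distinct (p : ℕ) [Fact p.Prime] [CharP k p] [Finite G]
    (hinj : Function.Injective rb) {h : G}
    (hh : h ∈ detKer rb) (hd : trace (rb h) ^ 2 ≠ 4) : phiFn rb C h = 0 := by
  refine phiFn_eq_zero_of_not_dvd (p := p) hC hh fun hdvd => hd ?_
  obtain ⟨d, hd'⟩ := hdvd
  have hd0 : 0 < d := Nat.pos_of_ne_zero fun e => (orderOf_pos h).ne' (by rw [hd', e, mul_zero])
  have hw : (h ^ d) ^ p ^ 1 = 1 := by
    rw [pow_one, ← pow_mul, mul_comm, ← hd', pow_orderOf_eq_one]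
  have hw1 : rb (h ^ d) - 1 ≠ 0 := fun e => by
    rw [sub_eq_zero, ← map_one rb] at e
    have h1 := Nat.le_of_dvd hd0 (orderOf_dvd_of_pow_eq_one (hinj e))
    rw [hd'] at h1
    have := (Fact.out : p.Prime).two_le
    nlinarith
  obtain ⟨t1, t2, -⟩ := nilpotent_facts (isNilpotent_sub_one_of_pow (k := k) (rb := rb) (p := p) hw)
  have := sq_trace_of_commute_nilpotent hw1 t1 t2 (M := rb h) (by
    rw [mul_sub, sub_mul, one_mul, mul_one, ← map_mul, ← map_mul, ← pow_succ', pow_succ])
  rw [this, mem_detKer.1 hh, mul_one]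

/-- An element of determinant one with trace `± 2` is `± 1` plus a nilpotent matrix. -/
theorem exists_scalar_add_nilpotent (hp2 : p ≠ 2) {h : G} (hh : h ∈ detKer rb)
    (hd : trace (rb h) ^ 2 = 4) :
    ∃ (l : k) (N : M2 k), l * l = 1 ∧ N * N = 0 ∧ rb h = l • 1 + N := by
  have h2 := two_ne_zero_of_charP (k := k) hp2
  obtain ⟨l, hl⟩ : ∃ l, 2 * l = trace (rb h) := ⟨trace (rb h) / 2, mul_div_cancel₀ _ h2⟩
  have hl1 : l * l = 1 := by
    have : (2 * 2 : k) * (l * l - 1) = 0 := by rw [← hl] at hd; linear_combination hd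
    exact sub_eq_zero.1 ((mul_eq_zero.1 this).resolve_left (mul_ne_zero h2 h2))
  have ht : trace (rb h - l • 1) = 0 := by
    rw [trace_sub, trace_smul, trace_one, Fintype.card_fin, smul_eq_mul, ← hl]
    push_cast; ring
  have hdet : det (rb h - l • (1 : M2 k)) = 0 := by
    have e := mem_detKer.1 hh
    rw [det_fin_two] at e
    rw [trace_fin_two] at hl
    simp [det_fin_two]
    linear_combination e + l * hl - hl1
  exact ⟨l, rb h - l • 1, hl1, by rw [sq_eq_of_trace_zero ht, hdet, neg_zero, zero_smul],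
    (add_sub_cancel _ _).symm⟩

include htr hC in
/-- Vanishing on unipotent elements gives vanishing on elements with a double eigenvalue. -/
theorem phiFn_eq_zero_of_double (hp2 : p ≠ 2) {h : G} (hh : h ∈ detKer rb)
    (hd : trace (rb h) ^ 2 = 4)
    (hu : ∀ u ∈ detKer rb, (rb u - 1) * (rb u - 1) = 0 → phiFn rb C u = 0) :
    phiFn rb C h = 0 := by
  obtain ⟨l, N, hl, hNN, hrb⟩ := exists_scalar_add_nilpotent (p := p) hp2 hh hd
  have e : rb (h ^ 2) = 1 + (2 * l) • N := by
    rw [map_pow, pow_two, hrb, sq_scalar_add hl hNN]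
  have h0 := hu _ (pow_mem hh 2) (by rw [e]; simp [hNN])
  rw [phiFn_pow hC hh, ← map_pow, e, mul_add, mul_one, Matrix.mul_smul, trace_add, trace_smul,
    htr, zero_add, smul_eq_mul, Nat.cast_ofNat] at h0
  have hΦ : phiFn rb C h = trace (C h * N) := by
    rw [phiFn, hrb, mul_add, Matrix.mul_smul, mul_one, trace_add, trace_smul, htr, smul_zero,
      zero_add]
  rw [hΦ]
  have h2 := two_ne_zero_of_charP (k := k) hp2
  have hl0 : l ≠ 0 := fun e => by simp [e] at hl
  simpa [mul_ne_zero, h2, hl0] using h0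

include hC in
/-- The crossed homomorphism on a commutative unipotent group is linear. -/
theorem trace_mul_linear_of_commute {N : M2 k} (hN : IsNilpotent N) (hN0 : N ≠ 0)
    {g h : G} (hg : g ∈ detKer rb) (hh : h ∈ detKer rb) (hgh : g * h = h * g) {x y : k}
    (hx : rb g = 1 + x • N) (hy : rb h = 1 + y • N) :
    x * trace (C h * N) = y * trace (C g * N) := by
  obtain ⟨-, hdN, hNN⟩ := nilpotent_facts hN
  have hinv : ∀ {g : G} {x : k}, rb g = 1 + x • N → rb g⁻¹ = 1 - x • N := fun {g x} hx => by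
    calc rb g⁻¹ = rb g⁻¹ * ((1 + x • N) * (1 - x • N)) := by
          rw [add_mul, mul_sub, mul_sub, one_mul, one_mul, mul_one, Matrix.smul_mul,
            Matrix.mul_smul, hNN, smul_zero, smul_zero, sub_zero, sub_add_cancel, mul_one]
      _ = _ := by rw [← hx, ← mul_assoc, inv_mul_rb, one_mul]
  have hconj : ∀ (x : k) (Y : M2 k),
      N * ((1 + x • N) * Y * (1 - x • N)) = N * Y + (-x) • (trace (Y * N) • N) := fun x Y => by
    rw [← mul_mul_self_of_det_eq_zero hdN Y]
    simp only [add_mul, one_mul, mul_one, Matrix.smul_mul, Matrix.mul_smul, mul_add,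
      ← mul_assoc, hNN, zero_mul, smul_zero, add_zero, neg_smul, sub_eq_add_neg,
      mul_neg]
  have e := congrArg (fun Z => N * Z) ((hC g h).symm.trans (hgh ▸ hC h g))
  simp only [mem_detKer.1 hg, mem_detKer.1 hh, one_smul] at e
  simp only [hinv hx, hinv hy, hx, hy] at e
  rw [mul_add, mul_add, hconj, hconj] at e
  have e' : (y * trace (C g * N) - x * trace (C h * N)) • N = 0 := by
    rw [sub_smul, ← smul_smul, ← smul_smul]
    rw [neg_smul, neg_smul] at e
    linear_combination (norm := abel) e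
  exact (sub_eq_zero.1 ((smul_eq_zero.1 e').resolve_right hN0)).symm

/-- Every `p`-element is conjugate into a given Sylow subgroup. -/
theorem exists_conj_mem_sylow {H : Type*} [Group H] [Finite H] (P₀ : Sylow p H) {u : H}
    (hu : ∃ e, u ^ p ^ e = 1) : ∃ h : H, h⁻¹ * u * h ∈ (P₀ : Subgroup H) := by
  obtain ⟨e, he⟩ := hu
  have hz : IsPGroup p (Subgroup.zpowers u) := by
    intro y
    obtain ⟨i, hi⟩ := Subgroup.mem_zpowers_iff.1 y.2
    refine ⟨e, Subtype.ext ?_⟩
    rw [SubmonoidClass.coe_pow, ← hi, ← zpow_natCast, ← zpow_mul, mul_comm, zpow_mul,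
      zpow_natCast, he, one_zpow, OneMemClass.coe_one]
  obtain ⟨Q, hQ⟩ := hz.exists_le_sylow
  obtain ⟨h, hh⟩ := MulAction.exists_smul_eq H P₀ Q
  refine ⟨h, ?_⟩
  have hu := hQ (Subgroup.mem_zpowers u)
  rw [← hh] at hu
  have hu' : u ∈ MulAut.conj h • (P₀ : Subgroup H) := hu
  rw [Subgroup.mem_pointwise_smul_iff_inv_smul_mem, ← map_inv] at hu'
  simpa [MulAut.smul_def] using hu'

/-- A `p`-group of matrices of determinant one containing `1 + N` for a nilpotent `N` consists of
elements `1 + x • N`. -/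
theorem exists_eq_one_add_smul_of_isPGroup [Finite G] (hinj : Function.Injective rb)
    (h2 : (2 : k) ≠ 0) {N₀ : M2 k} (hN₀0 : N₀ ≠ 0) (hnil₀ : IsNilpotent N₀)
    {P : Subgroup (detKer rb)} (hP : IsPGroup p P) {w₀ : detKer rb} (hw₀P : w₀ ∈ P)
    (hw₀ : rb w₀ = 1 + N₀) {g : detKer rb} (hg : g ∈ P) : ∃ x : k, rb g = 1 + x • N₀ := by
  have : Nontrivial P := ⟨⟨w₀, hw₀P⟩, 1, fun e => hN₀0 (by
    have := congrArg (fun z : P => rb ((z : detKer rb) : G)) e
    simpa [hw₀] using this)⟩
  have := hP.center_nontrivial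
  obtain ⟨z, hz⟩ := exists_ne (1 : Subgroup.center P)
  have hzc : ∀ y : P,
      Commute (rb (((z : P) : detKer rb) : G) - 1) (rb ((y : detKer rb) : G) - 1) :=
    fun y => by
      refine ((Commute.sub_left ?_ (Commute.one_left _)).sub_right (Commute.one_right _))
      rw [commute_iff_eq, ← map_mul, ← map_mul, ← Subgroup.coe_mul, ← Subgroup.coe_mul,
        ← Subgroup.coe_mul, ← Subgroup.coe_mul, Subgroup.mem_center_iff.1 z.2 y]
  have hnilP : ∀ y : P, IsNilpotent (rb ((y : detKer rb) : G) - 1) := fun y => by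
    obtain ⟨e, he⟩ := hP y
    exact isNilpotent_sub_one_of_pow (p := p) (e := e)
      (by simpa using congrArg (fun q : P => ((q : detKer rb) : G)) he)
  set Nz := rb (((z : P) : detKer rb) : G) - 1 with hNz
  have hNz0 : Nz ≠ 0 := fun e => hz <| by
    rw [hNz, sub_eq_zero, ← map_one rb] at e
    exact Subtype.ext (Subtype.ext (Subtype.ext (hinj e)))
  have hc₀ : Commute Nz N₀ := by simpa [hw₀] using hzc ⟨w₀, hw₀P⟩
  obtain ⟨t, ht⟩ := exists_smul_of_commute_nilpotent h2 hN₀0 hnil₀ (hnilP _) hc₀.symm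
  obtain ⟨s, hs⟩ := exists_smul_of_commute_nilpotent h2 hNz0 (hnilP _) (hnilP ⟨g, hg⟩)
    (hzc ⟨g, hg⟩)
  refine ⟨s * t, ?_⟩
  rw [← smul_smul, ← ht, ← hs]
  abel

/-- A non-trivial element `1 + x • N` fixes only the kernel line of the nilpotent matrix `N`, over
any field containing the coefficients. -/
theorem eq_mk_of_smul_eq_self {F : Type*} [Field F] {ι : k →+* F} {N₀ : M2 k}
    (hNN : N₀ * N₀ = 0) (hN₀0 : N₀ ≠ 0) {v : Fin 2 → k} (hv0 : N₀ *ᵥ v = 0) {x : k} (hx0 : x ≠ 0)
    {g : Matrix.SpecialLinearGroup (Fin 2) F} (hg : (g : M2 F) = (1 + x • N₀).map ι)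
    (hvF0 : (fun i => ι (v i)) ≠ 0) {y : Projectivization F (Fin 2 → F)} (hy : g • y = y) :
    y = Projectivization.mk F _ hvF0 := by
  induction y using Projectivization.ind with | h w hw =>
  obtain ⟨a, ha⟩ := (sl2_smul_eq_iff _ hw).1 hy
  rw [hg] at ha
  set M : M2 F := (x • N₀).map ι with hM
  have ha' : M *ᵥ w = (a - 1) • w := by
    rw [sub_smul, one_smul, ← ha, Matrix.map_add _ (map_add ι), Matrix.map_one _ (map_zero ι)
      (map_one ι), add_mulVec, one_mulVec, add_sub_cancel_left]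
  have hM2 : M * M = 0 := by
    rw [hM, ← Matrix.map_mul, Matrix.smul_mul, Matrix.mul_smul, hNN]; simp
  have e2 := congrArg (fun Z => Z *ᵥ w) hM2
  simp only [← mulVec_mulVec, ha', mulVec_smul, smul_smul, zero_mulVec] at e2
  have ha1 : a - 1 = 0 := mul_self_eq_zero.1 ((smul_eq_zero.1 e2).resolve_right hw)
  rw [ha1, zero_smul] at ha'
  have hM0 : M ≠ 0 := fun e => hN₀0 <| (smul_eq_zero.1
    (Matrix.map_injective ι.injective
      (e.trans (Matrix.map_zero _ (map_zero ι)).symm))).resolve_left hx0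
  have hMv : M *ᵥ (fun i => ι (v i)) = 0 := by
    funext i
    have := congrArg ι (congrFun hv0 i)
    simp only [mulVec, dotProduct, map_sum, map_mul, Pi.zero_apply, map_zero] at this
    simp [hM, mulVec, dotProduct, mul_assoc, ← Finset.mul_sum, this]
  obtain ⟨b, hb⟩ := exists_smul_of_mulVec_eq_zero hM0 hvF0 hMv ha'
  rw [Projectivization.mk_eq_mk_iff']
  exact ⟨b, hb.symm⟩

/-- Products of elements `1 + x • N` with scalars lie among the stabilising elements with a double
eigenvalue, without repetition. -/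
theorem card_mul_card_scalar_le [Finite G] {F : Type*} [Field F] {N₀ : M2 k}
    (ψ : detKer rb →* Matrix.SpecialLinearGroup (Fin 2) F) (hψinj : Function.Injective ψ)
    (hinj : Function.Injective rb) (h2 : (2 : k) ≠ 0) (htN₀ : trace N₀ = 0)
    {U : Subgroup (detKer rb)} (hU : ∀ u ∈ U, ∃ x : k, rb u = 1 + x • N₀)
    (hscal : ∀ g : detKer rb, IsScalarSL (ψ g) → ∃ l : k, rb (g : G) = l • 1)
    (hdbl : ∀ g : detKer rb, IsDoubleSL (ψ g) ↔ trace (rb (g : G)) ^ 2 = 4)
    {x₀ : Projectivization F (Fin 2 → F)} (hUmem : ∀ u ∈ U, ψ u • x₀ = x₀) :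
    Nat.card U * Nat.card {g : Matrix.SpecialLinearGroup (Fin 2) F //
        g ∈ ψ.range ∧ IsScalarSL g} ≤
      Nat.card {g : Matrix.SpecialLinearGroup (Fin 2) F //
        g ∈ ψ.range ∧ g • x₀ = x₀ ∧ IsDoubleSL g} := by
  have : Finite ψ.range := Finite.of_surjective ψ.rangeRestrict ψ.rangeRestrict_surjective
  set S := {g : Matrix.SpecialLinearGroup (Fin 2) F // g ∈ ψ.range ∧ IsScalarSL g}
  set D := {g : Matrix.SpecialLinearGroup (Fin 2) F // g ∈ ψ.range ∧ g • x₀ = x₀ ∧ IsDoubleSL g}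
  have hD : Finite D := Finite.of_injective (fun g : D => (⟨g.1, g.2.1⟩ : ψ.range))
    fun a b e => Subtype.ext
      (congrArg (fun q : ψ.range => (q : Matrix.SpecialLinearGroup (Fin 2) F)) e)
  have hUS : ∀ (u : U) (s : S) (g : detKer rb), ψ g = s.1 →
      ∃ (x l : k), rb (u : detKer rb) = 1 + x • N₀ ∧ rb g = l • 1 ∧
        rb ((u : detKer rb) * g : detKer rb) = l • (1 + x • N₀) := fun u s g hg => by
    obtain ⟨x, hx⟩ := hU u u.2
    obtain ⟨l, hl⟩ := hscal g (hg ▸ s.2.2)
    exact ⟨x, l, hx, hl, by rw [Subgroup.coe_mul, map_mul, hx, hl, Matrix.mul_smul, mul_one]⟩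
  rw [← Nat.card_prod]
  refine Nat.card_le_card_of_injective (fun us => ⟨ψ us.1 * us.2.1,
    ψ.range.mul_mem ⟨_, rfl⟩ us.2.2.1, ?_, ?_⟩) ?_
  · rw [mul_smul, isScalarSL_smul us.2.2.2, hUmem _ us.1.2]
  · obtain ⟨u, s⟩ := us
    obtain ⟨g, hg⟩ := s.2.1
    obtain ⟨x, l, -, hl, hug⟩ := hUS u s g hg
    rw [← hg, ← map_mul, hdbl, hug, trace_smul, trace_add, trace_one, trace_smul, htN₀]
    have hl1 : l * l = 1 := by simpa [hl, pow_two] using mem_detKer.1 g.2
    simp only [Fintype.card_fin, Nat.cast_ofNat, smul_eq_mul, mul_zero, add_zero]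
    linear_combination 4 * hl1
  · rintro ⟨u, s⟩ ⟨u', s'⟩ e
    obtain ⟨g, hg⟩ := s.2.1
    obtain ⟨g', hg'⟩ := s'.2.1
    obtain ⟨x, l, -, hl, hug⟩ := hUS u s g hg
    obtain ⟨x', l', -, hl', hug'⟩ := hUS u' s' g' hg'
    have e' : ψ ((u : detKer rb) * g) = ψ ((u' : detKer rb) * g') := by
      rw [map_mul, map_mul, hg, hg']; exact congrArg Subtype.val e
    have e'' := hψinj e'
    have hll : l = l' := by
      have ee := congrArg trace (hug.symm.trans ((congrArg (fun q : detKer rb => rb (q : G))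
        e'').trans hug'))
      simp [trace_smul, trace_add, htN₀] at ee
      exact ee.resolve_right h2
    have hgg : g = g' := Subtype.ext (hinj (hl.trans (hll ▸ hl'.symm)))
    subst hgg
    have hss : s = s' := Subtype.ext (hg.symm.trans hg')
    exact Prod.ext (Subtype.ext (mul_right_cancel e'')) hss

/-- For a big image the fixed line of a unipotent element is moved. -/
theorem exists_smul_ne (hbig : BigImage rb) {u₀ : G} (hu₀ : u₀ ∈ detKer rb)
    {vF : Fin 2 → AlgebraicClosure k} (hvF0 : vF ≠ 0)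
    (ψ : detKer rb →* Matrix.SpecialLinearGroup (Fin 2) (AlgebraicClosure k))
    (hψ : ∀ g, (ψ g : M2 (AlgebraicClosure k)) = rbBar rb (g : G))
    (hfix : ∀ y : Projectivization (AlgebraicClosure k) (Fin 2 → AlgebraicClosure k),
      ψ ⟨u₀, hu₀⟩ • y = y → y = Projectivization.mk _ vF hvF0) :
    ∃ g ∈ ψ.range, g • Projectivization.mk (AlgebraicClosure k) vF hvF0 ≠
      Projectivization.mk (AlgebraicClosure k) vF hvF0 := by
  by_contra! hall
  obtain ⟨g, hg⟩ := hbig.irr vF hvF0
  set u' : detKer rb := ⟨g⁻¹ * u₀ * g⁻¹⁻¹, (inferInstance : (detKer rb).Normal).conj_mem u₀ hu₀ _⟩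
    with hu'
  obtain ⟨a, ha⟩ := (sl2_smul_eq_iff _ hvF0).1 (hall (ψ u') ⟨u', rfl⟩)
  rw [hψ] at ha
  have hw : rbBar rb g *ᵥ vF ≠ 0 := fun e => hvF0 (by
    have := congrArg (rbBar rb g⁻¹ *ᵥ ·) e
    simp only [mulVec_mulVec, ← map_mul, inv_mul_cancel, map_one, one_mulVec,
      mulVec_zero] at this
    exact this)
  have hgv : ψ ⟨u₀, hu₀⟩ • Projectivization.mk (AlgebraicClosure k) (rbBar rb g *ᵥ vF) hw =
      Projectivization.mk (AlgebraicClosure k) (rbBar rb g *ᵥ vF) hw := by
    refine (sl2_smul_eq_iff _ _).2 ⟨a, ?_⟩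
    rw [← mulVec_smul, ← ha, hψ, mulVec_mulVec, mulVec_mulVec, ← map_mul, ← map_mul]
    simp [hu', mul_assoc]
  have := hfix _ hgv
  obtain ⟨b, hb⟩ := (Projectivization.mk_eq_mk_iff' _ _ _ _ _).1 this
  exact hg b hb.symm

omit [Fact (Nat.Prime p)] [CharP k p] in
/-- Extending scalars commutes with applying a matrix to a vector. -/
theorem map_mulVec_map {F : Type*} [Field F] (ι : k →+* F) (M : M2 k) (w : Fin 2 → k) :
    M.map ι *ᵥ (fun i => ι (w i)) = fun i => ι ((M *ᵥ w) i) := by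
  funext i; simp [mulVec, dotProduct]

omit [Fact (Nat.Prime p)] [CharP k p] in
/-- An eigenvalue at a vector defined over `k` is defined over `k`. -/
theorem exists_eq_map_of_mulVec_map {F : Type*} [Field F] (ι : k →+* F) {M : M2 k}
    {v : Fin 2 → k} (hv : v ≠ 0) {a : F}
    (h : M.map ι *ᵥ (fun i => ι (v i)) = a • fun i => ι (v i)) :
    ∃ a₀ : k, a = ι a₀ ∧ M *ᵥ v = a₀ • v := by
  rw [map_mulVec_map] at h
  obtain ⟨i, hi⟩ := Function.ne_iff.1 hv
  have hj : ∀ j, ι ((M *ᵥ v) j) = a * ι (v j) := fun j => congrFun h j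
  have ha : a = ι ((M *ᵥ v) i / v i) := by
    rw [map_div₀, hj, mul_div_assoc, div_self ((map_ne_zero ι).2 hi), mul_one]
  exact ⟨_, ha, funext fun j => ι.injective (by simp [hj j, ha])⟩

/-- The elements of determinant one of the form `1 + x • N`, for a square zero matrix `N`. -/
def unipLine (rb : G →* M2 k) {N : M2 k} (hN : N * N = 0) : Subgroup (detKer rb) where
  carrier := {g | ∃ x : k, rb g = 1 + x • N}
  one_mem' := ⟨0, by simp⟩
  mul_mem' := fun {a b} ⟨x, hx⟩ ⟨y, hy⟩ => ⟨x + y, by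
    simp only [Subgroup.coe_mul, map_mul, hx, hy, add_mul, mul_add, one_mul, mul_one,
      Matrix.smul_mul, Matrix.mul_smul, hN, smul_zero, add_zero, add_smul]
    abel⟩
  inv_mem' := fun {a} ⟨x, hx⟩ => ⟨-x, by
    calc rb ↑(a⁻¹) = rb (a : G)⁻¹ * ((1 + x • N) * (1 + (-x) • N)) := by
          simp [add_mul, mul_add, hN]
      _ = _ := by rw [← hx, ← mul_assoc, inv_mul_rb, one_mul]⟩

omit [Field k] [CharP k p] in
/-- For odd `p` a `p`-group of fewer than six elements is generated by any element of order `p`. -/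
theorem zpowers_eq_of_card_lt_six {H : Type*} [Group H] [Finite H] (hp2 : p ≠ 2) {U : Subgroup H}
    (hU : IsPGroup p U) {w : H} (hw : w ∈ U) (hord : orderOf w = p) (hlt : Nat.card U < 6) :
    Subgroup.zpowers w = U := by
  refine Subgroup.eq_of_le_of_card_ge (Subgroup.zpowers_le.2 hw) ?_
  rw [Nat.card_zpowers, hord]
  obtain ⟨e, he⟩ := (IsPGroup.iff_card).1 hU
  rw [he] at hlt ⊢
  have hp3 : 3 ≤ p := by
    have := (Fact.out : p.Prime).two_le
    omega
  match e with
  | 0 => simp; omega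
  | 1 => simp
  | e + 2 =>
    exfalso
    have : p * p ≤ p ^ (e + 2) := by
      rw [← pow_two]; exact Nat.pow_le_pow_right (by omega) (by omega)
    nlinarith

/-- The elements of determinant one as matrices over an algebraic closure. -/
def detKerSL (rb : G →* M2 k) :
    detKer rb →* Matrix.SpecialLinearGroup (Fin 2) (AlgebraicClosure k) where
  toFun g := ⟨rbBar rb (g : G), by
    rw [show rbBar rb (g : G) = (rb g).map (algebraMap k (AlgebraicClosure k)) from rfl,
      ← RingHom.mapMatrix_apply, ← RingHom.map_det, mem_detKer.1 g.2, map_one]⟩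
  map_one' := Subtype.ext (map_one (rbBar rb))
  map_mul' a b := Subtype.ext (map_mul (rbBar rb) (a : G) b)

theorem coe_detKerSL (g : detKer rb) :
    (detKerSL rb g : M2 (AlgebraicClosure k)) =
      (rb (g : G)).map (algebraMap k (AlgebraicClosure k)) := rfl

theorem detKerSL_injective (hinj : Function.Injective rb) : Function.Injective (detKerSL rb) :=
  fun a b e => Subtype.ext (hinj (by
    have e' : (rb (a : G)).map (algebraMap k (AlgebraicClosure k)) =
        (rb (b : G)).map (algebraMap k (AlgebraicClosure k)) := congrArg Subtype.val e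
    exact Matrix.map_injective (algebraMap k (AlgebraicClosure k)).injective e'))

/-- An element which is scalar over the algebraic closure is scalar. -/
theorem exists_eq_smul_one_of_isScalarSL (g : detKer rb) (h : IsScalarSL (detKerSL rb g)) :
    ∃ l : k, rb (g : G) = l • 1 := by
  have hι := (algebraMap k (AlgebraicClosure k)).injective
  obtain ⟨e1, e2, e3⟩ := h
  rw [coe_detKerSL] at e1 e2 e3
  refine ⟨rb (g : G) 0 0, ?_⟩
  ext i j
  fin_cases i <;> fin_cases j <;> simp
  · exact hι (by simpa using e1)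
  · exact hι (by simpa using e2)
  · exact hι (by simpa using e3.symm)

theorem isDoubleSL_detKerSL_iff (g : detKer rb) :
    IsDoubleSL (detKerSL rb g) ↔ trace (rb (g : G)) ^ 2 = 4 := by
  rw [IsDoubleSL, coe_detKerSL, trace_fin_two, map_apply, map_apply, ← map_add, ← map_pow,
    ← map_ofNat (algebraMap k (AlgebraicClosure k)) 4]
  exact (algebraMap k (AlgebraicClosure k)).injective.eq_iff

include p in
/-- If every element of order a power of `p` is conjugate to some `1 + x • N₀`, then every fixed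
point of a non-scalar element with a double eigenvalue is a translate of the kernel line of `N₀`. -/
theorem exists_smul_eq_of_double (hp2 : p ≠ 2) (hinj : Function.Injective rb) {N₀ : M2 k}
    {x₀ : Projectivization (AlgebraicClosure k) (Fin 2 → AlgebraicClosure k)}
    (hconj : ∀ u : detKer rb, (∃ e, u ^ p ^ e = 1) →
      ∃ h : detKer rb, ∃ x : k, rb ((h⁻¹ * u * h : detKer rb) : G) = 1 + x • N₀)
    (hfix : ∀ (g : detKer rb) (x : k), x ≠ 0 → rb g = 1 + x • N₀ →
      ∀ y : Projectivization (AlgebraicClosure k) (Fin 2 → AlgebraicClosure k),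
        detKerSL rb g • y = y → y = x₀) :
    ∀ g ∈ (detKerSL rb).range, ¬ IsScalarSL g → IsDoubleSL g → ∀ x, g • x = x →
      ∃ h ∈ (detKerSL rb).range, h • x₀ = x := by
  have h2 := two_ne_zero_of_charP (k := k) hp2
  rintro _ ⟨g, rfl⟩ hns hdb y hy
  obtain ⟨l, N, hl, hNN, hrb⟩ := exists_scalar_add_nilpotent (p := p) hp2 g.2
    ((isDoubleSL_detKerSL_iff g).1 hdb)
  have hN0 : N ≠ 0 := fun e => hns <| by
    refine ⟨?_, ?_, ?_⟩ <;> simp [coe_detKerSL, hrb, e]
  have hg2 : rb ((g ^ 2 : detKer rb) : G) = 1 + (2 * l) • N := by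
    rw [SubmonoidClass.coe_pow, map_pow, pow_two, hrb, sq_scalar_add hl hNN]
  have hp1 : (g ^ 2) ^ p ^ 1 = 1 := by
    apply Subtype.ext; apply hinj
    rw [pow_one, SubmonoidClass.coe_pow (g ^ 2), map_pow, hg2, OneMemClass.coe_one, map_one,
      one_add_smul_pow (by simp [hNN]), CharP.cast_eq_zero, zero_smul, add_zero]
  obtain ⟨h, hhU⟩ := hconj (g ^ 2) ⟨1, hp1⟩
  obtain ⟨x, hx⟩ := hhU
  have hx0 : x ≠ 0 := fun e => by
    rw [e, zero_smul, add_zero, ← map_one rb] at hx
    have hone : g ^ 2 = 1 := conj_eq_one_iff.1 (show h⁻¹ * g ^ 2 * h⁻¹⁻¹ = 1 by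
      rw [inv_inv]; exact Subtype.ext (hinj hx))
    rw [hone, OneMemClass.coe_one, map_one, left_eq_add, smul_eq_zero] at hg2
    exact hg2.elim (mul_ne_zero h2 (fun e => by simp [e] at hl)) hN0
  refine ⟨detKerSL rb h, ⟨h, rfl⟩, ?_⟩
  have hy' : detKerSL rb (h⁻¹ * g ^ 2 * h) • (detKerSL rb h)⁻¹ • y = (detKerSL rb h)⁻¹ • y := by
    simp [map_mul, mul_smul, pow_two, hy]
  rw [← hfix _ x hx0 hx _ hy', smul_inv_smul]

include htr hC in
/-- The quadratic function vanishes on unipotent elements. -/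
theorem phiFn_eq_zero_of_unipotent [Finite G] (hp2 : p ≠ 2) (hbig : BigImage rb)
    (hinj : Function.Injective rb) (hg0 : ∃ g, ∀ j : ℕ, det (rb g) ≠ (j : k) ^ 2)
    {u₀ : G} (hu₀ : u₀ ∈ detKer rb) (hu₀N : (rb u₀ - 1) * (rb u₀ - 1) = 0) :
    phiFn rb C u₀ = 0 := by
  classical
  by_contra hμ
  set N₀ := rb u₀ - 1 with hN₀
  have h2 := two_ne_zero_of_charP (k := k) hp2
  have hnil₀ : IsNilpotent N₀ := ⟨2, by rw [pow_two, hu₀N]⟩
  have hN₀0 : N₀ ≠ 0 := fun e => hμ <| by
    rw [hN₀, sub_eq_zero] at e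
    rw [phiFn, e, mul_one, htr]
  obtain ⟨htN₀, hdN₀, -⟩ := nilpotent_facts hnil₀
  -- the abelian group of elements `1 + x N₀`
  let U : Subgroup (detKer rb) := unipLine rb hu₀N
  set w₀ : detKer rb := ⟨u₀, hu₀⟩ with hw₀
  have hw₀U : w₀ ∈ U := ⟨1, by simp [hw₀, hN₀]⟩
  have hUpow : ∀ g ∈ U, g ^ p = 1 := fun g hg => by
    obtain ⟨x, hx⟩ := hg
    apply Subtype.ext
    apply hinj
    have : IsNilpotent (x • N₀) := hnil₀.smul x
    rw [SubmonoidClass.coe_pow, map_pow, hx, OneMemClass.coe_one, map_one,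
      one_add_smul_pow (nilpotent_facts this).2.2, CharP.cast_eq_zero, zero_smul, add_zero]
  have hUp : IsPGroup p U := fun g => ⟨1, Subtype.ext (by simpa using hUpow g g.2)⟩
  -- quadraticity
  set μ := trace (C u₀ * N₀) with hμdef
  have hμΦ : phiFn rb C u₀ = μ := by
    rw [phiFn, hμdef, hN₀, mul_sub, mul_one, trace_sub, htr, sub_zero]
  have hquad : ∀ g : detKer rb, ∀ x : k, rb g = 1 + x • N₀ → phiFn rb C g = x ^ 2 * μ := by
    intro g x hx
    have hcomm : (g : G) * u₀ = u₀ * g := hinj (by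
      rw [map_mul, map_mul, hx, show rb u₀ = 1 + N₀ by simp [hN₀]]
      simp [add_mul, mul_add]; abel)
    have := trace_mul_linear_of_commute hC hnil₀ hN₀0 g.2 hu₀ hcomm hx (y := 1) (by simp [hN₀])
    rw [phiFn, hx, mul_add, mul_one, Matrix.mul_smul, trace_add, trace_smul, htr, smul_eq_mul,
      zero_add, ← one_mul (trace (C g * N₀)), ← this]
    ring
  -- `U` is a maximal `p`-subgroup
  have hmax : ∀ P : Subgroup (detKer rb), IsPGroup p P → U ≤ P → P ≤ U := fun P hP hUP g hg =>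
    exists_eq_one_add_smul_of_isPGroup hinj h2 hN₀0 hnil₀ hP (hUP hw₀U) (by simp [hw₀, hN₀]) hg
  obtain ⟨P₀, hP₀⟩ := hUp.exists_le_sylow
  have hP₀U : (P₀ : Subgroup (detKer rb)) = U :=
    le_antisymm (hmax _ P₀.isPGroup' hP₀) hP₀
  -- every unipotent element is conjugate into `U`
  have hinto : ∀ u : detKer rb, (∃ e, u ^ p ^ e = 1) → ∃ h : detKer rb, h⁻¹ * u * h ∈ U :=
    fun u hu => hP₀U ▸ exists_conj_mem_sylow P₀ hu
  -- the count on the projective line
  let F := AlgebraicClosure k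
  let ι : k →+* F := algebraMap k F
  have hι : Function.Injective ι := ι.injective
  let ψ : detKer rb →* Matrix.SpecialLinearGroup (Fin 2) F := detKerSL rb
  have hψ : ∀ g, ((ψ g : Matrix.SpecialLinearGroup (Fin 2) F) : M2 F) = (rb (g : G)).map ι :=
    fun g => rfl
  obtain ⟨v, hv, hv0⟩ := exists_mulVec_eq_zero_iff.2 hdN₀
  set vF : Fin 2 → F := fun i => ι (v i) with hvF
  have hvF0 : vF ≠ 0 := fun e => hv (funext fun i => hι (by simpa [vF] using congrFun e i))
  set x₀ := Projectivization.mk F vF hvF0 with hx₀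
  obtain ⟨t₀, ht₀⟩ := exists_smul_killing h2 hv hnil₀ hv0
  have ht₀0 : t₀ ≠ 0 := fun e => hN₀0 (by rw [ht₀, e, zero_smul])
  have hfixpt : ∀ (g : detKer rb) (x : k), x ≠ 0 → rb g = 1 + x • N₀ →
      ∀ y : Projectivization F (Fin 2 → F), ψ g • y = y → y = x₀ := fun g x hx0 hg y hy =>
    eq_mk_of_smul_eq_self hu₀N hN₀0 hv0 hx0 (by rw [hψ, hg]) hvF0 hy
  set K := ψ.range with hK
  have : Finite K := Finite.of_surjective ψ.rangeRestrict ψ.rangeRestrict_surjective
  have hcount := card_double_stabilizer_lt (two_ne_zero_algebraicClosure h2) K x₀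
  -- the stabiliser scales `N₀` by a fourth root of unity
  have hA : ∀ g ∈ K, ∀ (w : Fin 2 → F) (hw : w ≠ 0) (a : F), x₀ = Projectivization.mk F w hw →
      ((g : Matrix.SpecialLinearGroup (Fin 2) F) : M2 F) *ᵥ w = a • w → a ^ 4 = 1 := by
    rintro _ ⟨g, rfl⟩ w hw a hxw ha
    obtain ⟨b, hb⟩ := (Projectivization.mk_eq_mk_iff' F vF w hvF0 hw).1 (hx₀ ▸ hxw)
    have hav : (rb (g : G)).map ι *ᵥ vF = a • vF := by
      rw [← hb, mulVec_smul, ← hψ, ha, smul_comm]
    obtain ⟨a₀, rfl, hgv⟩ := exists_eq_map_of_mulVec_map ι hv hav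
    have e1 := mul_killing (mem_detKer.1 g.2) hgv
    have e2 : rb ((g : G) * u₀ * (g : G)⁻¹) = 1 + (a₀ * a₀) • N₀ := by
      rw [map_mul, map_mul, show rb u₀ = 1 + N₀ by simp [hN₀], mul_add, add_mul, mul_one,
        mul_inv_rb, ht₀, Matrix.mul_smul, Matrix.smul_mul, e1, Matrix.smul_mul, mul_assoc,
        mul_inv_rb, mul_one, smul_comm]
    have e3 := hquad ⟨_, (inferInstance : (detKer rb).Normal).conj_mem u₀ hu₀ g⟩ _ e2
    change phiFn rb C ((g : G) * u₀ * (g : G)⁻¹) = _ at e3
    rw [phiFn_conj hC _ hu₀, mem_detKer.1 g.2, one_mul, hμΦ] at e3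
    have h4 : (a₀ ^ 4 - 1) * μ = 0 := by linear_combination -e3
    rw [← map_pow, sub_eq_zero.1 ((mul_eq_zero.1 h4).resolve_right (hμΦ ▸ hμ)), map_one]
  have hO : ∀ g ∈ K, ¬ IsScalarSL g → IsDoubleSL g → ∀ x, g • x = x → ∃ h ∈ K, h • x₀ = x :=
    exists_smul_eq_of_double hp2 hinj hinto hfixpt
  have hN : ∃ g ∈ K, g • x₀ ≠ x₀ :=
    exists_smul_ne hbig hu₀ hvF0 ψ (fun g => rfl) (hfixpt w₀ 1 one_ne_zero (by simp [hw₀, hN₀]))
  -- compare the cardinalities
  have hlt := hcount hA hO hN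
  set S := {g : Matrix.SpecialLinearGroup (Fin 2) F // g ∈ K ∧ IsScalarSL g}
  set D := {g : Matrix.SpecialLinearGroup (Fin 2) F // g ∈ K ∧ g • x₀ = x₀ ∧ IsDoubleSL g}
  have hS : Finite S := Finite.of_injective (fun g : S => (⟨g.1, g.2.1⟩ : K))
    fun a b e => Subtype.ext (congrArg (fun q : K => (q : Matrix.SpecialLinearGroup (Fin 2) F)) e)
  have hUmem : ∀ u ∈ U, ψ u • x₀ = x₀ := fun u ⟨x, hx⟩ => by
    refine (sl2_smul_eq_iff _ hvF0).2 ⟨1, ?_⟩
    rw [hψ, hvF, map_mulVec_map, one_smul, hx, add_mulVec, one_mulVec, smul_mulVec, hv0,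
      smul_zero, add_zero]
  have hcard : Nat.card U * Nat.card S ≤ Nat.card D :=
    card_mul_card_scalar_le ψ (detKerSL_injective hinj) hinj h2 htN₀ (fun u hu => hu)
      exists_eq_smul_one_of_isScalarSL isDoubleSL_detKerSL_iff hUmem
  have hSpos : 0 < Nat.card S := by
    have : Nonempty S := ⟨⟨1, K.one_mem, by simp [IsScalarSL]⟩⟩
    exact Nat.card_pos
  have hUlt : Nat.card U < 6 := Nat.lt_of_mul_lt_mul_right (hcard.trans_lt hlt)
  have hordw : orderOf w₀ = p := orderOf_eq_prime (hUpow _ hw₀U) fun e => hN₀0 (by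
    have := congrArg (fun q : detKer rb => rb (q : G)) e
    simpa [hw₀, hN₀, sub_eq_zero] using this)
  have hUeq : Subgroup.zpowers w₀ = U := zpowers_eq_of_card_lt_six hp2 hUp hw₀U hordw hUlt
  -- an element with non-square determinant
  obtain ⟨g₀, hg₀⟩ := hg0
  set u₁ : detKer rb := ⟨g₀ * u₀ * g₀⁻¹, (inferInstance : (detKer rb).Normal).conj_mem u₀ hu₀ _⟩
    with hu₁
  obtain ⟨h, hh⟩ := hinto u₁ ⟨1, by
    apply Subtype.ext
    rw [pow_one, SubmonoidClass.coe_pow, hu₁, conj_pow]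
    have := congrArg (fun q : detKer rb => (q : G)) (hUpow _ hw₀U)
    simp only [SubmonoidClass.coe_pow, hw₀, OneMemClass.coe_one] at this
    simp [this]⟩
  rw [← hUeq, ← mem_powers_iff_mem_zpowers, Submonoid.mem_powers_iff] at hh
  obtain ⟨j, hj⟩ := hh
  refine hg₀ j ?_
  have e1 : phiFn rb C (((h : G)⁻¹ * g₀) * u₀ * ((h : G)⁻¹ * g₀)⁻¹) = (j : k) ^ 2 * μ := by
    have hx : rb ((w₀ ^ j : detKer rb) : G) = 1 + (j : k) • N₀ := by
      rw [SubmonoidClass.coe_pow, map_pow, hw₀]
      rw [show rb ((⟨u₀, hu₀⟩ : detKer rb) : G) = 1 + N₀ by simp [hN₀], one_add_smul_pow hu₀N]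
    rw [← hquad _ _ hx, hj]
    simp [hu₁, mul_assoc]
  rw [phiFn_conj hC _ hu₀, map_mul, det_mul, hμΦ] at e1
  have hh1 : det (rb (h : G)⁻¹) = 1 := mem_detKer.1 (inv_mem h.2)
  rw [hh1, one_mul] at e1
  exact mul_right_cancel₀ (hμΦ ▸ hμ) e1

end Fermat.Agent.TW
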