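import Fermat.Agent.Gal.RepTwo
import Fermat.Agent.TW.AdVanishUnip

/-!
# Vanishing of the first cohomology of a finite image on the twisted adjoint

If the image is big and some determinant is not a square in the prime field, every crossed
homomorphism from the finite image into the twisted adjoint is principal. This is the group
theoretic input to the selection of Taylor–Wiles primes.
-/

noncomputable section

namespace Fermat.Agent.TW

open Matrix

section Eigen

variable {K : Type*} [Field K]

/-- A matrix with distinct eigenvalues has at most two eigenlines. -/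
theorem eigvec_dichotomy {M : M2 K} (hM : trace M ^ 2 ≠ 4 * det M) {u v w : Fin 2 → K} (hu : u ≠ 0)
    (hv : v ≠ 0) (hw : w ≠ 0) {a b c : K} (ha : M *ᵥ u = a • u) (hb : M *ᵥ v = b • v)
    (hc : M *ᵥ w = c • w) :
    (∃ r : K, v = r • u) ∨ (∃ r : K, w = r • u) ∨ (∃ r : K, w = r • v) := by
  have hroot : ∀ (u : Fin 2 → K) (a : K), u ≠ 0 → M *ᵥ u = a • u →
      a * a - trace M * a + det M = 0 := fun u a hu ha => by
    have hd : det (M - a • (1 : M2 K)) = 0 := exists_mulVec_eq_zero_iff.1
      ⟨u, hu, by rw [sub_mulVec, smul_mulVec, one_mulVec, ha, sub_self]⟩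
    simp [det_fin_two, trace_fin_two] at hd ⊢
    linear_combination hd
  have hker : ∀ (u v : Fin 2 → K) (a : K), u ≠ 0 → M *ᵥ u = a • u → M *ᵥ v = a • v →
      ∃ r : K, v = r • u := fun u v a hu ha hb => by
    refine exists_smul_of_mulVec_eq_zero (X := M - a • (1 : M2 K)) (fun e => hM ?_) hu ?_ ?_
    · rw [sub_eq_zero] at e
      simp [e]
      ring
    · rw [sub_mulVec, smul_mulVec, one_mulVec, ha, sub_self]
    · rw [sub_mulVec, smul_mulVec, one_mulVec, hb, sub_self]
  have e1 := hroot u a hu ha
  have e2 := hroot v b hv hb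
  have e3 := hroot w c hw hc
  have h12 : (a - b) * (a + b - trace M) = 0 := by linear_combination e1 - e2
  have h13 : (a - c) * (a + c - trace M) = 0 := by linear_combination e1 - e3
  rcases mul_eq_zero.1 h12 with h | h
  · exact Or.inl (hker u v a hu ha (by rw [sub_eq_zero.1 h]; exact hb))
  rcases mul_eq_zero.1 h13 with h' | h'
  · exact Or.inr (Or.inl (hker u w a hu ha (by rw [sub_eq_zero.1 h']; exact hc)))
  · have hbc : c = b := by linear_combination h' - h
    exact Or.inr (Or.inr (hker v w b hv hb (by rw [← hbc]; exact hc)))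

theorem eq_zero_of_forall_trace_mul {Y : M2 K} (h : ∀ X, trace (Y * X) = 0) : Y = 0 := by
  ext i j
  have := h (Matrix.single j i 1)
  fin_cases i <;> fin_cases j <;>
    simpa [trace_fin_two, mul_apply, Fin.sum_univ_two, single_apply] using this

end Eigen

section Span

variable {k : Type*} [Field k] {H : Type*} [Group H] {r : H →* M2 k}

/-- An absolutely irreducible representation detects matrices by the trace pairing. -/
theorem eq_zero_of_trace_irred (hirr : Irred2 (rbBar r)) {Y : M2 k}
    (h : ∀ g, trace (Y * r g) = 0) : Y = 0 := by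
  have hspan := Gal.span_range_eq_top (rbBar r) hirr
  have h0 : (algebraMap k (AlgebraicClosure k)).mapMatrix Y = 0 := by
    refine eq_zero_of_forall_trace_mul fun X => ?_
    have hX : X ∈ Submodule.span (AlgebraicClosure k) (Set.range (rbBar r)) :=
      hspan ▸ Submodule.mem_top
    induction hX using Submodule.span_induction with
    | mem X hX =>
      obtain ⟨g, rfl⟩ := hX
      have := congrArg (algebraMap k (AlgebraicClosure k)) (h g)
      simpa [trace_fin_two, mul_apply, Fin.sum_univ_two] using this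
    | zero => simp
    | add x y _ _ hx hy => rw [mul_add, trace_add, hx, hy, add_zero]
    | smul a x _ hx => rw [mul_smul_comm, trace_smul, hx, smul_zero]
  ext i j
  exact (algebraMap k (AlgebraicClosure k)).injective
    (by simpa using congrFun (congrFun h0 i) j)

/-- Derivations of the algebra of matrices of size two are inner. -/
theorem exists_inner_of_derivation (D : M2 k → M2 k) (hDadd : ∀ A B, D (A + B) = D A + D B)
    (hDsmul : ∀ (a : k) A, D (a • A) = a • D A) (hDmul : ∀ A B, D (A * B) = A * D B + D A * B) :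
    ∃ X, ∀ A, D A = X * A - A * X := by
  let X : M2 k := D (single 0 0 1) * single 0 0 1 + D (single 1 0 1) * single 0 1 1
  refine ⟨X, ?_⟩
  intro A
  have hA0 : A * single 0 0 (1 : k) =
      A 0 0 • single 0 0 1 + A 1 0 • single 1 0 1 := by
    ext i j; fin_cases i <;> fin_cases j <;> simp [mul_apply, single_apply]
  have hA1 : A * single 1 0 (1 : k) =
      A 0 1 • single 0 0 1 + A 1 1 • single 1 0 1 := by
    ext i j; fin_cases i <;> fin_cases j <;> simp [mul_apply, single_apply]
  have e0 := hDmul A (single 0 0 1)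
  rw [hA0, hDadd, hDsmul, hDsmul] at e0
  have e1 := hDmul A (single 1 0 1)
  rw [hA1, hDadd, hDsmul, hDsmul] at e1
  have hone : single 0 0 (1 : k) * single 0 0 1 + single 1 0 (1 : k) * single 0 1 1 =
      (1 : M2 k) := by
    ext i j; fin_cases i <;> fin_cases j <;> simp
  calc D A = D A * (single 0 0 1 * single 0 0 1 + single 1 0 1 * single 0 1 1) := by
        rw [hone, mul_one]
    _ = (D A * single 0 0 1) * single 0 0 1 + (D A * single 1 0 1) * single 0 1 1 := by
        rw [mul_add, mul_assoc, mul_assoc]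
    _ = (A 0 0 • D (single 0 0 1) + A 1 0 • D (single 1 0 1) - A * D (single 0 0 1)) *
          single 0 0 1 + (A 0 1 • D (single 0 0 1) + A 1 1 • D (single 1 0 1) -
            A * D (single 1 0 1)) * single 0 1 1 := by
        rw [e0, e1, add_sub_cancel_left, add_sub_cancel_left]
    _ = X * A - A * X := by
        ext i j
        fin_cases i <;> fin_cases j <;>
          simp [X, mul_apply, Fin.sum_univ_two, single_apply] <;> ring

/-- A crossed homomorphism into the adjoint of an absolutely irreducible representation is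
principal if the trace of `C g * r g` vanishes for all `g`. -/
theorem exists_principal_of_irred (hirr : Irred2 (rbBar r)) (h2 : (2 : k) ≠ 0) {C : H → M2 k}
    (hC : ∀ g h, C (g * h) = r g * C h * r g⁻¹ + C g)
    (hΦ : ∀ g, phiFn r C g = 0) :
    ∃ Z : M2 k, trace Z = 0 ∧ ∀ g, C g = r g * Z * r g⁻¹ - Z := by
  classical
  let gen : H → M2 k × M2 k := fun g => (r g, C g * r g)
  let S : Submodule k (M2 k × M2 k) := Submodule.span k (Set.range gen)
  have hgen : ∀ g h, C (g * h) * r (g * h) = r g * (C h * r h) + C g * r g * r h := by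
    intro g h
    rw [hC, map_mul, add_mul, mul_assoc (C g)]
    congr 1
    simp only [mul_assoc]
    rw [← mul_assoc (r g⁻¹), inv_mul_rb, one_mul]
  have hpair : ∀ x ∈ S, ∀ y ∈ S,
      trace (x.2 * y.1) + trace (y.2 * x.1) = 0 := by
    intro x hx y hy
    induction hx using Submodule.span_induction with
    | mem x hx =>
      obtain ⟨a, rfl⟩ := hx
      induction hy using Submodule.span_induction with
      | mem y hy =>
        obtain ⟨b, rfl⟩ := hy
        have := hΦ (a * b)
        rw [phiFn, hgen, trace_add, trace_mul_comm (r a)] at this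
        show trace (C a * r a * r b) + trace (C b * r b * r a) = 0
        linear_combination this
      | zero => simp
      | add u v _ _ hu hv =>
        simp only [Prod.fst_add, Prod.snd_add, mul_add, add_mul, trace_add]
        linear_combination hu + hv
      | smul c u _ hu =>
        simp only [Prod.smul_fst, Prod.smul_snd, mul_smul_comm, smul_mul_assoc, trace_smul,
          smul_eq_mul]
        linear_combination c * hu
    | zero => simp
    | add u v _ _ hu hv =>
      simp only [Prod.fst_add, Prod.snd_add, mul_add, add_mul, trace_add]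
      linear_combination hu + hv
    | smul c u _ hu =>
      simp only [Prod.smul_fst, Prod.smul_snd, mul_smul_comm, smul_mul_assoc, trace_smul,
        smul_eq_mul]
      linear_combination c * hu
  have hzero : ∀ x ∈ S, x.1 = 0 → x.2 = 0 := fun x hx h0 =>
    eq_zero_of_trace_irred hirr fun g => by
      simpa [h0, gen] using hpair x hx (gen g) (Submodule.subset_span ⟨g, rfl⟩)
  have htop : LinearMap.range ((LinearMap.fst k (M2 k) (M2 k)).comp S.subtype) = ⊤ := by
    rw [← Submodule.dualAnnihilator_eq_bot_iff, Submodule.eq_bot_iff]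
    intro f hf
    rw [Submodule.mem_dualAnnihilator] at hf
    let Y : M2 k := Matrix.of fun i j => f (Matrix.single j i 1)
    have hY : ∀ X, f X = trace (Y * X) := by
      intro X
      have e : ∀ i j, f (single i j (X i j)) = X i j * f (single i j (1 : k)) := fun i j => by
        rw [← smul_eq_mul, ← map_smul, smul_single, smul_eq_mul, mul_one]
      conv_lhs => rw [matrix_eq_sum_single X]
      simp only [map_add, Fin.sum_univ_two, Y, trace_fin_two, mul_apply, of_apply, e]
      ring
    have hY0 : Y = 0 := eq_zero_of_trace_irred hirr fun g => by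
      rw [← hY]
      exact hf _ ⟨⟨gen g, Submodule.subset_span ⟨g, rfl⟩⟩, rfl⟩
    exact LinearMap.ext fun X => by rw [hY, hY0, zero_mul, trace_zero, LinearMap.zero_apply]
  have hlift : ∀ A, ∃ x ∈ S, x.1 = A := fun A => by
    obtain ⟨x, hx⟩ := LinearMap.range_eq_top.1 htop A
    exact ⟨x.1, x.2, hx⟩
  choose s hsS hs1 using hlift
  let D : M2 k → M2 k := fun A => (s A).2
  have hD : ∀ x ∈ S, D x.1 = x.2 := fun x hx =>
    sub_eq_zero.1 (hzero (s x.1 - x) (sub_mem (hsS _) hx) (by simp [hs1]))
  have hDadd : ∀ A B, D (A + B) = D A + D B := fun A B => by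
    have := hD _ (add_mem (hsS A) (hsS B))
    simpa [hs1, D] using this
  have hDsmul : ∀ (a : k) A, D (a • A) = a • D A := fun a A => by
    have := hD _ (S.smul_mem a (hsS A))
    simpa [hs1, D] using this
  have hleib : ∀ x ∈ S, ∀ y ∈ S, (x.1 * y.1, x.1 * y.2 + x.2 * y.1) ∈ S := by
    intro x hx y hy
    induction hx using Submodule.span_induction with
    | mem x hx =>
      obtain ⟨a, rfl⟩ := hx
      induction hy using Submodule.span_induction with
      | mem y hy =>
        obtain ⟨b, rfl⟩ := hy
        refine Submodule.subset_span ⟨a * b, ?_⟩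
        simp only [gen, Prod.mk.injEq]
        exact ⟨by simp, hgen a b⟩
      | zero => simp [Prod.mk_zero_zero]
      | add u v _ _ hu hv =>
        convert S.add_mem hu hv using 1
        ext1 <;> simp [mul_add, add_add_add_comm]
      | smul c u _ hu =>
        convert S.smul_mem c hu using 1
        ext1 <;> simp [smul_add]
    | zero => simp [Prod.mk_zero_zero]
    | add u v _ _ hu hv =>
      convert S.add_mem hu hv using 1
      ext1 <;> simp [add_mul, add_add_add_comm]
    | smul c u _ hu =>
      convert S.smul_mem c hu using 1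
      ext1 <;> simp [smul_add]
  have hDmul : ∀ A B, D (A * B) = A * D B + D A * B := fun A B => by
    have := hD _ (hleib _ (hsS A) _ (hsS B))
    simpa [hs1, D] using this
  obtain ⟨X, hinner⟩ := exists_inner_of_derivation D hDadd hDsmul hDmul
  obtain ⟨t, ht⟩ : ∃ t, 2 * t = trace X := ⟨trace X / 2, mul_div_cancel₀ _ h2⟩
  refine ⟨-(X - t • 1), ?_, fun g => ?_⟩
  · rw [trace_neg, trace_sub, trace_smul, trace_one, Fintype.card_fin, smul_eq_mul,
      Nat.cast_ofNat, neg_eq_zero]
    linear_combination -ht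
  have e : C g * r g = X * r g - r g * X := by
    rw [← hinner]
    exact (hD (gen g) (Submodule.subset_span ⟨g, rfl⟩)).symm
  have e' : C g = X - r g * X * r g⁻¹ := by
    calc C g = C g * r g * r g⁻¹ := by rw [mul_assoc, mul_inv_rb, mul_one]
      _ = _ := by rw [e, sub_mul, mul_assoc X, mul_inv_rb, mul_one]
  simp only [e', mul_neg, neg_mul, mul_sub, sub_mul, Matrix.mul_smul, Matrix.smul_mul, mul_one,
    mul_inv_rb]
  abel

end Span

variable {k : Type*} [Field k] {p : ℕ} [Fact p.Prime] [CharP k p] {G : Type*} [Group G]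
  {rb : G →* M2 k}

/-- The elements of determinant one still act absolutely irreducibly. -/
theorem BigImage.irred_detKer (hbig : BigImage rb) (h2 : (2 : k) ≠ 0) :
    Irred2 ((rbBar rb).comp (detKer rb).subtype) := by
  intro v hv
  by_contra! hfix
  obtain ⟨σ, hσK, hσ⟩ := hbig.exists_distinct h2 (detKer rb) (fun h hh => hh)
    commutator_mem_detKer
  have hσ' : trace (rbBar rb σ) ^ 2 ≠ 4 * det (rbBar rb σ) := by
    have e1 : trace (rbBar rb σ) = algebraMap k (AlgebraicClosure k) (trace (rb σ)) := by
      simp [trace_fin_two]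
    have e2 : det (rbBar rb σ) = algebraMap k (AlgebraicClosure k) (det (rb σ)) := by
      simp [RingHom.map_det]
    rw [e1, e2, mem_detKer.1 hσK, map_one, mul_one, ← map_pow, ← map_ofNat (algebraMap k _) 4]
    exact fun e => hσ ((algebraMap k (AlgebraicClosure k)).injective e)
  have hne : ∀ g, rbBar rb g *ᵥ v ≠ 0 := fun g e => hv (by
    have := congrArg (rbBar rb g⁻¹ *ᵥ ·) e
    simp only [mulVec_mulVec, ← map_mul, inv_mul_cancel, map_one, one_mulVec, mulVec_zero] at this
    exact this)
  have heig : ∀ g : G, ∃ a : AlgebraicClosure k, rbBar rb σ *ᵥ (rbBar rb g *ᵥ v) =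
      a • (rbBar rb g *ᵥ v) := by
    intro g
    obtain ⟨a, ha⟩ := hfix ⟨g⁻¹ * σ * g⁻¹⁻¹,
      (inferInstance : (detKer rb).Normal).conj_mem σ hσK _⟩
    refine ⟨a, ?_⟩
    rw [← mulVec_smul, ← ha]
    simp only [MonoidHom.comp_apply, Subgroup.coe_subtype, mulVec_mulVec, ← map_mul]
    congr 2
    group
  let H : Subgroup G :=
    { carrier := {g | ∃ a : AlgebraicClosure k, rbBar rb g *ᵥ v = a • v}
      one_mem' := ⟨1, by rw [map_one, one_mulVec, one_smul]⟩
      mul_mem' := fun {x y} ⟨a, ha⟩ ⟨b, hb⟩ => ⟨b * a, by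
        rw [map_mul, ← mulVec_mulVec, hb, mulVec_smul, ha, smul_smul]⟩
      inv_mem' := fun {x} ⟨a, ha⟩ => ⟨a⁻¹, by
        have e := congrArg (rbBar rb x⁻¹ *ᵥ ·) ha
        simp only [mulVec_mulVec, ← map_mul, inv_mul_cancel, map_one, one_mulVec,
          mulVec_smul] at e
        have ha0 : a ≠ 0 := fun e0 => hv (by rw [e, e0, zero_smul])
        rw [eq_inv_smul_iff₀ ha0]
        exact e.symm⟩ }
  have hH : ∀ g, g ∈ H ↔ ∃ a : AlgebraicClosure k, rbBar rb g *ᵥ v = a • v := fun _ => Iff.rfl
  by_cases htop : H = ⊤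
  · obtain ⟨g, hg⟩ := hbig.irr v hv
    obtain ⟨a, ha⟩ := (hH g).1 (htop ▸ Subgroup.mem_top g)
    exact hg a ha
  obtain ⟨a₀, ha₀⟩ : ∃ a, a ∉ H := by
    by_contra! hc; exact htop ((Subgroup.eq_top_iff' H).2 hc)
  have htwo : ∀ x y, x ∉ H → y ∉ H → y⁻¹ * x ∈ H := by
    intro x y hx hy
    obtain ⟨a, ha⟩ := heig 1
    obtain ⟨b, hb⟩ := heig x
    obtain ⟨c, hc⟩ := heig y
    rw [map_one, one_mulVec] at ha
    rcases eigvec_dichotomy hσ' hv (hne x) (hne y) ha hb hc with ⟨r, hr⟩ | ⟨r, hr⟩ | ⟨r, hr⟩
    · exact absurd ⟨r, hr⟩ hx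
    · exact absurd ⟨r, hr⟩ hy
    · have hmem : x⁻¹ * y ∈ H := ⟨r, by
        rw [map_mul, ← mulVec_mulVec, hr, mulVec_smul, mulVec_mulVec, ← map_mul, inv_mul_cancel,
          map_one, one_mulVec]⟩
      simpa using H.inv_mem hmem
  have hidx : H.index = 2 := by
    refine Subgroup.index_eq_two_iff.2 ⟨a₀, fun b => ?_⟩
    by_cases hb : b ∈ H
    · exact Or.inr ⟨hb, fun hba => ha₀ (by simpa using H.mul_mem (H.inv_mem hb) hba)⟩
    · refine Or.inl ⟨?_, hb⟩
      simpa using htwo a₀ b⁻¹ ha₀ fun h => hb (by simpa using H.inv_mem h)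
  obtain ⟨g, hg⟩ := hbig.irrTwo H hidx v hv
  obtain ⟨a, ha⟩ := (hH (g : G)).1 g.2
  exact hg a ha

/-- The elements of determinant one detect matrices by the trace pairing. -/
theorem BigImage.eq_zero_of_trace_detKer (hbig : BigImage rb) (h2 : (2 : k) ≠ 0) {Y : M2 k}
    (h : ∀ g ∈ detKer rb, trace (Y * rb g) = 0) : Y = 0 :=
  eq_zero_of_trace_irred (r := rb.comp (detKer rb).subtype) (hbig.irred_detKer h2)
    fun g => h g g.2

variable {C : G → M2 k} (htr : ∀ g, trace (C g) = 0)
  (hC : ∀ g h, C (g * h) = det (rb g) • (rb g * C h * rb g⁻¹) + C g)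

include htr hC in
/-- The quadratic function `g ↦ trace (C g * g)` of a crossed homomorphism vanishes on the
elements of determinant one. -/
theorem phiFn_eq_zero [Finite G] (hp2 : p ≠ 2) (hbig : BigImage rb)
    (hinj : Function.Injective rb) (hg0 : ∃ g, ∀ j : ℕ, det (rb g) ≠ (j : k) ^ 2)
    {g : G} (hg : g ∈ detKer rb) : phiFn rb C g = 0 := by
  by_cases hd : trace (rb g) ^ 2 = 4
  · exact phiFn_eq_zero_of_double (p := p) htr hC hp2 hg hd fun u hu hN =>
      phiFn_eq_zero_of_unipotent (p := p) htr hC hp2 hbig hinj hg0 hu hN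
  · exact phiFn_eq_zero_of_distinct hC p hinj hg hd

/-- A trace zero matrix commuting with the elements of determinant one of a big image is zero. -/
theorem BigImage.eq_zero_of_commute_detKer (hbig : BigImage rb) (h2 : (2 : k) ≠ 0) {Y₀ : M2 k}
    (htr' : trace Y₀ = 0) (hcomm : ∀ h ∈ detKer rb, rb h * Y₀ = Y₀ * rb h) : Y₀ = 0 := by
  have hall : ∀ Y : M2 k, Y * Y₀ = Y₀ * Y := by
    intro Y
    refine sub_eq_zero.1 (eq_zero_of_forall_trace_mul fun W => ?_)
    have : Y₀ * W - W * Y₀ = 0 := hbig.eq_zero_of_trace_detKer h2 fun x hx => by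
      rw [sub_mul, trace_sub, mul_assoc W, ← hcomm x hx, ← mul_assoc,
        trace_mul_comm (W * rb x), ← mul_assoc, mul_assoc, sub_self]
    rw [sub_mul, trace_sub, mul_assoc Y, mul_assoc Y₀ Y, trace_mul_comm Y₀ (Y * W),
      mul_assoc Y W, ← trace_sub, ← mul_sub, this, mul_zero, trace_zero]
  have h01 := congrFun (congrFun (hall (single 0 0 1)) 0) 1
  have h10 := congrFun (congrFun (hall (single 0 0 1)) 1) 0
  have h00 := congrFun (congrFun (hall (single 0 1 1)) 0) 1
  simp [mul_apply, single_apply] at h01 h10 h00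
  rw [trace_fin_two] at htr'
  have hz : Y₀ 0 0 = 0 := by
    refine (mul_eq_zero.1 (show 2 * Y₀ 0 0 = 0 from ?_)).resolve_left h2
    linear_combination htr' - h00
  ext i j
  fin_cases i <;> fin_cases j <;> simp [h01, ← h10, hz]
  linear_combination htr' - hz

include htr hC in
/-- Every crossed homomorphism into the twisted adjoint is principal. -/
theorem exists_principal [Finite G] (hp2 : p ≠ 2) (hbig : BigImage rb)
    (hinj : Function.Injective rb) (hg0 : ∃ g, ∀ j : ℕ, det (rb g) ≠ (j : k) ^ 2) :
    ∃ Z : M2 k, trace Z = 0 ∧ ∀ g, C g = det (rb g) • (rb g * Z * rb g⁻¹) - Z := by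
  classical
  have h2 := two_ne_zero_of_charP (k := k) (p := p) hp2
  have hΦ : ∀ g : detKer rb, phiFn rb C (g : G) = 0 := fun g =>
    phiFn_eq_zero (p := p) htr hC hp2 hbig hinj hg0 g.2
  obtain ⟨Z, hZtr, hZ⟩ := exists_principal_of_irred (r := rb.comp (detKer rb).subtype)
    (hbig.irred_detKer h2) h2 (C := fun g : detKer rb => C g) (fun g h => by
      simp [hC, mem_detKer.1 g.2]) hΦ
  let C' : G → M2 k := fun g => C g - (det (rb g) • (rb g * Z * rb g⁻¹) - Z)
  have hK : ∀ g ∈ detKer rb, C' g = 0 := by
    intro g hg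
    simp [C', mem_detKer.1 hg, hZ ⟨g, hg⟩]
  have hC' : ∀ g h, C' (g * h) = det (rb g) • (rb g * C' h * rb g⁻¹) + C' g := by
    intro g h
    simp only [C', hC, map_mul, det_mul, _root_.mul_inv_rev, mul_sub, sub_mul, smul_sub,
      Matrix.mul_smul, Matrix.smul_mul, smul_smul, mul_assoc]
    abel
  refine ⟨Z, hZtr, fun g => sub_eq_zero.1 ?_⟩
  have hcomm : ∀ h : detKer rb, rb h * C' g = C' g * rb h := by
    intro h
    have hn : g⁻¹ * h * g ∈ detKer rb := by
      simpa using (inferInstance : (detKer rb).Normal).conj_mem h h.2 g⁻¹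
    have e := hC' g (g⁻¹ * h * g)
    rw [hK _ hn, mul_zero, zero_mul, smul_zero, zero_add,
      show g * (g⁻¹ * h * g) = h * g by group, hC', mem_detKer.1 h.2, one_smul, hK _ h.2,
      add_zero] at e
    conv_rhs => rw [← e]
    rw [mul_assoc (rb (h : G) * C' g), inv_mul_rb, mul_one]
  exact hbig.eq_zero_of_commute_detKer h2 (by
    simp only [trace_sub, trace_smul, htr, hZtr, trace_mul_cycle (rb g) Z, inv_mul_rb, one_mul,
      smul_zero, sub_zero]) fun h hh => hcomm ⟨h, hh⟩

end Fermat.Agent.TW
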