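import Fermat.Agent.Gal.Density
import Fermat.Agent.TW.AdVanish

/-!
# Cocycles into the twisted adjoint on the kernel of the residual representation

A cocycle into `adTwist rb` which is not principal takes values spanning all trace zero matrices on
the elements killed by `rb` which fix a given root of unity, and `adTwist rb g - 1` is not
surjective for regular `g`. Used to select Taylor–Wiles primes.
-/

noncomputable section

namespace Fermat.Agent.TW

open Matrix Fermat.Agent.PT

local notation "Qb" => AlgebraicClosure ℚ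

theorem mul_zeta_comm {ζ : Qb} {m : ℕ} [NeZero m] (hζ : IsPrimitiveRoot ζ m) (a b : AG)
    {x : Qb} (hx : x ^ m = 1) : a (b x) = b (a x) := by
  obtain ⟨i, -, hi⟩ := hζ.eq_pow_of_pow_eq_one (ξ := a ζ)
    (by rw [← map_pow, hζ.pow_eq_one, map_one])
  obtain ⟨j, -, hj⟩ := hζ.eq_pow_of_pow_eq_one (ξ := b ζ)
    (by rw [← map_pow, hζ.pow_eq_one, map_one])
  obtain ⟨l, -, rfl⟩ := hζ.eq_pow_of_pow_eq_one hx
  simp only [map_pow, ← hi, ← hj]
  simp only [← pow_mul]
  congr 1
  ring

/-- The elements fixing a root of unity. -/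
def cycFix (ζ : Qb) : Subgroup AG := MulAction.stabilizer AG ζ

theorem mem_cycFix {ζ : Qb} {g : AG} : g ∈ cycFix ζ ↔ g ζ = ζ := Iff.rfl

theorem cycFix_normal {ζ : Qb} {m : ℕ} [NeZero m] (hζ : IsPrimitiveRoot ζ m) :
    (cycFix ζ).Normal := ⟨fun h hh g => by
  obtain ⟨i, -, hi⟩ := hζ.eq_pow_of_pow_eq_one (ξ := g⁻¹ ζ)
    (by rw [← map_pow, hζ.pow_eq_one, map_one])
  rw [mem_cycFix] at hh ⊢
  rw [AlgEquiv.mul_apply, AlgEquiv.mul_apply, ← hi, map_pow, hh, hi]
  exact g.apply_symm_apply ζ⟩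

theorem commutator_mem_cycFix {ζ : Qb} {m : ℕ} [NeZero m] (hζ : IsPrimitiveRoot ζ m) (a b : AG) :
    a * b * a⁻¹ * b⁻¹ ∈ cycFix ζ := by
  rw [mem_cycFix, AlgEquiv.mul_apply, AlgEquiv.mul_apply, AlgEquiv.mul_apply,
    mul_zeta_comm hζ a b (x := a⁻¹ (b⁻¹ ζ))
      (by rw [← map_pow, ← map_pow, hζ.pow_eq_one, map_one, map_one]),
    show a (a⁻¹ (b⁻¹ ζ)) = b⁻¹ ζ from a.apply_symm_apply _]
  exact b.apply_symm_apply ζ

variable {k : Type} [Field k] {p : ℕ} [Fact p.Prime] [CharP k p] {rb : AG →* M2 k}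

/-- The determinant is the cyclotomic character. -/
def DetCyc (p : ℕ) (rb : AG →* M2 k) : Prop :=
  ∀ (g : AG) (a : ℕ), (∀ μ : Qb, μ ^ p = 1 → g μ = μ ^ a) → det (rb g) = (a : k)

omit [Fact p.Prime] [CharP k p] in
theorem DetCyc.det_eq_one (hdet : DetCyc p rb) {ζ : Qb} {m : ℕ} [NeZero m]
    (hζ : IsPrimitiveRoot ζ m) (hpm : p ∣ m) {g : AG} (hg : g ∈ cycFix ζ) : det (rb g) = 1 := by
  rw [hdet g 1 fun μ hμ => ?_, Nat.cast_one]
  obtain ⟨c, rfl⟩ := hpm
  obtain ⟨i, -, rfl⟩ := hζ.eq_pow_of_pow_eq_one (ξ := μ) (by rw [pow_mul, hμ, one_pow])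
  rw [map_pow, mem_cycFix.1 hg, pow_one]

/-- Bigness of the image only depends on the image. -/
theorem BigImage.of_surjective {G Γ : Type*} [Group G] [Group Γ] {π : G →* Γ}
    (hπ : Function.Surjective π) {r : Γ →* M2 k} (h : BigImage (r.comp π)) : BigImage r := by
  refine ⟨fun v hv => ?_, fun H hH v hv => ?_⟩
  · obtain ⟨g, hg⟩ := h.irr v hv
    exact ⟨π g, hg⟩
  · obtain ⟨g, hg⟩ := h.irrTwo (H.comap π) (by rw [Subgroup.index_comap_of_surjective _ hπ, hH])
      v hv
    exact ⟨⟨π g, g.2⟩, hg⟩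

/-- The traceless part of an element with distinct eigenvalues is fixed, so `adTwist` minus one
is not surjective. -/
theorem range_adTwist_sub_one_ne_top (hp2 : p ≠ 2) {g : AG} (hd : det (rb g) = 1)
    (hg : trace (rb g) ^ 2 ≠ 4) : LinearMap.range (adTwist rb g - 1) ≠ ⊤ := by
  intro htop
  have h2 := two_ne_zero_of_charP (k := k) (p := p) hp2
  obtain ⟨l, hl⟩ : ∃ l, 2 * l = trace (rb g) := ⟨trace (rb g) / 2, mul_div_cancel₀ _ h2⟩
  let X : sl2 k := ⟨rb g - l • 1, by
    rw [mem_sl2]
    rw [trace_fin_two] at hl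
    simp
    linear_combination -hl⟩
  have hinj : Function.Injective (adTwist rb g - 1 : sl2 k →ₗ[k] sl2 k) :=
    LinearMap.injective_iff_surjective.2 (LinearMap.range_eq_top.1 htop)
  have hX : (adTwist rb g - 1 : sl2 k →ₗ[k] sl2 k) X = 0 := by
    ext1
    simp [adTwist_apply, coe_adRep, hd, X, mul_sub, sub_mul, mul_inv_rb]
    rw [mul_assoc, mul_inv_rb, mul_one, sub_self]
  have hX0 : rb g - l • (1 : M2 k) = 0 :=
    congrArg Subtype.val (hinj (hX.trans (map_zero _).symm))
  rw [sub_eq_zero] at hX0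
  rw [hX0] at hd hg
  rw [det_smul, det_one, Fintype.card_fin, mul_one] at hd
  rw [trace_smul, trace_one, Fintype.card_fin, smul_eq_mul, Nat.cast_ofNat] at hg
  exact hg (by linear_combination 4 * hd)

variable {c : AG → sl2 k}

omit [Fact p.Prime] [CharP k p] in
theorem cocycle_conj (hc : ∀ g h, c (g * h) = adTwist rb g (c h) + c g) (g : AG) {s : AG}
    (hs : rb s = 1) : c (g * s * g⁻¹) = adTwist rb g (c s) := by
  have h1 : c 1 = 0 := by
    have := hc 1 1
    rw [mul_one, map_one, Module.End.one_apply] at this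
    exact right_eq_add.1 this
  have h2 : adTwist rb g (c g⁻¹) + c g = 0 := by rw [← hc, mul_inv_cancel, h1]
  rw [hc, hc g s, map_mul, adTwist_eq_one rb hs, mul_one, add_left_comm, h2, add_zero]

/-- A non-principal cocycle takes spanning values on the elements killed by the representation
which fix a root of unity. -/
theorem span_values_eq_top (hp2 : p ≠ 2) (hbig : BigImage rb)
    (hfin : GaloisFactorsThroughFiniteLevel rb) (hg0 : ∃ g, ∀ j : ℕ, det (rb g) ≠ (j : k) ^ 2)
    {ζ : Qb} {m : ℕ} [NeZero m] (hζ : IsPrimitiveRoot ζ m)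
    (hc : ∀ g h, c (g * h) = adTwist rb g (c h) + c g)
    (hc0 : ¬ ∃ X, ∀ g, c g = adTwist rb g X - X) :
    Submodule.span k (c '' {s | rb s = 1 ∧ s ∈ cycFix ζ}) = ⊤ := by
  have h2 := two_ne_zero_of_charP (k := k) (p := p) hp2
  set W := Submodule.span k (c '' {s | rb s = 1 ∧ s ∈ cycFix ζ}) with hW
  have hdet0 : ∀ g, det (rb g) ≠ 0 := fun g e => by
    simpa [e] using det_mul_det_inv (rb := rb) g
  have hst : ∀ g, ∀ X ∈ W, adTwist rb g X ∈ W := by
    intro g X hX
    induction hX using Submodule.span_induction with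
    | mem X hX =>
      obtain ⟨s, ⟨hs1, hs2⟩, rfl⟩ := hX
      rw [← cocycle_conj hc g hs1]
      exact Submodule.subset_span ⟨_, ⟨by rw [map_mul, map_mul, hs1, mul_one, mul_inv_rb],
        (cycFix_normal hζ).conj_mem s hs2 g⟩, rfl⟩
    | zero => rw [map_zero]; exact W.zero_mem
    | add x y _ _ hx hy => rw [map_add]; exact W.add_mem hx hy
    | smul a x _ hx => rw [map_smul]; exact W.smul_mem a hx
  rcases hbig.eq_bot_or_eq_top h2 W fun g X hX => by
    have := W.smul_mem (det (rb g))⁻¹ (hst g X hX)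
    rwa [adTwist_apply, smul_smul, inv_mul_cancel₀ (hdet0 g), one_smul] at this with hbot | htop
  swap
  · exact htop
  exfalso
  have hN : ∀ s, rb s = 1 → s ∈ cycFix ζ → c s = 0 := fun s h1 h2' =>
    (Submodule.eq_bot_iff W).1 hbot _ (Submodule.subset_span ⟨s, ⟨h1, h2'⟩, rfl⟩)
  have hker : ∀ s, rb s = 1 → c s = 0 := by
    intro s hs
    have hfix : ∀ g, adTwist rb g (c s) = c s := fun g => by
      have hn : rb (g * s * g⁻¹ * s⁻¹) = 1 := by
        rw [map_mul, map_mul, map_mul, hs, mul_one, mul_inv_rb, one_mul]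
        simpa [hs] using inv_mul_rb (rb := rb) s
      have := hc (g * s * g⁻¹ * s⁻¹) s
      rw [inv_mul_cancel_right, cocycle_conj hc g hs, adTwist_eq_one rb hn,
        hN _ hn (commutator_mem_cycFix hζ g s), Module.End.one_apply, add_zero] at this
      exact this
    refine Subtype.ext (hbig.eq_zero_of_adStable h2
      (by simpa [trace_fin_two] using mem_sl2.1 (c s).2) fun g => ⟨(det (rb g))⁻¹, ?_⟩)
    have e := congrArg (fun X : sl2 k => (X : M2 k) * rb g) (hfix g)
    simp only [adTwist_apply, Submodule.coe_smul, coe_adRep, Matrix.smul_mul] at e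
    rw [mul_assoc, inv_mul_rb, mul_one] at e
    rw [← e, smul_smul, inv_mul_cancel₀ (hdet0 g), one_smul]
  -- descend to the finite image
  obtain ⟨L, hL, hLrb⟩ := hfin
  have hle : L.fixingSubgroup ≤ rb.ker := fun s hs =>
    hLrb s fun x hx => (IntermediateField.mem_fixingSubgroup_iff _ _).1 hs x hx
  have := PT.finiteIndex_fixingSubgroup ℚ Qb L
  have : rb.ker.FiniteIndex := Subgroup.finiteIndex_of_le hle
  have hfinQ : Finite (AG ⧸ rb.ker) := Subgroup.finite_quotient_of_finiteIndex
  have hwd : ∀ g g', (QuotientGroup.leftRel rb.ker).r g g' → c g = c g' := by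
    intro g g' h
    rw [QuotientGroup.leftRel_apply] at h
    have := hc g (g⁻¹ * g')
    rw [mul_inv_cancel_left, hker _ h, map_zero, zero_add] at this
    exact this.symm
  let rq : AG ⧸ rb.ker →* M2 k := QuotientGroup.lift rb.ker rb le_rfl
  have hrq : ∀ g : AG, rq (QuotientGroup.mk g) = rb g := fun g => rfl
  let C : AG ⧸ rb.ker → M2 k := fun x => (Quotient.liftOn' x c hwd : sl2 k)
  have hCq : ∀ g : AG, C (QuotientGroup.mk g) = (c g : M2 k) := fun g => rfl
  have htr : ∀ x, trace (C x) = 0 := fun x => by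
    induction x using QuotientGroup.induction_on with
    | H g => rw [hCq, trace_fin_two]; exact mem_sl2.1 (c g).2
  have hC : ∀ x y, C (x * y) = det (rq x) •
      (rq x * C y * rq x⁻¹) + C x := by
    intro x y
    induction x using QuotientGroup.induction_on with
    | H g =>
      induction y using QuotientGroup.induction_on with
      | H h =>
        rw [← QuotientGroup.mk_mul, ← QuotientGroup.mk_inv]
        simp only [hCq, hrq, hc, adTwist_apply, Submodule.coe_add,
          Submodule.coe_smul, coe_adRep]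
  have hcomp : rq.comp (QuotientGroup.mk' rb.ker) = rb := MonoidHom.ext hrq
  have hbigQ : BigImage rq :=
    BigImage.of_surjective (π := QuotientGroup.mk' rb.ker) (QuotientGroup.mk'_surjective _)
      (hcomp.symm ▸ hbig)
  have hg0Q : ∃ x, ∀ j : ℕ, det (rq x) ≠ (j : k) ^ 2 := by
    obtain ⟨g, hg⟩ := hg0
    exact ⟨QuotientGroup.mk g, fun j => by rw [hrq]; exact hg j⟩
  have hinjQ : Function.Injective rq := by
    intro x y e
    induction x using QuotientGroup.induction_on with
    | H g =>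
      induction y using QuotientGroup.induction_on with
      | H h =>
        rw [hrq, hrq] at e
        rw [QuotientGroup.eq, MonoidHom.mem_ker, map_mul, ← e, inv_mul_rb]
  obtain ⟨Z, hZ, hZC⟩ := exists_principal (p := p) htr hC hp2 hbigQ hinjQ hg0Q
  refine hc0 ⟨⟨Z, mem_sl2.2 (by rwa [trace_fin_two] at hZ)⟩, fun g => Subtype.ext ?_⟩
  have := hZC (QuotientGroup.mk g)
  rw [← QuotientGroup.mk_inv, hCq, hrq, hrq] at this
  simpa [adTwist_apply, coe_adRep] using this

end Fermat.Agent.TW
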