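import Mathlib.RingTheory.RootsOfUnity.AlgebraicallyClosed
import Fermat.Agent.TW.AdLevel

/-!
# Selection of Taylor–Wiles primes

Given a finite-dimensional space of classes of the twisted adjoint, auxiliary primes `q ≡ 1` with
distinct Frobenius eigenvalues are found at whose Frobenius elements only zero is locally trivial.
Used to choose the auxiliary primes of the patching argument.
-/

noncomputable section

namespace Fermat.Agent.TW

open Matrix Fermat.Agent.PT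

local notation "Qb" => AlgebraicClosure ℚ

variable {k : Type} [Field k] {p : ℕ} [Fact p.Prime] [CharP k p] {rb : AG →* M2 k}

omit [Fact p.Prime] [CharP k p] in
theorem trace_pow_sq_eq_four {l : k} {N M : M2 k} (hl : l * l = 1) (hNN : N * N = 0)
    (ht : trace N = 0) (hM : M = l • 1 + N) (a : ℕ) : trace (M ^ a) ^ 2 = 4 := by
  have key : ∀ a : ℕ, ∃ x y : k, x * x = 1 ∧ M ^ a = x • 1 + y • N := by
    intro a
    induction a with
    | zero => exact ⟨1, 0, one_mul 1, by simp⟩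
    | succ a ih =>
      obtain ⟨x, y, hx, e⟩ := ih
      refine ⟨x * l, x + y * l, by linear_combination (l * l) * hx + hl, ?_⟩
      rw [pow_succ, e, hM]
      simp [add_mul, mul_add, smul_smul, hNN, add_smul, mul_comm l]
      abel
  obtain ⟨x, y, hx, e⟩ := key a
  rw [e, trace_add, trace_smul, trace_smul, trace_one, ht, Fintype.card_fin]
  simp only [smul_eq_mul, mul_zero, add_zero, Nat.cast_ofNat]
  linear_combination 4 * hx

omit [Fact p.Prime] [CharP k p] in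
theorem map_eq_of_eqOn {L : IntermediateField ℚ Qb}
    (hL : ∀ s : AG, (∀ x ∈ L, s x = x) → rb s = 1) {g g' : AG} (h : ∀ x ∈ L, g x = g' x) :
    rb g = rb g' := by
  have h1 := hL (g'⁻¹ * g) fun x hx => by
    rw [AlgEquiv.mul_apply, h x hx]; exact g'.symm_apply_apply x
  rw [show g = g' * (g'⁻¹ * g) by rw [mul_inv_cancel_left], map_mul, h1, mul_one]

/-- A prime congruent to one modulo `m` at which `rb` is unramified and the Frobenius elements
have determinant one and distinct eigenvalues. -/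
def GoodPrime (rb : AG →* M2 k) (m q : ℕ) : Prop :=
  q.Prime ∧ m ∣ q - 1 ∧
    (∀ P : ValuationSubring Qb, P.LiesOverPrime q → ∀ s ∈ P.inertiaSubgroupIn ℚ, rb s = 1) ∧
    (∀ P : ValuationSubring Qb, P.LiesOverPrime q → ∀ φ : AG, P.IsFrobeniusAt φ q →
      trace (rb φ) ^ 2 ≠ 4 ∧ det (rb φ) = 1)

/-- For `g` fixing a primitive root of unity of order `m` with distinct eigenvalues, a good prime
outside `S` at which the Frobenius elements act as conjugates of powers of `g` and `g` agrees on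
`E` with a power of one of them. -/
theorem exists_goodPrime_like (hp2 : p ≠ 2) (hfin : GaloisFactorsThroughFiniteLevel rb)
    (hdet : DetCyc p rb) {ζ : Qb} {m : ℕ} [NeZero m] (hζ : IsPrimitiveRoot ζ m) (hpm : p ∣ m)
    {g : AG} (hgζ : g ∈ cycFix ζ) (hg : trace (rb g) ^ 2 ≠ 4)
    (E : IntermediateField ℚ Qb) [FiniteDimensional ℚ E] (S : Finset ℕ) :
    ∃ q, q ∉ S ∧ GoodPrime rb m q ∧
      (∀ P : ValuationSubring Qb, P.LiesOverPrime q → ∀ φ : AG, P.IsFrobeniusAt φ q →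
        ∃ (τ : AG) (b : ℕ), rb φ = rb τ * rb g ^ b * rb τ⁻¹) ∧
      ∃ P : ValuationSubring Qb, P.LiesOverPrime q ∧
        ∃ φ : AG, P.IsFrobeniusAt φ q ∧ ∃ a : ℕ, (∀ x ∈ E, g x = (φ ^ a) x) ∧
          rb g = rb φ ^ a := by
  classical
  obtain ⟨Lr, hLr, hLrb⟩ := hfin
  obtain ⟨Sr, hSr⟩ := Gal.exists_finset_inertia_fixes Lr
  let Eζ := IntermediateField.adjoin ℚ ({ζ} : Set Qb)
  have : FiniteDimensional ℚ Eζ := IntermediateField.adjoin.finiteDimensional
    (Algebra.IsAlgebraic.isAlgebraic ζ).isIntegral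
  have : FiniteDimensional ℚ (Lr ⊔ Eζ : IntermediateField ℚ Qb) :=
    IntermediateField.finiteDimensional_sup Lr Eζ
  have : FiniteDimensional ℚ (Lr ⊔ Eζ ⊔ E : IntermediateField ℚ Qb) :=
    IntermediateField.finiteDimensional_sup (Lr ⊔ Eζ) E
  obtain ⟨q, hq, hqS, P, hP, φ, hφ, a, b, ha, hb⟩ :=
    Gal.exists_frobenius_generates (Lr ⊔ Eζ ⊔ E) g (S ∪ Sr ∪ m.primeFactors)
  simp only [Finset.mem_union, not_or] at hqS
  have hLrle : Lr ≤ Lr ⊔ Eζ ⊔ E := le_sup_left.trans le_sup_left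
  have hqm : ¬ q ∣ m := fun h => hqS.2 (Nat.mem_primeFactors.2 ⟨hq, h, NeZero.ne m⟩)
  have hζmem : ζ ∈ Lr ⊔ Eζ ⊔ E := (le_sup_right.trans le_sup_left : Eζ ≤ Lr ⊔ Eζ ⊔ E)
    (IntermediateField.mem_adjoin_simple_self ℚ ζ)
  have hφζ : φ ∈ cycFix ζ := by
    rw [mem_cycFix, hb ζ hζmem]
    exact mem_cycFix.1 (pow_mem hgζ b)
  have hcong : m ∣ q - 1 := by
    have e : ζ ^ q = ζ :=
      (Gal.isFrobeniusAt_rootOfUnity hq hP hφ hqm hζ.pow_eq_one).symm.trans (mem_cycFix.1 hφζ)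
    refine hζ.dvd_of_pow_eq_one _ ?_
    refine mul_left_cancel₀ (hζ.ne_zero (NeZero.ne m)) ?_
    rw [← pow_succ', Nat.sub_add_cancel hq.one_lt.le, e, mul_one]
  have hrbg : rb g = rb φ ^ a := by
    rw [← map_pow]
    exact map_eq_of_eqOn hLrb fun x hx => ha x (hLrle hx)
  have hrbφ : rb φ = rb g ^ b := by
    rw [← map_pow]
    exact map_eq_of_eqOn hLrb fun x hx => hb x (hLrle hx)
  have hdφ : det (rb φ) = 1 := hdet.det_eq_one hζ hpm hφζ
  have htφ : trace (rb φ) ^ 2 ≠ 4 := fun h => hg <| by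
    obtain ⟨l, N, hl, hNN, hrb⟩ := exists_scalar_add_nilpotent (p := p) (rb := rb) hp2
      (mem_detKer.2 hdφ) h
    rw [hrbg]
    exact trace_pow_sq_eq_four hl hNN (nilpotent_facts ⟨2, by rw [pow_two, hNN]⟩).1 hrb a
  have hunr : ∀ P : ValuationSubring Qb, P.LiesOverPrime q → ∀ s ∈ P.inertiaSubgroupIn ℚ,
      rb s = 1 := fun P hP s hs => hLrb s (hSr q hq hqS.1.2 P hP s hs)
  have hconj : ∀ P' : ValuationSubring Qb, P'.LiesOverPrime q → ∀ φ' : AG,
      P'.IsFrobeniusAt φ' q → ∃ τ : AG, rb φ' = rb τ * rb φ * rb τ⁻¹ := fun P' hP' φ' hφ' => by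
    obtain ⟨τ, rfl⟩ := Gal.exists_smul_eq hq hP hP'
    refine ⟨τ, ?_⟩
    have hI := Gal.inv_mul_mem_inertia (Gal.isFrobeniusAt_conj hφ τ) hφ'
    rw [show φ' = τ * φ * τ⁻¹ * ((τ * φ * τ⁻¹)⁻¹ * φ') by rw [mul_inv_cancel_left], map_mul,
      hunr _ (Gal.liesOverPrime_smul τ hP) _ hI, mul_one, map_mul, map_mul]
  refine ⟨q, hqS.1.1, ⟨hq, hcong, hunr, fun P' hP' φ' hφ' => ?_⟩, fun P' hP' φ' hφ' => ?_,
    P, hP, φ, hφ, a, fun x hx => ha x ((le_sup_right : E ≤ Lr ⊔ Eζ ⊔ E) hx), hrbg⟩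
  · obtain ⟨τ, e⟩ := hconj P' hP' φ' hφ'
    refine ⟨?_, ?_⟩
    · rw [e, trace_mul_cycle, inv_mul_rb, one_mul]
      exact htφ
    · rw [e, det_mul, det_mul, hdφ, mul_one, det_mul_det_inv]
  · obtain ⟨τ, e⟩ := hconj P' hP' φ' hφ'
    exact ⟨τ, b, by rw [e, hrbφ]⟩

variable (hp2 : p ≠ 2) (hbig : BigImage rb) (hfin : GaloisFactorsThroughFiniteLevel rb)
  (hdet : DetCyc p rb) (hg0 : ∃ g, ∀ j : ℕ, det (rb g) ≠ (j : k) ^ 2)

include hp2 hbig hdet in
theorem exists_distinct_cycFix {ζ : Qb} {m : ℕ} [NeZero m] (hζ : IsPrimitiveRoot ζ m)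
    (hpm : p ∣ m) : ∃ g ∈ cycFix ζ, trace (rb g) ^ 2 ≠ 4 := by
  have := cycFix_normal hζ
  exact hbig.exists_distinct (two_ne_zero_of_charP (p := p) hp2) (cycFix ζ)
    (fun h hh => hdet.det_eq_one hζ hpm hh) (commutator_mem_cycFix hζ)

/-- `Q` is inherited by conjugates of powers and occurs, with distinct eigenvalues, in every
cyclotomic fixing group. -/
structure Selects (p : ℕ) (rb : AG →* M2 k) (Q : M2 k → Prop) : Prop where
  pow : ∀ (M : M2 k) (n : ℕ), Q M → Q (M ^ n)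
  conj : ∀ (τ : AG) (M : M2 k), Q M → Q (rb τ * M * rb τ⁻¹)
  exists_mem : ∀ (ζ : Qb) (m : ℕ) [NeZero m], IsPrimitiveRoot ζ m → p ∣ m →
    ∃ g ∈ cycFix ζ, trace (rb g) ^ 2 ≠ 4 ∧ Q (rb g)

include hp2 hbig hdet in
theorem selects_true : Selects p rb fun _ => True :=
  ⟨fun _ _ _ => trivial, fun _ _ _ => trivial, fun ζ m _ hζ hpm => by
    obtain ⟨g, hg, hg'⟩ := exists_distinct_cycFix hp2 hbig hdet hζ hpm
    exact ⟨g, hg, hg', trivial⟩⟩

variable {Q : M2 k → Prop}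

include hp2 hfin hdet in
theorem exists_goodPrime (hQ : Selects p rb Q) (m : ℕ) [NeZero m] (hpm : p ∣ m)
    (S : Finset ℕ) :
    ∃ q, q ∉ S ∧ GoodPrime rb m q ∧ ∀ P : ValuationSubring Qb, P.LiesOverPrime q →
      ∀ φ : AG, P.IsFrobeniusAt φ q → Q (rb φ) := by
  obtain ⟨ζ, hζ⟩ := _root_.HasEnoughRootsOfUnity.exists_primitiveRoot Qb m
  obtain ⟨g, hg, hg', hgQ⟩ := hQ.exists_mem ζ m hζ hpm
  obtain ⟨q, hq, hgood, hφ, -⟩ := exists_goodPrime_like hp2 hfin hdet hζ hpm hg hg' ⊥ S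
  exact ⟨q, hq, hgood, fun P hP φ h => by
    obtain ⟨τ, b, e⟩ := hφ P hP φ h
    exact e ▸ hQ.conj τ _ (hQ.pow _ b hgQ)⟩

/-- The value at `φ` is locally trivial. -/
def TrivAt (rb : AG →* M2 k) (c : AG → sl2 k) (φ : AG) : Prop :=
  c φ ∈ LinearMap.range (adTwist rb φ - 1)

include hp2 hbig hfin hdet hg0 in
/-- A good prime, selected by `Q`, at which a given nonzero class is not locally trivial. -/
theorem exists_goodPrime_detect (hQ : Selects p rb Q) (m : ℕ) [NeZero m] (hpm : p ∣ m)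
    (S : Finset ℕ) {c : AG → sl2 k} (hc : c ∈ Z1 lvQ (adTwist rb)) (hc0 : c ∉ B1 (adTwist rb)) :
    ∃ q, q ∉ S ∧ GoodPrime rb m q ∧
      (∀ P : ValuationSubring Qb, P.LiesOverPrime q → ∀ φ : AG, P.IsFrobeniusAt φ q →
        Q (rb φ)) ∧
      ∃ P : ValuationSubring Qb, P.LiesOverPrime q ∧
        ∃ φ : AG, P.IsFrobeniusAt φ q ∧ ¬ TrivAt rb c φ := by
  obtain ⟨ζ, hζ⟩ := _root_.HasEnoughRootsOfUnity.exists_primitiveRoot Qb m
  obtain ⟨⟨U, ⟨E, hE, hEU⟩, hUc⟩, hcoc⟩ := mem_Z1.1 hc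
  have hspan := span_values_eq_top (p := p) hp2 hbig hfin hg0 hζ hcoc fun ⟨X, hX⟩ =>
    hc0 ⟨X, funext fun g => (hX g).symm⟩
  obtain ⟨g₀, hg₀, hg₀', hg₀Q⟩ := hQ.exists_mem ζ m hζ hpm
  obtain ⟨g, hg, hg', hgQ, hgc⟩ :
      ∃ g ∈ cycFix ζ, trace (rb g) ^ 2 ≠ 4 ∧ Q (rb g) ∧ ¬ TrivAt rb c g := by
    by_cases h0 : TrivAt rb c g₀
    swap
    · exact ⟨g₀, hg₀, hg₀', hg₀Q, h0⟩
    obtain ⟨s, ⟨hs1, hs2⟩, hs⟩ : ∃ s ∈ {s | rb s = 1 ∧ s ∈ cycFix ζ},
        c s ∉ LinearMap.range (adTwist rb g₀ - 1) := by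
      by_contra! hall
      refine range_adTwist_sub_one_ne_top (p := p) hp2 (hdet.det_eq_one hζ hpm hg₀) hg₀'
        (top_le_iff.1 ?_)
      rw [← hspan, Submodule.span_le]
      rintro _ ⟨s, hs, rfl⟩
      exact hall s hs
    refine ⟨s * g₀, mul_mem hs2 hg₀, by rwa [map_mul, hs1, one_mul], by rwa [map_mul, hs1, one_mul],
      fun h => hs ?_⟩
    rw [TrivAt, hcoc, adTwist_eq_one rb hs1, Module.End.one_apply,
      map_mul (adTwist rb), adTwist_eq_one rb hs1, one_mul] at h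
    exact (Submodule.add_mem_iff_right _ h0).1 h
  obtain ⟨q, hq, hgood, hφQ, P, hP, φ, hφ, a, ha, hrb⟩ :=
    exists_goodPrime_like hp2 hfin hdet hζ hpm hg hg' E S
  refine ⟨q, hq, hgood, fun P' hP' φ' h => ?_, P, hP, φ, hφ, fun ⟨X, hX⟩ => hgc ?_⟩
  · obtain ⟨τ, b, e⟩ := hφQ P' hP' φ' h
    exact e ▸ hQ.conj τ _ (hQ.pow _ b hgQ)
  have hpow : ∀ i : ℕ, c (φ ^ i) = adTwist rb (φ ^ i) X - X := by
    intro i
    induction i with
    | zero =>
      have h1 := hcoc 1 1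
      rw [mul_one, map_one, Module.End.one_apply] at h1
      rw [pow_zero, map_one, Module.End.one_apply, sub_self]
      exact right_eq_add.1 h1
    | succ i ih =>
      rw [pow_succ', hcoc, ih, ← hX, map_mul, Module.End.mul_apply, map_sub, LinearMap.sub_apply,
        Module.End.one_apply]
      abel
  have hcg : c g = c (φ ^ a) := by
    have := hUc g (g⁻¹ * φ ^ a) (hEU ((IntermediateField.mem_fixingSubgroup_iff _ _).2
      fun x hx => by rw [AlgEquiv.mul_apply, ← ha x hx]; exact g.symm_apply_apply x))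
    rw [mul_inv_cancel_left] at this
    exact this.symm
  have hρ : adTwist rb g = adTwist rb (φ ^ a) := by
    have hinv : ∀ {u v : AG}, rb u = rb v → rb u⁻¹ = rb v⁻¹ := fun {u v} h => by
      calc rb u⁻¹ = rb u⁻¹ * (rb v * rb v⁻¹) := by rw [mul_inv_rb, mul_one]
        _ = rb v⁻¹ := by rw [← h, ← mul_assoc, inv_mul_rb, one_mul]
    have e : rb g = rb (φ ^ a) := by rw [map_pow]; exact hrb
    refine LinearMap.ext fun Y => Subtype.ext ?_
    simp only [adTwist_apply, Submodule.coe_smul, coe_adRep, e, hinv e]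
  exact ⟨X, by rw [hcg, hpow, hρ, LinearMap.sub_apply, Module.End.one_apply]⟩

include hp2 hbig hfin hdet hg0 in
/-- Exactly `r` good primes, selected by `Q`, detect a space of classes of dimension at most `r`. -/
theorem exists_goodPrimes_detect (hQ : Selects p rb Q) (m : ℕ) [NeZero m] (hpm : p ∣ m) (r : ℕ)
    (Y : Submodule k ((AG → sl2 k) ⧸ B1 (adTwist rb))) [FiniteDimensional k Y]
    (hY : Y ≤ classes (adTwist rb) (Z1 lvQ (adTwist rb))) (hr : Module.finrank k Y ≤ r)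
    (S : Finset ℕ) :
    ∃ qv : Fin r → ℕ, Function.Injective qv ∧ (∀ i, qv i ∉ S ∧ GoodPrime rb m (qv i)) ∧
      (∀ i, ∀ P : ValuationSubring Qb, P.LiesOverPrime (qv i) → ∀ φ : AG,
        P.IsFrobeniusAt φ (qv i) → Q (rb φ)) ∧
      ∀ c ∈ Z1 lvQ (adTwist rb), Submodule.Quotient.mk c ∈ Y →
        (∀ i, ∀ P : ValuationSubring Qb, P.LiesOverPrime (qv i) → ∀ φ : AG,
          P.IsFrobeniusAt φ (qv i) → TrivAt rb c φ) → c ∈ B1 (adTwist rb) := by
  classical
  induction r generalizing Y S with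
  | zero =>
    refine ⟨Fin.elim0, Function.injective_of_subsingleton _, fun i => i.elim0,
      fun i => i.elim0, fun c _ hc _ => ?_⟩
    rw [Submodule.finrank_eq_zero.1 (Nat.le_zero.1 hr)] at hc
    exact (Submodule.Quotient.mk_eq_zero _).1 ((Submodule.mem_bot k).1 hc)
  | succ r ih =>
    obtain ⟨q, hqS, hgood, hqQ, Y', hY'le, hY'r, hY'⟩ : ∃ q, q ∉ S ∧ GoodPrime rb m q ∧
        (∀ P : ValuationSubring Qb, P.LiesOverPrime q → ∀ φ : AG,
          P.IsFrobeniusAt φ q → Q (rb φ)) ∧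
        ∃ Y' : Submodule k ((AG → sl2 k) ⧸ B1 (adTwist rb)), Y' ≤ Y ∧ Module.finrank k Y' ≤ r ∧
          ∀ c ∈ Z1 lvQ (adTwist rb), Submodule.Quotient.mk c ∈ Y →
            (∀ P : ValuationSubring Qb, P.LiesOverPrime q → ∀ φ : AG,
              P.IsFrobeniusAt φ q → TrivAt rb c φ) → Submodule.Quotient.mk c ∈ Y' := by
      by_cases hbot : Y = ⊥
      · obtain ⟨q, hq, hgood, hφQ⟩ := exists_goodPrime hp2 hfin hdet hQ m hpm S
        exact ⟨q, hq, hgood, hφQ, ⊥, bot_le, by simp, fun c _ hc _ => hbot ▸ hc⟩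
      · obtain ⟨y, hyY, hy⟩ := Submodule.exists_mem_ne_zero_of_ne_bot hbot
        obtain ⟨c₁, hc₁, rfl⟩ := hY hyY
        obtain ⟨q, hq, hgood, hφQ, P, hP, φ, hφ, hnt⟩ :=
          exists_goodPrime_detect hp2 hbig hfin hdet hg0 hQ m hpm S hc₁ fun h =>
            hy ((Submodule.Quotient.mk_eq_zero _).2 h)
        let W : Submodule k (AG → sl2 k) :=
          (LinearMap.range (adTwist rb φ - 1)).comap (LinearMap.proj φ)
        have hB : B1 (adTwist rb) ≤ W := by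
          rintro _ ⟨X, rfl⟩
          exact ⟨X, by simp [d0_apply]⟩
        have hmem : ∀ c, (B1 (adTwist rb)).mkQ c ∈ W.map (B1 (adTwist rb)).mkQ ↔ c ∈ W := by
          intro c
          rw [← Submodule.mem_comap, Submodule.comap_map_eq, Submodule.ker_mkQ, sup_eq_left.2 hB]
        refine ⟨q, hq, hgood, hφQ, Y ⊓ W.map (B1 (adTwist rb)).mkQ, inf_le_left, ?_,
          fun c _ hc h => ⟨hc, (hmem c).2 (h P hP φ hφ)⟩⟩
        have hlt : Y ⊓ W.map (B1 (adTwist rb)).mkQ < Y :=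
          lt_of_le_of_ne inf_le_left fun e => hnt ((hmem c₁).1 (e.ge hyY).2)
        have := Submodule.finrank_lt_finrank_of_lt hlt
        omega
    have : FiniteDimensional k Y' := Submodule.finiteDimensional_of_le hY'le
    obtain ⟨qv, hinj, hq', hqvQ, hdetect⟩ := ih Y' (hY'le.trans hY) hY'r (insert q S)
    refine ⟨Fin.cons q qv, Fin.cons_injective_iff.2 ⟨fun ⟨i, hi⟩ => (hq' i).1
      (hi ▸ Finset.mem_insert_self _ _), hinj⟩, Fin.cases ⟨by simpa using hqS, by simpa using hgood⟩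
      fun i => by
        simp only [Fin.cons_succ]
        exact ⟨fun h => (hq' i).1 (Finset.mem_insert_of_mem h), (hq' i).2⟩,
      Fin.cases (by simpa using hqQ) (fun i => by simpa using hqvQ i),
      fun c hc hcY h => ?_⟩
    refine hdetect c hc (hY' c hc hcY ?_) fun i => ?_
    · simpa using h 0
    · simpa using h i.succ

end Fermat.Agent.TW
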