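import Mathlib.FieldTheory.Finite.Basic
import Mathlib.FieldTheory.Minpoly.IsConjRoot
import Mathlib.RingTheory.Polynomial.Cyclotomic.Roots
import Fermat.Agent.TW.Selection
import Fermat.Agent.TW.Tangent

/-!
# The hypotheses on the residual representation

Translates absolute irreducibility on index two subgroups and cyclotomic determinant of a residual
representation into the matrix conditions `BigImage` and `DetCyc`, a non-square determinant and
distinct eigenvalues, as needed for the selection of Taylor–Wiles primes.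
-/

noncomputable section

namespace Fermat.Agent.TW

open Module Matrix IsLocalRing Fermat.Agent.Gal Fermat.Agent.PT

local notation "Qb" => AlgebraicClosure ℚ

variable {k : Type} [Field k] {ρbar : ResidualGaloisRep k} (bbar : Basis (Fin 2) k ρbar.V)

theorem finiteLevel_matrixRep : GaloisFactorsThroughFiniteLevel (matrixRep bbar ρbar.ρ) := by
  obtain ⟨L, hL, h⟩ := ρbar.factorsThroughFiniteLevel
  exact ⟨L, hL, fun σ hσ => by
    show LinearMap.toMatrixAlgEquiv bbar (ρbar.ρ σ) = 1
    rw [h σ hσ, map_one]⟩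

theorem det_matrixRep (g : AG) : det (matrixRep bbar ρbar.ρ g) = LinearMap.det (ρbar.ρ g) :=
  LinearMap.det_toMatrix bbar (ρbar.ρ g)

/-- An irreducible subgroup has no common eigenvector over an extension field. -/
theorem matrixRep_baseChange_eigen (K : Type) [Field K] [Algebra k K] (H : Subgroup AG)
    (hH : ∀ V : Submodule K (ρbar.baseChange K).V,
      (∀ σ ∈ H, ∀ x ∈ V, (ρbar.baseChange K).ρ σ x ∈ V) → V = ⊥ ∨ V = ⊤)
    {v : Fin 2 → K} (hv : v ≠ 0) :
    ∃ g ∈ H, ∀ a : K, (matrixRep bbar ρbar.ρ g).map (algebraMap k K) *ᵥ v ≠ a • v := by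
  by_contra! hcon
  let bK : Basis (Fin 2) K (ρbar.baseChange K).V := Algebra.TensorProduct.basis K bbar
  have hm : ∀ g, matrixRep bK (ρbar.baseChange K).ρ g =
      (matrixRep bbar ρbar.ρ g).map (algebraMap k K) :=
    matrixRep_baseChange ρbar.ρ (ρbar.baseChange K).ρ (fun _ => rfl) bbar
  set u := bK.equivFun.symm v with hu
  have hu0 : u ≠ 0 := fun h0 => hv (bK.equivFun.symm.injective (h0.trans (map_zero _).symm))
  rcases hH (K ∙ u) (fun g hg x hx => by
    obtain ⟨a, rfl⟩ := Submodule.mem_span_singleton.mp hx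
    obtain ⟨c, hc⟩ := hcon g hg
    rw [map_smul]
    refine Submodule.smul_mem _ a (Submodule.mem_span_singleton.mpr ⟨c, ?_⟩)
    apply bK.equivFun.injective
    rw [map_smul, hu, LinearEquiv.apply_symm_apply, ← hc, ← hm, Basis.equivFun_apply]
    conv_lhs => arg 2; rw [← LinearEquiv.apply_symm_apply bK.equivFun v, Basis.equivFun_apply]
    exact LinearMap.toMatrix_mulVec_repr bK bK _ _) with h0 | h0
  · exact hu0 (Submodule.span_singleton_eq_bot.mp h0)
  · have := finrank_span_singleton (K := K) hu0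
    rw [h0, finrank_top, (ρbar.baseChange K).finrank_eq] at this
    omega

/-- Absolute irreducibility on all subgroups of index two gives a big image. -/
theorem bigImage_of_hyps (habs : ρbar.IsAbsolutelyIrreducible)
    (hTW : ∀ (K : Type) [Field K] [Algebra k K] (G : Subgroup AG), G.index = 2 →
      ∀ V : Submodule K (ρbar.baseChange K).V,
        (∀ σ ∈ G, ∀ x ∈ V, (ρbar.baseChange K).ρ σ x ∈ V) → V = ⊥ ∨ V = ⊤) :
    BigImage (matrixRep bbar ρbar.ρ) := by
  refine ⟨fun v hv => ?_, fun H hH v hv => ?_⟩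
  · obtain ⟨g, -, hg⟩ := matrixRep_baseChange_eigen bbar (AlgebraicClosure k) ⊤
      (fun V hV => habs V fun σ x hx => hV σ (Subgroup.mem_top σ) x hx) hv
    exact ⟨g, hg⟩
  · obtain ⟨g, hgH, hg⟩ := matrixRep_baseChange_eigen bbar (AlgebraicClosure k) H
      (hTW (AlgebraicClosure k) H hH) hv
    exact ⟨⟨g, hgH⟩, hg⟩

/-- Cyclotomic determinant in matrix form. -/
theorem detCyc_of_detIsCyclotomic {p : ℕ}
    (hdet : (GaloisRepAdic.ofResidualGaloisRep ρbar).DetIsCyclotomic p) :
    DetCyc p (matrixRep bbar ρbar.ρ) := by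
  intro g a ha
  have hp : (p : k) = 0 := by
    have := hdet.1
    rw [IsLocalRing.maximalIdeal_eq_bot, Ideal.mem_bot] at this
    exact this
  have h := hdet.2 1 g a (by simpa using ha)
  rw [pow_one, hp, Ideal.span_singleton_zero, Ideal.mem_bot, sub_eq_zero] at h
  rw [det_matrixRep]
  exact h

/-- Some determinant is not a square in the prime field. -/
theorem exists_nonsquare_det {p : ℕ} [Fact p.Prime] [CharP k p] (hp2 : p ≠ 2)
    {rb : AG →* M2 k} (hdet : DetCyc p rb) :
    ∃ g, ∀ j : ℕ, det (rb g) ≠ (j : k) ^ 2 := by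
  obtain ⟨x, hx⟩ := FiniteField.exists_nonsquare (F := ZMod p) (by rwa [ZMod.ringChar_zmod_n])
  have hx0 : x ≠ 0 := fun h => hx ⟨0, by rw [h, mul_zero]⟩
  obtain ⟨ζ, hζ⟩ := _root_.HasEnoughRootsOfUnity.exists_primitiveRoot Qb p
  have hp : p.Prime := Fact.out
  have hcop : Nat.Coprime x.val p := by
    refine (Nat.coprime_comm.1 (hp.coprime_iff_not_dvd.2 fun h => hx0 ?_))
    rw [← ZMod.natCast_zmod_val x, (ZMod.natCast_eq_zero_iff _ _).2 h]
  have hconj : IsConjRoot ℚ ζ (ζ ^ x.val) := by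
    have hζ' := hζ.pow_of_coprime x.val hcop
    rw [isConjRoot_def, ← Polynomial.cyclotomic_eq_minpoly_rat hζ hp.pos,
      ← Polynomial.cyclotomic_eq_minpoly_rat hζ' hp.pos]
  obtain ⟨g, hg⟩ := isConjRoot_iff_exists_algEquiv.1 hconj.symm
  refine ⟨g, fun j hj => hx ⟨(j : ZMod p), ?_⟩⟩
  rw [hdet g x.val fun μ hμ => ?_] at hj
  · rw [← ZMod.natCast_zmod_val x, ← Nat.cast_mul, ZMod.natCast_eq_natCast_iff,
      ← CharP.natCast_eq_natCast k p, hj, Nat.cast_mul, pow_two]
  · obtain ⟨i, -, rfl⟩ := hζ.eq_pow_of_pow_eq_one hμ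
    rw [map_pow, hg, ← pow_mul, ← pow_mul, mul_comm]

/-- A split characteristic polynomial with determinant one and squared trace other than four has
distinct roots. -/
theorem exists_ne_roots (hsplit : ∀ σ : AG, ∃ α β : k,
      LinearMap.charpoly (ρbar.ρ σ) = (Polynomial.X - Polynomial.C α) *
          (Polynomial.X - Polynomial.C β))
    {φ : AG} (hφ : trace (matrixRep bbar ρbar.ρ φ) ^ 2 ≠ 4 ∧ det (matrixRep bbar ρbar.ρ φ) = 1) :
    ∃ α β : k, α ≠ β ∧ LinearMap.charpoly (ρbar.ρ φ) =
      (Polynomial.X - Polynomial.C α) * (Polynomial.X - Polynomial.C β) := by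
  obtain ⟨α, β, h⟩ := hsplit φ
  refine ⟨α, β, fun e => hφ.1 ?_, h⟩
  have e1 : (matrixRep bbar ρbar.ρ φ).charpoly = (Polynomial.X - Polynomial.C α) *
      (Polynomial.X - Polynomial.C β) := by
    rw [← h]; exact LinearMap.charpoly_toMatrix (ρbar.ρ φ) bbar
  rw [Matrix.charpoly_fin_two] at e1
  have c0 := congrArg (Polynomial.eval (0 : k)) e1
  have c1 := congrArg (Polynomial.eval (1 : k)) e1
  simp at c0 c1
  rw [hφ.2] at c0 c1
  subst e
  have ht : trace (matrixRep bbar ρbar.ρ φ) = 2 * α := by linear_combination c0 - c1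
  rw [ht]
  linear_combination -4 * c0

end Fermat.Agent.TW
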