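import Mathlib.NumberTheory.NumberField.Basic
import Mathlib.RingTheory.DedekindDomain.Ideal.Basic
import Mathlib.RingTheory.Trace.Basic
import Mathlib.RingTheory.UniqueFactorizationDomain.Multiplicity
import Fermat.Agent.TW.PlacePrime

/-!
# Elements fixed by a decomposition group are close to rational numbers

An element of a place over `p` fixed by its decomposition group is congruent to an integer modulo
every power of `p`. Used for Kummer theory at `p` inside the algebraic numbers.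
-/

noncomputable section

open scoped NumberField Pointwise
open IntermediateField

namespace Fermat.Agent.TW

local notation "Qbar" => AlgebraicClosure ℚ

variable {A : ValuationSubring Qbar} {p : ℕ}

/-- `x` is divisible by `p ^ n` at the place. -/
def DivPow (A : ValuationSubring Qbar) (p n : ℕ) (x : Qbar) : Prop :=
  ∃ y ∈ A, x = (p : Qbar) ^ n * y

theorem DivPow.add {n : ℕ} {x y : Qbar} (hx : DivPow A p n x) (hy : DivPow A p n y) :
    DivPow A p n (x + y) := by
  obtain ⟨a, ha, rfl⟩ := hx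
  obtain ⟨b, hb, rfl⟩ := hy
  exact ⟨a + b, add_mem ha hb, by ring⟩

theorem DivPow.neg {n : ℕ} {x : Qbar} (hx : DivPow A p n x) : DivPow A p n (-x) := by
  obtain ⟨a, ha, rfl⟩ := hx
  exact ⟨-a, neg_mem ha, by ring⟩

theorem DivPow.mul_left {n : ℕ} {x y : Qbar} (hx : x ∈ A) (hy : DivPow A p n y) :
    DivPow A p n (x * y) := by
  obtain ⟨b, hb, rfl⟩ := hy
  exact ⟨x * b, mul_mem hx hb, by ring⟩

theorem divPow_zero_right (n : ℕ) : DivPow A p n 0 := ⟨0, zero_mem _, by ring⟩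

theorem DivPow.sum {n : ℕ} {ι : Type*} {s : Finset ι} {f : ι → Qbar}
    (h : ∀ i ∈ s, DivPow A p n (f i)) : DivPow A p n (∑ i ∈ s, f i) :=
  Finset.sum_induction f _ (fun _ _ => DivPow.add) (divPow_zero_right n) h

theorem inv_mem_of_not_nonunit {x : Qbar} (hxu : x ∉ A.nonunits) : x⁻¹ ∈ A := by
  rw [A.mem_nonunits_iff, not_lt] at hxu
  rw [← A.valuation_le_one_iff, map_inv₀]
  exact inv_le_one_of_one_le₀ hxu

theorem coe_mem_place (Z : IntermediateField ℚ Qbar) (x : 𝓞 Z) : ((x : Z) : Qbar) ∈ A :=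
  Gal.mem_of_isIntegral (x.2.map (IsScalarTower.toAlgHom ℤ Z Qbar))

/-- Divisibility of an integer at the place is divisibility in `ℤ`. -/
theorem intCast_dvd_pow_of_divPow (hp : p.Prime) (hA : A.LiesOverPrime p) {n : ℕ} {z : ℤ}
    (h : DivPow A p n (z : Qbar)) : (p : ℤ) ^ n ∣ z := by
  induction n generalizing z with
  | zero => simp
  | succ n ih =>
    obtain ⟨y, hy, hzy⟩ := h
    have hn : (z : Qbar) ∈ A.nonunits := by
      rw [hzy, pow_succ, mul_assoc, mul_comm (p : Qbar) y, ← mul_assoc]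
      exact Gal.mul_mem_nonunits (mul_mem (pow_mem (_root_.natCast_mem A p) _) hy)
        (by simpa using (Gal.intCast_mem_nonunits_iff hp hA (p : ℤ)).2 dvd_rfl)
    obtain ⟨z', rfl⟩ := (Gal.intCast_mem_nonunits_iff hp hA z).1 hn
    have hp0 : (p : Qbar) ≠ 0 := Nat.cast_ne_zero.2 hp.ne_zero
    have h' : DivPow A p n (z' : Qbar) := ⟨y, hy, by
      push_cast at hzy
      exact mul_left_cancel₀ hp0 (by rw [hzy, pow_succ]; ring)⟩
    rw [pow_succ']
    exact mul_dvd_mul_left _ (ih h')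

/-- High powers of the prime of a place are divisible by powers of `p`. -/
theorem exists_placePrime_pow_divPow (hp : p.Prime) (hA : A.LiesOverPrime p)
    (Z : IntermediateField ℚ Qbar) [FiniteDimensional ℚ Z] (m : ℕ) :
    ∃ n : ℕ, ∀ x ∈ Gal.placePrime A Z ^ n, DivPow A p m ((x : Z) : Qbar) := by
  classical
  have : NumberField Z := @NumberField.mk _ _ inferInstance ‹_›
  set Q := Gal.placePrime A Z with hQ
  have hQ0 : Q ≠ ⊥ := placePrime_ne_bot hp hA Z
  have hp0 : Ideal.span {(p : 𝓞 Z)} ≠ ⊥ := by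
    rw [ne_eq, Ideal.span_singleton_eq_bot]
    exact Nat.cast_ne_zero.2 hp.ne_zero
  obtain ⟨e, J, hJ, hfac⟩ :=
    WfDvdMonoid.max_power_factor hp0 (Ideal.prime_of_isPrime hQ0 inferInstance).irreducible
  refine ⟨e * m, fun x hx => ?_⟩
  obtain ⟨s, hs, hsQ⟩ := SetLike.not_le_iff_exists.1 (show ¬ J ^ m ≤ Q from
    fun h => hJ (Ideal.dvd_iff_le.2 (Ideal.IsPrime.le_of_pow_le h)))
  have h1 : x * s ∈ Ideal.span {(p : 𝓞 Z)} ^ m := by
    rw [hfac, mul_pow, ← pow_mul]
    exact Ideal.mul_mem_mul hx hs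
  rw [Ideal.span_singleton_pow, Ideal.mem_span_singleton'] at h1
  obtain ⟨w, hw⟩ := h1
  have hs' : ((s : Z) : Qbar) ∉ A.nonunits := fun h => hsQ (Gal.mem_placePrime.2 h)
  have hs0 : ((s : Z) : Qbar) ≠ 0 := fun h => hs' (h ▸ A.nonunits.zero_mem)
  refine ⟨((w : Z) : Qbar) * ((s : Z) : Qbar)⁻¹,
    mul_mem (coe_mem_place Z w) (inv_mem_of_not_nonunit hs'), ?_⟩
  have h2 := congrArg (fun z : 𝓞 Z => ((z : Z) : Qbar)) hw
  simp only [map_mul, map_pow, map_natCast] at h2
  push_cast at h2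
  field_simp
  linear_combination -h2

/-- An algebraic integer fixed by the decomposition group is close to an integer. -/
theorem exists_intCast_close_integral (hp : p.Prime) (hA : A.LiesOverPrime p) {a : Qbar}
    (hint : IsIntegral ℤ a) (hfix : ∀ σ ∈ A.decompositionSubgroup ℚ, σ a = a) (m : ℕ) :
    ∃ z : ℤ, DivPow A p m (a - z) := by
  classical
  set Z := IntermediateField.adjoin ℚ ({a} : Set Qbar) with hZ
  have : FiniteDimensional ℚ Z := IntermediateField.adjoin.finiteDimensional (hint.tower_top)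
  have : NumberField Z := @NumberField.mk _ _ inferInstance ‹_›
  have haZ : a ∈ Z := IntermediateField.subset_adjoin ℚ _ rfl
  have hDZ : ∀ σ ∈ A.decompositionSubgroup ℚ, ∀ x ∈ Z, σ x = x := by
    intro σ hσ x hx
    induction hx using IntermediateField.adjoin_induction with
    | mem y hy => rw [Set.mem_singleton_iff.1 hy]; exact hfix σ hσ
    | algebraMap r => exact σ.commutes r
    | add x y _ _ hx hy => rw [map_add, hx, hy]
    | inv x _ hx => rw [map_inv₀, hx]
    | mul x y _ _ hx hy => rw [map_mul, hx, hy]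
  set Q := Gal.placePrime A Z with hQ
  have hQ0 : Q ≠ ⊥ := placePrime_ne_bot hp hA Z
  have hQmax : Q.IsMaximal := (Gal.placePrime_isPrime A Z).isMaximal hQ0
  have hp0 : Ideal.span {(p : 𝓞 Z)} ≠ ⊥ := by
    rw [ne_eq, Ideal.span_singleton_eq_bot]
    exact Nat.cast_ne_zero.2 hp.ne_zero
  obtain ⟨e, J, hJ, hfac⟩ :=
    WfDvdMonoid.max_power_factor hp0 (Ideal.prime_of_isPrime hQ0 inferInstance).irreducible
  have hJQ : ¬ J ≤ Q := fun h => hJ (Ideal.dvd_iff_le.2 h)
  -- extend the embeddings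
  have hext : ∀ σ : Z →ₐ[ℚ] Qbar, ∃ g : Qbar ≃ₐ[ℚ] Qbar, ∀ x : Z, g (x : Qbar) = σ x := fun σ =>
    ⟨AlgEquiv.ofBijective (σ.liftNormal Qbar) (Algebra.IsAlgebraic.algHom_bijective _),
      fun x => σ.liftNormal_commutes Qbar x⟩
  choose g hg using hext
  choose nf hnf using fun σ : Z →ₐ[ℚ] Qbar => exists_placePrime_pow_divPow hp
    (Gal.liesOverPrime_smul (g σ)⁻¹ hA) Z m
  obtain ⟨n₀, hn₀⟩ := exists_placePrime_pow_divPow hp hA Z m
  set n := n₀ + ∑ σ : Z →ₐ[ℚ] Qbar, nf σ with hn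
  -- the Chinese remainder theorem
  have hcop : Q ^ n ⊔ J ^ n = ⊤ := Ideal.pow_sup_pow_eq_top (hQmax.out.2 _
    (lt_of_le_of_ne le_sup_left fun h => hJQ (le_sup_right.trans_eq h.symm)))
  obtain ⟨u, hu, v, hv, huv⟩ := Submodule.mem_sup.1 (hcop ▸ Submodule.mem_top (x := (1 : 𝓞 Z)))
  set aZ : 𝓞 Z := ⟨⟨a, haZ⟩, by
    exact (isIntegral_algHom_iff (IsScalarTower.toAlgHom ℤ Z Qbar)
      (fun x y h => Subtype.ext h)).1 hint⟩
  set b : 𝓞 Z := v * aZ with hb
  have hbint : IsIntegral ℤ (Algebra.trace ℚ Z (b : Z)) := Algebra.isIntegral_trace b.2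
  obtain ⟨z, hz⟩ := IsIntegrallyClosed.isIntegral_iff.1 hbint
  refine ⟨z, ?_⟩
  have hsum : (algebraMap ℚ Qbar) (Algebra.trace ℚ Z (b : Z)) = ∑ σ : Z →ₐ[ℚ] Qbar, σ (b : Z) :=
    trace_eq_sum_embeddings (K := ℚ) (L := Z) (E := Qbar)
  have hz' : (z : Qbar) = ∑ σ : Z →ₐ[ℚ] Qbar, σ (b : Z) := by
    rw [← hsum, ← hz]; simp
  rw [hz', ← Finset.add_sum_erase Finset.univ (fun σ : Z →ₐ[ℚ] Qbar => σ (b : Z))
    (Finset.mem_univ Z.val), sub_add_eq_sub_sub, sub_eq_add_neg]
  refine DivPow.add ?_ (DivPow.neg (DivPow.sum fun σ hσ => ?_))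
  · have e1 : a - Z.val (b : Z) = ((aZ * u : 𝓞 Z) : Z) := by
      have : (aZ * u : 𝓞 Z) = aZ - v * aZ := by linear_combination aZ * huv
      rw [this]
      rfl
    change DivPow A p m (a - Z.val (b : Z))
    rw [e1]
    exact hn₀ _ (Ideal.mul_mem_left _ _ (Ideal.pow_le_pow_right (Nat.le_add_right _ _) hu))
  · -- the other embeddings
    set B := (g σ)⁻¹ • A with hB
    have hne : Gal.placePrime B Z ≠ Q := by
      intro heq
      obtain ⟨τ, hτ, hτA⟩ := Gal.exists_mem_smul_eq Z.fixingSubgroup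
        (InfiniteGalois.fixingSubgroup_isClosed Z) hp (Gal.liesOverPrime_smul (g σ)⁻¹ hA) hA
        fun x hx hxfix => by
          have hxZ : x ∈ Z := Gal.coe_mem_of_fixed (x := ⟨x, hx⟩)
            fun k => Subtype.ext (hxfix k k.2)
          have hxZ' : IsIntegral ℤ (⟨x, hxZ⟩ : Z) :=
            (isIntegral_algHom_iff (IsScalarTower.toAlgHom ℤ Z Qbar)
              (fun x y h => Subtype.ext h)).1 hx
          have h3 := SetLike.ext_iff.1 heq (⟨⟨x, hxZ⟩, hxZ'⟩ : 𝓞 Z)
          exact (Gal.mem_placePrime.symm.trans h3).trans Gal.mem_placePrime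
      have hmem : τ * (g σ)⁻¹ ∈ A.decompositionSubgroup ℚ := by
        rw [MulAction.mem_stabilizer_iff, mul_smul, hτA]
      refine (Finset.mem_erase.1 hσ).1 (AlgHom.ext fun x => ?_)
      have h4 : (τ * (g σ)⁻¹) (x : Qbar) = x := hDZ _ hmem x x.2
      rw [AlgEquiv.mul_apply] at h4
      have h5 : τ (x : Qbar) = x := (IntermediateField.mem_fixingSubgroup_iff _ _).1 hτ x x.2
      have h6 : (g σ)⁻¹ (x : Qbar) = x := τ.injective (h4.trans h5.symm)
      rw [← hg]
      conv_lhs => rw [← h6]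
      exact (g σ).apply_symm_apply _
    have hpQ' : (p : 𝓞 Z) ∈ Gal.placePrime B Z :=
      natCast_mem_placePrime (Gal.liesOverPrime_smul (g σ)⁻¹ hA) Z
    have hJQ' : J ≤ Gal.placePrime B Z := by
      have h1 : Q ^ e * J ≤ Gal.placePrime B Z := hfac ▸ (Ideal.span_singleton_le_iff_mem _).2 hpQ'
      rcases (Gal.placePrime_isPrime B Z).mul_le.1 h1 with h2 | h2
      · exact absurd (hQmax.eq_of_le (Gal.placePrime_isPrime B Z).ne_top
          (Ideal.IsPrime.le_of_pow_le h2)) (Ne.symm hne)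
      · exact h2
    have hvn : v ∈ Gal.placePrime B Z ^ nf σ := Ideal.pow_right_mono hJQ' _
      (Ideal.pow_le_pow_right ((Finset.single_le_sum (fun i _ => Nat.zero_le (nf i))
        (Finset.mem_univ σ)).trans (Nat.le_add_left _ _)) hv)
    obtain ⟨y, hy, hby⟩ := hnf σ b (Ideal.mul_mem_right _ _ hvn)
    refine ⟨g σ y, ?_, ?_⟩
    · have := Gal.mem_smul_iff.1 hy
      rwa [inv_inv] at this
    · rw [← hg σ (b : Z), hby, map_mul, map_pow, map_natCast]

/-- An element of the place fixed by the decomposition group is close to an integer. -/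
theorem exists_intCast_close (hp : p.Prime) (hA : A.LiesOverPrime p) {a : Qbar} (ha : a ∈ A)
    (hfix : ∀ σ ∈ A.decompositionSubgroup ℚ, σ a = a) (m : ℕ) :
    ∃ z : ℤ, DivPow A p m (a - z) := by
  have halg : IsAlgebraic ℤ a :=
    (IsFractionRing.isAlgebraic_iff ℤ ℚ Qbar).mpr (Algebra.IsAlgebraic.isAlgebraic a)
  obtain ⟨c, hc, hx⟩ := halg.exists_integral_multiple
  obtain ⟨j, c', hc', hcc⟩ := Nat.exists_eq_pow_mul_and_not_dvd
    (Int.natAbs_ne_zero.2 hc) p hp.ne_one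
  obtain ⟨s, hs1, hs⟩ : ∃ s : ℤ, (s = 1 ∨ s = -1) ∧ c = (p : ℤ) ^ j * (s * c') := by
    rcases Int.natAbs_eq c with h | h
    · exact ⟨1, Or.inl rfl, by rw [h, hcc]; push_cast; ring⟩
    · exact ⟨-1, Or.inr rfl, by rw [h, hcc]; push_cast; ring⟩
  set d : ℤ := s * c' with hd
  obtain ⟨z, y, hy, hzy⟩ := exists_intCast_close_integral hp hA hx (fun σ hσ => by
    rw [map_zsmul, hfix σ hσ]) (j + m)
  have hpj : DivPow A p j (z : Qbar) := by
    have : (z : Qbar) = (p : Qbar) ^ j * ((d : Qbar) * a - (p : Qbar) ^ m * y) := by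
      rw [zsmul_eq_mul, hs] at hzy
      push_cast at hzy
      rw [pow_add] at hzy
      linear_combination -hzy
    exact ⟨_, sub_mem (mul_mem (intCast_mem A d) ha)
      (mul_mem (pow_mem (_root_.natCast_mem A p) m) hy), this⟩
  obtain ⟨z', rfl⟩ := intCast_dvd_pow_of_divPow hp hA hpj
  have hdc : IsCoprime d ((p : ℤ) ^ m) := by
    refine (IsCoprime.pow_right ?_)
    rw [Int.isCoprime_iff_gcd_eq_one, Int.gcd, hd, Int.natAbs_mul, Int.natAbs_natCast]
    have : s.natAbs = 1 := by rcases hs1 with rfl | rfl <;> rfl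
    rw [this, one_mul, Int.natAbs_natCast]
    exact (hp.coprime_iff_not_dvd.2 hc').symm
  obtain ⟨u, v, huv⟩ := hdc
  refine ⟨u * z', ⟨(u : Qbar) * y + (v : Qbar) * a,
    add_mem (mul_mem (intCast_mem A u) hy) (mul_mem (intCast_mem A v) ha), ?_⟩⟩
  have hp0 : (p : Qbar) ^ j ≠ 0 := pow_ne_zero _ (Nat.cast_ne_zero.2 hp.ne_zero)
  have h1 : (d : Qbar) * a - (z' : Qbar) = (p : Qbar) ^ m * y := by
    refine mul_left_cancel₀ hp0 ?_
    rw [zsmul_eq_mul, hs] at hzy
    push_cast at hzy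
    rw [pow_add] at hzy
    linear_combination hzy
  have h2 : (u : Qbar) * d + (v : Qbar) * (p : Qbar) ^ m = 1 := by exact_mod_cast huv
  push_cast
  linear_combination (u : Qbar) * h1 - a * h2

end Fermat.Agent.TW
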