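import Mathlib.Data.ZMod.Basic
import Mathlib.FieldTheory.IsAlgClosed.Basic
import Mathlib.FieldTheory.KummerExtension
import Mathlib.RingTheory.Polynomial.Cyclotomic.Eval
import Mathlib.RingTheory.RootsOfUnity.AlgebraicallyClosed
import Fermat.Agent.TW.LocalQp

/-!
# The multiplicative group of the fixed field of a decomposition group modulo `p`-th powers

A fixed element is a power of `p` times a unit, and units congruent to `1` modulo `p ^ 2` are
`p`-th powers of fixed elements. Used for local Kummer theory at `p`.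
-/

noncomputable section

namespace Fermat.Agent.TW

local notation "Qbar" => AlgebraicClosure ℚ

variable {A : ValuationSubring Qbar} {p : ℕ}

theorem valuation_natCast_eq_one (hp : p.Prime) (hA : A.LiesOverPrime p) {n : ℕ} (hn : ¬ p ∣ n) :
    A.valuation (n : Qbar) = 1 := by
  refine le_antisymm ((A.valuation_le_one_iff _).2 (_root_.natCast_mem A n))
      (not_lt.1 fun h => hn ?_)
  have h' : ((n : ℤ) : Qbar) ∈ A.nonunits := by simpa [A.mem_nonunits_iff] using h
  exact Int.natCast_dvd_natCast.1 ((Gal.intCast_mem_nonunits_iff hp hA n).1 h')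

theorem valuation_prime_lt_one (hp : p.Prime) (hA : A.LiesOverPrime p) :
    A.valuation (p : Qbar) < 1 := by
  have := (Gal.intCast_mem_nonunits_iff hp hA (p : ℤ)).2 dvd_rfl
  simpa [A.mem_nonunits_iff] using this

theorem exists_pow_mul_mem (hp : p.Prime) (hA : A.LiesOverPrime p) (x : Qbar) :
    ∃ j : ℕ, (p : Qbar) ^ j * x ∈ A := by
  have halg : IsAlgebraic ℤ x :=
    (IsFractionRing.isAlgebraic_iff ℤ ℚ Qbar).mpr (Algebra.IsAlgebraic.isAlgebraic x)
  obtain ⟨c, hc, hx⟩ := halg.exists_integral_multiple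
  obtain ⟨j, c', hc', hcc⟩ :=
      Nat.exists_eq_pow_mul_and_not_dvd (Int.natAbs_ne_zero.2 hc) p hp.ne_one
  refine ⟨j, ?_⟩
  have h1 : ((c.natAbs : ℕ) : Qbar) * x ∈ A := by
    have h0 := Gal.mem_of_isIntegral (A := A) hx
    rw [zsmul_eq_mul] at h0
    rcases Int.natAbs_eq c with h | h <;> rw [h] at h0
    · rwa [Int.cast_natCast] at h0
    · rw [Int.cast_neg, Int.cast_natCast, neg_mul] at h0
      simpa using neg_mem h0
  rw [← A.valuation_le_one_iff] at h1 ⊢
  rw [hcc, Nat.cast_mul, map_mul, map_mul, valuation_natCast_eq_one hp hA hc', mul_one] at h1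
  simpa using h1

/-- A non-zero element fixed by the decomposition group is a power of `p` times a unit. -/
theorem exists_zpow_mul_unit (hp : p.Prime) (hA : A.LiesOverPrime p) {a : Qbar} (ha0 : a ≠ 0)
    (hfix : ∀ σ ∈ A.decompositionSubgroup ℚ, σ a = a) :
    ∃ (m : ℤ) (u : Qbar), u ∈ A ∧ A.valuation u = 1 ∧ a = (p : Qbar) ^ m * u := by
  have hp0 : (p : Qbar) ≠ 0 := Nat.cast_ne_zero.2 hp.ne_zero
  obtain ⟨N, hN⟩ := exists_pow_mul_mem hp hA a
  set b := (p : Qbar) ^ N * a with hb
  have hb0 : b ≠ 0 := mul_ne_zero (pow_ne_zero _ hp0) ha0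
  have hbfix : ∀ σ ∈ A.decompositionSubgroup ℚ, σ b = b := fun σ hσ => by
    rw [hb, map_mul, map_pow, map_natCast, hfix σ hσ]
  obtain ⟨j, hj⟩ := exists_pow_mul_mem hp hA b⁻¹
  obtain ⟨z, y, hy, hzy⟩ := exists_intCast_close hp hA hN hbfix (j + 1)
  have hlt : A.valuation ((z : Qbar) * b⁻¹ - 1) < 1 := by
    have : (z : Qbar) * b⁻¹ - 1 = (p : Qbar) * -(y * ((p : Qbar) ^ j * b⁻¹)) := by
      rw [pow_succ] at hzy
      field_simp
      linear_combination -hzy
    rw [this, map_mul]
    exact mul_lt_one_of_lt_of_le (valuation_prime_lt_one hp hA)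
      ((A.valuation_le_one_iff _).2 (neg_mem (mul_mem hy hj)))
  have hunit : A.valuation ((z : Qbar) * b⁻¹) = 1 := by
    have := A.valuation.map_one_add_of_lt hlt
    rwa [add_sub_cancel] at this
  have hz0 : z ≠ 0 := by
    rintro rfl
    simp at hunit
  obtain ⟨i, z', hz', hzz⟩ :=
      Nat.exists_eq_pow_mul_and_not_dvd (Int.natAbs_ne_zero.2 hz0) p hp.ne_one
  have hval : A.valuation ((p : Qbar) ^ ((N : ℤ) - i) * a) = 1 := by
    have hvb : A.valuation b = A.valuation (p : Qbar) ^ i := by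
      rw [map_mul, map_inv₀, mul_inv_eq_one₀ (by simpa using hb0)] at hunit
      rw [← hunit]
      have : A.valuation (z : Qbar) = A.valuation ((z.natAbs : ℕ) : Qbar) := by
        rcases Int.natAbs_eq z with h | h <;> conv_lhs => rw [h]
        · simp
        · simp
      rw [this, hzz, Nat.cast_mul, map_mul, valuation_natCast_eq_one hp hA hz', mul_one]
      simp
    have hvp : A.valuation (p : Qbar) ≠ 0 := by simpa using hp0
    rw [zpow_sub₀ hp0, zpow_natCast, zpow_natCast, div_mul_eq_mul_div, ← hb, map_div₀, map_pow,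
      hvb, div_self (pow_ne_zero _ hvp)]
  refine ⟨(i : ℤ) - N, (p : Qbar) ^ ((N : ℤ) - i) * a, (A.valuation_le_one_iff _).1 hval.le,
    hval, ?_⟩
  rw [← mul_assoc, ← zpow_add₀ hp0]
  simp

theorem valuation_lt_of_decomposition {σ : Qbar ≃ₐ[ℚ] Qbar}
    (hσ : σ ∈ A.decompositionSubgroup ℚ) {x y : Qbar} (h : A.valuation x < A.valuation y) :
    A.valuation (σ x) < A.valuation (σ y) := by
  have hy : y ≠ 0 := by
    rintro rfl
    rw [map_zero] at h
    exact not_lt_zero h
  have h1 : x / y ∈ A.nonunits := by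
    rw [A.mem_nonunits_iff, map_div₀]
    exact (div_lt_one₀ (zero_lt_iff.2 (by simpa using hy))).2 h
  have h2 := (Gal.decomposition_mem_nonunits_iff hσ).2 h1
  rw [A.mem_nonunits_iff, map_div₀ σ, map_div₀] at h2
  exact (div_lt_one₀ (zero_lt_iff.2 (by simpa using hy))).1 h2

section Roots

variable (hp : p.Prime) (hA : A.LiesOverPrime p)

include hp

theorem valuation_one_sub_pow_le {η : Qbar} (hη : η ^ p = 1) (i : ℕ) :
    A.valuation (1 - η ^ i) ≤ A.valuation (1 - η) := by
  have h1 : η ∈ A := Gal.mem_of_isIntegral (IsIntegral.of_pow hp.pos (hη ▸ isIntegral_one))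
  rw [← geom_sum_mul_neg η i, map_mul]
  exact mul_le_of_le_one_left' ((A.valuation_le_one_iff _).2 (sum_mem fun j _ => pow_mem h1 j))

theorem valuation_one_sub_root {η : Qbar} (hη : η ^ p = 1) (hη1 : η ≠ 1) :
    A.valuation (1 - η) ^ (p - 1) = A.valuation (p : Qbar) := by
  have : Fact p.Prime := ⟨hp⟩
  have hprim : IsPrimitiveRoot η p := IsPrimitiveRoot.iff_orderOf.2 (orderOf_eq_prime hη hη1)
  have h := Polynomial.eval_one_cyclotomic_prime (R := Qbar) (p := p)
  rw [Polynomial.cyclotomic_eq_prod_X_sub_primitiveRoots hprim, Polynomial.eval_prod] at h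
  simp only [Polynomial.eval_sub, Polynomial.eval_X, Polynomial.eval_C] at h
  rw [← h, map_prod, Finset.prod_eq_pow_card (b := A.valuation (1 - η)),
    hprim.card_primitiveRoots, Nat.totient_prime hp]
  intro μ hμ
  have hμ' := (mem_primitiveRoots hp.pos).1 hμ
  obtain ⟨i, -, hi⟩ := hprim.eq_pow_of_pow_eq_one hμ'.pow_eq_one
  obtain ⟨i', -, hi'⟩ := hμ'.eq_pow_of_pow_eq_one hη
  refine le_antisymm (hi ▸ valuation_one_sub_pow_le hp hη i) ?_
  calc A.valuation (1 - η) = A.valuation (1 - μ ^ i') := by rw [hi']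
    _ ≤ A.valuation (1 - μ) := valuation_one_sub_pow_le hp hμ'.pow_eq_one i'

include hA

/-- Units congruent to `1` modulo `p ^ 2` are canonically `p`-th powers. -/
theorem exists_fixed_root_of_divPow_two (hp2 : p ≠ 2) {u : Qbar} (hu : DivPow A p 2 (u - 1))
    (hfix : ∀ σ ∈ A.decompositionSubgroup ℚ, σ u = u) :
    ∃ w : Qbar, w ^ p = u ∧ ∀ σ ∈ A.decompositionSubgroup ℚ, σ w = w := by
  classical
  obtain ⟨y, hy, hu⟩ := hu
  have : NeZero p := ⟨hp.ne_zero⟩
  obtain ⟨ζ, hζ⟩ := HasEnoughRootsOfUnity.exists_primitiveRoot Qbar p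
  obtain ⟨w₀, hw₀⟩ := IsAlgClosed.exists_pow_nat_eq u hp.pos
  have hu1 : A.valuation (u - 1) ≤ A.valuation (p : Qbar) ^ 2 := by
    rw [hu, map_mul, map_pow]
    exact mul_le_of_le_one_right' ((A.valuation_le_one_iff _).2 hy)
  -- a root as close as possible to `1`
  obtain ⟨i₀, hi₀, hmin⟩ := Finset.exists_min_image (Finset.range p)
    (fun i => A.valuation (ζ ^ i * w₀ - 1)) ⟨0, Finset.mem_range.2 hp.pos⟩
  set w := ζ ^ i₀ * w₀ with hw
  have hwp : w ^ p = u := by rw [hw, mul_pow, ← pow_mul, mul_comm i₀, pow_mul, hζ.pow_eq_one,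
    one_pow, one_mul, hw₀]
  have hprod : u - 1 = ∏ i ∈ Finset.range p, (ζ ^ i * w - 1) := by
    have h := congrArg (Polynomial.eval (1 : Qbar))
      (X_pow_sub_C_eq_prod (R := Qbar) hζ hp.pos hwp)
    simp only [Polynomial.eval_sub, Polynomial.eval_pow, Polynomial.eval_X, Polynomial.eval_C,
      one_pow, Polynomial.eval_prod] at h
    have hodd : Odd p := hp.odd_of_ne_two hp2
    calc u - 1 = -(1 - u) := by ring
      _ = (-1) ^ p * ∏ i ∈ Finset.range p, (1 - ζ ^ i * w) := by rw [h, hodd.neg_one_pow]; ring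
      _ = ∏ i ∈ Finset.range p, (-1) * (1 - ζ ^ i * w) := by
        rw [Finset.prod_mul_distrib, Finset.prod_const, Finset.card_range]
      _ = _ := Finset.prod_congr rfl fun i _ => by ring
  have hmin' : ∀ i ∈ Finset.range p, A.valuation (w - 1) ≤ A.valuation (ζ ^ i * w - 1) := by
    intro i hi
    rw [hw, ← mul_assoc, ← pow_add, ← Nat.mod_add_div (i + i₀) p, pow_add, pow_mul, hζ.pow_eq_one,
      one_pow, mul_one]
    exact hmin _ (Finset.mem_range.2 (Nat.mod_lt _ hp.pos))
  have hvp0 : A.valuation (p : Qbar) ≠ 0 := by simp [hp.ne_zero]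
  have hsmall : A.valuation (w - 1) ^ p ≤ A.valuation (p : Qbar) ^ 2 := by
    refine le_trans ?_ hu1
    rw [hprod, map_prod]
    calc A.valuation (w - 1) ^ p = ∏ _i ∈ Finset.range p, A.valuation (w - 1) := by simp
      _ ≤ _ := Finset.prod_le_prod' hmin'
  have hroot : ∀ η : Qbar, η ^ p = 1 → η ≠ 1 → A.valuation (w - 1) < A.valuation (1 - η) := by
    intro η hη hη1
    have h := valuation_one_sub_root (A := A) hp hη hη1
    refine lt_of_pow_lt_pow_left₀ (p * (p - 1)) zero_le ?_
    rw [pow_mul, mul_comm p (p - 1), pow_mul, h]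
    calc (A.valuation (w - 1) ^ p) ^ (p - 1) ≤ (A.valuation (p : Qbar) ^ 2) ^ (p - 1) :=
          pow_le_pow_left' hsmall _
      _ < A.valuation (p : Qbar) ^ p := by
        rw [← pow_mul]
        exact pow_lt_pow_right_of_lt_one₀ (zero_lt_iff.2 hvp0) (valuation_prime_lt_one hp hA)
          (by have := hp.two_le; omega)
  have hwA : w ∈ A := by
    rw [← A.valuation_le_one_iff]
    have h2 : A.valuation (w - 1) ≤ 1 :=
      (hroot ζ hζ.pow_eq_one (hζ.ne_one hp.one_lt)).le.trans
        ((A.valuation_le_one_iff _).2 (sub_mem (one_mem _)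
          (Gal.mem_of_isIntegral (hζ.isIntegral hp.pos))))
    exact (A.valuation_le_one_iff _).2 (by
      simpa using add_mem ((A.valuation_le_one_iff _).1 h2) (one_mem A))
  refine ⟨w, hwp, fun σ hσ => ?_⟩
  have hpow : (σ w / w) ^ p = 1 := by
    rw [div_pow, ← map_pow, hwp, hfix σ hσ, div_self]
    intro h0
    rw [← hwp, pow_eq_zero_iff hp.ne_zero] at h0
    rw [h0, zero_sub, Valuation.map_neg, map_one, one_pow] at hsmall
    exact hsmall.not_gt (pow_lt_one₀ zero_le (valuation_prime_lt_one hp hA) two_ne_zero)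
  have hw0 : w ≠ 0 := by
    intro h0
    rw [h0, div_zero, zero_pow hp.ne_zero] at hpow
    exact zero_ne_one hpow
  by_contra hne
  have hη1 : σ w / w ≠ 1 := by rwa [ne_eq, div_eq_one_iff_eq hw0]
  have h3 := hroot _ hpow hη1
  have hvw : A.valuation w = 1 := by
    have h4 : A.valuation (w - 1) < 1 :=
      h3.trans_le ((A.valuation_le_one_iff _).2 (sub_mem (one_mem _)
        (Gal.mem_of_isIntegral (IsIntegral.of_pow hp.pos (hpow ▸ isIntegral_one)))))
    simpa using A.valuation.map_one_add_of_lt h4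
  have hζ1 := hζ.ne_one hp.one_lt
  have hσζ : (σ ζ) ^ p = 1 := by rw [← map_pow, hζ.pow_eq_one, map_one]
  have h5 : A.valuation (σ w - 1) < A.valuation (1 - σ w / w) := by
    have h7 := valuation_lt_of_decomposition hσ (hroot ζ hζ.pow_eq_one hζ1)
    rw [map_sub σ, map_sub σ, map_one σ] at h7
    have h8 : A.valuation (1 - σ ζ) = A.valuation (1 - σ w / w) := by
      refine (pow_left_inj₀ zero_le zero_le (n := p - 1) (by have := hp.two_le; omega)).1 ?_
      rw [valuation_one_sub_root hp hσζ (fun h => hζ1 (σ.injective (by rw [h, map_one]))),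
        valuation_one_sub_root hp hpow hη1]
    rwa [h8] at h7
  have h6 : A.valuation (1 - σ w / w) < A.valuation (1 - σ w / w) := by
    have e : 1 - σ w / w = ((w - 1) - (σ w - 1)) / w := by field_simp; ring
    conv_lhs => rw [e, map_div₀, hvw, div_one]
    exact (A.valuation.map_sub _ _).trans_lt (max_lt h3 h5)
  exact lt_irrefl _ h6

end Roots

end Fermat.Agent.TW
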