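import Mathlib.Algebra.Algebra.ZMod
import Mathlib.LinearAlgebra.FreeModule.Finite.Basic
import Fermat.Agent.PT.Kummer
import Fermat.Agent.TW.Ad
import Fermat.Agent.TW.LocalUnits

/-!
# Local cocycles valued in the cyclotomic character at `p`: at most two dimensions

By local Kummer theory the classes of `μ_p` on a decomposition group at `p` are spanned by those
of `p` and `1 + p`. This gives the local bound for strictly ordinary classes.
-/

noncomputable section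

namespace Fermat.Agent.TW

open Fermat.Agent.PT

local notation "Qbar" => AlgebraicClosure ℚ

variable {p : ℕ} [hpf : Fact p.Prime]

variable (p) in
/-- A chosen primitive `p`-th root of unity in `ℚ̄`. -/
def zetaP : Qbar := Classical.choose (HasEnoughRootsOfUnity.exists_primitiveRoot Qbar p)

theorem zetaP_spec : IsPrimitiveRoot (zetaP p) p :=
  Classical.choose_spec (HasEnoughRootsOfUnity.exists_primitiveRoot Qbar p)

variable (p) in
/-- The mod `p` cyclotomic character with its primitive root. -/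
def cycQ : Cyc ℚ Qbar p where
  ζ := (zetaP_spec.isUnit hpf.out.ne_zero).unit
  prim := IsPrimitiveRoot.coe_units_iff.1 (by simpa using zetaP_spec (p := p))
  ω := (zetaP_spec (p := p)).autToPow ℚ
  act g := Units.ext (by
    simp [AlgEquiv.smul_units_def])

variable (p) in
/-- The mod `p` cyclotomic character with values in a ring of characteristic `p`. -/
def omegaK (k : Type*) [Field k] [CharP k p] (g : AG) : k :=
  ZMod.castHom (dvd_refl p) k ((cycQ p).ω g : ZMod p)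

variable (p) in
/-- The one-dimensional representation by the cyclotomic character. -/
def omegaRep (k : Type*) [Field k] [CharP k p] : Representation k AG k where
  toFun g := omegaK p k g • LinearMap.id
  map_one' := by ext; simp [omegaK]
  map_mul' g h := by ext; simp [omegaK, map_mul, mul_comm]

theorem omegaRep_apply (k : Type*) [Field k] [CharP k p] (g : AG) (x : k) :
    omegaRep p k g x = omegaK p k g * x := by simp [omegaRep]

variable {A : ValuationSubring Qbar}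

local notation "𝒟" => ValuationSubring.decompositionSubgroup ℚ A

theorem kum_mul {r s : Qbarˣ} (hr : ∀ h : ↥𝒟, (h : AG) • r ^ p = r ^ p)
    (hs : ∀ h : ↥𝒟, (h : AG) • s ^ p = s ^ p) (h : ↥𝒟) :
    (cycQ p).kum 𝒟 (r * s) h = (cycQ p).kum 𝒟 r h + (cycQ p).kum 𝒟 s h := by
  apply (cycQ p).mu_injective
  rw [(cycQ p).mu_add, Cyc.mu_kum hr, Cyc.mu_kum hs,
    Cyc.mu_kum (fun h => by rw [mul_pow, smul_mul', hr, hs]), smul_mul', div_mul_div_comm]

theorem kum_eq_zero {r : Qbarˣ} (h : ↥𝒟) (hr : (h : AG) • r = r) :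
    (cycQ p).kum 𝒟 r h = 0 := by
  rw [Cyc.kum, hr, div_self', ← (cycQ p).mu_zero, (cycQ p).lg_mu]

theorem kum_zpow {r : Qbarˣ} (hr : ∀ h : ↥𝒟, (h : AG) • r ^ p = r ^ p) (m : ℤ) (h : ↥𝒟) :
    (cycQ p).kum 𝒟 (r ^ m) h = (m : ZMod p) * (cycQ p).kum 𝒟 r h := by
  have hpow : ∀ m : ℤ, ∀ h : ↥𝒟, (h : AG) • (r ^ m) ^ p = (r ^ m) ^ p := fun m h => by
    rw [← zpow_natCast, ← zpow_mul, mul_comm, zpow_mul, zpow_natCast, smul_zpow', hr]
  induction m using Int.induction_on with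
  | zero => simp [kum_eq_zero h (smul_one (h : AG))]
  | succ m ih =>
    rw [zpow_add_one, kum_mul (hpow _) hr, ih]; push_cast; ring
  | pred m ih =>
    have e := kum_mul (hpow (-(m : ℤ) - 1)) hr h
    rw [← zpow_add_one, sub_add_cancel, ih] at e
    push_cast at e ⊢
    linear_combination -e

omit hpf in
theorem divPow_one_add_pow (j : ℕ) :
    DivPow A p 2 (((1 + p) ^ j : Qbar) - (1 + j * p)) := by
  induction j with
  | zero => simpa using divPow_zero_right 2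
  | succ j ih =>
    have e : ((1 + p) ^ (j + 1) : Qbar) - (1 + ((j + 1 : ℕ) : Qbar) * p) =
        (1 + p) * ((1 + p) ^ j - (1 + j * p)) + (p : Qbar) ^ 2 * j := by
      push_cast
      ring
    rw [e]
    exact (ih.mul_left (add_mem (one_mem _) (_root_.natCast_mem A p))).add
      ⟨j, _root_.natCast_mem A j, rfl⟩

/-- A unit fixed by the decomposition group is an integer `p`-th power times a power of `1 + p`
times the `p`-th power of a fixed element. -/
theorem exists_unit_decomp (hA : A.LiesOverPrime p) (hp2 : p ≠ 2) {u : Qbar} (hu : u ∈ A)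
    (hu1 : A.valuation u = 1) (hfix : ∀ σ ∈ 𝒟, σ u = u) :
    ∃ (z : ℤ) (j : ℕ) (w : Qbar), z ≠ 0 ∧ (∀ σ ∈ 𝒟, σ w = w) ∧
      u = (z : Qbar) ^ p * (1 + p) ^ j * w ^ p := by
  have hp := hpf.out
  obtain ⟨z, hz⟩ := exists_intCast_close hp hA hu hfix 2
  have hzp : ¬ (p : ℤ) ∣ z := by
    intro hd
    obtain ⟨y, hy, hzy⟩ := hz
    have h1 : A.valuation (u - z) < 1 := by
      rw [hzy, map_mul, map_pow]
      exact mul_lt_one_of_lt_of_le (pow_lt_one₀ zero_le (valuation_prime_lt_one hp hA) two_ne_zero)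
        ((A.valuation_le_one_iff _).2 hy)
    have h2 : A.valuation (z : Qbar) < 1 :=
      (A.mem_nonunits_iff).1 ((Gal.intCast_mem_nonunits_iff hp hA z).2 hd)
    have h3 : A.valuation u < 1 := by
      have e : u = (u - z) + z := by ring
      rw [e]
      exact A.valuation.map_add_lt h1 h2
    exact h3.ne hu1
  have hzmod : (z : ZMod p) ≠ 0 := fun h => hzp ((ZMod.intCast_zmod_eq_zero_iff_dvd z p).1 h)
  obtain ⟨c, hc⟩ : (p : ℤ) ∣ z - z ^ p := by
    rw [← ZMod.intCast_zmod_eq_zero_iff_dvd]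
    simp [ZMod.pow_card]
  set j := ((c : ZMod p) * ((z : ZMod p) ^ p)⁻¹).val with hj
  obtain ⟨d, hd⟩ : (p : ℤ) ∣ c - z ^ p * j := by
    rw [← ZMod.intCast_zmod_eq_zero_iff_dvd]
    push_cast
    rw [hj, ZMod.natCast_zmod_val, mul_comm (c : ZMod p), ← mul_assoc,
      mul_inv_cancel₀ (pow_ne_zero _ hzmod), one_mul, sub_self]
  set U := (z : Qbar) ^ p * (1 + p) ^ j with hU
  have hUdiv : DivPow A p 2 (u - U) := by
    have e : u - U = (u - z) + (-((z : Qbar) ^ p) * ((1 + p) ^ j - (1 + j * p))) +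
        (p : Qbar) ^ 2 * d := by
      have h1 : (z : Qbar) - (z : Qbar) ^ p = p * c := by exact_mod_cast hc
      have h2 : (c : Qbar) - (z : Qbar) ^ p * j = p * d := by exact_mod_cast hd
      rw [hU]
      linear_combination h1 + (p : Qbar) * h2
    rw [e]
    exact (hz.add (DivPow.mul_left (neg_mem (pow_mem (intCast_mem A z) p))
      (divPow_one_add_pow j))).add ⟨d, intCast_mem A d, rfl⟩
  have hUval : A.valuation U = 1 := by
    rw [hU, map_mul, map_pow, map_pow]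
    have h1 : A.valuation (z : Qbar) = 1 := by
      refine le_antisymm ((A.valuation_le_one_iff _).2 (intCast_mem A z)) (not_lt.1 fun h => hzp ?_)
      exact (Gal.intCast_mem_nonunits_iff hp hA z).1 ((A.mem_nonunits_iff).2 h)
    have h2 : A.valuation (1 + p : Qbar) = 1 :=
      A.valuation.map_one_add_of_lt (valuation_prime_lt_one hp hA)
    rw [h1, h2, one_pow, one_pow, one_mul]
  have hU0 : U ≠ 0 := fun h => by simp [h] at hUval
  have hUfix : ∀ σ ∈ 𝒟, σ U = U := fun σ _ => by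
    rw [hU, map_mul, map_pow, map_pow, map_intCast, map_add, map_one, map_natCast]
  have hdiv : DivPow A p 2 (u / U - 1) := by
    have e : u / U - 1 = U⁻¹ * (u - U) := by field_simp
    rw [e]
    exact DivPow.mul_left ((A.valuation_le_one_iff _).1 (by rw [map_inv₀, hUval, inv_one])) hUdiv
  obtain ⟨w, hw, hwfix⟩ := exists_fixed_root_of_divPow_two hp hA hp2 hdiv fun σ hσ => by
    rw [map_div₀, hfix σ hσ, hUfix σ hσ]
  refine ⟨z, j, w, fun h => hzp (h ▸ dvd_zero _), hwfix, ?_⟩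
  rw [hw, mul_div_cancel₀ _ hU0]

/-- The classes of the cyclotomic character at `p` are spanned by two cocycles. -/
theorem exists_spanning_pair_cycQ (hA : A.LiesOverPrime p) (hp2 : p ≠ 2) :
    ∃ κ₁ κ₂ : ↥𝒟 → ZMod p, ∀ f ∈ Z1 (lvQ.comap (Subgroup.subtype 𝒟))
      ((cycQ p).rep.comp (Subgroup.subtype 𝒟)), ∃ s t x : ZMod p, ∀ h : ↥𝒟,
        f h = s * κ₁ h + t * κ₂ h + (((cycQ p).ω (h : AG) : ZMod p) * x - x) := by
  have hp := hpf.out
  have hp1 : ((1 + p : ℕ) : Qbar) ≠ 0 := Nat.cast_ne_zero.2 (by omega)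
  obtain ⟨r₁, hr₁⟩ := Cyc.exists_root (Ω := Qbar) hp.pos
    (Units.mk0 (p : Qbar) (Nat.cast_ne_zero.2 hp.ne_zero))
  obtain ⟨r₂, hr₂⟩ := Cyc.exists_root (Ω := Qbar) hp.pos (Units.mk0 ((1 + p : ℕ) : Qbar) hp1)
  refine ⟨(cycQ p).kum 𝒟 r₁, (cycQ p).kum 𝒟 r₂, fun f hf => ?_⟩
  obtain ⟨r, hr, hfr⟩ := Cyc.exists_kum hf
  have hafix : ∀ σ ∈ 𝒟, σ ((r ^ p : Qbarˣ) : Qbar) = (r ^ p : Qbarˣ) := fun σ hσ =>
    congrArg Units.val (hr ⟨σ, hσ⟩)
  obtain ⟨m, u, hu, hu1, hmu⟩ := exists_zpow_mul_unit hp hA (Units.ne_zero (r ^ p)) hafix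
  have hufix : ∀ σ ∈ 𝒟, σ u = u := fun σ hσ => by
    have h := hafix σ hσ
    rw [hmu, map_mul, map_zpow₀, map_natCast] at h
    exact mul_left_cancel₀ (zpow_ne_zero _ (Nat.cast_ne_zero.2 hp.ne_zero)) h
  obtain ⟨z, j, w, hz, hwfix, huzw⟩ := exists_unit_decomp hA hp2 hu hu1 hufix
  have hz' : (z : Qbar) ≠ 0 := Int.cast_ne_zero.2 hz
  have hw0 : w ≠ 0 := by
    rintro rfl
    rw [zero_pow hp.ne_zero, mul_zero] at huzw
    simp [huzw] at hu1
  let zu : Qbarˣ := Units.mk0 _ hz'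
  let wu : Qbarˣ := Units.mk0 _ hw0
  set η := r / (r₁ ^ m * r₂ ^ (j : ℤ) * (zu * wu)) with hη
  have hηp : η ^ p = 1 := by
    have h1 : (r₁ ^ m) ^ p = (r₁ ^ p) ^ m := by
      rw [← zpow_natCast, ← zpow_mul, mul_comm, zpow_mul, zpow_natCast]
    have h2 : (r₂ ^ (j : ℤ)) ^ p = (r₂ ^ p) ^ j := by
      rw [zpow_natCast, ← pow_mul, mul_comm, pow_mul]
    rw [hη, div_pow, div_eq_one, mul_pow, mul_pow, mul_pow, h1, h2, hr₁, hr₂]
    ext
    simp only [Units.val_mul, Units.val_zpow_eq_zpow_val, Units.val_pow_eq_pow_val, Units.val_mk0,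
      zu, wu]
    rw [← Units.val_pow_eq_pow_val, hmu, huzw]
    push_cast
    ring
  obtain ⟨x, hx⟩ : ∃ x, (cycQ p).mu x = η := ⟨_, (cycQ p).mu_lg hηp⟩
  refine ⟨(m : ZMod p), ((j : ℤ) : ZMod p), x, fun h => ?_⟩
  have hf1 : ∀ h : ↥𝒟, (h : AG) • r₁ ^ p = r₁ ^ p := fun h => by
    rw [hr₁]; ext; simp [AlgEquiv.smul_units_def]
  have hf2 : ∀ h : ↥𝒟, (h : AG) • r₂ ^ p = r₂ ^ p := fun h => by
    rw [hr₂]; ext; simp [AlgEquiv.smul_units_def]
  have hzp : ∀ (n : ℤ) {t : Qbarˣ}, (∀ h : ↥𝒟, (h : AG) • t ^ p = t ^ p) →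
      ∀ h : ↥𝒟, (h : AG) • (t ^ n) ^ p = (t ^ n) ^ p := fun n t ht h => by
    rw [← zpow_natCast, ← zpow_mul, mul_comm, zpow_mul, zpow_natCast, smul_zpow', ht]
  have hf3 : ∀ h : ↥𝒟, (h : AG) • (zu * wu) = zu * wu := fun h => by
    ext
    simp only [AlgEquiv.smul_units_def, Units.coe_map, MonoidHom.coe_coe, Units.val_mul, zu, wu,
      Units.val_mk0, map_mul, map_intCast, hwfix _ h.2]
  have hf3' : ∀ h : ↥𝒟, (h : AG) • (zu * wu) ^ p = (zu * wu) ^ p := fun h => by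
    rw [smul_pow', hf3]
  have hf12 : ∀ h : ↥𝒟, (h : AG) • (r₁ ^ m * r₂ ^ (j : ℤ)) ^ p = (r₁ ^ m * r₂ ^ (j : ℤ)) ^ p :=
    fun h => by rw [mul_pow, smul_mul', hzp m hf1, hzp j hf2]
  have hf123 : ∀ h : ↥𝒟, (h : AG) • (r₁ ^ m * r₂ ^ (j : ℤ) * (zu * wu)) ^ p =
      (r₁ ^ m * r₂ ^ (j : ℤ) * (zu * wu)) ^ p := fun h => by
    rw [mul_pow, smul_mul', hf12, hf3']
  have e : r = η * (r₁ ^ m * r₂ ^ (j : ℤ) * (zu * wu)) := by rw [hη, div_mul_cancel]
  have hηfix : ∀ h : ↥𝒟, (h : AG) • η ^ p = η ^ p := fun h => by rw [hηp, smul_one]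
  have hkη : (cycQ p).kum 𝒟 η h = ((cycQ p).ω (h : AG) : ZMod p) * x - x := by
    apply (cycQ p).mu_injective
    rw [Cyc.mu_kum hηfix, (cycQ p).mu_sub, ← (cycQ p).smul_mu, hx]
  rw [hfr, e, kum_mul hηfix hf123, kum_mul hf12 hf3', kum_mul (hzp m hf1) (hzp j hf2),
    kum_zpow hf1, kum_zpow hf2, kum_eq_zero h (hf3 h), add_zero, hkη]
  ring

/-- The same statement with coefficients in a field of characteristic `p`. -/
theorem exists_spanning_pair_omega (hA : A.LiesOverPrime p) (hp2 : p ≠ 2) (k : Type*) [Field k]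
    [CharP k p] [Finite k] :
    ∃ κ₁ κ₂ : ↥𝒟 → k, ∀ f ∈ Z1 (lvQ.comap (Subgroup.subtype 𝒟))
      ((omegaRep p k).comp (Subgroup.subtype 𝒟)), ∃ s t x : k, ∀ h : ↥𝒟,
        f h = s * κ₁ h + t * κ₂ h + (omegaK p k (h : AG) * x - x) := by
  obtain ⟨κ₁, κ₂, hκ⟩ := exists_spanning_pair_cycQ (A := A) hA hp2
  let : Algebra (ZMod p) k := ZMod.algebra k p
  refine ⟨fun h => ZMod.castHom (dvd_refl p) k (κ₁ h), fun h => ZMod.castHom (dvd_refl p) k (κ₂ h),
    fun f hf => ?_⟩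
  let b := Module.finBasis (ZMod p) k
  have hcast : ∀ z : ZMod p, (algebraMap (ZMod p) k) z = ZMod.castHom (dvd_refl p) k z :=
    fun z => congrArg (fun φ : ZMod p →+* k => φ z) (Subsingleton.elim _ _)
  have hcoord : ∀ i, (fun h : ↥𝒟 => b.repr (f h) i) ∈ Z1 (lvQ.comap (Subgroup.subtype 𝒟))
      ((cycQ p).rep.comp (Subgroup.subtype 𝒟)) := fun i => by
    obtain ⟨hfc, hfm⟩ := mem_Z1.1 hf
    refine mem_Z1.2 ⟨hfc.comp fun y => b.repr y i, fun g g' => ?_⟩
    simp only [hfm, map_add, Finsupp.add_apply, MonoidHom.coe_comp, Function.comp_apply,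
      Subgroup.coe_subtype, omegaRep_apply, Cyc.rep_apply, omegaK, ← hcast, ← Algebra.smul_def,
      map_smul, Finsupp.smul_apply, smul_eq_mul]
  choose s t x hstx using fun i => hκ _ (hcoord i)
  refine ⟨∑ i, s i • b i, ∑ i, t i • b i, ∑ i, x i • b i, fun h => ?_⟩
  conv_lhs => rw [← b.sum_repr (f h)]
  simp only [omegaK, ← hcast, Finset.sum_mul, Finset.mul_sum, ← Finset.sum_sub_distrib,
    ← Finset.sum_add_distrib]
  refine Finset.sum_congr rfl fun i _ => ?_
  rw [hstx i h]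
  simp only [Algebra.smul_def, map_add, map_sub, map_mul]
  ring

end Fermat.Agent.TW
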