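import Mathlib.FieldTheory.IntermediateField.Adjoin.Basic
import Mathlib.FieldTheory.Minpoly.IsConjRoot
import Mathlib.RingTheory.Polynomial.Cyclotomic.Roots
import Fermat.Agent.TW.LocalKummer

/-!
# Inertia at `p` surjects onto the mod `p` cyclotomic character

Every non-zero residue modulo `p` is the cyclotomic character of an element of inertia at `p`,
because `1 - ζ` has valuation `v(p) ^ (1/(p-1))`. Used for the shapes of residual representations
at `p`.
-/

noncomputable section

namespace Fermat.Agent.TW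

open Polynomial

local notation "Qbar" => AlgebraicClosure ℚ

variable {p : ℕ} [hpf : Fact p.Prime] {A : ValuationSubring Qbar}

theorem valuation_ratCast (hA : A.LiesOverPrime p) {a : ℚ} (ha : a ≠ 0) :
    ∃ m : ℤ, A.valuation (a : Qbar) = A.valuation (p : Qbar) ^ m := by
  obtain ⟨m, u, -, hu, he⟩ := exists_zpow_mul_unit hpf.out hA (a := (a : Qbar))
    (Rat.cast_ne_zero.2 ha) (fun σ _ => map_ratCast σ a)
  exact ⟨m, by rw [he, map_mul, map_zpow₀, hu, mul_one]⟩

/-- The valuations of the monomials in `1 - ζ` of degree less than `p - 1` are distinct. -/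
theorem valuation_monomial_ne (hA : A.LiesOverPrime p) {η : Qbar}
    (hη : A.valuation η ^ (p - 1) = A.valuation (p : Qbar)) {a b : ℚ} (ha : a ≠ 0) (hb : b ≠ 0)
    {i j : ℕ} (hi : i < p - 1) (hj : j < p - 1) (hij : i ≠ j) :
    A.valuation ((a : Qbar) * η ^ i) ≠ A.valuation ((b : Qbar) * η ^ j) := by
  obtain ⟨m, hm⟩ := valuation_ratCast hA ha
  obtain ⟨n, hn⟩ := valuation_ratCast hA hb
  intro h
  rw [map_mul, map_mul, map_pow, map_pow, hm, hn, ← hη, ← zpow_natCast, ← zpow_natCast,
    ← zpow_natCast, ← zpow_mul, ← zpow_mul] at h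
  have hlt := valuation_prime_lt_one hpf.out hA
  have hv1 : A.valuation η ≠ 1 := fun h1 => by rw [← hη, h1, one_pow] at hlt; exact lt_irrefl _ hlt
  have hv0 : A.valuation η ≠ 0 := fun h0 => by
    rw [h0, zero_pow (by omega)] at hη
    exact (Valuation.ne_zero_iff _).2 (Nat.cast_ne_zero.2 hpf.out.ne_zero) hη.symm
  rw [← zpow_add₀ hv0, ← zpow_add₀ hv0] at h
  have he := zpow_right_injective₀ (zero_lt_iff.2 hv0) hv1 h
  have h1 : (i : ℤ) - j = ((p - 1 : ℕ) : ℤ) * (n - m) := by rw [mul_sub]; linarith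
  rcases eq_or_ne (n - m) 0 with h0 | h0
  · rw [h0, mul_zero] at h1; omega
  · have h2 : ((p - 1 : ℕ) : ℤ) * 1 ≤ ((p - 1 : ℕ) : ℤ) * |n - m| :=
      mul_le_mul_of_nonneg_left (Int.one_le_abs h0) (Int.natCast_nonneg _)
    rw [← Nat.abs_cast (p - 1), ← abs_mul, ← h1, mul_one] at h2
    rw [abs_of_nonneg (Int.natCast_nonneg _)] at h2
    have : |(i : ℤ) - j| < ((p - 1 : ℕ) : ℤ) := abs_sub_lt_iff.2 ⟨by omega, by omega⟩
    omega

/-- Every residue class of the cyclotomic character occurs on inertia at `p`. -/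
theorem exists_inertia_omega (hA : A.LiesOverPrime p) (_hp2 : p ≠ 2) (a : (ZMod p)ˣ) :
    ∃ σ ∈ A.inertiaSubgroupIn ℚ, (cycQ p).ω σ = a := by
  classical
  have hp := hpf.out
  set ζ := zetaP p with hζdef
  have hζ := zetaP_spec (p := p)
  set η : Qbar := 1 - ζ with hηdef
  have hvη : A.valuation η ^ (p - 1) = A.valuation (p : Qbar) :=
    valuation_one_sub_root hp hζ.pow_eq_one (hζ.ne_one hp.one_lt)
  -- an automorphism with the given exponent
  have hζa : IsPrimitiveRoot (ζ ^ (a : ZMod p).val) p := hζ.pow_of_coprime _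
    ((hp.coprime_iff_not_dvd.2 fun h => a.ne_zero (by
      rw [← ZMod.natCast_zmod_val (a : ZMod p)]
      exact (ZMod.natCast_eq_zero_iff _ _).2 h)).symm)
  obtain ⟨g, hg⟩ : ∃ g : Qbar ≃ₐ[ℚ] Qbar, g ζ = ζ ^ (a : ZMod p).val := by
    refine isConjRoot_iff_exists_algEquiv.1 ?_
    show minpoly ℚ (ζ ^ (a : ZMod p).val) = minpoly ℚ ζ
    rw [← cyclotomic_eq_minpoly_rat hζ hp.pos, ← cyclotomic_eq_minpoly_rat hζa hp.pos]
  -- congruence on the integers of `ℚ(ζ)`
  obtain ⟨σ, hσI, hσ⟩ := Gal.exists_mem_inertia_eqOn hp hA (IntermediateField.adjoin ℚ {η}) g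
    fun x hx hxint => by
      have hηint : IsIntegral ℚ η := (isIntegral_one).sub (hζ.isIntegral hp.pos).tower_top
      obtain ⟨r, rfl⟩ : ∃ r : ℚ[X], aeval η r = x := by
        have hx' : x ∈ (IntermediateField.adjoin ℚ {η}).toSubalgebra := hx
        rw [IntermediateField.adjoin_simple_toSubalgebra_of_isAlgebraic hηint.isAlgebraic,
          Algebra.adjoin_singleton_eq_range_aeval] at hx'
        exact hx'
      set Q : ℚ[X] := (cyclotomic p ℚ).comp (1 - X) with hQ
      have hdegX : (1 - X : ℚ[X]).natDegree = 1 := by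
        rw [show (1 - X : ℚ[X]) = -(X - C 1) by simp, natDegree_neg, natDegree_X_sub_C]
      have hQdeg : Q.natDegree = p - 1 := by
        rw [hQ, natDegree_comp, natDegree_cyclotomic, Nat.totient_prime hp, hdegX, mul_one]
      have hQ0 : Q ≠ 0 := fun h => by rw [h, natDegree_zero] at hQdeg; have := hp.two_le; omega
      have hQroot : aeval η Q = 0 := by
        rw [hQ, aeval_comp]
        have : aeval η (1 - X : ℚ[X]) = ζ := by simp [hηdef]
        rw [this, cyclotomic_eq_minpoly_rat hζ hp.pos, minpoly.aeval]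
      set r' := r % Q with hr'
      have hrr : aeval η r = aeval η r' := by
        conv_lhs => rw [← EuclideanDomain.mod_add_div r Q]
        simp [hQroot, hr']
      have hdeg : r'.natDegree < p - 1 := hQdeg ▸ natDegree_mod_lt r (by
        rw [hQdeg]; have := hp.two_le; omega)
      rw [hrr] at hxint ⊢
      have hterm : ∀ i ∈ Finset.range (p - 1),
          A.valuation ((r'.coeff i : Qbar) * η ^ i) ≤ 1 := by
        have hsum : aeval η r' = ∑ i ∈ Finset.range (p - 1), (r'.coeff i : Qbar) * η ^ i := by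
          rw [aeval_eq_sum_range' hdeg]
          exact Finset.sum_congr rfl fun i _ => by rw [Rat.smul_def]
        by_contra! hcon
        obtain ⟨i₀, hi₀, hlt⟩ := hcon
        obtain ⟨i₁, hi₁, hmax⟩ := Finset.exists_max_image (Finset.range (p - 1))
          (fun i => A.valuation ((r'.coeff i : Qbar) * η ^ i)) ⟨i₀, hi₀⟩
        have h1 : 1 < A.valuation ((r'.coeff i₁ : Qbar) * η ^ i₁) := hlt.trans_le (hmax i₀ hi₀)
        have hc1 : r'.coeff i₁ ≠ 0 := fun h => by simp [h] at h1
        have h2 : A.valuation (∑ i ∈ Finset.range (p - 1), (r'.coeff i : Qbar) * η ^ i) =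
            A.valuation ((r'.coeff i₁ : Qbar) * η ^ i₁) := by
          refine A.valuation.map_sum_eq_of_lt hi₁ fun i hi => ?_
          obtain ⟨hi', hne⟩ : i ∈ Finset.range (p - 1) ∧ i ≠ i₁ := by simpa using hi
          rcases eq_or_ne (r'.coeff i) 0 with h0 | h0
          · simp only [h0, Rat.cast_zero, zero_mul, map_zero]
            exact lt_trans zero_lt_one h1
          · exact lt_of_le_of_ne (hmax i hi') (valuation_monomial_ne hA hvη h0 hc1
              (Finset.mem_range.1 hi') (Finset.mem_range.1 hi₁) hne)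
        rw [← hsum] at h2
        have h3 := (A.valuation_le_one_iff _).2 (Gal.mem_of_isIntegral (A := A) hxint)
        rw [h2] at h3
        exact h1.not_ge h3
      have hsum : ∀ z : Qbar,
          aeval z r' = ∑ i ∈ Finset.range (p - 1), (r'.coeff i : Qbar) * z ^ i :=
        fun z => by
          rw [aeval_eq_sum_range' hdeg]
          exact Finset.sum_congr rfl fun i _ => by rw [Rat.smul_def]
      rw [hsum, map_sum, ← Finset.sum_sub_distrib]
      refine sum_mem fun i hi => ?_
      rw [map_mul, map_pow, map_ratCast]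
      rcases eq_or_ne i 0 with rfl | hi0
      · simp
      rcases eq_or_ne (r'.coeff i) 0 with h0 | h0
      · simp [h0]
      have hvg : A.valuation (g η) = A.valuation η := by
        refine (pow_left_inj₀ zero_le zero_le (n := p - 1) (by have := hp.two_le; omega)).1 ?_
        rw [hvη, hηdef, map_sub, map_one, hg,
          valuation_one_sub_root hp hζa.pow_eq_one (hζa.ne_one hp.one_lt)]
      have hlt1 : A.valuation ((r'.coeff i : Qbar) * η ^ i) < 1 := by
        refine lt_of_le_of_ne (hterm i hi) fun h1 => ?_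
        refine valuation_monomial_ne hA hvη h0 (one_ne_zero : (1 : ℚ) ≠ 0) (Finset.mem_range.1 hi)
          (j := 0) (by have := hp.two_le; omega) hi0 ?_
        rw [h1]; simp
      rw [A.mem_nonunits_iff]
      refine (A.valuation.map_sub _ _).trans_lt (max_lt ?_ hlt1)
      rwa [map_mul, map_pow, hvg, ← map_pow, ← map_mul]
  refine ⟨σ, hσI, ?_⟩
  have h1 : σ η = g η := hσ η (IntermediateField.subset_adjoin ℚ _ rfl)
  have h2 : σ ζ = ζ ^ (a : ZMod p).val := by
    rw [hηdef, map_sub, map_sub, map_one, map_one, sub_right_inj, hg] at h1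
    exact h1
  have h3 : ζ ^ ((cycQ p).ω σ : ZMod p).val = ζ ^ (a : ZMod p).val :=
    ((zetaP_spec (p := p)).autToPow_spec ℚ σ).trans h2
  exact Units.ext (ZMod.val_injective p (hζ.pow_inj (ZMod.val_lt _) (ZMod.val_lt _) h3))

end Fermat.Agent.TW
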