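import Mathlib.LinearAlgebra.FiniteDimensional.Lemmas
import Mathlib.RepresentationTheory.Invariants
import Fermat.Agent.TW.LocalKummer

/-!
# The local dimension bound for strictly ordinary classes

In a frame adapted to a strictly ordinary residual representation at a place over `p`, the strictly
ordinary local classes span at most `h⁰ + 1` dimensions of the adjoint cohomology. This is the
local condition at `p` in the Selmer bound for ordinary deformation rings.
-/

noncomputable section

namespace Fermat.Agent.TW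

open Fermat.Agent.PT Fermat.Agent.PT.Lv Matrix Module

section Abstract

variable {k : Type*} [Field k] {G : Type*} [Group G] (L : Lv G) {M : Type*} [AddCommGroup M]
  [Module k M] (ρ : Representation k G M)

/-- Cocycles valued in a line. -/
def lineCocycles (E : M) : Submodule k (G → M) :=
  Z1 L ρ ⊓ Submodule.pi Set.univ fun _ : G => k ∙ E

theorem mem_lineCocycles {E : M} {f : G → M} :
    f ∈ lineCocycles L ρ E ↔ f ∈ Z1 L ρ ∧ ∀ g, f g ∈ k ∙ E := by
  simp [lineCocycles, Submodule.mem_pi]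

variable {L ρ}

/-- If the classes of a character are spanned by two cocycles, those of a line with this
character inside a module with a further almost fixed vector span at most `h⁰ + 1` dimensions. -/
theorem finrank_lineCocycles_le [FiniteDimensional k M] (hρ : Smooth L ρ) {ω : G → k}
    (E H : M) (hE : E ≠ 0)
    (hρE : ∀ g, ρ g E = ω g • E) (hH : ∀ g, ρ g H - H ∈ k ∙ E) (hH' : H ∉ k ∙ E)
    (κ₁ κ₂ : G → k)
    (hκ : ∀ f : G → k, Con1 L f → (∀ g h, f (g * h) = ω g * f h + f g) →
      ∃ s t x : k, ∀ g, f g = s * κ₁ g + t * κ₂ g + (ω g * x - x)) :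
    FiniteDimensional k (classes ρ (lineCocycles L ρ E)) ∧
      finrank k (classes ρ (lineCocycles L ρ E)) ≤ finrank k ρ.invariants + 1 := by
  let Φ : (k × k) →ₗ[k] ((G → M) ⧸ B1 ρ) :=
    { toFun := fun st => (B1 ρ).mkQ (fun g => (st.1 * κ₁ g + st.2 * κ₂ g) • E)
      map_add' := fun a b => by
        rw [← map_add]; congr 1; funext g
        simp only [Prod.fst_add, Prod.snd_add, Pi.add_apply]
        module
      map_smul' := fun c a => by
        rw [RingHom.id_apply, ← map_smul]; congr 1; funext g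
        simp only [Prod.smul_fst, Prod.smul_snd, Pi.smul_apply, smul_eq_mul]
        module }
  have hcoef : ∀ f : G → M, f ∈ lineCocycles L ρ E → ∃ c : G → k, (∀ g, f g = c g • E) ∧
      ∃ s t x : k, ∀ g, c g = s * κ₁ g + t * κ₂ g + (ω g * x - x) := by
    intro f hf
    obtain ⟨hf, hfE⟩ := (mem_lineCocycles L ρ).1 hf
    choose c hc using fun g => Submodule.mem_span_singleton.1 (hfE g)
    obtain ⟨⟨U, hU, hUf⟩, hfm⟩ := mem_Z1.1 hf
    refine ⟨c, fun g => (hc g).symm, hκ c ⟨U, hU, fun g s hs => smul_left_injective k hE ?_⟩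
      fun g h => smul_left_injective k hE ?_⟩
    · beta_reduce; rw [hc, hc, hUf g s hs]
    · beta_reduce
      rw [hc, hfm, ← hc h, ← hc g, map_smul, hρE, smul_smul, ← add_smul, mul_comm (c h)]
  have hle : classes ρ (lineCocycles L ρ E) ≤ LinearMap.range Φ := by
    rintro _ ⟨f, hf, rfl⟩
    obtain ⟨c, hc, s, t, x, hx⟩ := hcoef f hf
    refine ⟨(s, t), ((Submodule.Quotient.eq _).2 ⟨(-x) • E, funext fun g => ?_⟩)⟩
    simp only [d0_apply, Pi.sub_apply, hc, hx, map_smul, hρE]
    module
  have hfin : FiniteDimensional k (classes ρ (lineCocycles L ρ E)) :=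
    Submodule.finiteDimensional_of_le hle
  refine ⟨hfin, (Submodule.finrank_mono hle).trans ?_⟩
  have h2 : finrank k (LinearMap.range Φ) + finrank k (LinearMap.ker Φ) = 2 := by
    rw [LinearMap.finrank_range_add_finrank_ker, finrank_prod, finrank_self]
  -- the boundary of `H`
  have hdH : d0 ρ H ∈ lineCocycles L ρ E := by
    refine (mem_lineCocycles L ρ).2 ⟨mem_Z1.2 ⟨?_, fun g h => ?_⟩, hH⟩
    · obtain ⟨U, hU, hUH⟩ := hρ H
      exact ⟨U, hU, fun g s hs => by simp [d0_apply, map_mul, hUH s hs]⟩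
    · simp [d0_apply, map_mul]
  obtain ⟨c, hc, s, t, x, hx⟩ := hcoef _ hdH
  by_cases hst : (s, t) = (0 : k × k)
  · obtain ⟨rfl, rfl⟩ := Prod.ext_iff.1 hst
    have hinv : H - x • E ∈ ρ.invariants := fun g => by
      have h1 := hc g
      rw [d0_apply, hx g] at h1
      rw [map_sub, map_smul, hρE, sub_eq_iff_eq_add.1 h1]
      simp only [Prod.fst_zero, Prod.snd_zero]
      module
    have hpos : 0 < finrank k ρ.invariants := by
      refine finrank_pos_iff_exists_ne_zero.2 ⟨⟨_, hinv⟩, fun h0 => hH' ?_⟩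
      have h3 : H - x • E = 0 := congrArg Subtype.val h0
      rw [sub_eq_zero.1 h3]
      exact Submodule.smul_mem _ _ (Submodule.mem_span_singleton_self E)
    omega
  · have hker : (s, t) ∈ LinearMap.ker Φ := by
      refine LinearMap.mem_ker.2
          ((Submodule.Quotient.mk_eq_zero _).2 ⟨H - x • E, funext fun g => ?_⟩)
      have h1 := hc g
      rw [d0_apply, hx g] at h1
      rw [d0_apply, map_sub, map_smul, hρE, sub_eq_iff_eq_add.1 h1]
      module
    have hpos : 0 < finrank k (LinearMap.ker Φ) :=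
      finrank_pos_iff_exists_ne_zero.2 ⟨⟨_, hker⟩, fun h0 => hst (congrArg Subtype.val h0)⟩
    omega

end Abstract

section Frame

variable {k : Type*} [Field k] {p : ℕ} [Fact p.Prime] [CharP k p]

/-- A frame adapted to a strictly ordinary representation at a place. -/
structure IsOrdFrame (p : ℕ) [Fact p.Prime] [CharP k p] (A : ValuationSubring (AlgebraicClosure ℚ))
    (rb : AG →* M2 k) (P P' : M2 k) : Prop where
  mul_inv : P * P' = 1
  inv_mul : P' * P = 1
  upper : ∀ σ ∈ A.decompositionSubgroup ℚ, (P' * rb σ * P) 1 0 = 0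
  shape : ∀ σ ∈ A.decompositionSubgroup ℚ,
    (P' * rb σ * P) 0 0 = omegaK p k σ * (P' * rb σ * P) 1 1
  unram : ∀ σ ∈ A.inertiaSubgroupIn ℚ, (P' * rb σ * P) 1 1 = 1

/-- The nilpotent matrix `P (0 1; 0 0) P⁻¹` of a frame. -/
def frameE (P P' : M2 k) : sl2 k :=
  ⟨P * !![0, 1; 0, 0] * P' - trace (P * !![0, 1; 0, 0] * P') • !![1, 0; 0, 0],
    by rw [mem_sl2]; simp [trace_fin_two]⟩

variable {A : ValuationSubring (AlgebraicClosure ℚ)} {rb : AG →* M2 k} {P P' : M2 k}

theorem coe_frameE (h : P' * P = 1) :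
    (frameE P P' : M2 k) = P * !![0, 1; 0, 0] * P' := by
  have : trace (P * !![0, 1; 0, 0] * P') = 0 := by
    rw [trace_mul_cycle, h, one_mul]; simp [trace_fin_two]
  simp [frameE, this]

theorem conj_upper {U U' : M2 k} (hUU' : U * U' = 1) (hU : U 1 0 = 0) :
    U' 1 0 = 0 ∧ U 0 0 * U' 0 0 = 1 ∧ U 1 1 * U' 1 1 = 1 ∧ U 1 1 ≠ 0 := by
  have h10 := congrFun (congrFun hUU' 1) 0
  have h11 := congrFun (congrFun hUU' 1) 1
  have h00 := congrFun (congrFun hUU' 0) 0
  simp [mul_apply, Fin.sum_univ_two, hU] at h10 h11 h00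
  have hne : U 1 1 ≠ 0 := fun h => by simp [h] at h11
  have h10' : U' 1 0 = 0 := h10.resolve_left hne
  exact ⟨h10', by simpa [h10'] using h00, h11, hne⟩

variable (hF : IsOrdFrame p A rb P P')

include hF

theorem frame_conj (σ : AG) (X : M2 k) :
    rb σ * (P * X * P') * rb σ⁻¹ = P * ((P' * rb σ * P) * X * (P' * rb σ⁻¹ * P)) * P' := by
  calc rb σ * (P * X * P') * rb σ⁻¹
      = (P * P') * (rb σ * (P * X * P') * rb σ⁻¹) * (P * P') := by
        rw [hF.mul_inv, one_mul, mul_one]
    _ = _ := by simp only [mul_assoc]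

theorem frame_mul_inv (σ : AG) : (P' * rb σ * P) * (P' * rb σ⁻¹ * P) = 1 := by
  calc (P' * rb σ * P) * (P' * rb σ⁻¹ * P) = P' * rb σ * (P * P') * rb σ⁻¹ * P := by
        simp only [mul_assoc]
    _ = 1 := by rw [hF.mul_inv, mul_one, mul_assoc P', ← map_mul, mul_inv_cancel, map_one,
        mul_one, hF.inv_mul]

theorem adRep_frameE {σ : AG} (hσ : σ ∈ A.decompositionSubgroup ℚ) :
    adRep rb σ (frameE P P') = omegaK p k σ • frameE P P' := by
  ext1
  rw [coe_adRep, Submodule.coe_smul, coe_frameE hF.inv_mul, frame_conj hF]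
  obtain ⟨h10, h00, h11, hne⟩ := conj_upper (frame_mul_inv hF σ) (hF.upper σ hσ)
  have hs := hF.shape σ hσ
  rw [← smul_mul_assoc, ← mul_smul_comm]
  congr 2
  have hU10 := hF.upper σ hσ
  generalize P' * rb σ * P = U at *
  generalize P' * rb σ⁻¹ * P = U' at *
  ext i j
  fin_cases i <;> fin_cases j <;> simp [mul_apply, Fin.sum_univ_two, h10, hU10]
  linear_combination U' 1 1 * hs + omegaK p k σ * h11

/-- The decomposition group moves the diagonal matrix of a frame into the nilpotent line. -/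
theorem adRep_frameH {σ : AG} (hσ : σ ∈ A.decompositionSubgroup ℚ)
    (H : sl2 k) (hH : (H : M2 k) = P * !![1, 0; 0, -1] * P') :
    adRep rb σ H - H ∈ k ∙ frameE P P' := by
  obtain ⟨h10, h00, h11, hne⟩ := conj_upper (frame_mul_inv hF σ) (hF.upper σ hσ)
  refine Submodule.mem_span_singleton.2
    ⟨(P' * rb σ * P) 0 0 * (P' * rb σ⁻¹ * P) 0 1 -
      (P' * rb σ * P) 0 1 * (P' * rb σ⁻¹ * P) 1 1, ?_⟩
  ext1
  rw [Submodule.coe_smul, AddSubgroupClass.coe_sub, coe_adRep, hH, frame_conj hF,
    coe_frameE hF.inv_mul, ← sub_mul, ← mul_sub, ← smul_mul_assoc, ← mul_smul_comm]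
  congr 2
  have hU10 := hF.upper σ hσ
  generalize P' * rb σ * P = U at *
  generalize P' * rb σ⁻¹ * P = U' at *
  ext i j
  fin_cases i <;> fin_cases j <;> simp [mul_apply, Fin.sum_univ_two, h10, hU10]
  · linear_combination -h00
  · ring
  · linear_combination h11

omit hF in
/-- The strictly ordinary local classes at a place. -/
def ordClasses (A : ValuationSubring (AlgebraicClosure ℚ)) (rb : AG →* M2 k) (P P' : M2 k) :
    Submodule k ((A.decompositionSubgroup ℚ → sl2 k) ⧸
      B1 (resRep (adRep rb) (A.decompositionSubgroup ℚ))) :=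
  classes _ (lineCocycles (lvD (A.decompositionSubgroup ℚ))
    (resRep (adRep rb) (A.decompositionSubgroup ℚ)) (frameE P P'))

/-- The strictly ordinary local classes span at most `h⁰ + 1` dimensions. -/
theorem finrank_ordClasses_le [Finite k] (hA : A.LiesOverPrime p) (hp2 : p ≠ 2)
    (hrb : ∃ U ∈ lvQ, ∀ s ∈ U, rb s = 1) :
    FiniteDimensional k (ordClasses A rb P P') ∧
      finrank k (ordClasses A rb P P') ≤
        finrank k (resRep (adRep rb) (A.decompositionSubgroup ℚ)).invariants + 1 := by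
  set D := A.decompositionSubgroup ℚ
  have : Module.Finite k (sl2 k) := Module.Finite.of_injective (sl2 k).subtype Subtype.val_injective
  have htr : (P * !![1, 0; 0, -1] * P') ∈ sl2 k := by
    rw [mem_sl2, ← trace_fin_two, trace_mul_cycle, hF.inv_mul, one_mul]
    simp [trace_fin_two]
  obtain ⟨κ₁, κ₂, hκ⟩ := exists_spanning_pair_omega (A := A) hA hp2 k
  obtain ⟨U, hU, hUrb⟩ := hrb
  have hsm : Smooth (lvD D) (resRep (adRep rb) D) := fun m =>
    ⟨_, Lv.comap_mem_comap _ hU, fun s hs => by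
      change adRep rb (s : AG) m = m
      rw [adRep_eq_one rb (g := (s : AG)) (hUrb _ hs)]
      rfl⟩
  have hcancel : ∀ X Y : M2 k, P * X * P' = P * Y * P' → X = Y := fun X Y h => by
    have e : ∀ Z : M2 k, P' * (P * Z * P') * P = Z := fun Z => by
      calc P' * (P * Z * P') * P = (P' * P) * Z * (P' * P) := by simp only [mul_assoc]
        _ = Z := by rw [hF.inv_mul, one_mul, mul_one]
    rw [← e X, ← e Y, h]
  refine finrank_lineCocycles_le hsm (ω := fun g : D => omegaK p k (g : AG)) (frameE P P')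
    ⟨_, htr⟩ (fun h0 => ?_) (fun g => adRep_frameE hF g.2) (fun g => adRep_frameH hF g.2 _ rfl)
    (fun hmem => ?_) κ₁ κ₂ fun f hf hfm => hκ f (mem_Z1.2 ⟨hf, fun g h => by
      simp [omegaRep_apply, hfm g h]⟩)
  · have h1 : (frameE P P' : M2 k) = 0 := congrArg Subtype.val h0
    rw [coe_frameE hF.inv_mul] at h1
    have h2 := hcancel _ 0 (by rw [h1, mul_zero, zero_mul])
    simpa using congrFun (congrFun h2 0) 1
  · obtain ⟨a, ha⟩ := Submodule.mem_span_singleton.1 hmem
    have h1 : a • (P * !![0, 1; 0, 0] * P') = P * !![1, 0; 0, -1] * P' := by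
      rw [← coe_frameE hF.inv_mul]; exact congrArg Subtype.val ha
    rw [← smul_mul_assoc, ← mul_smul_comm] at h1
    have h2 := congrFun (congrFun (hcancel _ _ h1) 0) 0
    simp at h2

end Frame

end Fermat.Agent.TW
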