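import Mathlib.LinearAlgebra.Matrix.Basis
import Fermat.Prelude.Def_GaloisRep_StrictOrdinary
import Fermat.Agent.TW.InertiaOmega
import Fermat.Agent.TW.OrdBound
import Fermat.Agent.TW.Tangent

/-!
# Tangent classes of strictly ordinary deformations

The residual frame of a strictly ordinary deformation is well defined and the tangent cocycle of
such a deformation restricts to a strictly ordinary local class. Used to bound the generators of
ordinary deformation rings.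
-/

noncomputable section

namespace Fermat.Agent.TW

open Fermat.Agent.PT Fermat.Agent.Gal Matrix Module IsLocalRing

theorem exists_exponent (p : ℕ) [Fact p.Prime] (n : ℕ) (σ : AG) :
    ∃ a : ℕ, ∀ μ : AlgebraicClosure ℚ, μ ^ p ^ n = 1 → σ μ = μ ^ a := by
  have : NeZero (p ^ n) := ⟨pow_ne_zero _ (Fact.out (p := p.Prime)).ne_zero⟩
  obtain ⟨ζ, hζ⟩ := HasEnoughRootsOfUnity.exists_primitiveRoot (AlgebraicClosure ℚ) (p ^ n)
  obtain ⟨a, -, ha⟩ := hζ.eq_pow_of_pow_eq_one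
    (ξ := σ ζ) (by rw [← map_pow, hζ.pow_eq_one, map_one])
  refine ⟨a, fun μ hμ => ?_⟩
  obtain ⟨i, -, rfl⟩ := hζ.eq_pow_of_pow_eq_one hμ
  rw [map_pow, ← ha, pow_right_comm]

theorem cast_exponent {p : ℕ} [Fact p.Prime] (k : Type*) [Field k] [CharP k p] {n : ℕ} (hn : 1 ≤ n)
    {σ : AG} {a : ℕ} (ha : ∀ μ : AlgebraicClosure ℚ, μ ^ p ^ n = 1 → σ μ = μ ^ a) :
    (a : k) = omegaK p k σ := by
  have hζ := zetaP_spec (p := p)
  have h1 : σ (zetaP p) = zetaP p ^ a := ha _ (by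
    obtain ⟨m, rfl⟩ := Nat.exists_eq_add_of_le hn
    rw [pow_add, pow_one, pow_mul, hζ.pow_eq_one, one_pow])
  have h2 : zetaP p ^ ((cycQ p).ω σ : ZMod p).val = zetaP p ^ a :=
    (hζ.autToPow_spec ℚ σ).trans h1
  rw [pow_eq_pow_mod a hζ.pow_eq_one] at h2
  have h3 := hζ.pow_inj (ZMod.val_lt _) (Nat.mod_lt _ (Fact.out (p := p.Prime)).pos) h2
  have h4 : ((cycQ p).ω σ : ZMod p) = (a : ZMod p) := by
    rw [← ZMod.natCast_zmod_val ((cycQ p).ω σ : ZMod p), h3, ZMod.natCast_mod]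
  rw [omegaK, h4, map_natCast]

variable {O : Type} [CommRing O] [IsLocalRing O] {R : Type} [CommRing R] [IsLocalRing R]
  [Algebra O R] [IsLocalHom (algebraMap O R)]
  {ρbar : ResidualGaloisRep (ResidueField O)} {bbar : Basis (Fin 2) (ResidueField O) ρbar.V}
  {hres : Function.Surjective (residue R ∘ algebraMap O R)}
  {ρ : GaloisRepAdic R} {b : Basis (Fin 2) R ρ.V} (hb : Adapted bbar hres ρ b)
  {p : ℕ} [Fact p.Prime] [CharP (ResidueField O) p]
  {A : ValuationSubring (AlgebraicClosure ℚ)} (hA : A.LiesOverPrime p)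
  (hord : ρ.IsStrictOrdinaryAt p)

omit [Fact (Nat.Prime p)] in
include hA hord in
/-- A basis and matrices in which a strictly ordinary deformation is upper triangular. -/
theorem exists_ordMatrix :
    ∃ Q Q' : M2 R, Q * Q' = 1 ∧ Q' * Q = 1 ∧
      (∀ σ ∈ A.decompositionSubgroup ℚ, (Q' * matrixRep b ρ.ρ σ * Q) 1 0 = 0 ∧
        ∀ (n a : ℕ), (∀ μ : AlgebraicClosure ℚ, μ ^ p ^ n = 1 → σ μ = μ ^ a) →
          (Q' * matrixRep b ρ.ρ σ * Q) 0 0 - (a : R) * (Q' * matrixRep b ρ.ρ σ * Q) 1 1 ∈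
            Ideal.span {((p ^ n : ℕ) : R)}) ∧
      (∀ σ ∈ A.inertiaSubgroupIn ℚ, (Q' * matrixRep b ρ.ρ σ * Q) 1 1 = 1) := by
  obtain ⟨L, ⟨bL, rfl⟩, hD, hI, hxz⟩ := hord.2 A hA
  refine ⟨b.toMatrix bL, bL.toMatrix b, b.toMatrix_mul_toMatrix_flip bL,
    bL.toMatrix_mul_toMatrix_flip b, ?_⟩
  have hM : ∀ σ, bL.toMatrix b * matrixRep b ρ.ρ σ * b.toMatrix bL =
      LinearMap.toMatrix bL bL (ρ.ρ σ) := fun σ =>
    basis_toMatrix_mul_linearMap_toMatrix_mul_basis_toMatrix bL b bL b (ρ.ρ σ)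
  have hline : ∀ v ∈ R ∙ bL 0, bL.repr v 1 = 0 := fun v hv => by
    obtain ⟨c, rfl⟩ := Submodule.mem_span_singleton.1 hv
    simp
  refine ⟨fun σ hσ => ?_, fun σ hσ => ?_⟩
  · rw [hM]
    obtain ⟨x, z, hx, hz, hxz'⟩ := hxz σ hσ
    have h0 := hx _ (Submodule.mem_span_singleton_self _)
    have h1 : LinearMap.toMatrix bL bL (ρ.ρ σ) 1 1 = z := by
      have := hline _ (hz (bL 1))
      rw [map_sub, Finsupp.sub_apply, map_smul, Finsupp.smul_apply, Basis.repr_self,
        Finsupp.single_eq_same, smul_eq_mul, mul_one, sub_eq_zero] at this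
      rw [LinearMap.toMatrix_apply]
      exact this
    refine ⟨?_, fun n a ha => ?_⟩
    · simp [LinearMap.toMatrix_apply, h0]
    · rw [h1, LinearMap.toMatrix_apply, h0]
      simpa using hxz' n a ha
  · rw [hM, LinearMap.toMatrix_apply]
    have := hline _ (hI σ hσ (bL 1))
    rw [map_sub, Finsupp.sub_apply, Basis.repr_self, Finsupp.single_eq_same, sub_eq_zero] at this
    exact this

include hb in
theorem map_toRes_mul (Q Q' : M2 R) (σ : AG) :
    (Q' * matrixRep b ρ.ρ σ * Q).map (toRes hres) =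
      Q'.map (toRes hres) * rbar bbar σ * Q.map (toRes hres) := by
  rw [Matrix.map_mul, Matrix.map_mul, hb σ]

include hb in
/-- Reducing upper triangular matrices of a strictly ordinary deformation gives a frame. -/
theorem isOrdFrame_map {Q Q' : M2 R} (h1 : Q * Q' = 1) (h2 : Q' * Q = 1)
    (hD : ∀ σ ∈ A.decompositionSubgroup ℚ, (Q' * matrixRep b ρ.ρ σ * Q) 1 0 = 0 ∧
        ∀ (n a : ℕ), (∀ μ : AlgebraicClosure ℚ, μ ^ p ^ n = 1 → σ μ = μ ^ a) →
          (Q' * matrixRep b ρ.ρ σ * Q) 0 0 - (a : R) * (Q' * matrixRep b ρ.ρ σ * Q) 1 1 ∈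
            Ideal.span {((p ^ n : ℕ) : R)})
    (hI : ∀ σ ∈ A.inertiaSubgroupIn ℚ, (Q' * matrixRep b ρ.ρ σ * Q) 1 1 = 1) :
    IsOrdFrame p A (rbar bbar) (Q.map (toRes hres)) (Q'.map (toRes hres)) := by
  refine ⟨?_, ?_, fun σ hσ => ?_, fun σ hσ => ?_, fun σ hσ => ?_⟩
  · rw [← Matrix.map_mul, h1, Matrix.map_one _ (map_zero _) (map_one _)]
  · rw [← Matrix.map_mul, h2, Matrix.map_one _ (map_zero _) (map_one _)]
  · rw [← map_toRes_mul hb, map_apply, (hD σ hσ).1, map_zero]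
  · obtain ⟨a, ha⟩ := exists_exponent p 1 σ
    have h3 := (hD σ hσ).2 1 a ha
    rw [← map_toRes_mul hb, map_apply, map_apply, ← cast_exponent (ResidueField O) le_rfl ha]
    obtain ⟨y, hy⟩ := Ideal.mem_span_singleton'.1 h3
    have hp0 : toRes hres ((p ^ 1 : ℕ) : R) = 0 := by rw [map_natCast, pow_one, CharP.cast_eq_zero]
    have := congrArg (toRes hres) hy
    rw [map_mul, hp0, mul_zero, map_sub, map_mul, map_natCast, eq_comm, sub_eq_zero] at this
    exact this
  · rw [← map_toRes_mul hb, map_apply, hI σ hσ, map_one]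

include hb hA hord in
/-- The residual frame of a strictly ordinary deformation. -/
theorem exists_ordFrame :
    ∃ P P' : M2 (ResidueField O), IsOrdFrame p A (rbar bbar) P P' := by
  obtain ⟨Q, Q', h1, h2, hD, hI⟩ := exists_ordMatrix (b := b) hA hord
  exact ⟨_, _, isOrdFrame_map hb h1 h2 hD hI⟩

omit hA hord in
/-- Frames with the same unramified quotient have proportional nilpotent matrices. -/
theorem frameE_mem_span_of_unramified {k : Type*} [Field k] [CharP k p] (hA : A.LiesOverPrime p)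
    (hp2 : p ≠ 2) {rb : AG →* M2 k} {P P' Q Q' : M2 k}
    (hF : IsOrdFrame p A rb P P') (h1 : Q * Q' = 1) (h2 : Q' * Q = 1)
    (hu : ∀ σ ∈ A.decompositionSubgroup ℚ, (Q' * rb σ * Q) 1 0 = 0)
    (hI : ∀ σ ∈ A.inertiaSubgroupIn ℚ, (Q' * rb σ * Q) 1 1 = 1) :
    frameE Q Q' ∈ k ∙ frameE P P' := by
  obtain ⟨a, ha⟩ : ∃ a : (ZMod p)ˣ, a ≠ 1 := by
    refine ⟨-1, fun h => hp2 ?_⟩
    have h1 : ((2 : ℕ) : ZMod p) = 0 := by
      have := congrArg Units.val h
      simp at this ⊢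
      linear_combination -this
    exact (Nat.prime_dvd_prime_iff_eq Fact.out Nat.prime_two).1
      ((ZMod.natCast_eq_zero_iff _ _).1 h1)
  obtain ⟨σ, hσ, hσa⟩ := exists_inertia_omega hA hp2 a
  have hσD := (Gal.mem_inertia_iff.1 hσ).1
  have hω : omegaK p k σ ≠ 1 := by
    intro h
    apply ha
    refine Units.ext ((ZMod.castHom (dvd_refl p) k).injective ?_)
    rw [Units.val_one, map_one, ← hσa]
    exact h
  have hdet : ∀ R R' : M2 k, R' * R = 1 → det (R' * rb σ * R) = det (rb σ) := fun R R' h => by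
    rw [det_mul, det_mul, mul_right_comm, ← det_mul, h, det_one, one_mul]
  have h00 : (Q' * rb σ * Q) 0 0 = omegaK p k σ := by
    have e1 := hdet Q Q' h2
    have e2 := hdet P P' hF.inv_mul
    rw [det_fin_two, hu σ hσD, hI σ hσ, mul_zero, sub_zero, mul_one] at e1
    rw [det_fin_two, hF.upper σ hσD, hF.shape σ hσD, hF.unram σ hσ, mul_zero, sub_zero, mul_one,
      mul_one] at e2
    exact e1.trans e2.symm
  have e : P' * rb σ * P * (P' * Q) = P' * Q * (Q' * rb σ * Q) := by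
    calc P' * rb σ * P * (P' * Q) = P' * rb σ * (P * P') * Q := by simp only [mul_assoc]
      _ = P' * (Q * Q') * rb σ * Q := by rw [hF.mul_inv, mul_one, h1, mul_one]
      _ = _ := by simp only [mul_assoc]
  have hT : (P' * Q) * (Q' * P) = 1 := by
    rw [mul_assoc, ← mul_assoc Q, h1, one_mul, hF.inv_mul]
  have h10 := congrFun (congrFun e 1) 0
  rw [mul_apply, mul_apply (M := P' * Q), Fin.sum_univ_two, Fin.sum_univ_two, hF.upper σ hσD,
    hu σ hσD, hF.unram σ hσ, h00] at h10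
  have hT10 : (P' * Q) 1 0 = 0 := by
    have h' : (P' * Q) 1 0 * (omegaK p k σ - 1) = 0 := by linear_combination -h10
    exact (mul_eq_zero.1 h').resolve_right (sub_ne_zero.2 hω)
  obtain ⟨h10', -, -, -⟩ := conj_upper hT hT10
  refine Submodule.mem_span_singleton.2 ⟨(P' * Q) 0 0 * (Q' * P) 1 1, ?_⟩
  ext1
  rw [Submodule.coe_smul, coe_frameE hF.inv_mul, coe_frameE h2]
  have hE : (P' * Q) * !![0, 1; 0, 0] * (Q' * P) =
      ((P' * Q) 0 0 * (Q' * P) 1 1) • !![0, 1; 0, 0] := by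
    generalize P' * Q = T at *
    generalize Q' * P = T' at *
    ext i j
    fin_cases i <;> fin_cases j <;> simp [mul_apply, Fin.sum_univ_two, hT10, h10']
  rw [← smul_mul_assoc, ← mul_smul_comm, ← hE]
  calc P * (P' * Q * !![0, 1; 0, 0] * (Q' * P)) * P'
      = (P * P') * Q * !![0, 1; 0, 0] * Q' * (P * P') := by simp only [mul_assoc]
    _ = Q * !![0, 1; 0, 0] * Q' := by rw [hF.mul_inv, one_mul, mul_one]

omit hA hord in
/-- Frames are unique up to scaling of the nilpotent matrix. -/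
theorem frameE_mem_span {k : Type*} [Field k] [CharP k p] (hA : A.LiesOverPrime p) (hp2 : p ≠ 2)
    {rb : AG →* M2 k} {P P' P₁ P₁' : M2 k} (hF : IsOrdFrame p A rb P P')
    (hF₁ : IsOrdFrame p A rb P₁ P₁') : frameE P₁ P₁' ∈ k ∙ frameE P P' :=
  frameE_mem_span_of_unramified hA hp2 hF hF₁.mul_inv hF₁.inv_mul hF₁.upper hF₁.unram

/-- The product rule for a tangent vector on matrices. -/
theorem map_tangent_mul (δ : tangent hres) (X Y : M2 R) :
    (X * Y).map (δ : R → ResidueField O) = X.map (toRes hres) * Y.map (δ : R → ResidueField O) +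
      X.map (δ : R → ResidueField O) * Y.map (toRes hres) := by
  ext i j
  simp only [map_apply, Matrix.add_apply, mul_apply, Fin.sum_univ_two, δ.2.1, δ.2.2.2]
  ring

variable (hdet : ρ.DetIsCyclotomic p) (hp2 : p ≠ 2)

omit [CharP (ResidueField O) p] in
include hb in
/-- The derivative of the determinant of a triangular matrix of the deformation. -/
theorem tangent_det_of_triangular {Q Q' : M2 R} (h1 : Q * Q' = 1) (h2 : Q' * Q = 1)
    (δ : tangent hres) (hdet : ρ.DetIsCyclotomic p) (σ : AG)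
    (hu : (Q' * matrixRep b ρ.ρ σ * Q) 1 0 = 0) :
    (δ : R → ResidueField O)
        ((Q' * matrixRep b ρ.ρ σ * Q) 0 0 * (Q' * matrixRep b ρ.ρ σ * Q) 1 1) = 0 ∧
      toRes hres ((Q' * matrixRep b ρ.ρ σ * Q) 1 1) ≠ 0 := by
  set d : R → ResidueField O := (δ : R → ResidueField O) with hd
  set M' := Q' * matrixRep b ρ.ρ σ * Q with hM'
  set Q₀ := Q.map (toRes hres) with hQ₀
  set Q₀' := Q'.map (toRes hres) with hQ₀'
  have hm : Q₀ * Q₀' = 1 := by
    rw [← Matrix.map_mul, h1, Matrix.map_one _ (map_zero _) (map_one _)]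
  have hm' : Q₀' * Q₀ = 1 := by
    rw [← Matrix.map_mul, h2, Matrix.map_one _ (map_zero _) (map_one _)]
  have hbase : M'.map (toRes hres) = Q₀' * rbar bbar σ * Q₀ := map_toRes_mul hb Q Q' σ
  have hdet' : d (M' 0 0 * M' 1 1) = 0 := by
    have h4 := det_eq_zero_of_isCyclotomic (b := b) δ.2 hdet σ
    have h5 : det M' = det (matrixRep b ρ.ρ σ) := by
      rw [hM', det_mul, det_mul, mul_comm (det Q'), mul_assoc, ← det_mul, h2, det_one, mul_one]
    rw [← h5, det_fin_two, hu, mul_zero, sub_zero] at h4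
    exact h4
  have hUU : M'.map (toRes hres) * (Q₀' * rbar bbar σ⁻¹ * Q₀) = 1 := by
    rw [hbase]
    calc Q₀' * rbar bbar σ * Q₀ * (Q₀' * rbar bbar σ⁻¹ * Q₀)
        = Q₀' * rbar bbar σ * (Q₀ * Q₀') * rbar bbar σ⁻¹ * Q₀ := by simp only [mul_assoc]
      _ = 1 := by rw [hm, mul_one, mul_assoc Q₀', rbar_mul_inv, mul_one, hm']
  exact ⟨hdet', (conj_upper hUU (by rw [map_apply, hu, map_zero])).2.2.2⟩

include hp2 in
/-- A deformation with triangular matrices whose diagonal is killed by the tangent vector has a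
tangent cocycle which is nilpotent in the frame up to a coboundary. -/
theorem exists_coboundary_of_triangular {Q Q' : M2 R} (h1 : Q * Q' = 1) (h2 : Q' * Q = 1)
    (δ : tangent hres) {D : Subgroup AG} (hu : ∀ σ ∈ D, (Q' * matrixRep b ρ.ρ σ * Q) 1 0 = 0)
    (hdiag : ∀ σ ∈ D, (δ : R → ResidueField O) ((Q' * matrixRep b ρ.ρ σ * Q) 0 0) = 0 ∧
      (δ : R → ResidueField O) ((Q' * matrixRep b ρ.ρ σ * Q) 1 1) = 0)
    {W : Submodule (ResidueField O) (sl2 (ResidueField O))}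
    (hE : frameE (Q.map (toRes hres)) (Q'.map (toRes hres)) ∈ W) :
    ∃ Y : sl2 (ResidueField O), ∀ σ ∈ D,
      tanCocycle hb hdet δ σ - (adRep (rbar bbar) σ Y - Y) ∈ W := by
  set d : R → ResidueField O := (δ : R → ResidueField O) with hd
  set Q₀ := Q.map (toRes hres) with hQ₀
  set Q₀' := Q'.map (toRes hres) with hQ₀'
  have hm : Q₀ * Q₀' = 1 := by
    rw [← Matrix.map_mul, h1, Matrix.map_one _ (map_zero _) (map_one _)]
  have hm' : Q₀' * Q₀ = 1 := by
    rw [← Matrix.map_mul, h2, Matrix.map_one _ (map_zero _) (map_one _)]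
  have hu₀ : ∀ σ ∈ D, (Q₀' * rbar bbar σ * Q₀) 1 0 = 0 := fun σ hσ => by
    rw [← map_toRes_mul hb, map_apply, hu σ hσ, map_zero]
  have hd0 : d 0 = 0 := by have := δ.2.2.1 0; rwa [map_zero] at this
  have hd1 : d 1 = 0 := by have := δ.2.2.1 1; rwa [map_one] at this
  have hdQ : Q₀ * Q'.map d + Q.map d * Q₀' = 0 := by
    rw [← map_tangent_mul, h1]
    ext i j
    rcases eq_or_ne i j with rfl | hij
    · simpa using hd1
    · simpa [hij] using hd0
  set Y := Q.map d * Q₀' with hY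
  have key : ∀ σ ∈ D, ∃ s : ResidueField O,
      (tanCocycle hb hdet δ σ : M2 (ResidueField O)) =
        Y - rbar bbar σ * Y * rbar bbar σ⁻¹ + s • (frameE Q₀ Q₀' : M2 (ResidueField O)) := by
    intro σ hσ
    set M' := Q' * matrixRep b ρ.ρ σ * Q with hM'
    have hu := hu σ hσ
    rw [← hM'] at hu
    have hbase : M'.map (toRes hres) = Q₀' * rbar bbar σ * Q₀ := map_toRes_mul hb Q Q' σ
    obtain ⟨hx, hz⟩ := hdiag σ hσ
    rw [← hM'] at hx hz
    have hM'd : M'.map d = d (M' 0 1) • !![0, 1; 0, 0] := by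
      ext i j
      fin_cases i <;> fin_cases j <;> simp [map_apply, hx, hz, hu, hd0]
    have hMM : matrixRep b ρ.ρ σ = Q * M' * Q' := by
      rw [hM', ← mul_assoc, ← mul_assoc, h1, one_mul, mul_assoc, h1, mul_one]
    have htan : tanMat ρ b d σ = Q.map d * M'.map (toRes hres) * Q₀' +
        Q₀ * M'.map d * Q₀' + Q₀ * M'.map (toRes hres) * Q'.map d := by
      show (matrixRep b ρ.ρ σ).map d = _
      rw [hMM, map_tangent_mul, map_tangent_mul, Matrix.map_mul]
      noncomm_ring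
    have hQ'd : Q'.map d = -(Q₀' * (Q.map d * Q₀')) := by
      calc Q'.map d = Q₀' * (Q₀ * Q'.map d) := by rw [← mul_assoc, hm', one_mul]
        _ = -(Q₀' * (Q.map d * Q₀')) := by rw [eq_neg_of_add_eq_zero_left hdQ, mul_neg]
    set U' := Q₀' * rbar bbar σ⁻¹ * Q₀ with hU'
    have hU'10 : U' 1 0 = 0 := hu₀ σ⁻¹ (inv_mem hσ)
    refine ⟨d (M' 0 1) * U' 1 1, ?_⟩
    rw [coe_tanCocycle, coe_frameE hm', htan, hbase, hM'd, hQ'd, add_mul, add_mul, mul_neg,
      neg_mul]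
    have e1 : Q.map d * (Q₀' * rbar bbar σ * Q₀) * Q₀' * rbar bbar σ⁻¹ = Y := by
      calc Q.map d * (Q₀' * rbar bbar σ * Q₀) * Q₀' * rbar bbar σ⁻¹
          = Q.map d * Q₀' * rbar bbar σ * (Q₀ * Q₀') * rbar bbar σ⁻¹ := by simp only [mul_assoc]
        _ = Y := by rw [hm, mul_one, mul_assoc _ (rbar bbar σ), rbar_mul_inv, mul_one]
    have e3 : Q₀ * (Q₀' * rbar bbar σ * Q₀) * (Q₀' * (Q.map d * Q₀')) * rbar bbar σ⁻¹ =
        rbar bbar σ * Y * rbar bbar σ⁻¹ := by
      calc Q₀ * (Q₀' * rbar bbar σ * Q₀) * (Q₀' * (Q.map d * Q₀')) * rbar bbar σ⁻¹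
          = (Q₀ * Q₀') * rbar bbar σ * (Q₀ * Q₀') * Y * rbar bbar σ⁻¹ := by
            simp only [hY, mul_assoc]
        _ = _ := by rw [hm, one_mul, mul_one]
    have hEU : !![0, 1; 0, 0] * U' = U' 1 1 • !![0, 1; 0, 0] := by
      ext i j
      fin_cases i <;> fin_cases j <;> simp [mul_apply, Fin.sum_univ_two, hU'10]
    have e2 : Q₀ * (d (M' 0 1) • !![0, 1; 0, 0]) * Q₀' * rbar bbar σ⁻¹ =
        (d (M' 0 1) * U' 1 1) • (Q₀ * !![0, 1; 0, 0] * Q₀') := by
      calc Q₀ * (d (M' 0 1) • !![0, 1; 0, 0]) * Q₀' * rbar bbar σ⁻¹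
          = Q₀ * (d (M' 0 1) • !![0, 1; 0, 0]) * Q₀' * rbar bbar σ⁻¹ * (Q₀ * Q₀') := by
            rw [hm, mul_one]
        _ = Q₀ * ((d (M' 0 1) • !![0, 1; 0, 0]) * U') * Q₀' := by simp only [hU', mul_assoc]
        _ = _ := by rw [smul_mul_assoc, hEU, smul_smul, mul_smul_comm, smul_mul_assoc]
    rw [e1, e2, e3]
    abel
  have h2ne : (2 : ResidueField O) ≠ 0 := fun h => hp2 ((Nat.prime_dvd_prime_iff_eq Fact.out
    Nat.prime_two).1 ((CharP.cast_eq_zero_iff (ResidueField O) p 2).1 (by simpa using h)))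
  let Y₀ : sl2 (ResidueField O) :=
    ⟨(trace Y / 2) • 1 - Y, by
      rw [mem_sl2]
      simp [trace_fin_two]
      field_simp
      ring⟩
  refine ⟨Y₀, fun σ hσ => ?_⟩
  obtain ⟨s, hs⟩ := key σ hσ
  convert Submodule.smul_mem _ s hE using 1
  ext1
  rw [AddSubgroupClass.coe_sub, hs, AddSubgroupClass.coe_sub, coe_adRep, Submodule.coe_smul]
  simp only [Y₀]
  rw [mul_sub, sub_mul, mul_smul_comm, mul_one, smul_mul_assoc, rbar_mul_inv]
  abel

omit [CharP (ResidueField O) p] in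
/-- A tangent cocycle nilpotent in the frame up to a coboundary has a strictly ordinary class. -/
theorem mkQ_mem_ordClasses_of_line {P P' : M2 (ResidueField O)} (δ : tangent hres)
    {Y₀ : sl2 (ResidueField O)} (hY₀ : ∀ σ ∈ A.decompositionSubgroup ℚ,
      tanCocycle hb hdet δ σ - (adRep (rbar bbar) σ Y₀ - Y₀) ∈ (ResidueField O) ∙ frameE P P') :
    (B1 (resRep (adRep (rbar bbar)) (A.decompositionSubgroup ℚ))).mkQ
      (fun σ : A.decompositionSubgroup ℚ => tanCocycle hb hdet δ σ) ∈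
        ordClasses A (rbar bbar) P P' := by
  set D := A.decompositionSubgroup ℚ
  refine ⟨fun σ : D => tanCocycle hb hdet δ σ - (adRep (rbar bbar) σ Y₀ - Y₀),
    (mem_lineCocycles _ _).2 ⟨?_, fun σ => hY₀ σ σ.2⟩,
    (Submodule.Quotient.eq _).2 ⟨-Y₀, funext fun σ => ?_⟩⟩
  · have hc : tanCocycle hb hdet δ - d0 (adRep (rbar bbar)) Y₀ ∈ Z1 lvQ (adRep (rbar bbar)) := by
      obtain ⟨U, hU, hU'⟩ := exists_level_matrixRep (b := b) (bbar := bbar) δ
      refine sub_mem (tanCocycle_mem_Z1 hb hdet δ)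
        (mem_Z1.2 ⟨⟨U, hU, fun g s hs => ?_⟩, fun g g' => by simp [d0_apply, map_mul]⟩)
      simp [d0_apply, map_mul, adRep_eq_one _ (g := s) (hU' 1 s hs).2]
    obtain ⟨⟨V, hV, hVc⟩, hcm⟩ := mem_Z1.1 hc
    exact mem_Z1.2 ⟨⟨_, Lv.comap_mem_comap D.subtype hV, fun g s hs => hVc g s hs⟩,
      fun g g' => hcm g g'⟩
  · simp only [d0_apply, Pi.sub_apply, resRep, MonoidHom.coe_comp, Function.comp_apply,
      Subgroup.coe_subtype, map_neg]
    abel

include hA hord hp2 in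
/-- The restriction of a tangent cocycle to the decomposition group is strictly ordinary. -/
theorem tanCocycle_mem_ordClasses {P P' : M2 (ResidueField O)}
    (hF : IsOrdFrame p A (rbar bbar) P P') (δ : tangent hres) :
    (B1 (resRep (adRep (rbar bbar)) (A.decompositionSubgroup ℚ))).mkQ
      (fun σ : A.decompositionSubgroup ℚ => tanCocycle hb hdet δ σ) ∈
        ordClasses A (rbar bbar) P P' := by
  obtain ⟨Q, Q', h1, h2, hD, hI⟩ := exists_ordMatrix (b := b) hA hord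
  set d : R → ResidueField O := (δ : R → ResidueField O) with hd
  suffices hdiag : ∀ σ ∈ A.decompositionSubgroup ℚ,
      d ((Q' * matrixRep b ρ.ρ σ * Q) 0 0) = 0 ∧ d ((Q' * matrixRep b ρ.ρ σ * Q) 1 1) = 0 by
    obtain ⟨Y₀, hY₀⟩ := exists_coboundary_of_triangular hb hdet hp2 h1 h2 δ
      (fun σ hσ => (hD σ hσ).1) hdiag (frameE_mem_span hA hp2 hF (isOrdFrame_map hb h1 h2 hD hI))
    exact mkQ_mem_ordClasses_of_line hb hdet δ hY₀
  intro σ hσ
  set M' := Q' * matrixRep b ρ.ρ σ * Q with hM'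
  obtain ⟨hu, hxa⟩ := hD σ hσ
  rw [← hM'] at hu hxa
  obtain ⟨a, ha⟩ := exists_exponent p 2 σ
  obtain ⟨y, hy⟩ := Ideal.mem_span_singleton'.1 (hxa 2 a ha)
  have hdp : d ((p ^ 2 : ℕ) : R) = 0 := by rw [← map_natCast (algebraMap O R)]; exact δ.2.2.1 _
  have hrp : toRes hres ((p ^ 2 : ℕ) : R) = 0 := by
    rw [map_natCast, Nat.cast_pow, CharP.cast_eq_zero, zero_pow two_ne_zero]
  have hda : d ((a : R)) = 0 := by rw [← map_natCast (algebraMap O R)]; exact δ.2.2.1 _
  have hx : d (M' 0 0) = (a : ResidueField O) * d (M' 1 1) := by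
    have h3 : M' 0 0 = y * ((p ^ 2 : ℕ) : R) + (a : R) * M' 1 1 := by rw [hy, sub_add_cancel]
    rw [h3, hd, δ.2.1, δ.2.2.2, δ.2.2.2, ← hd, hdp, hrp, hda, map_natCast]
    ring
  have hx0 : toRes hres (M' 0 0) = (a : ResidueField O) * toRes hres (M' 1 1) := by
    have := congrArg (toRes hres) hy
    rw [map_mul, hrp, mul_zero, map_sub, map_mul, map_natCast, eq_comm, sub_eq_zero] at this
    exact this
  obtain ⟨hdet', hz0⟩ := tangent_det_of_triangular hb h1 h2 δ hdet σ (hD σ hσ).1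
  rw [← hM'] at hdet' hz0
  have ha0 : (a : ResidueField O) ≠ 0 := by
    rw [cast_exponent (ResidueField O) one_le_two ha]
    exact (map_ne_zero _).2 (Units.ne_zero _)
  have h2ne : (2 : ResidueField O) ≠ 0 := fun h => hp2 ((Nat.prime_dvd_prime_iff_eq Fact.out
    Nat.prime_two).1 ((CharP.cast_eq_zero_iff (ResidueField O) p 2).1 (by simpa using h)))
  have hz : d (M' 1 1) = 0 := by
    rw [δ.2.2.2, ← hd, hx, hx0] at hdet'
    have : (2 * (a : ResidueField O) * toRes hres (M' 1 1)) * d (M' 1 1) = 0 := by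
      linear_combination hdet'
    exact (mul_eq_zero.1 this).resolve_left (mul_ne_zero (mul_ne_zero h2ne ha0) hz0)
  exact ⟨by rw [hx, hz, mul_zero], hz⟩

end Fermat.Agent.TW
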