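import Fermat.Agent.TW.Tangent

/-!
# Injectivity of the cocycle map of a deformation ring

A tangent vector of the universal deformation ring whose cocycle is a coboundary is zero, so a
space of classes containing all tangent classes bounds the number of generators of the ring.
-/

noncomputable section

namespace Fermat.Agent.TW

open Module Fermat.Agent.Gal IsLocalRing TensorProduct Matrix Fermat.Agent.PT DualNumber

/-- The base change of an adic representation to the dual numbers along a tangent vector. -/
def dualRep {O : Type} [CommRing O] [IsLocalRing O] {R : Type} [CommRing R] [IsLocalRing R]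
    [Algebra O R] [IsLocalHom (algebraMap O R)]
    {hres : Function.Surjective (residue R ∘ algebraMap O R)} (ρ : GaloisRepAdic R)
    (δ : tangent hres) : GaloisRepAdic (ResidueField O)[ε] :=
  ρ.baseChangeAlong (dualHom δ : R →+* (ResidueField O)[ε]) (isLocalHom_dualHom δ)

/-- The basis of a base change of an adic representation with mapped matrices. -/
theorem exists_basis_adicBaseChange {A B : Type} [CommRing A] [IsLocalRing A] [CommRing B]
    [IsLocalRing B] (φ : A →+* B) (hφ : IsLocalHom φ) (ρ : GaloisRepAdic A)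
    (b : Basis (Fin 2) A ρ.V) :
    ∃ bc : Basis (Fin 2) B (ρ.baseChangeAlong φ hφ).V, ∀ g,
      matrixRep bc (ρ.baseChangeAlong φ hφ).ρ g = (matrixRep b ρ.ρ g).map φ := by
  let : Algebra A B := φ.toAlgebra
  exact ⟨Algebra.TensorProduct.basis B b,
    matrixRep_baseChange ρ.ρ (ρ.baseChangeAlong φ hφ).ρ (fun _ => rfl) b⟩

variable {O : Type} [CommRing O] [IsDomain O] [IsDiscreteValuationRing O]
  [IsAdicComplete (maximalIdeal O) O]
variable {ρbar : ResidualGaloisRep (ResidueField O)}
  {D : ∀ ⦃A : Type⦄ [CommRing A] [IsLocalRing A] [Algebra O A], GaloisRepAdic A → Prop}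
  (DQ : GaloisRep.DeformationRingData O ρbar D)
  {bbar : Basis (Fin 2) (ResidueField O) ρbar.V} {b : Basis (Fin 2) DQ.R DQ.ρ.V}
  (hb : Adapted bbar DQ.residue_surjective DQ.ρ b)
  {p : ℕ} [Fact p.Prime] (hdet : DQ.ρ.DetIsCyclotomic p)

include hb in
/-- The deformation to the dual numbers of a tangent vector lifts the residual representation. -/
theorem dualRep_residual_isEquiv (δ : tangent DQ.residue_surjective) :
    (dualRep DQ.ρ δ).residual.IsEquiv (ρbar.baseChangeAlong
      (ResidueField.map (algebraMap O (ResidueField O)[ε]))) := by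
  obtain ⟨bd, hbd⟩ := exists_basis_adicBaseChange (dualHom δ : DQ.R →+* (ResidueField O)[ε])
    (isLocalHom_dualHom δ) DQ.ρ b
  obtain ⟨bc, hbc⟩ := exists_basis_baseChangeAlong
    (ResidueField.map (algebraMap O (ResidueField O)[ε])) ρbar bbar
  have h1 := matrixRep_baseChange (dualRep DQ.ρ δ).ρ (dualRep DQ.ρ δ).residual.ρ (fun _ => rfl) bd
  obtain ⟨e, he⟩ := exists_linearEquiv_of_intertwine (dualRep DQ.ρ δ).residual.ρ
    (ρbar.baseChangeAlong (ResidueField.map (algebraMap O (ResidueField O)[ε]))).ρ
    (Algebra.TensorProduct.basis _ bd) bc 1 isUnit_one fun g => by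
      rw [one_mul, mul_one]
      refine (h1 g).trans (Eq.trans ?_ (hbc g).symm)
      ext i j
      have h2 := toRes_entry hb g i j
      simp only [map_apply]
      change algebraMap _ _ (matrixRep bd (DQ.ρ.baseChangeAlong
        (dualHom δ : DQ.R →+* (ResidueField O)[ε]) (isLocalHom_dualHom δ)).ρ g i j) = _
      rw [hbd g, map_apply, ResidueField.algebraMap_eq]
      obtain ⟨a, ha⟩ := residue_surjective (rbar bbar g i j)
      rw [show matrixRep bbar ρbar.ρ g i j = rbar bbar g i j from rfl, ← ha,
        ResidueField.map_residue, ← sub_eq_zero, ← map_sub, residue_eq_zero_iff,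
        mem_maximalIdeal_dualNumber, TrivSqZeroExt.fst_sub, algebraMap_dualNumber_apply,
        TrivSqZeroExt.fst_inl, RingHom.coe_coe, fst_dualHom, h2, ha, sub_self]
  exact ⟨⟨e, he⟩⟩

/-- Tangent vectors with coboundary cocycles are zero. -/
theorem eq_zero_of_tanCocycle_mem_B1 (δ : tangent DQ.residue_surjective)
    (hD : δ ≠ 0 → D (dualRep DQ.ρ δ))
    (h : tanCocycle hb hdet δ ∈ B1 (adRep (rbar bbar))) : δ = 0 := by
  by_contra hδ
  obtain ⟨X, hX⟩ := h
  have hmat : ∀ g, tanMat DQ.ρ b (δ : DQ.R → ResidueField O) g =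
      rbar bbar g * (X : M2 (ResidueField O)) - (X : M2 (ResidueField O)) * rbar bbar g := by
    intro g
    have h1 := congrArg Subtype.val (congrFun hX g)
    rw [coe_tanCocycle, d0_apply, AddSubgroupClass.coe_sub, coe_adRep] at h1
    calc tanMat DQ.ρ b (δ : DQ.R → ResidueField O) g
        = tanMat DQ.ρ b (δ : DQ.R → ResidueField O) g * rbar bbar g⁻¹ * rbar bbar g := by
          rw [mul_assoc, rbar_inv_mul, mul_one]
      _ = _ := by
          rw [← h1, sub_mul, mul_assoc (rbar bbar g * (X : M2 (ResidueField O))) (rbar bbar g⁻¹),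
            rbar_inv_mul, mul_one]
  have : IsNoetherianRing (ResidueField O)[ε] := inferInstance
  obtain ⟨φ, -, huniq⟩ := DQ.universal (ResidueField O)[ε] residue_surjective_dualNumber
    (dualRep DQ.ρ δ) (hD hδ) (dualRep_residual_isEquiv DQ hb δ)
  have e1 : dualHom δ = φ := huniq _ ⟨isLocalHom_dualHom δ, ⟨GaloisRepAdic.Equiv.refl _⟩⟩
  have e2 : dualHom (0 : tangent DQ.residue_surjective) = φ := by
    refine huniq _ ⟨isLocalHom_dualHom 0, ?_⟩
    obtain ⟨b0, hb0⟩ := exists_basis_adicBaseChange
      (dualHom (0 : tangent DQ.residue_surjective) : DQ.R →+* (ResidueField O)[ε])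
      (isLocalHom_dualHom 0) DQ.ρ b
    obtain ⟨bd, hbd⟩ := exists_basis_adicBaseChange (dualHom δ : DQ.R →+* (ResidueField O)[ε])
      (isLocalHom_dualHom δ) DQ.ρ b
    let E : M2 (ResidueField O)[ε] := (X : M2 (ResidueField O)).map TrivSqZeroExt.inr
    have hE : E * E = 0 := by
      ext i j <;> simp [E, mul_apply]
    have hu : IsUnit (1 - E) :=
      ⟨⟨1 - E, 1 + E, by rw [mul_add, sub_mul, sub_mul, one_mul, mul_one, one_mul, hE]; abel,
        by rw [mul_sub, add_mul, add_mul, one_mul, mul_one, one_mul, hE]; abel⟩, rfl⟩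
    obtain ⟨e, he⟩ := exists_linearEquiv_of_intertwine
      (DQ.ρ.baseChangeAlong (dualHom (0 : tangent DQ.residue_surjective) :
        DQ.R →+* (ResidueField O)[ε]) (isLocalHom_dualHom 0)).ρ
      (dualRep DQ.ρ δ).ρ b0 bd (1 - E) hu fun g => by
        rw [hb0]
        change _ = matrixRep bd (DQ.ρ.baseChangeAlong
          (dualHom δ : DQ.R →+* (ResidueField O)[ε]) (isLocalHom_dualHom δ)).ρ g * _
        rw [hbd g, sub_mul, mul_sub, one_mul, mul_one]
        ext i j
        all_goals
          simp only [Matrix.sub_apply, map_apply, mul_apply, Fin.sum_univ_two, E,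
            RingHom.coe_coe, TrivSqZeroExt.fst_sub, TrivSqZeroExt.fst_add, TrivSqZeroExt.fst_mul,
            TrivSqZeroExt.snd_sub, TrivSqZeroExt.snd_add, TrivSqZeroExt.snd_mul, fst_dualHom,
            snd_dualHom, TrivSqZeroExt.fst_inr, TrivSqZeroExt.snd_inr, ZeroMemClass.coe_zero,
            Pi.zero_apply, MulOpposite.smul_eq_mul_unop, MulOpposite.unop_op, smul_eq_mul,
            toRes_entry hb, zero_mul, mul_zero, add_zero, zero_add, sub_zero]
        have h1 := congrFun (congrFun (hmat g) i) j
        simp only [tanMat, map_apply, Matrix.sub_apply, mul_apply, Fin.sum_univ_two] at h1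
        rw [h1]
        ring
    exact ⟨⟨e, he⟩⟩
  exact hδ (dualHom_injective (e1.trans e2.symm))

include hb hdet in
/-- A finite-dimensional space containing all tangent classes bounds the number of generators. -/
theorem exists_surjective_of_classes
    (hD : ∀ δ : tangent DQ.residue_surjective, δ ≠ 0 → D (dualRep DQ.ρ δ))
    (Z : Submodule (ResidueField O) (AG → sl2 (ResidueField O)))
    (hZ : ∀ δ : tangent DQ.residue_surjective, tanCocycle hb hdet δ ∈ Z)
    [FiniteDimensional (ResidueField O) (classes (adRep (rbar bbar)) Z)] {r : ℕ}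
    (hr : finrank (ResidueField O) (classes (adRep (rbar bbar)) Z) ≤ r) :
    ∃ γ : MvPowerSeries (Fin r) O →ₐ[O] DQ.R, Function.Surjective γ := by
  let f : tangent DQ.residue_surjective →ₗ[ResidueField O] classes (adRep (rbar bbar)) Z :=
    LinearMap.codRestrict _ ((B1 (adRep (rbar bbar))).mkQ.comp (tanCocycle hb hdet))
      fun δ => ⟨_, hZ δ, rfl⟩
  have hf : Function.Injective f := by
    refine LinearMap.ker_eq_bot.1 ((Submodule.eq_bot_iff _).2 fun δ hδ => ?_)
    refine eq_zero_of_tanCocycle_mem_B1 DQ hb hdet δ (hD δ) ?_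
    have := congrArg Subtype.val (LinearMap.mem_ker.1 hδ)
    exact (Submodule.Quotient.mk_eq_zero _).1 this
  have := FiniteDimensional.of_injective f hf
  exact exists_surjective_of_finrank_tangent_le DQ.residue_surjective
    ((LinearMap.finrank_le_finrank_of_injective hf).trans hr)

end Fermat.Agent.TW
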