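import Fermat.Agent.TW.GW.Main
import Fermat.Agent.TW.Minimal
import Fermat.Agent.TW.OrdTangent
import Fermat.Agent.TW.TangentInj

/-!
# Tangent cocycles lie in the Selmer space of the local conditions

A tangent cocycle of a deformation is unramified wherever the deformation is unramified, or
unipotent while the residual representation ramifies. Hence the Selmer bound bounds the tangent
space of the deformation ring.
-/

noncomputable section

namespace Fermat.Agent.TW

open Fermat.Agent.PT Fermat.Agent.Gal Matrix Module IsLocalRing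

open scoped Pointwise

section Generic

variable {k : Type} [Field k] {M : Type} [AddCommGroup M] [Module k M]
  (ρ : Representation k AG M)

/-- The cochains whose classes on a subgroup lie in a given space. -/
def condAt {D : Subgroup AG} (L : Submodule k ((D → M) ⧸ B1 (resRep ρ D))) :
    Submodule k (AG → M) :=
  L.comap ((B1 (resRep ρ D)).mkQ ∘ₗ resFn D)

theorem locSpace_condAt_le (r : Nat.Primes)
    (L : Submodule k ((decQ (r : ℕ) → M) ⧸ B1 (resRep ρ (decQ (r : ℕ))))) :
    locSpace ρ (fun _ => condAt ρ L) r ≤ L := by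
  rintro _ ⟨_, ⟨x, ⟨-, hxC⟩, rfl⟩, rfl⟩
  exact hxC

variable {ρ}

end Generic

theorem trace_det_of_charpoly {R V : Type*} [CommRing R] [Nontrivial R] [AddCommGroup V]
    [Module R V] (b : Basis (Fin 2) R V) {f : Module.End R V} [Module.Free R V]
    [Module.Finite R V] (h : LinearMap.charpoly f = (Polynomial.X - 1) ^ 2) :
    LinearMap.toMatrixAlgEquiv b f 0 0 + LinearMap.toMatrixAlgEquiv b f 1 1 = 2 ∧
      det (LinearMap.toMatrixAlgEquiv b f) = 1 := by
  have e : (LinearMap.toMatrixAlgEquiv b f).charpoly = (Polynomial.X - 1) ^ 2 := by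
    rw [← h]; exact LinearMap.charpoly_toMatrix f b
  rw [Matrix.charpoly_fin_two, trace_fin_two] at e
  have c0 := congrArg (Polynomial.eval (0 : R)) e
  have c1 := congrArg (Polynomial.eval (1 : R)) e
  simp at c0 c1
  exact ⟨by linear_combination c0 - c1, c0⟩

variable {O : Type} [CommRing O] [IsLocalRing O] {R : Type} [CommRing R] [IsLocalRing R]
  [Algebra O R] [IsLocalHom (algebraMap O R)]
  {ρbar : ResidualGaloisRep (ResidueField O)} {bbar : Basis (Fin 2) (ResidueField O) ρbar.V}
  {hres : Function.Surjective (residue R ∘ algebraMap O R)}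
  {ρ : GaloisRepAdic R} {b : Basis (Fin 2) R ρ.V} (hb : Adapted bbar hres ρ b)
  {p : ℕ} [Fact p.Prime] [CharP (ResidueField O) p] (hdet : ρ.DetIsCyclotomic p)

/-- A tangent cocycle is unramified where the deformation is unramified, or unipotent while the
residual representation ramifies. -/
theorem tanCocycle_mem_selCocycles (hp2 : p ≠ 2) {U : Finset ℕ} (hpU : p ∈ U)
    (hU : ∀ q : ℕ, q.Prime → q ∉ U →
      ρ.IsUnramifiedAt q ∨ (ρ.IsUnipotentOnInertiaAt q ∧ ¬ ρbar.IsUnramifiedAt q))
    (δ : tangent hres) :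
    tanCocycle hb hdet δ ∈ selCocycles (adRep (rbar bbar)) U := by
  refine ⟨tanCocycle_mem_Z1 hb hdet δ, (mem_unrOutside _).2 fun q hq hqU P hP => ?_⟩
  have hδn : ∀ n : ℕ, (δ : R → ResidueField O) (n : R) = 0 := fun n => by
    rw [← map_natCast (algebraMap O R) n]; exact δ.2.2.1 _
  rcases hU q hq hqU with hunr | ⟨hun, hram⟩
  · refine ⟨0, fun σ hσ => ?_⟩
    rw [map_zero, sub_zero]
    refine Subtype.ext ?_
    have h1 : matrixRep b ρ.ρ σ = 1 := by
      show LinearMap.toMatrixAlgEquiv b (ρ.ρ σ) = 1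
      rw [hunr P hP σ hσ, map_one]
    have h0 : tanMat ρ b (δ : R → ResidueField O) σ = 0 := by
      ext i j
      rw [tanMat, h1, map_apply, Matrix.zero_apply, one_apply]
      split_ifs
      · simpa using hδn 1
      · simpa using hδn 0
    rw [coe_tanCocycle, h0, zero_mul, ZeroMemClass.coe_zero]
  · obtain ⟨P₀, hP₀, σ₀, hσ₀, hne⟩ : ∃ P₀ : ValuationSubring (AlgebraicClosure ℚ),
        P₀.LiesOverPrime q ∧ ∃ σ₀ ∈ P₀.inertiaSubgroupIn ℚ, ρbar.ρ σ₀ ≠ 1 := by
      simpa [ResidualGaloisRep.IsUnramifiedAt] using hram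
    refine locB1_inertia_of_place hq (tanCocycle_mem_Z1 hb hdet δ) hP₀ hP ?_
    obtain ⟨L, hL, hLrb⟩ := ρbar.factorsThroughFiniteLevel
    have hchar : ∀ σ ∈ P₀.inertiaSubgroupIn ℚ,
        matrixRep b ρ.ρ σ 0 0 + matrixRep b ρ.ρ σ 1 1 = 2 ∧ det (matrixRep b ρ.ρ σ) = 1 :=
      fun σ hσ => trace_det_of_charpoly b (hun P₀ hP₀ σ hσ)
    refine mem_locB1_inertia_of_unipotent (p := p) hq Fact.out (fun h => hqU (h ▸ hpU)) hp2 hP₀
      (rbar bbar) (fixingSubgroup_mem_krull L) (fun s hs => ?_) (tanCocycle_mem_Z1 hb hdet δ)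
      (fun σ hσ => ?_) (fun σ hσ => ?_) (fun σ hσ => ?_) ⟨σ₀, hσ₀, fun h => hne ?_⟩
    · show LinearMap.toMatrixAlgEquiv bbar (ρbar.ρ s) = 1
      rw [hLrb s ((IntermediateField.mem_fixingSubgroup_iff _ _).1 hs), map_one]
    · rw [trace_fin_two, ← toRes_entry hb, ← toRes_entry hb, ← map_add, (hchar σ hσ).1, map_ofNat]
    · rw [det_fin_two, ← toRes_entry hb, ← toRes_entry hb, ← toRes_entry hb, ← toRes_entry hb,
        ← map_mul, ← map_mul, ← map_sub, ← det_fin_two, (hchar σ hσ).2, map_one]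
    · rw [coe_tanCocycle, mul_assoc, rbar_inv_mul, mul_one, trace_fin_two, tanMat, map_apply,
        map_apply, ← δ.2.1, (hchar σ hσ).1]
      simpa using hδn 2
    · exact (LinearMap.toMatrixAlgEquiv bbar).injective (h.trans (map_one _).symm)

end Fermat.Agent.TW
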