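import Fermat.Prelude.Def_GaloisRep_DeformationRingData
import Fermat.Prelude.Def_GaloisRep_Flat
import Fermat.Agent.TW.BaseChange
import Fermat.Agent.TW.GW.Bound
import Fermat.Agent.TW.Residual
import Fermat.Agent.TW.SelTangent

/-!
# Taylor–Wiles primes and generators of the deformation rings

Auxiliary primes, in number independent of the level, for which the deformation rings with strictly
ordinary (or flat, given the local bound) condition at `p` need at most as many generators as there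
are auxiliary primes. This is the Galois-side input of the patching argument.
-/

noncomputable section

namespace Fermat.Agent.TW

open Fermat.Agent.PT Fermat.Agent.Gal Matrix Module IsLocalRing DualNumber

section Primes

variable {k : Type} [Field k] [Finite k] {p : ℕ} [Fact p.Prime] [Algebra (ZMod p) k] [CharP k p]
  {ρbar : ResidualGaloisRep k} (bbar : Basis (Fin 2) k ρbar.V)

/-- Auxiliary primes, in number independent of the level, bounding the classes with a small
condition at `p`. -/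
theorem exists_taylorWilesPrimes (hEuler : EulerFormula p) (hp2 : p ≠ 2)
    (habs : ρbar.IsAbsolutelyIrreducible)
    (hdet : DetCyc p (matrixRep bbar ρbar.ρ))
    (hsplit : ∀ σ : AG, ∃ α β : k,
      LinearMap.charpoly (ρbar.ρ σ) = (Polynomial.X - Polynomial.C α) *
          (Polynomial.X - Polynomial.C β))
    (hTW : ∀ (K : Type) [Field K] [Algebra k K] (G : Subgroup AG), G.index = 2 →
      ∀ V : Submodule K (ρbar.baseChange K).V,
        (∀ σ ∈ G, ∀ x ∈ V, (ρbar.baseChange K).ρ σ x ∈ V) → V = ⊥ ∨ V = ⊤)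
    (L : Submodule k ((decQ ((pP p : Nat.Primes) : ℕ) → sl2 k) ⧸
      B1 (resRep (adRep (matrixRep bbar ρbar.ρ)) (decQ ((pP p : Nat.Primes) : ℕ)))))
    (hLfin : FiniteDimensional k L)
    (hL : finrank k L ≤ finrank k (Representation.invariants
      (resRep (adRep (matrixRep bbar ρbar.ρ)) (decQ ((pP p : Nat.Primes) : ℕ)))) + 1)
    (S : Finset ℕ) :
    ∃ r : ℕ, ∀ n : ℕ, ∃ qv : Fin r → ℕ, Function.Injective qv ∧
      (∀ i, (qv i).Prime ∧ qv i ∉ S ∧ p ^ (n + 1) ∣ qv i - 1) ∧
      (∀ i, ∀ P : ValuationSubring (AlgebraicClosure ℚ), P.LiesOverPrime (qv i) →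
        ∀ φ : AG, P.IsFrobeniusAt φ (qv i) →
          ∃ α β : k, α ≠ β ∧ LinearMap.charpoly (ρbar.ρ φ) =
            (Polynomial.X - Polynomial.C α) * (Polynomial.X - Polynomial.C β)) ∧
      FiniteDimensional k (classes (adRep (matrixRep bbar ρbar.ρ))
        (selCocycles (adRep (matrixRep bbar ρbar.ρ)) (insert p (Finset.univ.image qv)) ⊓
          condAt (adRep (matrixRep bbar ρbar.ρ)) L)) ∧
      finrank k (classes (adRep (matrixRep bbar ρbar.ρ))
        (selCocycles (adRep (matrixRep bbar ρbar.ρ)) (insert p (Finset.univ.image qv)) ⊓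
          condAt (adRep (matrixRep bbar ρbar.ρ)) L)) ≤ r := by
  have hle := locSpace_condAt_le (adRep (matrixRep bbar ρbar.ρ)) (pP p) L
  obtain ⟨D, hD⟩ := exists_auxiliary_primes hEuler hp2 (bigImage_of_hyps bbar habs hTW)
    (finiteLevel_matrixRep bbar) hdet (exists_nonsquare_det hp2 hdet)
    (condAt (adRep (matrixRep bbar ρbar.ρ)) L) (Submodule.finiteDimensional_of_le hle)
    ((Submodule.finrank_mono hle).trans hL)
  refine ⟨D, fun n => ?_⟩
  have : NeZero (p ^ (n + 1)) := ⟨pow_ne_zero _ (Fact.out : p.Prime).ne_zero⟩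
  obtain ⟨qv, hinj, hq, hfin, hbound⟩ := hD (p ^ (n + 1)) (dvd_pow_self p n.succ_ne_zero) S
  exact ⟨qv, hinj, fun i => ⟨(hq i).2.1, (hq i).1, (hq i).2.2.1⟩,
    fun i P hP φ hφ => exists_ne_roots bbar hsplit ((hq i).2.2.2.2 P hP φ hφ), hfin, hbound⟩

end Primes

section Generators

variable {O : Type} [CommRing O] [IsDomain O] [IsDiscreteValuationRing O]
  [IsAdicComplete (maximalIdeal O) O] {p : ℕ} [Fact p.Prime] [CharP (ResidueField O) p]
  {ρbar : ResidualGaloisRep (ResidueField O)}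
  {D : ∀ ⦃A : Type⦄ [CommRing A] [IsLocalRing A] [Algebra O A], GaloisRepAdic A → Prop}
  (DQ : GaloisRep.DeformationRingData O ρbar D)
  {bbar : Basis (Fin 2) (ResidueField O) ρbar.V}

/-- Classes bounding the tangent classes bound the generators of a deformation ring. -/
theorem exists_surjective_of_local (hp2 : p ≠ 2)
    {L : Submodule (ResidueField O) ((decQ ((pP p : Nat.Primes) : ℕ) → sl2 (ResidueField O)) ⧸
      B1 (resRep (adRep (rbar bbar)) (decQ ((pP p : Nat.Primes) : ℕ))))}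
    {b : Basis (Fin 2) DQ.R DQ.ρ.V} (hb : Adapted bbar DQ.residue_surjective DQ.ρ b)
    (hdet : DQ.ρ.DetIsCyclotomic p) (U : Finset ℕ) (hpU : p ∈ U)
    (hU : ∀ q : ℕ, q.Prime → q ∉ U →
      DQ.ρ.IsUnramifiedAt q ∨ (DQ.ρ.IsUnipotentOnInertiaAt q ∧ ¬ ρbar.IsUnramifiedAt q))
    (hD : ∀ δ : tangent DQ.residue_surjective, δ ≠ 0 → D (dualRep DQ.ρ δ))
    (hloc : ∀ δ, tanCocycle hb hdet δ ∈ condAt (adRep (rbar bbar)) L) {r : ℕ}
    (hfin : FiniteDimensional (ResidueField O) (classes (adRep (rbar bbar))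
      (selCocycles (adRep (rbar bbar)) U ⊓ condAt (adRep (rbar bbar)) L)))
    (hr : finrank (ResidueField O) (classes (adRep (rbar bbar))
      (selCocycles (adRep (rbar bbar)) U ⊓ condAt (adRep (rbar bbar)) L)) ≤ r) :
    ∃ γ : MvPowerSeries (Fin r) O →ₐ[O] DQ.R, Function.Surjective γ :=
  exists_surjective_of_classes DQ hb hdet hD
    (selCocycles (adRep (rbar bbar)) U ⊓ condAt (adRep (rbar bbar)) L)
    (fun δ => ⟨tanCocycle_mem_selCocycles hb hdet hp2 hpU hU δ, hloc δ⟩) hr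

variable (Smin : Finset ℕ)

omit [IsAdicComplete (maximalIdeal O) O] [Fact p.Prime] [CharP (ResidueField O) p] in
/-- Outside `p` and the auxiliary primes a deformation is unramified or unipotent with residual
ramification. -/
theorem unramified_or_unipotent {A : Type} [CommRing A] [IsLocalRing A] {ρ : GaloisRepAdic A}
    (hmin : ∀ q : ℕ, q.Prime → q ≠ p → (q ∈ Smin ↔ ¬ ρbar.IsUnramifiedAt q))
    {r : ℕ} {qv : Fin r → ℕ}
    (hunr : ∀ q : ℕ, q.Prime → q ∉ Smin ∪ Finset.univ.image qv → ρ.IsUnramifiedAt q)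
    (hun : ∀ q ∈ Smin, q.Prime → q ≠ p → ρ.IsUnipotentOnInertiaAt q) :
    ∀ q : ℕ, q.Prime → q ∉ insert p (Finset.univ.image qv) →
      ρ.IsUnramifiedAt q ∨ (ρ.IsUnipotentOnInertiaAt q ∧ ¬ ρbar.IsUnramifiedAt q) := by
  intro q hq hqU
  rw [Finset.mem_insert, not_or] at hqU
  by_cases hS : q ∈ Smin
  · exact Or.inr ⟨hun q hS hq hqU.1, (hmin q hq hqU.1).1 hS⟩
  · exact Or.inl (hunr q hq (by simp [hS, hqU.2]))

end Generators

variable {O : Type} [CommRing O] [IsDomain O] [IsDiscreteValuationRing O]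
  [IsAdicComplete (maximalIdeal O) O] [Finite (ResidueField O)] {p : ℕ} [Fact p.Prime]
  [CharP (ResidueField O) p] [Algebra (ZMod p) (ResidueField O)]
  {ρbar : ResidualGaloisRep (ResidueField O)} (bbar : Basis (Fin 2) (ResidueField O) ρbar.V)

omit [Algebra (ZMod p) (ResidueField O)] [IsAdicComplete (maximalIdeal O) O] in
/-- A space of local classes containing those of all strictly ordinary deformations. -/
theorem exists_ordLocal (hp2 : p ≠ 2) :
    ∃ L : Submodule (ResidueField O) ((decQ ((pP p : Nat.Primes) : ℕ) → sl2 (ResidueField O)) ⧸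
      B1 (resRep (adRep (rbar bbar)) (decQ ((pP p : Nat.Primes) : ℕ)))),
      FiniteDimensional (ResidueField O) L ∧
      finrank (ResidueField O) L ≤ finrank (ResidueField O) (Representation.invariants
        (resRep (adRep (rbar bbar)) (decQ ((pP p : Nat.Primes) : ℕ)))) + 1 ∧
      ∀ {R : Type} [CommRing R] [IsLocalRing R] [Algebra O R] [IsLocalHom (algebraMap O R)]
        {hres : Function.Surjective (residue R ∘ algebraMap O R)} {ρ : GaloisRepAdic R}
        {b : Basis (Fin 2) R ρ.V} (hb : Adapted bbar hres ρ b) (hdet : ρ.DetIsCyclotomic p),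
        ρ.IsStrictOrdinaryAt p → ∀ δ : tangent hres,
          tanCocycle hb hdet δ ∈ condAt (adRep (rbar bbar)) L := by
  have hA : (padicPlace p).LiesOverPrime p := padicPlace_liesOverPrime
  by_cases hF : ∃ P P', IsOrdFrame p (padicPlace p) (rbar bbar) P P'
  · obtain ⟨P, P', hF⟩ := hF
    obtain ⟨L₀, hL₀, hL₀rb⟩ := ρbar.factorsThroughFiniteLevel
    obtain ⟨hfin, hle⟩ := finrank_ordClasses_le hF hA hp2 ⟨_, fixingSubgroup_mem_krull L₀,
      fun s hs => by
        show LinearMap.toMatrixAlgEquiv bbar (ρbar.ρ s) = 1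
        rw [hL₀rb s ((IntermediateField.mem_fixingSubgroup_iff _ _).1 hs), map_one]⟩
    refine ⟨ordClasses (padicPlace p) (rbar bbar) P P', hfin, hle, ?_⟩
    intro R _ _ _ _ hres ρ b hb hdet hord δ
    exact tanCocycle_mem_ordClasses hb hA hord hdet hp2 hF δ
  · refine ⟨⊥, Module.Finite.bot _ _, by rw [finrank_bot]; exact Nat.zero_le _, ?_⟩
    intro R _ _ _ _ hres ρ b hb hdet hord δ
    exact absurd (exists_ordFrame hb hA hord) hF

/-- For suitable auxiliary primes, strictly ordinary deformation rings need at most as many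
generators as there are auxiliary primes. -/
theorem strictOrdinary_generators (hEuler : EulerFormula p) (hp2 : p ≠ 2)
    (habs : ρbar.IsAbsolutelyIrreducible) (hdet : DetCyc p (rbar bbar))
    (hsplit : ∀ σ : AG, ∃ α β : ResidueField O,
      LinearMap.charpoly (ρbar.ρ σ) = (Polynomial.X - Polynomial.C α) *
          (Polynomial.X - Polynomial.C β))
    (hTW : ∀ (K : Type) [Field K] [Algebra (ResidueField O) K] (G : Subgroup AG), G.index = 2 →
      ∀ V : Submodule K (ρbar.baseChange K).V,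
        (∀ σ ∈ G, ∀ x ∈ V, (ρbar.baseChange K).ρ σ x ∈ V) → V = ⊥ ∨ V = ⊤)
    (S Smin : Finset ℕ)
    (hmin : ∀ q : ℕ, q.Prime → q ≠ p → (q ∈ Smin ↔ ¬ ρbar.IsUnramifiedAt q)) :
    ∃ r : ℕ, ∀ n : ℕ, ∃ qv : Fin r → ℕ, Function.Injective qv ∧
      (∀ i, (qv i).Prime ∧ qv i ∉ S ∧ p ^ (n + 1) ∣ qv i - 1) ∧
      (∀ i, ∀ P : ValuationSubring (AlgebraicClosure ℚ), P.LiesOverPrime (qv i) →
        ∀ φ : AG, P.IsFrobeniusAt φ (qv i) →
          ∃ α β : ResidueField O, α ≠ β ∧ LinearMap.charpoly (ρbar.ρ φ) =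
            (Polynomial.X - Polynomial.C α) * (Polynomial.X - Polynomial.C β)) ∧
      ∀ DQ : GaloisRep.DeformationRingData O ρbar (fun _A _ _ _ ρ =>
          GaloisRep.strictOrdinaryCondition O p (Smin ∪ Finset.univ.image qv) ρ ∧
            ∀ q ∈ Smin, q.Prime → q ≠ p → ρ.IsUnipotentOnInertiaAt q),
        ∃ γ : MvPowerSeries (Fin r) O →ₐ[O] DQ.R, Function.Surjective γ := by
  obtain ⟨L, hLfin, hL, hloc⟩ := exists_ordLocal (p := p) bbar hp2
  obtain ⟨r, hr⟩ := exists_taylorWilesPrimes bbar hEuler hp2 habs hdet hsplit hTW L hLfin hL S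
  refine ⟨r, fun n => ?_⟩
  obtain ⟨qv, hinj, hq, hfrob, hfin, hbound⟩ := hr n
  refine ⟨qv, hinj, hq, hfrob, fun DQ => ?_⟩
  obtain ⟨b, hb⟩ := exists_adapted bbar DQ.residue_surjective DQ.ρ DQ.residual_isEquiv
  obtain ⟨⟨hdet', hord, hunr⟩, hun⟩ := DQ.isOfType
  exact exists_surjective_of_local DQ hp2 hb hdet' _ (Finset.mem_insert_self _ _)
    (unramified_or_unipotent Smin hmin hunr hun)
    (fun δ _ => ⟨⟨detIsCyclotomic_baseChange _ hdet', isStrictOrdinaryAt_baseChange _ hord,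
      fun q hq hqS => isUnramifiedAt_baseChange _ (hunr q hq hqS)⟩,
      fun q h1 h2 h3 => isUnipotentOnInertiaAt_baseChange _ (hun q h1 h2 h3)⟩)
    (fun δ => hloc hb hdet' hord δ) hfin hbound

variable (p) in
/-- The local bound at `p` for flat deformations to the dual numbers. -/
def FlatLocalBound : Prop :=
  ∃ L : Submodule (ResidueField O) ((decQ ((pP p : Nat.Primes) : ℕ) → sl2 (ResidueField O)) ⧸
      B1 (resRep (adRep (rbar bbar)) (decQ ((pP p : Nat.Primes) : ℕ)))),
    FiniteDimensional (ResidueField O) L ∧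
    finrank (ResidueField O) L ≤ finrank (ResidueField O) (Representation.invariants
      (resRep (adRep (rbar bbar)) (decQ ((pP p : Nat.Primes) : ℕ)))) + 1 ∧
    ∀ c ∈ Z1 lvQ (adRep (rbar bbar)),
      (∃ (ρ' : GaloisRepAdic (ResidueField O)[ε]) (b' : Basis (Fin 2) (ResidueField O)[ε] ρ'.V),
        ρ'.IsFlatAt p ∧ ∀ g, matrixRep b' ρ'.ρ g = (rbar bbar g).map TrivSqZeroExt.inl +
          ((c g : M2 (ResidueField O)) * rbar bbar g).map TrivSqZeroExt.inr) →
      c ∈ condAt (adRep (rbar bbar)) L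

/-- Given the local bound at `p`, the same holds for flat deformation rings. -/
theorem flat_generators (hEuler : EulerFormula p) (hflatLocal : FlatLocalBound p bbar) (hp2 : p ≠ 2)
    (habs : ρbar.IsAbsolutelyIrreducible) (hdet : DetCyc p (rbar bbar))
    (hsplit : ∀ σ : AG, ∃ α β : ResidueField O,
      LinearMap.charpoly (ρbar.ρ σ) = (Polynomial.X - Polynomial.C α) *
          (Polynomial.X - Polynomial.C β))
    (hTW : ∀ (K : Type) [Field K] [Algebra (ResidueField O) K] (G : Subgroup AG), G.index = 2 →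
      ∀ V : Submodule K (ρbar.baseChange K).V,
        (∀ σ ∈ G, ∀ x ∈ V, (ρbar.baseChange K).ρ σ x ∈ V) → V = ⊥ ∨ V = ⊤)
    (S Smin : Finset ℕ)
    (hmin : ∀ q : ℕ, q.Prime → q ≠ p → (q ∈ Smin ↔ ¬ ρbar.IsUnramifiedAt q)) :
    ∃ r : ℕ, ∀ n : ℕ, ∃ qv : Fin r → ℕ, Function.Injective qv ∧
      (∀ i, (qv i).Prime ∧ qv i ∉ S ∧ p ^ (n + 1) ∣ qv i - 1) ∧
      (∀ i, ∀ P : ValuationSubring (AlgebraicClosure ℚ), P.LiesOverPrime (qv i) →
        ∀ φ : AG, P.IsFrobeniusAt φ (qv i) →
          ∃ α β : ResidueField O, α ≠ β ∧ LinearMap.charpoly (ρbar.ρ φ) =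
            (Polynomial.X - Polynomial.C α) * (Polynomial.X - Polynomial.C β)) ∧
      ∀ DQ : GaloisRep.DeformationRingData O ρbar (fun _A _ _ _ ρ =>
          GaloisRep.flatCondition O p (Smin ∪ Finset.univ.image qv) ρ ∧
            ∀ q ∈ Smin, q.Prime → q ≠ p → ρ.IsUnipotentOnInertiaAt q),
        ∃ γ : MvPowerSeries (Fin r) O →ₐ[O] DQ.R, Function.Surjective γ := by
  obtain ⟨L, hLfin, hL, hloc⟩ := hflatLocal
  obtain ⟨r, hr⟩ := exists_taylorWilesPrimes bbar hEuler hp2 habs hdet hsplit hTW L hLfin hL S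
  refine ⟨r, fun n => ?_⟩
  obtain ⟨qv, hinj, hq, hfrob, hfin, hbound⟩ := hr n
  refine ⟨qv, hinj, hq, hfrob, fun DQ => ?_⟩
  obtain ⟨b, hb⟩ := exists_adapted bbar DQ.residue_surjective DQ.ρ DQ.residual_isEquiv
  obtain ⟨⟨hdet', hflat, hunr⟩, hun⟩ := DQ.isOfType
  refine exists_surjective_of_local DQ hp2 hb hdet' _ (Finset.mem_insert_self _ _)
    (unramified_or_unipotent Smin hmin hunr hun)
    (fun δ hδ => ⟨⟨detIsCyclotomic_baseChange _ hdet',
      isFlatAt_baseChange _ (dualHom_surjective hδ) hflat,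
      fun q hq hqS => isUnramifiedAt_baseChange _ (hunr q hq hqS)⟩,
      fun q h1 h2 h3 => isUnipotentOnInertiaAt_baseChange _ (hun q h1 h2 h3)⟩)
    (fun δ => ?_) hfin hbound
  by_cases hδ : δ = 0
  · rw [hδ, map_zero]
    exact zero_mem _
  obtain ⟨bd, hbd⟩ := exists_basis_adicBaseChange
    (dualHom δ : DQ.R →+* (ResidueField O)[ε]) (isLocalHom_dualHom δ) DQ.ρ b
  refine hloc _ (tanCocycle_mem_Z1 hb hdet' δ)
    ⟨dualRep DQ.ρ δ, bd, isFlatAt_baseChange _ (dualHom_surjective hδ) hflat, fun g => ?_⟩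
  refine (hbd g).trans (Matrix.ext fun i j => ?_)
  rw [coe_tanCocycle, mul_assoc, rbar_inv_mul, mul_one, map_apply, Matrix.add_apply, map_apply,
    map_apply, tanMat, map_apply, ← toRes_entry hb]
  exact TrivSqZeroExt.ext (by simp [fst_dualHom]) (by simp [snd_dualHom])

end Fermat.Agent.TW
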